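import Mathlib
import Fermat.Agent.S19.AddLaw

/-!
# PROJECT N (S33), route H8, slice [N1] (helper7): the truncated addition law over an ABSTRACT
# family of residue discs (branch-free twin of `S19/AddLaw`)

The chart of the nodal frame lives on TWO branches, so the disc-local layer is typed once, in
`FL`-language:

* `UDisc A FL` : a residue disc with a parameter: the ring `O` of functions integral on its branch,
  the predicate `In` (points of the disc), the parameter `T` and its zero `P0`;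
* `UDisc.IsLawful` : the six primitives (constants, regularity of `T`, values in `A`, values of `T`
  in `𝔪_A`, the orders of `T - a` on the disc, the factor lemma);
* `taylor_value`, `exists_factor`, `double_zero`, `simple_zero`, `residual_zero`, `comb_taylor` :
  the local lemmas of `S19/AddLaw`, from the primitives only;
* `Frame A FL g` : two families of `g` discs (chart `dQ`, auxiliary `dR`) and the divisor `E`;
* `FlipR`, `FlipQ` : the two flips, as hypotheses;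
* `congr_of_geom`, `exists_add_congr` : the truncated addition law at actual points.
-/

set_option autoImplicit false
set_option linter.unusedSectionVars false
set_option linter.unusedVariables false

noncomputable section

namespace Fermat.Agent.S33.Nodal.AddLawAbs

open AlgebraicCurve Polynomial
open Fermat.Agent.S18.CoreOrd Fermat.Agent.S24.Ord
open Fermat.Agent.S19.AddLaw Fermat.Agent.S19.TruncAdd Fermat.Agent.S19.DivDiff

variable {L : Type*} [Field L] {FL : Type*} [Field FL] [Algebra L FL] {A : ValuationSubring L}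

/-! ### discs -/

/-- A residue disc with a parameter, in `FL`-language. -/
structure UDisc (A : ValuationSubring L) (FL : Type*) [Field FL] [Algebra L FL] where
  /-- the functions which are integral on the branch of the disc -/
  O : Subring FL
  /-- the points of the disc -/
  In : Place L FL → Prop
  /-- the parameter -/
  T : FL
  /-- the zero of the parameter -/
  P0 : Place L FL

namespace UDisc

variable (D : UDisc A FL)

/-- integral on the branch and regular on the disc -/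
def Reg (y : FL) : Prop := y ∈ D.O ∧ ∀ P : Place L FL, D.In P → P.adicValuation y ≤ 1

/-- the primitives of a disc -/
structure IsLawful : Prop where
  const_mem : ∀ a : A, algebraMap L FL (a : L) ∈ D.O
  T_reg : D.Reg D.T
  hP0 : D.In D.P0
  zero : ValAt D.P0 D.T 0
  exists_valAt : ∀ y : FL, D.Reg y → ∀ P : Place L FL, D.In P → ∃ c : A, ValAt P y (c : L)
  value_mem : ∀ P : Place L FL, D.In P → ∀ c : A, ValAt P D.T (c : L) →
    c ∈ IsLocalRing.maximalIdeal A
  ord_sub : ∀ P : Place L FL, D.In P → ∀ a : A, ValAt P D.T (a : L) →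
    ∀ P' : Place L FL, D.In P' → ∀ [Decidable (P' = P)],
      P'.ord (D.T - algebraMap L FL (a : L)) = if P' = P then 1 else 0
  factor : ∀ y : FL, D.Reg y → ∀ P : Place L FL, D.In P → ∀ a : A, ValAt P D.T (a : L) →
    ValAt P y 0 → ∃ y₁ : FL, D.Reg y₁ ∧ y = (D.T - algebraMap L FL (a : L)) * y₁

variable {D}

theorem Reg.add {y z : FL} (hy : D.Reg y) (hz : D.Reg z) : D.Reg (y + z) :=
  ⟨D.O.add_mem hy.1 hz.1, fun P hP => Valuation.map_add_le _ (hy.2 P hP) (hz.2 P hP)⟩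

theorem Reg.neg {y : FL} (hy : D.Reg y) : D.Reg (-y) :=
  ⟨D.O.neg_mem hy.1, fun P hP => by rw [Valuation.map_neg]; exact hy.2 P hP⟩

theorem Reg.sub {y z : FL} (hy : D.Reg y) (hz : D.Reg z) : D.Reg (y - z) := by
  rw [sub_eq_add_neg]; exact hy.add hz.neg

theorem Reg.mul {y z : FL} (hy : D.Reg y) (hz : D.Reg z) : D.Reg (y * z) :=
  ⟨D.O.mul_mem hy.1 hz.1, fun P hP => by
    rw [map_mul]; exact mul_le_one' (hy.2 P hP) (hz.2 P hP)⟩

theorem reg_zero : D.Reg (0 : FL) :=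
  ⟨D.O.zero_mem, fun P _ => by rw [map_zero]; exact zero_le_one⟩

theorem reg_one : D.Reg (1 : FL) :=
  ⟨D.O.one_mem, fun P _ => by rw [map_one]⟩

theorem Reg.pow {y : FL} (hy : D.Reg y) (n : ℕ) : D.Reg (y ^ n) := by
  induction n with
  | zero => rw [pow_zero]; exact reg_one
  | succ n ih => rw [pow_succ]; exact ih.mul hy

theorem reg_sum {ι : Type*} (s : Finset ι) (y : ι → FL) (h : ∀ i ∈ s, D.Reg (y i)) :
    D.Reg (∑ i ∈ s, y i) := by
  classical
  induction s using Finset.induction_on with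
  | empty => rw [Finset.sum_empty]; exact reg_zero
  | insert i s hi ih =>
    rw [Finset.sum_insert hi]
    exact (h i (Finset.mem_insert_self i s)).add
      (ih fun j hj => h j (Finset.mem_insert_of_mem hj))

theorem IsLawful.reg_const (hD : D.IsLawful) (a : A) : D.Reg (algebraMap L FL (a : L)) :=
  ⟨hD.const_mem a, fun P _ => adicValuation_const_le (a : L)⟩

theorem IsLawful.T_ne_zero (hD : D.IsLawful) : D.T ≠ 0 := by
  classical
  intro h0
  have h := hD.ord_sub D.P0 hD.hP0 0 (by simpa using hD.zero) D.P0 hD.hP0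
  rw [if_pos rfl, h0] at h
  simp at h

theorem IsLawful.ord_T (hD : D.IsLawful) (P : Place L FL) (hP : D.In P) [Decidable (P = D.P0)] :
    P.ord D.T = if P = D.P0 then 1 else 0 := by
  have h := hD.ord_sub D.P0 hD.hP0 0 (by simpa using hD.zero) P hP
  simpa using h

theorem reg_of_ord_nonneg {y : FL} (hy : y ∈ D.O)
    (h : ∀ P : Place L FL, D.In P → 0 ≤ P.ord y) : D.Reg y :=
  ⟨hy, fun P hP => by
    rcases eq_or_ne y 0 with rfl | hy0
    · rw [map_zero]; exact zero_le_one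
    · exact (ord_nonneg_iff P hy0).mp (h P hP)⟩

theorem Reg.ord_nonneg {y : FL} (hy : D.Reg y) (P : Place L FL) (hP : D.In P) : 0 ≤ P.ord y := by
  rcases eq_or_ne y 0 with rfl | hy0
  · rw [Place.ord_zero]
  · exact (ord_nonneg_iff P hy0).mpr (hy.2 P hP)


/-! ### the local lemmas, from the primitives -/

variable (hD : D.IsLawful)
include hD

theorem IsLawful.valAt_aeval_map {P : Place L FL} {a : A} (ha : ValAt P D.T (a : L)) (p : A[X]) :
    ValAt P (Polynomial.aeval D.T (p.map A.subtype)) ((p.eval a : A) : L) := by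
  have h := ha.aeval (p.map A.subtype)
  rwa [eval_map, show p.eval₂ A.subtype (a : L) = ((p.eval a : A) : L) from
    Polynomial.eval₂_at_apply A.subtype a] at h

/-- **Taylor congruence.** -/
theorem IsLawful.taylor_value (p : A[X]) (N : ℕ) (h : FL) (hh : D.Reg h) {y : FL}
    (hy : y = Polynomial.aeval D.T (p.map A.subtype) + D.T ^ N * h)
    (P : Place L FL) (hP : D.In P) {a : A} (ha : ValAt P D.T (a : L)) {b : L}
    (hb : ValAt P y b) :
    ∃ e : A, ValAt P h (e : L) ∧ b = ((p.eval a + a ^ N * e : A) : L) := by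
  obtain ⟨e, he⟩ := hD.exists_valAt h hh P hP
  refine ⟨e, he, ?_⟩
  have h1 : ValAt P y (((p.eval a : A) : L) + (a : L) ^ N * (e : L)) := by
    rw [hy]
    exact (hD.valAt_aeval_map ha p).add ((ha.pow N).mul he)
  rw [hb.unique h1]
  push_cast
  rfl

/-- **Factor lemma**, with the orders of the quotient. -/
theorem IsLawful.exists_factor (y : FL) (hreg : D.Reg y) (P : Place L FL) (hP : D.In P) (a : A)
    (ha : ValAt P D.T (a : L)) (hy0 : ValAt P y 0) :
    ∃ y₁ : FL, D.Reg y₁ ∧ y = (D.T - algebraMap L FL (a : L)) * y₁ ∧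
      (y ≠ 0 → ∀ P' : Place L FL, D.In P' → ∀ [Decidable (P' = P)],
        P'.ord y₁ = P'.ord y - if P' = P then 1 else 0) := by
  obtain ⟨y₁, hy₁, heq⟩ := hD.factor y hreg P hP a ha hy0
  refine ⟨y₁, hy₁, heq, fun hyne P' hP' inst => ?_⟩
  have hne : D.T - algebraMap L FL (a : L) ≠ 0 := by
    intro h0; apply hyne; rw [heq, h0, zero_mul]
  have hy₁ne : y₁ ≠ 0 := by
    intro h0; apply hyne; rw [heq, h0, mul_zero]
  have := hD.ord_sub P hP a ha P' hP'
  rw [heq, Place.ord_mul P' hne hy₁ne, this]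
  ring

open Fermat.Agent.S19.DivDiff in
/-- **Double zero.** -/
theorem IsLawful.double_zero (F : FL) (hF : D.Reg F) (hF0 : F ≠ 0)
    (Ptot : A[X]) (N : ℕ) (H : FL) (hH : D.Reg H)
    (hFT : F = Polynomial.aeval D.T (Ptot.map A.subtype) + D.T ^ N * H)
    (P P' : Place L FL) (hP : D.In P) (hP' : D.In P') (x x' : A)
    (hx : ValAt P D.T (x : L)) (hx' : ValAt P' D.T (x' : L))
    (hordP : 1 ≤ P.ord F)
    (hordP' : (1 : ℤ) + (by classical exact if P' = P then 1 else 0) ≤ P'.ord F)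
    (I : Ideal A) (hxI : x ∈ I) (hx'I : x' ∈ I) :
    Ptot.eval x ∈ I ^ N ∧ dd Ptot x x' ∈ I ^ (N - 1) := by
  classical
  have hF0P : ValAt P F 0 := valAt_zero_of_ord_pos (by omega)
  obtain ⟨e, he, heq⟩ := hD.taylor_value Ptot N H hH hFT P hP hx hF0P
  have heq' : Ptot.eval x + x ^ N * e = 0 := by
    apply Subtype.ext
    rw [← heq]; rfl
  have hPx : Ptot.eval x = -(x ^ N * e) := eq_neg_of_add_eq_zero_left heq'
  refine ⟨?_, ?_⟩
  · rw [hPx]
    exact Ideal.neg_mem_iff _ |>.mpr (Ideal.mul_mem_right _ _ (Ideal.pow_mem_pow hxI N))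
  -- factor `F = (T - x) F₁`
  obtain ⟨F₁, hF₁reg, hF₁, hF₁ord⟩ := hD.exists_factor F hF P hP x hx hF0P
  have hF₁0 : ValAt P' F₁ 0 := by
    apply valAt_zero_of_ord_pos
    rw [hF₁ord hF0 P' hP']
    omega
  -- factor `H - e = (T - x) H₁`
  have hHe : ValAt P (H - algebraMap L FL (e : L)) 0 := by
    simpa using he.sub (valAt_const (e : L))
  have hHereg : D.Reg (H - algebraMap L FL (e : L)) := hH.sub (hD.reg_const e)
  obtain ⟨H₁, hH₁reg, hH₁, -⟩ := hD.exists_factor _ hHereg P hP x hx hHe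
  -- polynomial division
  set Wp : A[X] := Ptot /ₘ (X - C x) with hWp
  have hdiv : Ptot = C (Ptot.eval x) + (X - C x) * Wp := eq_C_add_mul Ptot x
  have hdivT : Polynomial.aeval D.T (Ptot.map A.subtype) =
      algebraMap L FL ((Ptot.eval x : A) : L) +
        (D.T - algebraMap L FL (x : L)) * Polynomial.aeval D.T (Wp.map A.subtype) := by
    conv_lhs => rw [hdiv]
    simp only [Polynomial.map_add, Polynomial.map_mul, Polynomial.map_sub, Polynomial.map_C,
      Polynomial.map_X, map_add, map_mul, map_sub, Polynomial.aeval_C, Polynomial.aeval_X]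
    rfl
  -- the geometric sum
  set G : FL := ∑ t ∈ Finset.range N, D.T ^ t * (algebraMap L FL (x : L)) ^ (N - 1 - t)
    with hG
  have hGeq : G * (D.T - algebraMap L FL (x : L)) =
      D.T ^ N - (algebraMap L FL (x : L)) ^ N := geom_sum₂_mul _ _ N
  have hTx : D.T - algebraMap L FL (x : L) ≠ 0 := by
    intro h0
    apply hF0
    rw [hF₁, h0, zero_mul]
  have hkey : F₁ = Polynomial.aeval D.T (Wp.map A.subtype) + G * H +
      (algebraMap L FL (x : L)) ^ N * H₁ := by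
    apply mul_left_cancel₀ hTx
    rw [← hF₁, hFT, hdivT]
    have hPx' : algebraMap L FL ((Ptot.eval x : A) : L) =
        -((algebraMap L FL (x : L)) ^ N * algebraMap L FL (e : L)) := by
      rw [hPx]; push_cast; simp
    rw [hPx']
    have hHsplit : H = algebraMap L FL (e : L) +
        (D.T - algebraMap L FL (x : L)) * H₁ := by
      rw [← hH₁]; ring
    have hTN : D.T ^ N = (algebraMap L FL (x : L)) ^ N +
        G * (D.T - algebraMap L FL (x : L)) := by rw [hGeq]; ring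
    conv_lhs => rw [hTN]
    conv_lhs => rw [hHsplit]
    conv_rhs => rw [hHsplit]
    ring
  -- evaluate at `P'`
  obtain ⟨e', he'⟩ := hD.exists_valAt H hH P' hP'
  obtain ⟨e'', he''⟩ := hD.exists_valAt H₁ hH₁reg P' hP'
  have hGval : ValAt P' G ((∑ t ∈ Finset.range N, x' ^ t * x ^ (N - 1 - t) : A) : L) := by
    rw [hG]
    push_cast
    refine valAt_sum _ _ _ fun t _ => ?_
    exact (hx'.pow t).mul ((valAt_const (x : L)).pow _)
  have hval : ValAt P' F₁ ((Wp.eval x' + (∑ t ∈ Finset.range N, x' ^ t * x ^ (N - 1 - t)) * e'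
      + x ^ N * e'' : A) : L) := by
    rw [hkey]
    push_cast
    exact ((hD.valAt_aeval_map hx' Wp).add (by simpa using hGval.mul he')).add
      (((valAt_const (x : L)).pow N).mul he'')
  have hzero := hF₁0.unique hval
  have hzero' : Wp.eval x' + (∑ t ∈ Finset.range N, x' ^ t * x ^ (N - 1 - t)) * e' + x ^ N * e'' = 0 := by
    apply Subtype.ext
    rw [← hzero]; rfl
  have hdd : dd Ptot x x' = -((∑ t ∈ Finset.range N, x' ^ t * x ^ (N - 1 - t)) * e' + x ^ N * e'') := by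
    have : dd Ptot x x' = Wp.eval x' := rfl
    rw [this]
    linear_combination hzero'
  rw [hdd]
  refine (Ideal.neg_mem_iff _).mpr (Ideal.add_mem _ (Ideal.mul_mem_right _ _ ?_)
    (Ideal.mul_mem_right _ _ ?_))
  · refine Ideal.sum_mem _ fun t ht => ?_
    have ht' : t < N := Finset.mem_range.mp ht
    have : I ^ (N - 1) = I ^ t * I ^ (N - 1 - t) := by
      rw [← pow_add]; congr 1; omega
    rw [this]
    exact Ideal.mul_mem_mul (Ideal.pow_mem_pow hx'I t) (Ideal.pow_mem_pow hxI _)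
  · exact Ideal.pow_le_pow_right (Nat.sub_le N 1) (Ideal.pow_mem_pow hxI N)

/-- **Simple zero.** -/
theorem IsLawful.simple_zero (F : FL) (Ptot : A[X]) (N : ℕ) (H : FL) (hH : D.Reg H)
    (hFT : F = Polynomial.aeval D.T (Ptot.map A.subtype) + D.T ^ N * H)
    (P : Place L FL) (hP : D.In P) (x : A) (hx : ValAt P D.T (x : L))
    (hF0P : ValAt P F 0) (I : Ideal A) (hxI : x ∈ I) : Ptot.eval x ∈ I ^ N := by
  obtain ⟨e, he, heq⟩ := hD.taylor_value Ptot N H hH hFT P hP hx hF0P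
  have heq' : Ptot.eval x + x ^ N * e = 0 := by
    apply Subtype.ext
    rw [← heq]; rfl
  rw [eq_neg_of_add_eq_zero_left heq']
  exact Ideal.neg_mem_iff _ |>.mpr (Ideal.mul_mem_right _ _ (Ideal.pow_mem_pow hxI N))

/-- **Residual zero.** -/
theorem IsLawful.residual_zero (F : FL) (hF : D.Reg F) (hF0 : F ≠ 0)
    (Ptot : A[X]) (N : ℕ) (hN : 1 ≤ N) (H : FL) (hH : D.Reg H)
    (hFT : F = Polynomial.aeval D.T (Ptot.map A.subtype) + D.T ^ N * H)
    (P'' : Place L FL) (hP'' : D.In P'') (x'' : A) (hx'' : ValAt P'' D.T (x'' : L))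
    (hordP0 : 1 ≤ D.P0.ord F)
    (hordP'' : (1 : ℤ) + (by classical exact if P'' = D.P0 then 1 else 0) ≤ P''.ord F)
    (I : Ideal A) (hxI : x'' ∈ I) :
    Ptot.coeff 0 = 0 ∧ Ptot.divX.eval x'' ∈ I ^ (N - 1) := by
  classical
  have hT0' : ValAt D.P0 D.T ((0 : A) : L) := by simpa using hD.zero
  have hF0P : ValAt D.P0 F 0 := valAt_zero_of_ord_pos (by omega)
  have hc0 : Ptot.coeff 0 = 0 := by
    obtain ⟨e, he, heq⟩ := hD.taylor_value Ptot N H hH hFT D.P0 hD.hP0 hT0' hF0P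
    have heq' : Ptot.eval 0 + 0 ^ N * e = 0 := by
      apply Subtype.ext
      rw [← heq]; rfl
    rw [zero_pow (by omega), zero_mul, add_zero] at heq'
    rw [Polynomial.coeff_zero_eq_eval_zero]; exact heq'
  refine ⟨hc0, ?_⟩
  obtain ⟨F₁, hF₁reg, hF₁, hF₁ord⟩ := hD.exists_factor F hF D.P0 hD.hP0 0 hT0' hF0P
  have hF₁' : F = D.T * F₁ := by
    rw [hF₁]; simp
  have hF₁0 : ValAt P'' F₁ 0 := by
    apply valAt_zero_of_ord_pos
    rw [hF₁ord hF0 P'' hP'']
    omega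
  have hTne : D.T ≠ 0 := hD.T_ne_zero
  have hPX : Ptot = X * Ptot.divX := by
    conv_lhs => rw [← Polynomial.divX_mul_X_add Ptot, hc0]
    simp [mul_comm]
  have hkey : F₁ = Polynomial.aeval D.T (Ptot.divX.map A.subtype) + D.T ^ (N - 1) * H := by
    apply mul_left_cancel₀ hTne
    rw [← hF₁', hFT]
    conv_lhs => rw [hPX]
    have hN' : N = (N - 1) + 1 := by omega
    conv_lhs => rw [hN']
    simp only [Polynomial.map_mul, Polynomial.map_X, map_mul, Polynomial.aeval_X]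
    ring
  exact hD.simple_zero F₁ Ptot.divX (N - 1) H hH hkey P'' hP'' x'' hx'' hF₁0 I hxI

/-- If `m = Z0(T)` and `φ_a m = p_a(T) + T^N h_a`, then
`(1 + ∑ ξ_a φ_a) m = (Z0 + ∑ ξ_a p_a)(T) + T^N (∑ ξ_a h_a)`. -/
theorem IsLawful.comb_taylor {ι : Type*} [Fintype ι] (m : FL) (Z0 : A[X])
    (hZ0 : m = Polynomial.aeval D.T (Z0.map A.subtype)) (φ : ι → FL) (pA : ι → A[X]) (N : ℕ)
    (h : ι → FL) (hh : ∀ a, D.Reg (h a))
    (hφ : ∀ a, φ a * m = Polynomial.aeval D.T ((pA a).map A.subtype) + D.T ^ N * h a)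
    (ξ : ι → A) :
    D.Reg (∑ a, algebraMap L FL (ξ a : L) * h a) ∧
    (1 + ∑ a, algebraMap L FL (ξ a : L) * φ a) * m =
      Polynomial.aeval D.T ((Z0 + ∑ a, C (ξ a) * pA a).map A.subtype) +
        D.T ^ N * (∑ a, algebraMap L FL (ξ a : L) * h a) := by
  refine ⟨reg_sum _ _ fun a _ => (hD.reg_const (ξ a)).mul (hh a), ?_⟩
  rw [add_mul, one_mul, Finset.sum_mul]
  simp only [Polynomial.map_add, Polynomial.map_sum, Polynomial.map_mul, Polynomial.map_C,
    map_add, map_sum, map_mul, Polynomial.aeval_C]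
  rw [← hZ0, Finset.mul_sum, add_assoc, ← Finset.sum_add_distrib]
  congr 1
  refine Finset.sum_congr rfl fun a _ => ?_
  rw [mul_assoc, hφ a]
  simp only [ValuationSubring.subtype_apply]
  have : algebraMap L FL ((ξ a : A) : L) = algebraMap L FL (ξ a : L) := rfl
  ring

omit hD

end UDisc

/-! ### the frame: two families of discs -/

/-- The chart family `dQ`, the auxiliary family `dR` and the divisor `E = ∑ Rp + 2 ∑ Q`. -/
structure Frame (A : ValuationSubring L) (FL : Type*) [Field FL] [Algebra L FL] (g : ℕ) where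
  /-- the discs of the chart -/
  dQ : Fin g → UDisc A FL
  /-- the discs of the auxiliary rigid family -/
  dR : Fin g → UDisc A FL
  /-- the divisor `E` -/
  E : Divisor L FL

namespace Frame

variable {g : ℕ} (F : Frame A FL g)

/-- the laws of a frame -/
structure IsLawful : Prop where
  lawQ : ∀ i, (F.dQ i).IsLawful
  lawR : ∀ j, (F.dR j).IsLawful
  disjQQ : ∀ (i i' : Fin g) (P : Place L FL), (F.dQ i).In P → (F.dQ i').In P → i = i'
  disjRR : ∀ (j j' : Fin g) (P : Place L FL), (F.dR j).In P → (F.dR j').In P → j = j'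
  disjQR : ∀ (i j : Fin g) (P : Place L FL), (F.dQ i).In P → (F.dR j).In P → False
  E_Q : ∀ (i : Fin g) (P : Place L FL), (F.dQ i).In P → ∀ [Decidable (P = (F.dQ i).P0)],
    F.E P = if P = (F.dQ i).P0 then 2 else 0
  E_R : ∀ (j : Fin g) (P : Place L FL), (F.dR j).In P → ∀ [Decidable (P = (F.dR j).P0)],
    F.E P = if P = (F.dR j).P0 then 1 else 0

/-- the basis functions are integral on every branch which carries a disc -/
def BasisInt (φ : Idx g → FL) : Prop :=
  (∀ a i, φ a ∈ (F.dQ i).O) ∧ ∀ a j, φ a ∈ (F.dR j).O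

/-- **first flip** (hypothesis): `w1 ∈ L(E - P - P')`, normalised, with residual divisor `∑ S`,
`S j` in the disc `dR j`. -/
def FlipR (φ : Idx g → FL) : Prop :=
  ∀ P P' : Fin g → Place L FL, (∀ i, (F.dQ i).In (P i)) → (∀ i, (F.dQ i).In (P' i)) →
    ∃ (w : FL) (ξ : Idx g → A) (S : Fin g → Place L FL), w ≠ 0 ∧
      w = 1 + ∑ a, algebraMap L FL (ξ a : L) * φ a ∧ (∀ j, (F.dR j).In (S j)) ∧
      ∀ P₀ : Place L FL, (∑ j, Finsupp.single (S j) (1 : ℤ)) P₀ =
        P₀.ord w + F.E P₀ -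
          ((∑ i, Finsupp.single (P i) (1 : ℤ)) + ∑ i, Finsupp.single (P' i) (1 : ℤ)) P₀

/-- **second flip** (hypothesis): `w2 ∈ L(E - S - Q)`, normalised, with residual divisor
`∑ P''`, `P'' i` in the disc `dQ i`. -/
def FlipQ (φ : Idx g → FL) : Prop :=
  ∀ S : Fin g → Place L FL, (∀ j, (F.dR j).In (S j)) →
    ∃ (w : FL) (η : Idx g → A) (P'' : Fin g → Place L FL), w ≠ 0 ∧
      w = 1 + ∑ a, algebraMap L FL (η a : L) * φ a ∧ (∀ i, (F.dQ i).In (P'' i)) ∧
      ∀ P₀ : Place L FL, (∑ i, Finsupp.single (P'' i) (1 : ℤ)) P₀ =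
        P₀.ord w + F.E P₀ -
          ((∑ j, Finsupp.single (S j) (1 : ℤ)) + ∑ i, Finsupp.single ((F.dQ i).P0) (1 : ℤ)) P₀

variable {F}

/-! ### sums of points, one in each disc -/

theorem sum_single_disc (In : Fin g → Place L FL → Prop)
    (hdisj : ∀ (i i' : Fin g) (P : Place L FL), In i P → In i' P → i = i')
    (Ps : Fin g → Place L FL) (hPs : ∀ i, In i (Ps i)) (i : Fin g) (P₀ : Place L FL)
    (hP₀ : In i P₀) [Decidable (P₀ = Ps i)] :
    (∑ j, Finsupp.single (Ps j) (1 : ℤ)) P₀ = if P₀ = Ps i then 1 else 0 := by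
  classical
  rw [Finsupp.finsetSum_apply, Finset.sum_eq_single i]
  · rw [Finsupp.single_apply]
    by_cases h : P₀ = Ps i
    · rw [if_pos h, if_pos h.symm]
    · rw [if_neg h, if_neg (fun h' => h h'.symm)]
  · intro j _ hji
    rw [Finsupp.single_apply, if_neg]
    intro h
    exact hji (hdisj j i P₀ (h ▸ hPs j) hP₀)
  · intro h; exact absurd (Finset.mem_univ i) h

theorem sum_single_other (In : Fin g → Place L FL → Prop) (Ps : Fin g → Place L FL)
    (hPs : ∀ j, In j (Ps j)) (P₀ : Place L FL) (h : ∀ j, ¬ In j P₀) :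
    (∑ j, Finsupp.single (Ps j) (1 : ℤ)) P₀ = 0 := by
  classical
  rw [Finsupp.finsetSum_apply]
  refine Finset.sum_eq_zero fun j _ => ?_
  rw [Finsupp.single_apply, if_neg]
  intro h'
  exact h j (h' ▸ hPs j)

/-! ### local orders -/

variable (hF : F.IsLawful)
include hF

theorem mem_O_Q {φ : Idx g → FL} (hφ : F.BasisInt φ) (ξ : Idx g → A) (i : Fin g) :
    1 + ∑ a, algebraMap L FL (ξ a : L) * φ a ∈ (F.dQ i).O :=
  (F.dQ i).O.add_mem (F.dQ i).O.one_mem
    ((F.dQ i).O.sum_mem fun a _ => (F.dQ i).O.mul_mem ((hF.lawQ i).const_mem (ξ a)) (hφ.1 a i))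

theorem mem_O_R {φ : Idx g → FL} (hφ : F.BasisInt φ) (ξ : Idx g → A) (j : Fin g) :
    1 + ∑ a, algebraMap L FL (ξ a : L) * φ a ∈ (F.dR j).O :=
  (F.dR j).O.add_mem (F.dR j).O.one_mem
    ((F.dR j).O.sum_mem fun a _ => (F.dR j).O.mul_mem ((hF.lawR j).const_mem (ξ a)) (hφ.2 a j))

/-- orders of `w * T_i^2` on the disc `dQ i`, from the residual divisor equation -/
theorem ord_mul_T_sq (w : FL) (hw0 : w ≠ 0) (Z M : Divisor L FL)
    (hZ : ∀ P₀ : Place L FL, Z P₀ = P₀.ord w + F.E P₀ - M P₀)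
    (i : Fin g) (P₀ : Place L FL) (hP₀ : (F.dQ i).In P₀) [Decidable (P₀ = (F.dQ i).P0)] :
    P₀.ord (w * (F.dQ i).T ^ 2) =
      Z P₀ + M P₀ - (if P₀ = (F.dQ i).P0 then 2 else 0) +
        2 * (if P₀ = (F.dQ i).P0 then 1 else 0) := by
  have hT0 : (F.dQ i).T ≠ 0 := (hF.lawQ i).T_ne_zero
  rw [Place.ord_mul P₀ hw0 (pow_ne_zero 2 hT0), ord_pow, (hF.lawQ i).ord_T P₀ hP₀]
  have h1 := hZ P₀
  rw [hF.E_Q i P₀ hP₀] at h1
  push_cast
  omega

/-- orders of `w * v_j` on the disc `dR j`, from the residual divisor equation -/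
theorem ord_mul_v (w : FL) (hw0 : w ≠ 0) (Z M : Divisor L FL)
    (hZ : ∀ P₀ : Place L FL, Z P₀ = P₀.ord w + F.E P₀ - M P₀)
    (j : Fin g) (P₀ : Place L FL) (hP₀ : (F.dR j).In P₀) [Decidable (P₀ = (F.dR j).P0)] :
    P₀.ord (w * (F.dR j).T) =
      Z P₀ + M P₀ - (if P₀ = (F.dR j).P0 then 1 else 0) +
        (if P₀ = (F.dR j).P0 then 1 else 0) := by
  have hv0 : (F.dR j).T ≠ 0 := (hF.lawR j).T_ne_zero
  rw [Place.ord_mul P₀ hw0 hv0, (hF.lawR j).ord_T P₀ hP₀]
  have h1 := hZ P₀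
  rw [hF.E_R j P₀ hP₀] at h1
  omega

/-- `ord (w T_i^2) = [P₀ = U i] + [P₀ = U' i]` on the disc `dQ i`, when the residual divisor
lives in the discs `dR` and `M = ∑ U + ∑ U'` with `U`, `U'` in the discs `dQ`. -/
theorem ord_F_disc (w : FL) (hw0 : w ≠ 0) (Sp U U' : Fin g → Place L FL)
    (hSp : ∀ j, (F.dR j).In (Sp j))
    (hU : ∀ i, (F.dQ i).In (U i)) (hU' : ∀ i, (F.dQ i).In (U' i))
    (hZ : ∀ P₀ : Place L FL, (∑ j, Finsupp.single (Sp j) (1 : ℤ)) P₀ =
      P₀.ord w + F.E P₀ -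
        ((∑ i, Finsupp.single (U i) (1 : ℤ)) + ∑ i, Finsupp.single (U' i) (1 : ℤ)) P₀)
    (i : Fin g) (P₀ : Place L FL) (hP₀ : (F.dQ i).In P₀) :
    P₀.ord (w * (F.dQ i).T ^ 2) =
      (by classical exact if P₀ = U i then 1 else 0) +
        (by classical exact if P₀ = U' i then 1 else 0) := by
  classical
  rw [ord_mul_T_sq hF w hw0 _ _ hZ i P₀ hP₀, Finsupp.add_apply,
    sum_single_disc (fun i => (F.dQ i).In) hF.disjQQ U hU i P₀ hP₀,
    sum_single_disc (fun i => (F.dQ i).In) hF.disjQQ U' hU' i P₀ hP₀,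
    sum_single_other (fun j => (F.dR j).In) Sp hSp P₀ (fun j h => hF.disjQR i j P₀ hP₀ h)]
  split_ifs <;> omega

/-- the same when the residual divisor `∑ V` lives in the discs `dQ` and `M = ∑ Sp + ∑ U`,
`Sp` in the discs `dR`. -/
theorem ord_F_disc' (w : FL) (hw0 : w ≠ 0) (Sp U V : Fin g → Place L FL)
    (hSp : ∀ j, (F.dR j).In (Sp j))
    (hU : ∀ i, (F.dQ i).In (U i)) (hV : ∀ i, (F.dQ i).In (V i))
    (hZ : ∀ P₀ : Place L FL, (∑ i, Finsupp.single (V i) (1 : ℤ)) P₀ =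
      P₀.ord w + F.E P₀ -
        ((∑ j, Finsupp.single (Sp j) (1 : ℤ)) + ∑ i, Finsupp.single (U i) (1 : ℤ)) P₀)
    (i : Fin g) (P₀ : Place L FL) (hP₀ : (F.dQ i).In P₀) :
    P₀.ord (w * (F.dQ i).T ^ 2) =
      (by classical exact if P₀ = V i then 1 else 0) +
        (by classical exact if P₀ = U i then 1 else 0) := by
  classical
  rw [ord_mul_T_sq hF w hw0 _ _ hZ i P₀ hP₀, Finsupp.add_apply,
    sum_single_disc (fun i => (F.dQ i).In) hF.disjQQ V hV i P₀ hP₀,
    sum_single_disc (fun i => (F.dQ i).In) hF.disjQQ U hU i P₀ hP₀,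
    sum_single_other (fun j => (F.dR j).In) Sp hSp P₀ (fun j h => hF.disjQR i j P₀ hP₀ h)]
  split_ifs <;> omega

/-- `ord (w v_j) = [P₀ = Sp j]` on the disc `dR j` (first flip). -/
theorem ord_G_disc (w : FL) (hw0 : w ≠ 0) (Sp U U' : Fin g → Place L FL)
    (hSp : ∀ j, (F.dR j).In (Sp j))
    (hU : ∀ i, (F.dQ i).In (U i)) (hU' : ∀ i, (F.dQ i).In (U' i))
    (hZ : ∀ P₀ : Place L FL, (∑ j, Finsupp.single (Sp j) (1 : ℤ)) P₀ =
      P₀.ord w + F.E P₀ -
        ((∑ i, Finsupp.single (U i) (1 : ℤ)) + ∑ i, Finsupp.single (U' i) (1 : ℤ)) P₀)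
    (j : Fin g) (P₀ : Place L FL) (hP₀ : (F.dR j).In P₀) :
    P₀.ord (w * (F.dR j).T) = (by classical exact if P₀ = Sp j then 1 else 0) := by
  classical
  rw [ord_mul_v hF w hw0 _ _ hZ j P₀ hP₀, Finsupp.add_apply,
    sum_single_disc (fun j => (F.dR j).In) hF.disjRR Sp hSp j P₀ hP₀,
    sum_single_other (fun i => (F.dQ i).In) U hU P₀ (fun i h => hF.disjQR i j P₀ h hP₀),
    sum_single_other (fun i => (F.dQ i).In) U' hU' P₀ (fun i h => hF.disjQR i j P₀ h hP₀)]
  split_ifs <;> omega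

/-- `ord (w v_j) = [P₀ = Sp j]` on the disc `dR j` (second flip). -/
theorem ord_G_disc' (w : FL) (hw0 : w ≠ 0) (Sp U V : Fin g → Place L FL)
    (hSp : ∀ j, (F.dR j).In (Sp j))
    (hU : ∀ i, (F.dQ i).In (U i)) (hV : ∀ i, (F.dQ i).In (V i))
    (hZ : ∀ P₀ : Place L FL, (∑ i, Finsupp.single (V i) (1 : ℤ)) P₀ =
      P₀.ord w + F.E P₀ -
        ((∑ j, Finsupp.single (Sp j) (1 : ℤ)) + ∑ i, Finsupp.single (U i) (1 : ℤ)) P₀)
    (j : Fin g) (P₀ : Place L FL) (hP₀ : (F.dR j).In P₀) :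
    P₀.ord (w * (F.dR j).T) = (by classical exact if P₀ = Sp j then 1 else 0) := by
  classical
  rw [ord_mul_v hF w hw0 _ _ hZ j P₀ hP₀, Finsupp.add_apply,
    sum_single_disc (fun j => (F.dR j).In) hF.disjRR Sp hSp j P₀ hP₀,
    sum_single_other (fun i => (F.dQ i).In) U hU P₀ (fun i h => hF.disjQR i j P₀ h hP₀),
    sum_single_other (fun i => (F.dQ i).In) V hV P₀ (fun i h => hF.disjQR i j P₀ h hP₀)]
  split_ifs <;> omega

omit hF

/-! ### the main theorem -/

universe uS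

/-- `D` consists of Taylor polynomials of order `N` of `φ_a T_i^2` on the disc `dQ i` and of
`φ_a v_j` on the disc `dR j`. -/
def TaylorAt (F : Frame A FL g) (φ : Idx g → FL) {S : Type uS} [CommRing S] [Algebra S A]
    (D : TaylorData S g) (N : ℕ) : Prop :=
  (∀ a i, ∃ h : FL, (F.dQ i).Reg h ∧
    φ a * (F.dQ i).T ^ 2 =
      Polynomial.aeval (F.dQ i).T (((D.p a i).map (algebraMap S A)).map A.subtype) +
        (F.dQ i).T ^ N * h) ∧
  (∀ a j, ∃ h : FL, (F.dR j).Reg h ∧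
    φ a * (F.dR j).T =
      Polynomial.aeval (F.dR j).T (((D.q a j).map (algebraMap S A)).map A.subtype) +
        (F.dR j).T ^ N * h)

include hF in
/-- the congruence, from the geometric data of the two flips -/
theorem congr_of_geom (φ : Idx g → FL) (hφ : F.BasisInt φ)
    (P P' : Fin g → Place L FL) (hP : ∀ i, (F.dQ i).In (P i)) (hP' : ∀ i, (F.dQ i).In (P' i))
    (x x' : Fin g → A) (hx : ∀ i, ValAt (P i) (F.dQ i).T (x i : L))
    (hx' : ∀ i, ValAt (P' i) (F.dQ i).T (x' i : L))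
    (w1 w2 : FL) (hw10 : w1 ≠ 0) (hw20 : w2 ≠ 0) (ξ η : Idx g → A) (Sp P'' : Fin g → Place L FL)
    (hw1 : w1 = 1 + ∑ a, algebraMap L FL (ξ a : L) * φ a)
    (hw2 : w2 = 1 + ∑ a, algebraMap L FL (η a : L) * φ a)
    (hS : ∀ j, (F.dR j).In (Sp j)) (hP'' : ∀ i, (F.dQ i).In (P'' i))
    (hZ1 : ∀ P₀ : Place L FL, (∑ j, Finsupp.single (Sp j) (1 : ℤ)) P₀ =
        P₀.ord w1 + F.E P₀ -
          ((∑ i, Finsupp.single (P i) (1 : ℤ)) + ∑ i, Finsupp.single (P' i) (1 : ℤ)) P₀)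
    (hZ2 : ∀ P₀ : Place L FL, (∑ i, Finsupp.single (P'' i) (1 : ℤ)) P₀ =
        P₀.ord w2 + F.E P₀ -
          ((∑ j, Finsupp.single (Sp j) (1 : ℤ)) +
            ∑ i, Finsupp.single ((F.dQ i).P0) (1 : ℤ)) P₀)
    (ρ x'' : Fin g → A) (hρ : ∀ j, ValAt (Sp j) (F.dR j).T (ρ j : L))
    (hx'' : ∀ i, ValAt (P'' i) (F.dQ i).T (x'' i : L))
    (c : A) (hxc : ∀ i, x i ∈ Ideal.span {c}) (hx'c : ∀ i, x' i ∈ Ideal.span {c})
    (hρc : ∀ j, ρ j ∈ Ideal.span {c}) (hx''c : ∀ i, x'' i ∈ Ideal.span {c})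
    {S : Type uS} [CommRing S] [Algebra S A] (D : TaylorData S g) (n : ℕ)
    (hD : TaylorAt F φ D (n + 1)) (i : Fin g) :
    x'' i - MvPolynomial.aeval (Sum.elim x x') (Psi D n i) ∈ Ideal.span {c} ^ n := by
  classical
  obtain ⟨hTay, hTayv⟩ := hD
  choose hT_ hTreg hTeq using hTay
  choose hV_ hVreg hVeq using hTayv
  set I : Ideal A := Ideal.span {c} with hI
  have hle : I ^ (n + 1) ≤ I ^ n := Ideal.pow_le_pow_right (Nat.le_succ n)
  -- Taylor expansions of the four functions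
  have hT2 : ∀ i, (F.dQ i).T ^ 2 =
      Polynomial.aeval (F.dQ i).T ((X ^ 2 : A[X]).map A.subtype) := fun i => by simp
  have hV1 : ∀ j, (F.dR j).T =
      Polynomial.aeval (F.dR j).T ((X : A[X]).map A.subtype) := fun j => by simp
  have hFne : ∀ (w : FL) (_ : w ≠ 0) (i : Fin g), w * (F.dQ i).T ^ 2 ≠ 0 := fun w hw i =>
    mul_ne_zero hw (pow_ne_zero 2 (hF.lawQ i).T_ne_zero)
  have hQ0 : ∀ i, (F.dQ i).In ((F.dQ i).P0) := fun i => (hF.lawQ i).hP0
  have hw1O : ∀ i, w1 ∈ (F.dQ i).O := fun i => hw1 ▸ mem_O_Q hF hφ ξ i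
  have hw2O : ∀ i, w2 ∈ (F.dQ i).O := fun i => hw2 ▸ mem_O_Q hF hφ η i
  refine approx D n (I ^ n) x x' (fun i => mem_radical_pow_of_mem_span (hxc i) n)
    (fun i => mem_radical_pow_of_mem_span (hx'c i) n) ?_ ξ η ρ x''
    (fun j => mem_radical_pow_of_mem_span (hρc j) n)
    (fun i => mem_radical_pow_of_mem_span (hx''c i) n) ?_ ?_ ?_ ?_ i
  · -- `(x, x')^n ≤ I^n`
    refine Ideal.pow_right_mono (Ideal.span_le.mpr ?_) n
    rintro _ ⟨(i | i), rfl⟩
    · exact hxc i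
    · exact hx'c i
  · -- step 1
    intro row
    have key : ∀ i : Fin g,
        ((X ^ 2 + ∑ a, C (ξ a) * ((D.p a i).map (algebraMap S A)) : A[X])).eval (x i) ∈ I ^ (n + 1) ∧
        dd ((X ^ 2 + ∑ a, C (ξ a) * ((D.p a i).map (algebraMap S A)) : A[X])) (x i) (x' i) ∈
          I ^ (n + 1 - 1) := by
      intro i
      obtain ⟨hHreg, hFT⟩ := (hF.lawQ i).comb_taylor ((F.dQ i).T ^ 2) (X ^ 2) (hT2 i) φ
        (fun a => (D.p a i).map (algebraMap S A)) (n + 1) (fun a => hT_ a i)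
        (fun a => hTreg a i) (fun a => hTeq a i) ξ
      rw [← hw1] at hFT
      have hord := ord_F_disc hF w1 hw10 Sp P P' hS hP hP' hZ1 i
      have hFreg : (F.dQ i).Reg (w1 * (F.dQ i).T ^ 2) :=
        UDisc.reg_of_ord_nonneg ((F.dQ i).O.mul_mem (hw1O i)
          ((F.dQ i).O.pow_mem (hF.lawQ i).T_reg.1 2)) fun P₀ hP₀ => by
          rw [hord P₀ hP₀]; split_ifs <;> omega
      refine (hF.lawQ i).double_zero _ hFreg (hFne w1 hw10 i) _ (n + 1) _ hHreg
        hFT (P i) (P' i) (hP i) (hP' i) (x i) (x' i) (hx i) (hx' i) ?_ ?_ I (hxc i) (hx'c i)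
      · rw [hord (P i) (hP i), if_pos rfl]; split_ifs <;> omega
      · rw [hord (P' i) (hP' i), if_pos rfl]; split_ifs <;> omega
    rcases row with i | i
    · rw [N1_row_inl]; exact hle (key i).1
    · rw [N1_row_inr]; exact (key i).2
  · -- step 2
    intro j
    rw [eq2_eq]
    obtain ⟨hHreg, hFT⟩ := (hF.lawR j).comb_taylor ((F.dR j).T) X (hV1 j) φ
      (fun a => (D.q a j).map (algebraMap S A)) (n + 1) (fun a => hV_ a j)
      (fun a => hVreg a j) (fun a => hVeq a j) ξ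
    rw [← hw1] at hFT
    have hord := ord_G_disc hF w1 hw10 Sp P P' hS hP hP' hZ1 j
    refine hle ((hF.lawR j).simple_zero _ _ (n + 1) _ hHreg hFT (Sp j) (hS j) (ρ j)
      (hρ j) (valAt_zero_of_ord_pos ?_) I (hρc j))
    rw [hord (Sp j) (hS j), if_pos rfl]; exact one_pos
  · -- step 3
    intro row
    rcases row with j | i
    · rw [N2_row_inl]
      obtain ⟨hHreg, hFT⟩ := (hF.lawR j).comb_taylor ((F.dR j).T) X (hV1 j) φ
        (fun a => (D.q a j).map (algebraMap S A)) (n + 1) (fun a => hV_ a j)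
        (fun a => hVreg a j) (fun a => hVeq a j) η
      rw [← hw2] at hFT
      have hord := ord_G_disc' hF w2 hw20 Sp (fun i => (F.dQ i).P0) P'' hS hQ0 hP'' hZ2 j
      refine hle ((hF.lawR j).simple_zero _ _ (n + 1) _ hHreg hFT (Sp j) (hS j) (ρ j)
        (hρ j) (valAt_zero_of_ord_pos ?_) I (hρc j))
      rw [hord (Sp j) (hS j), if_pos rfl]; exact one_pos
    · rw [N2_row_inr]
      obtain ⟨hHreg, hFT⟩ := (hF.lawQ i).comb_taylor ((F.dQ i).T ^ 2) (X ^ 2) (hT2 i) φ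
        (fun a => (D.p a i).map (algebraMap S A)) (n + 1) (fun a => hT_ a i)
        (fun a => hTreg a i) (fun a => hTeq a i) η
      rw [← hw2] at hFT
      have hord := ord_F_disc' hF w2 hw20 Sp (fun i => (F.dQ i).P0) P'' hS hQ0 hP'' hZ2 i
      have hFreg : (F.dQ i).Reg (w2 * (F.dQ i).T ^ 2) :=
        UDisc.reg_of_ord_nonneg ((F.dQ i).O.mul_mem (hw2O i)
          ((F.dQ i).O.pow_mem (hF.lawQ i).T_reg.1 2)) fun P₀ hP₀ => by
          rw [hord P₀ hP₀]; split_ifs <;> omega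
      have := ((hF.lawQ i).residual_zero _ hFreg (hFne w2 hw20 i) _ (n + 1)
        (Nat.succ_le_succ (Nat.zero_le n)) _ hHreg hFT (P'' i) (hP'' i) (x'' i) (hx'' i)
        (by rw [hord ((F.dQ i).P0) (hQ0 i), if_pos rfl]; split_ifs <;> omega)
        (by rw [hord (P'' i) (hP'' i), if_pos rfl]) I (hx''c i)).1
      rw [this]
      exact Ideal.zero_mem _
  · -- step 4
    intro i
    rw [eq4_eq]
    obtain ⟨hHreg, hFT⟩ := (hF.lawQ i).comb_taylor ((F.dQ i).T ^ 2) (X ^ 2) (hT2 i) φ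
      (fun a => (D.p a i).map (algebraMap S A)) (n + 1) (fun a => hT_ a i)
      (fun a => hTreg a i) (fun a => hTeq a i) η
    rw [← hw2] at hFT
    have hord := ord_F_disc' hF w2 hw20 Sp (fun i => (F.dQ i).P0) P'' hS hQ0 hP'' hZ2 i
    have hFreg : (F.dQ i).Reg (w2 * (F.dQ i).T ^ 2) :=
      UDisc.reg_of_ord_nonneg ((F.dQ i).O.mul_mem (hw2O i)
        ((F.dQ i).O.pow_mem (hF.lawQ i).T_reg.1 2)) fun P₀ hP₀ => by
        rw [hord P₀ hP₀]; split_ifs <;> omega
    exact ((hF.lawQ i).residual_zero _ hFreg (hFne w2 hw20 i) _ (n + 1)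
      (Nat.succ_le_succ (Nat.zero_le n)) _ hHreg hFT (P'' i) (hP'' i) (x'' i) (hx'' i)
      (by rw [hord ((F.dQ i).P0) (hQ0 i), if_pos rfl]; split_ifs <;> omega)
      (by rw [hord (P'' i) (hP'' i), if_pos rfl]) I (hx''c i)).2

include hF in
/-- **The truncated addition law at actual points** (abstract frame). -/
theorem exists_add_congr (φ : Idx g → FL) (hφ : F.BasisInt φ)
    (hflipR : F.FlipR φ) (hflipQ : F.FlipQ φ)
    (P P' : Fin g → Place L FL) (hP : ∀ i, (F.dQ i).In (P i)) (hP' : ∀ i, (F.dQ i).In (P' i))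
    (x x' : Fin g → A) (hx : ∀ i, ValAt (P i) (F.dQ i).T (x i : L))
    (hx' : ∀ i, ValAt (P' i) (F.dQ i).T (x' i : L)) :
    ∃ (P'' : Fin g → Place L FL) (x'' : Fin g → A) (c : A),
      c ∈ IsLocalRing.maximalIdeal A ∧ (∀ i, (F.dQ i).In (P'' i)) ∧
      (∀ i, ValAt (P'' i) (F.dQ i).T (x'' i : L)) ∧
      (∀ i, x i ∈ Ideal.span {c} ∧ x' i ∈ Ideal.span {c} ∧ x'' i ∈ Ideal.span {c}) ∧
      ((∑ i, Finsupp.single (P'' i) (1 : ℤ)) + (∑ i, Finsupp.single ((F.dQ i).P0) (1 : ℤ)) -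
          (∑ i, Finsupp.single (P i) (1 : ℤ)) - (∑ i, Finsupp.single (P' i) (1 : ℤ)) ∈
        Divisor.principal (K := L) (F := FL)) ∧
      ∀ {S : Type uS} [CommRing S] [Algebra S A] (D : ℕ → TaylorData S g)
        (_ : ∀ N, TaylorAt F φ (D N) N) (n : ℕ) (i : Fin g),
        x'' i - MvPolynomial.aeval (Sum.elim x x') (Psi (D (n + 1)) n i) ∈ Ideal.span {c} ^ n := by
  classical
  obtain ⟨w1, ξ, Sp, hw10, hw1, hS, hZ1⟩ := hflipR P P' hP hP'
  obtain ⟨w2, η, P'', hw20, hw2, hP'', hZ2⟩ := hflipQ Sp hS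
  -- the coordinates of the residual points
  have hρex : ∀ j, ∃ ρ : A, ValAt (Sp j) (F.dR j).T (ρ : L) := fun j =>
    (hF.lawR j).exists_valAt _ (hF.lawR j).T_reg (Sp j) (hS j)
  choose ρ hρ using hρex
  have hx''ex : ∀ i, ∃ y : A, ValAt (P'' i) (F.dQ i).T (y : L) := fun i =>
    (hF.lawQ i).exists_valAt _ (hF.lawQ i).T_reg (P'' i) (hP'' i)
  choose x'' hx'' using hx''ex
  have hxm : ∀ i, x i ∈ IsLocalRing.maximalIdeal A := fun i =>
    (hF.lawQ i).value_mem (P i) (hP i) (x i) (hx i)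
  have hx'm : ∀ i, x' i ∈ IsLocalRing.maximalIdeal A := fun i =>
    (hF.lawQ i).value_mem (P' i) (hP' i) (x' i) (hx' i)
  have hρm : ∀ j, ρ j ∈ IsLocalRing.maximalIdeal A := fun j =>
    (hF.lawR j).value_mem (Sp j) (hS j) (ρ j) (hρ j)
  have hx''m : ∀ i, x'' i ∈ IsLocalRing.maximalIdeal A := fun i =>
    (hF.lawQ i).value_mem (P'' i) (hP'' i) (x'' i) (hx'' i)
  obtain ⟨c, hcm, hcall⟩ := exists_common_bound
    (Sum.elim (Sum.elim x x') (Sum.elim ρ x'') : (Fin g ⊕ Fin g) ⊕ (Fin g ⊕ Fin g) → A)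
    (by rintro ((i | i) | (i | i)) <;> simp [hxm, hx'm, hρm, hx''m])
  have hxc : ∀ i, x i ∈ Ideal.span {c} := fun i => hcall (Sum.inl (Sum.inl i))
  have hx'c : ∀ i, x' i ∈ Ideal.span {c} := fun i => hcall (Sum.inl (Sum.inr i))
  have hρc : ∀ j, ρ j ∈ Ideal.span {c} := fun j => hcall (Sum.inr (Sum.inl j))
  have hx''c : ∀ i, x'' i ∈ Ideal.span {c} := fun i => hcall (Sum.inr (Sum.inr i))
  refine ⟨P'', x'', c, hcm, hP'', hx'', fun i => ⟨hxc i, hx'c i, hx''c i⟩, ?_, ?_⟩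
  · -- the sum is `div (w2 / w1)`
    refine ⟨w2 / w1, div_ne_zero hw20 hw10, fun P₀ => ?_⟩
    rw [ord_div P₀ hw20 hw10]
    have h1 := hZ1 P₀
    have h2 := hZ2 P₀
    simp only [Finsupp.add_apply, Finsupp.sub_apply] at h1 h2 ⊢
    omega
  · intro S _ _ D hD n i
    exact congr_of_geom hF φ hφ P P' hP hP' x x' hx hx' w1 w2 hw10 hw20 ξ η Sp P'' hw1 hw2 hS
      hP'' hZ1 hZ2 ρ x'' hρ hx'' c hxc hx'c hρc hx''c (D (n + 1)) n (hD (n + 1)) i

end Frame

end Fermat.Agent.S33.Nodal.AddLawAbs
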