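import Mathlib
import Fermat.Agent.S34.NodalCore
import Fermat.Agent.S18.NonSpecial

/-!
# PROJECT N (S33), route H8, [N1]: the glued Riemann-Roch spaces of the nodal fibre

Abstract frame `N : S34.NodalDefs.GNodalDatum A π FL F1 F2 ι` (two branches, partial specialisation
maps, nodes, pole control + gluing).  Nothing about `X₀` here.

* `hasValue_add`, `hasValue_smul` : the value of a function at a node is additive, `k`-linear;
* `O12`, `incl1`, `incl2`, `red12` : the ring `O₁ ∩ O₂` and its reduction to `F1 × F2`;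
* `push1`, `push2` : push-forward of divisors along the partial maps `r₁`, `r₂`
  (`push1 N D Q = mapDomain r₁ D (some Q)`), additive;
* `GoodSupp N D` : every point of `D` lies in a good disc of one of the two branches;
* `Glued N D1 D2 : Submodule k (F1 × F2)` : pairs `(y₁, y₂)`, `y_i ∈ L(D_i)`, with equal values at
  every node; monotone, contains the constant pairs when `D_i ≥ 0`, finite-dimensional, and
  `finrank_glued_add_single_le₁/₂` : adding a place of degree one to `D1` (or `D2`) raises the
  dimension by at most one.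
-/

set_option autoImplicit false
set_option linter.unusedSectionVars false
set_option linter.unusedVariables false
set_option linter.dupNamespace false

namespace Fermat.Agent.S33.Nodal.Glued

open AlgebraicCurve Fermat.Agent.S24.Ord Fermat.Agent.S34.NodalDefs Fermat.Agent.S18.NonSpecial
open Fermat.Agent.S18.CoreOrd (min_le_ord_add ord_const_mul)

/-! ### values at a place -/

section Value

variable {k : Type*} [Field k] {Fk : Type*} [Field Fk] [Algebra k Fk]

theorem hasValue_add (Q : Place k Fk) {φ ψ : Fk} {γ δ : k} (h1 : HasValue Q φ γ)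
    (h2 : HasValue Q ψ δ) : HasValue Q (φ + ψ) (γ + δ) := by
  by_cases h0 : φ + ψ = algebraMap k Fk (γ + δ)
  · exact Or.inl h0
  right
  have hrw : φ + ψ - algebraMap k Fk (γ + δ) =
      (φ - algebraMap k Fk γ) + (ψ - algebraMap k Fk δ) := by
    rw [map_add]; ring
  have hne : (φ - algebraMap k Fk γ) + (ψ - algebraMap k Fk δ) ≠ 0 := by
    intro h
    apply h0
    rw [← sub_eq_zero, hrw, h]
  rw [hrw]
  rcases h1 with h1 | h1
  · rw [h1, sub_self, zero_add] at hne ⊢
    rcases h2 with h2 | h2
    · exact absurd (by rw [h2, sub_self]) hne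
    · exact h2
  · rcases h2 with h2 | h2
    · rw [h2, sub_self, add_zero]; exact h1
    · exact lt_of_lt_of_le (lt_min h1 h2) (min_le_ord_add Q hne)

theorem hasValue_smul (Q : Place k Fk) (c : k) {φ : Fk} {γ : k} (h : HasValue Q φ γ) :
    HasValue Q (c • φ) (c * γ) := by
  rcases eq_or_ne c 0 with rfl | hc
  · left; rw [zero_smul, zero_mul, map_zero]
  rcases h with h | h
  · left; rw [h, Algebra.smul_def, map_mul]
  · right
    have : c • φ - algebraMap k Fk (c * γ) = algebraMap k Fk c * (φ - algebraMap k Fk γ) := by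
      rw [Algebra.smul_def, map_mul]; ring
    rw [this, ord_const_mul Q hc]
    exact h

theorem hasValue_zero_zero (Q : Place k Fk) : HasValue Q (0 : Fk) (0 : k) :=
  Or.inl (map_zero _).symm

theorem hasValue_algebraMap (Q : Place k Fk) (c : k) : HasValue Q (algebraMap k Fk c) c :=
  Or.inl rfl

end Value

variable {L : Type*} [Field L] {FL : Type*} [Field FL] [Algebra L FL]
variable {k : Type*} [Field k] {F1 : Type*} [Field F1] [Algebra k F1]
  {F2 : Type*} [Field F2] [Algebra k F2]
variable {A : ValuationSubring L} {π : A →+* k} {ι : Type*}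
variable (N : GNodalDatum A π FL F1 F2 ι)

/-! ### the ring `O₁ ∩ O₂` -/

/-- the ring of functions integral at both Gauss valuations -/
def O12 : Subring FL := N.R1.O.toSubring ⊓ N.R2.O.toSubring

theorem mem_O12 {y : FL} : y ∈ O12 N ↔ y ∈ N.R1.O ∧ y ∈ N.R2.O := Subring.mem_inf

/-- `O₁ ∩ O₂ → O₁` -/
def incl1 : O12 N →+* N.R1.O where
  toFun x := ⟨x.1, ((mem_O12 N).mp x.2).1⟩
  map_one' := rfl
  map_mul' _ _ := rfl
  map_zero' := rfl
  map_add' _ _ := rfl

/-- `O₁ ∩ O₂ → O₂` -/
def incl2 : O12 N →+* N.R2.O where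
  toFun x := ⟨x.1, ((mem_O12 N).mp x.2).2⟩
  map_one' := rfl
  map_mul' _ _ := rfl
  map_zero' := rfl
  map_add' _ _ := rfl

@[simp] theorem coe_incl1 (x : O12 N) : ((incl1 N x : N.R1.O) : FL) = (x : FL) := rfl

@[simp] theorem coe_incl2 (x : O12 N) : ((incl2 N x : N.R2.O) : FL) = (x : FL) := rfl

/-- the reduction of `O₁ ∩ O₂` to the two components -/
def red12 : O12 N →+* F1 × F2 := (N.R1.red.comp (incl1 N)).prod (N.R2.red.comp (incl2 N))

theorem red12_apply (x : O12 N) : red12 N x = (N.R1.red (incl1 N x), N.R2.red (incl2 N x)) := rfl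

theorem red12_fst (x : O12 N) : (red12 N x).1 = N.R1.red (incl1 N x) := rfl

theorem red12_snd (x : O12 N) : (red12 N x).2 = N.R2.red (incl2 N x) := rfl

/-- constants of `A` in `O₁ ∩ O₂` -/
def const12 : A →+* O12 N where
  toFun a := ⟨algebraMap L FL (a : L), (mem_O12 N).mpr ⟨N.R1.algebraMap_mem a, N.R2.algebraMap_mem a⟩⟩
  map_one' := Subtype.ext (by simp)
  map_mul' a b := Subtype.ext (by simp)
  map_zero' := Subtype.ext (by simp)
  map_add' a b := Subtype.ext (by simp)

@[simp] theorem coe_const12 (a : A) : ((const12 N a : O12 N) : FL) = algebraMap L FL (a : L) := rfl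

theorem red12_const12 (a : A) :
    red12 N (const12 N a) = (algebraMap k F1 (π a), algebraMap k F2 (π a)) := by
  rw [red12_apply]
  exact Prod.ext (N.R1.red_algebraMap a) (N.R2.red_algebraMap a)

/-! ### push-forward of divisors along the partial specialisation maps -/

/-- push-forward to the first component: `push1 N D Q = (r₁)_* D (some Q)` -/
noncomputable def push1 (D : Divisor L FL) : Divisor k F1 := (Finsupp.mapDomain N.R1.r D).some

/-- push-forward to the second component -/
noncomputable def push2 (D : Divisor L FL) : Divisor k F2 := (Finsupp.mapDomain N.R2.r D).some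

theorem push1_apply (D : Divisor L FL) (Q : Place k F1) :
    push1 N D Q = Finsupp.mapDomain N.R1.r D (some Q) := Finsupp.some_apply _ _

theorem push2_apply (D : Divisor L FL) (Q : Place k F2) :
    push2 N D Q = Finsupp.mapDomain N.R2.r D (some Q) := Finsupp.some_apply _ _

theorem push1_add (D E : Divisor L FL) : push1 N (D + E) = push1 N D + push1 N E := by
  ext Q; simp only [push1_apply, Finsupp.mapDomain_add, Finsupp.add_apply]

theorem push2_add (D E : Divisor L FL) : push2 N (D + E) = push2 N D + push2 N E := by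
  ext Q; simp only [push2_apply, Finsupp.mapDomain_add, Finsupp.add_apply]

theorem push1_zero : push1 N (0 : Divisor L FL) = 0 := by
  ext Q; simp only [push1_apply, Finsupp.mapDomain_zero, Finsupp.zero_apply]

theorem push2_zero : push2 N (0 : Divisor L FL) = 0 := by
  ext Q; simp only [push2_apply, Finsupp.mapDomain_zero, Finsupp.zero_apply]

theorem push1_sub (D E : Divisor L FL) : push1 N (D - E) = push1 N D - push1 N E := by
  ext Q; simp only [push1_apply, Finsupp.mapDomain_sub, Finsupp.sub_apply]

theorem push2_sub (D E : Divisor L FL) : push2 N (D - E) = push2 N D - push2 N E := by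
  ext Q; simp only [push2_apply, Finsupp.mapDomain_sub, Finsupp.sub_apply]

theorem push1_sum {κ : Type*} (s : Finset κ) (D : κ → Divisor L FL) :
    push1 N (∑ i ∈ s, D i) = ∑ i ∈ s, push1 N (D i) := by
  classical
  induction s using Finset.induction_on with
  | empty => simp [push1_zero]
  | insert a s ha ih => rw [Finset.sum_insert ha, Finset.sum_insert ha, push1_add, ih]

theorem push2_sum {κ : Type*} (s : Finset κ) (D : κ → Divisor L FL) :
    push2 N (∑ i ∈ s, D i) = ∑ i ∈ s, push2 N (D i) := by
  classical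
  induction s using Finset.induction_on with
  | empty => simp [push2_zero]
  | insert a s ha ih => rw [Finset.sum_insert ha, Finset.sum_insert ha, push2_add, ih]

theorem push1_single_of_some {P : Place L FL} {Q : Place k F1} (h : N.R1.r P = some Q) (n : ℤ) :
    push1 N (Finsupp.single P n) = Finsupp.single Q n := by
  classical
  ext Q'
  rw [push1_apply, Finsupp.mapDomain_single, h]
  simp only [Finsupp.single_apply, Option.some.injEq]

theorem push2_single_of_some {P : Place L FL} {Q : Place k F2} (h : N.R2.r P = some Q) (n : ℤ) :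
    push2 N (Finsupp.single P n) = Finsupp.single Q n := by
  classical
  ext Q'
  rw [push2_apply, Finsupp.mapDomain_single, h]
  simp only [Finsupp.single_apply, Option.some.injEq]

theorem push1_single_of_forall_ne {P : Place L FL} (h : ∀ Q, N.R1.r P ≠ some Q) (n : ℤ) :
    push1 N (Finsupp.single P n) = 0 := by
  classical
  ext Q'
  rw [push1_apply, Finsupp.mapDomain_single, Finsupp.zero_apply]
  exact Finsupp.single_eq_of_ne (fun h' => h Q' h'.symm)

theorem push2_single_of_forall_ne {P : Place L FL} (h : ∀ Q, N.R2.r P ≠ some Q) (n : ℤ) :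
    push2 N (Finsupp.single P n) = 0 := by
  classical
  ext Q'
  rw [push2_apply, Finsupp.mapDomain_single, Finsupp.zero_apply]
  exact Finsupp.single_eq_of_ne (fun h' => h Q' h'.symm)

/-- a point in a disc of the first branch is invisible on the second -/
theorem push2_single_of_some1 {P : Place L FL} {Q : Place k F1} (h : N.R1.r P = some Q) (n : ℤ) :
    push2 N (Finsupp.single P n) = 0 :=
  push2_single_of_forall_ne N (fun Q' h' => N.excl P Q Q' h h') n

/-- a point in a disc of the second branch is invisible on the first -/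
theorem push1_single_of_some2 {P : Place L FL} {Q : Place k F2} (h : N.R2.r P = some Q) (n : ℤ) :
    push1 N (Finsupp.single P n) = 0 :=
  push1_single_of_forall_ne N (fun Q' h' => N.excl P Q' Q h' h) n

theorem push1_nonneg {D : Divisor L FL} (hD : 0 ≤ D) : 0 ≤ push1 N D := by
  rw [Finsupp.le_def]
  intro Q
  rw [push1_apply, Finsupp.zero_apply]
  exact Fermat.Agent.S18.CoreOrd.mapDomain_nonneg _ D _ (fun P _ => by
    have := Finsupp.le_def.mp hD P; simpa using this)

theorem push2_nonneg {D : Divisor L FL} (hD : 0 ≤ D) : 0 ≤ push2 N D := by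
  rw [Finsupp.le_def]
  intro Q
  rw [push2_apply, Finsupp.zero_apply]
  exact Fermat.Agent.S18.CoreOrd.mapDomain_nonneg _ D _ (fun P _ => by
    have := Finsupp.le_def.mp hD P; simpa using this)

/-! ### good support -/

/-- every point of `D` lies in a good disc of one of the two branches -/
def GoodSupp (D : Divisor L FL) : Prop :=
  ∀ P : Place L FL, D P ≠ 0 →
    (∃ Q ∈ N.R1.good, N.R1.r P = some Q) ∨ (∃ Q ∈ N.R2.good, N.R2.r P = some Q)

theorem goodSupp_zero : GoodSupp N (0 : Divisor L FL) := fun P h => absurd rfl h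

theorem GoodSupp.add {D E : Divisor L FL} (hD : GoodSupp N D) (hE : GoodSupp N E) :
    GoodSupp N (D + E) := by
  intro P hP
  by_cases h : D P = 0
  · refine hE P fun h' => hP ?_
    rw [Finsupp.add_apply, h, h', add_zero]
  · exact hD P h

theorem GoodSupp.neg {D : Divisor L FL} (hD : GoodSupp N D) : GoodSupp N (-D) := by
  intro P hP
  refine hD P fun h => hP ?_
  rw [Finsupp.neg_apply, h, neg_zero]

theorem GoodSupp.sub {D E : Divisor L FL} (hD : GoodSupp N D) (hE : GoodSupp N E) :
    GoodSupp N (D - E) := by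
  rw [sub_eq_add_neg]
  exact hD.add N (hE.neg N)

theorem goodSupp_single1 {P : Place L FL} {Q : Place k F1} (hQ : Q ∈ N.R1.good)
    (h : N.R1.r P = some Q) (n : ℤ) : GoodSupp N (Finsupp.single P n) := by
  classical
  intro P' hP'
  have : P' = P := by
    by_contra hne
    exact hP' (Finsupp.single_eq_of_ne hne)
  subst this
  exact Or.inl ⟨Q, hQ, h⟩

theorem goodSupp_single2 {P : Place L FL} {Q : Place k F2} (hQ : Q ∈ N.R2.good)
    (h : N.R2.r P = some Q) (n : ℤ) : GoodSupp N (Finsupp.single P n) := by
  classical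
  intro P' hP'
  have : P' = P := by
    by_contra hne
    exact hP' (Finsupp.single_eq_of_ne hne)
  subst this
  exact Or.inr ⟨Q, hQ, h⟩

theorem goodSupp_sum {κ : Type*} (s : Finset κ) (D : κ → Divisor L FL)
    (h : ∀ i ∈ s, GoodSupp N (D i)) : GoodSupp N (∑ i ∈ s, D i) := by
  classical
  induction s using Finset.induction_on with
  | empty => simpa using goodSupp_zero N
  | insert a s ha ih =>
    rw [Finset.sum_insert ha]
    exact (h a (Finset.mem_insert_self a s)).add N
      (ih fun i hi => h i (Finset.mem_insert_of_mem hi))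

/-! ### the glued Riemann-Roch space -/

/-- **the glued space**: pairs of sections of `O(D1)`, `O(D2)` on the two components which take
the same value at the two points over every node. -/
def Glued (D1 : Divisor k F1) (D2 : Divisor k F2) : Submodule k (F1 × F2) where
  carrier := {y | y.1 ∈ riemannRochSpace D1 ∧ y.2 ∈ riemannRochSpace D2 ∧
    ∀ e, ∃ γ : k, HasValue (N.e1 e) y.1 γ ∧ HasValue (N.e2 e) y.2 γ}
  add_mem' := by
    rintro y z ⟨hy1, hy2, hy⟩ ⟨hz1, hz2, hz⟩
    refine ⟨Submodule.add_mem _ hy1 hz1, Submodule.add_mem _ hy2 hz2, fun e => ?_⟩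
    obtain ⟨γ, h1, h2⟩ := hy e
    obtain ⟨δ, h1', h2'⟩ := hz e
    exact ⟨γ + δ, hasValue_add _ h1 h1', hasValue_add _ h2 h2'⟩
  zero_mem' := ⟨Submodule.zero_mem _, Submodule.zero_mem _, fun e =>
    ⟨0, hasValue_zero_zero _, hasValue_zero_zero _⟩⟩
  smul_mem' := by
    rintro c y ⟨hy1, hy2, hy⟩
    refine ⟨Submodule.smul_mem _ c hy1, Submodule.smul_mem _ c hy2, fun e => ?_⟩
    obtain ⟨γ, h1, h2⟩ := hy e
    exact ⟨c * γ, hasValue_smul _ c h1, hasValue_smul _ c h2⟩

theorem mem_glued_iff {D1 : Divisor k F1} {D2 : Divisor k F2} {y : F1 × F2} :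
    y ∈ Glued N D1 D2 ↔ y.1 ∈ riemannRochSpace D1 ∧ y.2 ∈ riemannRochSpace D2 ∧
      ∀ e, ∃ γ : k, HasValue (N.e1 e) y.1 γ ∧ HasValue (N.e2 e) y.2 γ := Iff.rfl

theorem glued_mono {D1 D1' : Divisor k F1} {D2 D2' : Divisor k F2} (h1 : D1 ≤ D1')
    (h2 : D2 ≤ D2') : Glued N D1 D2 ≤ Glued N D1' D2' := by
  rintro y ⟨hy1, hy2, hy⟩
  exact ⟨riemannRochSpace_mono h1 hy1, riemannRochSpace_mono h2 hy2, hy⟩

/-- constant pairs are glued -/
theorem const_mem_glued {D1 : Divisor k F1} {D2 : Divisor k F2} (h1 : 0 ≤ D1) (h2 : 0 ≤ D2)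
    (c : k) : ((algebraMap k F1 c, algebraMap k F2 c) : F1 × F2) ∈ Glued N D1 D2 := by
  refine ⟨?_, ?_, fun e => ⟨c, hasValue_algebraMap _ c, hasValue_algebraMap _ c⟩⟩
  · have := Submodule.smul_mem _ c (one_mem_riemannRochSpace h1)
    rwa [Algebra.smul_def, mul_one] at this
  · have := Submodule.smul_mem _ c (one_mem_riemannRochSpace h2)
    rwa [Algebra.smul_def, mul_one] at this

theorem glued_le_prod (D1 : Divisor k F1) (D2 : Divisor k F2) :
    Glued N D1 D2 ≤ (riemannRochSpace D1).prod (riemannRochSpace D2) := by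
  rintro y ⟨hy1, hy2, -⟩
  exact ⟨hy1, hy2⟩

theorem finite_glued (D1 : Divisor k F1) (D2 : Divisor k F2)
    [Module.Finite k (riemannRochSpace D1)] [Module.Finite k (riemannRochSpace D2)] :
    Module.Finite k (Glued N D1 D2) := by
  have h1 : (riemannRochSpace D1).FG := (Submodule.fg_top _).mp (Module.Finite.fg_top)
  have h2 : (riemannRochSpace D2).FG := (Submodule.fg_top _).mp (Module.Finite.fg_top)
  have : Module.Finite k ((riemannRochSpace D1).prod (riemannRochSpace D2)) :=
    Module.Finite.iff_fg.mpr (h1.prod h2)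
  exact Submodule.finiteDimensional_of_le (glued_le_prod N D1 D2)

/-- adding a place of degree one on the first component raises `dim Glued` by at most one -/
theorem finrank_glued_add_single_le₁ (D1 : Divisor k F1) (D2 : Divisor k F2)
    (hfin1 : ∀ D : Divisor k F1, Module.Finite k (riemannRochSpace D))
    (hfin2 : ∀ D : Divisor k F2, Module.Finite k (riemannRochSpace D))
    {Q : Place k F1} (hQ : Q.deg = 1) :
    Module.finrank k (Glued N (D1 + Finsupp.single Q 1) D2) ≤
      Module.finrank k (Glued N D1 D2) + 1 := by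
  obtain ⟨φ, hφ⟩ := exists_step_map D1 Q
  have := hfin1 D1
  have := hfin1 (D1 + Finsupp.single Q 1)
  have := hfin2 D2
  have hG : Module.Finite k (Glued N D1 D2) := finite_glued N D1 D2
  have hG' : Module.Finite k (Glued N (D1 + Finsupp.single Q 1) D2) := finite_glued N _ D2
  have hQfin : Module.Finite k Q.ResidueField :=
    Module.finite_of_finrank_pos (by
      rw [show Module.finrank k Q.ResidueField = Q.deg from rfl, hQ]; exact one_pos)
  let p1 : Glued N (D1 + Finsupp.single Q 1) D2 →ₗ[k] riemannRochSpace (D1 + Finsupp.single Q 1) :=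
    { toFun := fun y => ⟨(y : F1 × F2).1, y.2.1⟩
      map_add' := fun y z => rfl
      map_smul' := fun c y => rfl }
  let ψ : Glued N (D1 + Finsupp.single Q 1) D2 →ₗ[k] Q.ResidueField := φ.comp p1
  have hrk := LinearMap.finrank_range_add_finrank_ker ψ
  have hrange : Module.finrank k (LinearMap.range ψ) ≤ 1 := by
    have := Submodule.finrank_le (LinearMap.range ψ)
    rwa [show Module.finrank k Q.ResidueField = Q.deg from rfl, hQ] at this
  have hker : Module.finrank k (LinearMap.ker ψ) ≤ Module.finrank k (Glued N D1 D2) := by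
    let j : LinearMap.ker ψ →ₗ[k] Glued N D1 D2 :=
      { toFun := fun y => ⟨((y : Glued N (D1 + Finsupp.single Q 1) D2) : F1 × F2),
          ⟨hφ (p1 y.1) (LinearMap.mem_ker.mp y.2), y.1.2.2.1, y.1.2.2.2⟩⟩
        map_add' := fun y z => rfl
        map_smul' := fun c y => rfl }
    have hinj : Function.Injective j := by
      intro y z hyz
      have := congrArg Subtype.val hyz
      exact Subtype.ext (Subtype.ext this)
    exact LinearMap.finrank_le_finrank_of_injective hinj
  omega

/-- adding a place of degree one on the second component raises `dim Glued` by at most one -/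
theorem finrank_glued_add_single_le₂ (D1 : Divisor k F1) (D2 : Divisor k F2)
    (hfin1 : ∀ D : Divisor k F1, Module.Finite k (riemannRochSpace D))
    (hfin2 : ∀ D : Divisor k F2, Module.Finite k (riemannRochSpace D))
    {Q : Place k F2} (hQ : Q.deg = 1) :
    Module.finrank k (Glued N D1 (D2 + Finsupp.single Q 1)) ≤
      Module.finrank k (Glued N D1 D2) + 1 := by
  obtain ⟨φ, hφ⟩ := exists_step_map D2 Q
  have := hfin2 D2
  have := hfin2 (D2 + Finsupp.single Q 1)
  have := hfin1 D1
  have hG : Module.Finite k (Glued N D1 D2) := finite_glued N D1 D2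
  have hG' : Module.Finite k (Glued N D1 (D2 + Finsupp.single Q 1)) := finite_glued N D1 _
  have hQfin : Module.Finite k Q.ResidueField :=
    Module.finite_of_finrank_pos (by
      rw [show Module.finrank k Q.ResidueField = Q.deg from rfl, hQ]; exact one_pos)
  let p2 : Glued N D1 (D2 + Finsupp.single Q 1) →ₗ[k] riemannRochSpace (D2 + Finsupp.single Q 1) :=
    { toFun := fun y => ⟨(y : F1 × F2).2, y.2.2.1⟩
      map_add' := fun y z => rfl
      map_smul' := fun c y => rfl }
  let ψ : Glued N D1 (D2 + Finsupp.single Q 1) →ₗ[k] Q.ResidueField := φ.comp p2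
  have hrk := LinearMap.finrank_range_add_finrank_ker ψ
  have hrange : Module.finrank k (LinearMap.range ψ) ≤ 1 := by
    have := Submodule.finrank_le (LinearMap.range ψ)
    rwa [show Module.finrank k Q.ResidueField = Q.deg from rfl, hQ] at this
  have hker : Module.finrank k (LinearMap.ker ψ) ≤ Module.finrank k (Glued N D1 D2) := by
    let j : LinearMap.ker ψ →ₗ[k] Glued N D1 D2 :=
      { toFun := fun y => ⟨((y : Glued N D1 (D2 + Finsupp.single Q 1)) : F1 × F2),
          ⟨y.1.2.1, hφ (p2 y.1) (LinearMap.mem_ker.mp y.2), y.1.2.2.2⟩⟩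
        map_add' := fun y z => rfl
        map_smul' := fun c y => rfl }
    have hinj : Function.Injective j := by
      intro y z hyz
      have := congrArg Subtype.val hyz
      exact Subtype.ext (Subtype.ext this)
    exact LinearMap.finrank_le_finrank_of_injective hinj
  omega

theorem finrank_glued_add_sum_le₂ (D1 : Divisor k F1) (D2 : Divisor k F2)
    (hfin1 : ∀ D : Divisor k F1, Module.Finite k (riemannRochSpace D))
    (hfin2 : ∀ D : Divisor k F2, Module.Finite k (riemannRochSpace D))
    (hdeg2 : ∀ Q : Place k F2, Q.deg = 1) {n2 : ℕ} (Qs2 : Fin n2 → Place k F2) :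
    Module.finrank k (Glued N D1 (D2 + ∑ j, Finsupp.single (Qs2 j) (1 : ℤ))) ≤
      Module.finrank k (Glued N D1 D2) + n2 := by
  induction n2 with
  | zero => rw [Finset.univ_eq_empty, Finset.sum_empty, add_zero]; exact Nat.le_add_right _ _
  | succ n ih =>
    rw [Fin.sum_univ_castSucc, ← add_assoc]
    have h1 := finrank_glued_add_single_le₂ N D1
      (D2 + ∑ j : Fin n, Finsupp.single (Qs2 j.castSucc) (1 : ℤ)) hfin1 hfin2
      (hdeg2 (Qs2 (Fin.last n)))
    have h2 := ih (fun j => Qs2 j.castSucc)
    omega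

theorem finrank_glued_add_sum_le₁ (D1 : Divisor k F1) (D2 : Divisor k F2)
    (hfin1 : ∀ D : Divisor k F1, Module.Finite k (riemannRochSpace D))
    (hfin2 : ∀ D : Divisor k F2, Module.Finite k (riemannRochSpace D))
    (hdeg1 : ∀ Q : Place k F1, Q.deg = 1) {n1 : ℕ} (Qs1 : Fin n1 → Place k F1) :
    Module.finrank k (Glued N (D1 + ∑ i, Finsupp.single (Qs1 i) (1 : ℤ)) D2) ≤
      Module.finrank k (Glued N D1 D2) + n1 := by
  induction n1 with
  | zero => rw [Finset.univ_eq_empty, Finset.sum_empty, add_zero]; exact Nat.le_add_right _ _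
  | succ n ih =>
    rw [Fin.sum_univ_castSucc, ← add_assoc]
    have h1 := finrank_glued_add_single_le₁ N
      (D1 + ∑ i : Fin n, Finsupp.single (Qs1 i.castSucc) (1 : ℤ)) D2 hfin1 hfin2
      (hdeg1 (Qs1 (Fin.last n)))
    have h2 := ih (fun i => Qs1 i.castSucc)
    omega

/-- adding `n1 + n2` places of degree one raises `dim Glued` by at most `n1 + n2` -/
theorem finrank_glued_add_sum_le (D1 : Divisor k F1) (D2 : Divisor k F2)
    (hfin1 : ∀ D : Divisor k F1, Module.Finite k (riemannRochSpace D))
    (hfin2 : ∀ D : Divisor k F2, Module.Finite k (riemannRochSpace D))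
    (hdeg1 : ∀ Q : Place k F1, Q.deg = 1) (hdeg2 : ∀ Q : Place k F2, Q.deg = 1)
    {n1 n2 : ℕ} (Qs1 : Fin n1 → Place k F1) (Qs2 : Fin n2 → Place k F2) :
    Module.finrank k (Glued N (D1 + ∑ i, Finsupp.single (Qs1 i) (1 : ℤ))
        (D2 + ∑ j, Finsupp.single (Qs2 j) (1 : ℤ))) ≤
      Module.finrank k (Glued N D1 D2) + n1 + n2 := by
  have h1 := finrank_glued_add_sum_le₁ N D1 (D2 + ∑ j, Finsupp.single (Qs2 j) (1 : ℤ))
    hfin1 hfin2 hdeg1 Qs1
  have h2 := finrank_glued_add_sum_le₂ N D1 D2 hfin1 hfin2 hdeg2 Qs2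
  omega

end Fermat.Agent.S33.Nodal.Glued
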