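import Mathlib
import Fermat.Agent.S33.Nodal.Glued
import Fermat.Agent.S19.InterpDatum

/-!
# PROJECT N (S33), route H8, [N1]: semicontinuity in the nodal frame

Frame `N : GNodalDatum A π FL F1 F2 ι`.

* `neg_mapDomain_le_ord_red` : one branch, one good place: the reduction of an integral section of
  `O(D)` with nonzero reduction has order `≥ -(r_* D)(Q)` at a good place `Q`;
* `red12_mem_glued` : **semicontinuity, pointwise**: for `u ∈ O₁ ∩ O₂`, `u ∈ L(D)`, `D` supported
  in good discs, the pair of reductions lies in `Glued (push1 D) (push2 D)` (pole control + gluing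
  `pcg` after `exists_adm`, compatibility at the good places; the cases `red_i u = 0` included);
* `OrthoPair N` : the orthonormal-basis hypothesis for the sup-norm of the two branches;
* `linearIndependent_of_red12`, `ell_le_finrank_glued` : **semicontinuity**;
* `exists_const_mul_O12` : sup-norm normalisation `f = c * w`, `w ∈ O₁ ∩ O₂`, `red12 w ≠ 0`.
-/

set_option autoImplicit false
set_option linter.unusedSectionVars false
set_option linter.unusedVariables false

namespace Fermat.Agent.S33.Nodal.SemiCont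

open AlgebraicCurve Fermat.Agent.S24.Ord Fermat.Agent.S34.NodalDefs Fermat.Agent.S34.NodalDisc
  Fermat.Agent.S33.Nodal.Glued Fermat.Agent.S18.NonSpecial
open Fermat.Agent.S18.CoreOrd (mapDomain_nonneg mapDomain_eq_zero_of_forall ord_const_mul)

variable {L : Type*} [Field L] {FL : Type*} [Field FL] [Algebra L FL]
variable {k : Type*} [Field k]

/-! ### one branch -/

section OneBranch

variable {Fk : Type*} [Field Fk] [Algebra k Fk]
variable {A : ValuationSubring L} {π : A →+* k}

/-- the images of the points of a divisor under a partial map form a finite set -/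
theorem finite_image_support (r : Place L FL → Option (Place k Fk)) (D : Divisor L FL) :
    {Q : Place k Fk | ∃ P : Place L FL, D P ≠ 0 ∧ r P = some Q}.Finite := by
  classical
  have h := (D.support.finite_toSet).image r
  refine (h.preimage (Option.some_injective _).injOn).subset ?_
  rintro Q ⟨P, hP, hPQ⟩
  exact ⟨P, Finsupp.mem_support_iff.mpr hP, hPQ⟩

/-- **one branch, one good place**: the reduction of an integral section of `O(D)` with nonzero
reduction has order `≥ -(r_* D)(Q)` at a good place `Q`. -/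
theorem neg_mapDomain_le_ord_red [HasPrincipalDivisors L FL] (R : SmoothRed A π FL Fk) (u : R.O)
    (hred : R.red u ≠ 0) (D : Divisor L FL) (hu : (u : FL) ∈ riemannRochSpace D)
    (Q : Place k Fk) (hQ : Q ∈ R.good) :
    -(Finsupp.mapDomain R.r D (some Q)) ≤ Q.ord (R.red u) := by
  have hu0 : (u : FL) ≠ 0 := coe_ne_zero_of_red_ne_zero R.toBranch hred
  obtain ⟨Dy, hDy, -⟩ := HasPrincipalDivisors.exists_divisor (K := L) (u : FL) hu0
  have hc := r_div R u hred Dy hDy Q hQ
  rw [← hc]
  have hnn : 0 ≤ Finsupp.mapDomain R.r (Dy + D) (some Q) := by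
    refine mapDomain_nonneg R.r (Dy + D) (some Q) fun P _ => ?_
    have := ((mem_riemannRochSpace_iff.mp hu) P).resolve_left hu0
    rw [Finsupp.add_apply, hDy P]
    omega
  rw [Finsupp.mapDomain_add, Finsupp.add_apply] at hnn
  omega

end OneBranch

variable {F1 : Type*} [Field F1] [Algebra k F1] {F2 : Type*} [Field F2] [Algebra k F2]
variable {A : ValuationSubring L} {π : A →+* k} {ι : Type*}
variable (N : GNodalDatum A π FL F1 F2 ι)

/-! ### invisible places -/

/-- a good-supported divisor has no mass over a non-good place of the first component -/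
theorem push1_eq_zero_of_not_good {D : Divisor L FL} (hD : GoodSupp N D) {Q : Place k F1}
    (hQ : Q ∉ N.R1.good) : push1 N D Q = 0 := by
  rw [push1_apply]
  refine mapDomain_eq_zero_of_forall _ D _ fun P hP => ?_
  by_contra hne
  rcases hD P hne with ⟨Q', hQ', h'⟩ | ⟨Q'', -, h''⟩
  · rw [hP] at h'
    exact hQ ((Option.some_injective _ h') ▸ hQ')
  · exact N.excl P Q Q'' hP h''

/-- a good-supported divisor has no mass over a non-good place of the second component -/
theorem push2_eq_zero_of_not_good {D : Divisor L FL} (hD : GoodSupp N D) {Q : Place k F2}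
    (hQ : Q ∉ N.R2.good) : push2 N D Q = 0 := by
  rw [push2_apply]
  refine mapDomain_eq_zero_of_forall _ D _ fun P hP => ?_
  by_contra hne
  rcases hD P hne with ⟨Q', -, h'⟩ | ⟨Q'', hQ'', h''⟩
  · exact N.excl P Q' Q h' hP
  · rw [hP] at h''
    exact hQ ((Option.some_injective _ h'') ▸ hQ'')

/-! ### semicontinuity, pointwise -/

/-- **semicontinuity, pointwise**: the pair of reductions of a section of `O(D)` integral at both
Gauss valuations, `D` supported in good discs, is a glued section of `O(push D)`. -/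
theorem red12_mem_glued [HasPrincipalDivisors L FL] (u : O12 N) (D : Divisor L FL)
    (hD : GoodSupp N D) (hu : ((u : O12 N) : FL) ∈ riemannRochSpace D) :
    red12 N u ∈ Glued N (push1 N D) (push2 N D) := by
  classical
  rcases eq_or_ne ((u : O12 N) : FL) 0 with h0 | hu0
  · have : u = 0 := Subtype.ext h0
    rw [this, map_zero]
    exact Submodule.zero_mem _
  -- the admissible pair
  set T1 : Set (Place k F1) := {Q | Q ∈ N.R1.good ∧ ∃ P : Place L FL, D P ≠ 0 ∧ N.R1.r P = some Q}
    with hT1
  set T2 : Set (Place k F2) := {Q | Q ∈ N.R2.good ∧ ∃ P : Place L FL, D P ≠ 0 ∧ N.R2.r P = some Q}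
    with hT2
  have hT1fin : T1.Finite := (finite_image_support N.R1.r D).subset fun Q hQ => hQ.2
  have hT2fin : T2.Finite := (finite_image_support N.R2.r D).subset fun Q hQ => hQ.2
  obtain ⟨S1, S2, hadm, hTS1, hTS2⟩ := N.exists_adm T1 T2 hT1fin hT2fin (fun Q hQ => hQ.1)
    (fun Q hQ => hQ.1)
  obtain ⟨hS1g, hS2g⟩ := N.adm_subset_good S1 S2 hadm
  have hpole : ∀ P : Place L FL, P.ord ((incl1 N u : N.R1.O) : FL) < 0 →
      (∃ Q ∈ S1, N.R1.r P = some Q) ∨ (∃ Q ∈ S2, N.R2.r P = some Q) := by
    intro P hP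
    rw [coe_incl1] at hP
    have h := ((mem_riemannRochSpace_iff.mp hu) P).resolve_left hu0
    have hDP : D P ≠ 0 := by omega
    rcases hD P hDP with ⟨Q, hQ, hr⟩ | ⟨Q, hQ, hr⟩
    · exact Or.inl ⟨Q, hTS1 ⟨hQ, P, hDP, hr⟩, hr⟩
    · exact Or.inr ⟨Q, hTS2 ⟨hQ, P, hDP, hr⟩, hr⟩
  obtain ⟨hreg1, hreg2, hgl⟩ := N.pcg S1 S2 hadm (incl1 N u) (incl2 N u) rfl hpole
  refine ⟨?_, ?_, hgl⟩
  · rw [red12_fst, mem_riemannRochSpace_iff]
    intro Q
    by_cases hred : N.R1.red (incl1 N u) = 0
    · exact Or.inl hred
    right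
    by_cases hQ : Q ∈ N.R1.good
    · rw [push1_apply]
      exact neg_mapDomain_le_ord_red N.R1 (incl1 N u) hred D hu Q hQ
    · rw [push1_eq_zero_of_not_good N hD hQ, neg_zero]
      exact hreg1 Q fun hQS => hQ (hS1g hQS)
  · rw [red12_snd, mem_riemannRochSpace_iff]
    intro Q
    by_cases hred : N.R2.red (incl2 N u) = 0
    · exact Or.inl hred
    right
    by_cases hQ : Q ∈ N.R2.good
    · rw [push2_apply]
      exact neg_mapDomain_le_ord_red N.R2 (incl2 N u) hred D hu Q hQ
    · rw [push2_eq_zero_of_not_good N hD hQ, neg_zero]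
      exact hreg2 Q fun hQS => hQ (hS2g hQS)

/-! ### orthonormal bases for the sup-norm and semicontinuity -/

/-- the orthonormal-basis hypothesis for the pair of Gauss valuations (at `X₀(M q)`:
`S34/OrthoPairX0.exists_red_independent` with `S36/EulerExact/X0.pairX0`) -/
def OrthoPair : Prop :=
  ∀ (W : Submodule L FL) [FiniteDimensional L W],
    ∃ f : Fin (Module.finrank L W) → O12 N, (∀ j, ((f j : O12 N) : FL) ∈ W) ∧
      LinearIndependent k fun j => red12 N (f j)

/-- an element of `O₁ ∩ O₂` both of whose reductions vanish is divisible... we only need: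
`k`-linearly independent reduction pairs lift to `L`-linearly independent elements. -/
theorem linearIndependent_of_red12 {κ : Type*} [Fintype κ] (f : κ → O12 N)
    (h : LinearIndependent k fun i => red12 N (f i)) :
    LinearIndependent L fun i => ((f i : O12 N) : FL) := by
  classical
  rw [Fintype.linearIndependent_iff]
  intro c hc
  by_contra hne
  push Not at hne
  obtain ⟨i₁, hi₁⟩ := hne
  obtain ⟨i₀, -, h0, hA⟩ :=
    Fermat.Agent.S19.InterpDatum.exists_max_const (A := A) Finset.univ c
      ⟨i₁, Finset.mem_univ _, hi₁⟩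
  set a : κ → A := fun i => ⟨c i / c i₀, hA i (Finset.mem_univ _)⟩ with ha
  have hsum : ∑ i, const12 N (a i) * f i = 0 := by
    apply Subtype.ext
    have h1 : ((∑ i, const12 N (a i) * f i : O12 N) : FL)
        = ∑ i, (c i / c i₀) • ((f i : O12 N) : FL) := by
      rw [← Subring.subtype_apply, map_sum]
      refine Finset.sum_congr rfl fun i _ => ?_
      rw [Algebra.smul_def]
      rfl
    rw [h1]
    have h2 : ∑ i, (c i / c i₀) • ((f i : O12 N) : FL)
        = (c i₀)⁻¹ • ∑ i, c i • ((f i : O12 N) : FL) := by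
      rw [Finset.smul_sum]
      refine Finset.sum_congr rfl fun i _ => ?_
      rw [smul_smul, div_eq_inv_mul]
    rw [h2, hc, smul_zero]
    rfl
  have hred : ∑ i, π (a i) • red12 N (f i) = 0 := by
    have := congrArg (red12 N) hsum
    rw [map_sum, map_zero] at this
    rw [← this]
    refine Finset.sum_congr rfl fun i _ => ?_
    rw [map_mul, red12_const12]
    refine Prod.ext ?_ ?_
    · simp [Algebra.smul_def]
    · simp [Algebra.smul_def]
  have h3 := Fintype.linearIndependent_iff.mp h _ hred i₀
  have h4 : a i₀ = 1 := Subtype.ext (div_self h0)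
  rw [h4, map_one] at h3
  exact one_ne_zero h3

/-- **semicontinuity**: `ℓ_L(D) ≤ dim Glued(push D)` for `D` supported in good discs. -/
theorem ell_le_finrank_glued [HasPrincipalDivisors L FL] (hO : OrthoPair N) (D : Divisor L FL)
    (hD : GoodSupp N D) [Module.Finite L (riemannRochSpace D)]
    [Module.Finite k (Glued N (push1 N D) (push2 N D))] :
    ell D ≤ Module.finrank k (Glued N (push1 N D) (push2 N D)) := by
  obtain ⟨f, hfW, hli⟩ := hO (riemannRochSpace D)
  let f' : Fin (Module.finrank L (riemannRochSpace D)) → Glued N (push1 N D) (push2 N D) :=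
    fun j => ⟨red12 N (f j), red12_mem_glued N (f j) D hD (hfW j)⟩
  have hf' : LinearIndependent k f' := by
    apply LinearIndependent.of_comp (Glued N (push1 N D) (push2 N D)).subtype
    exact hli
  have := hf'.fintype_card_le_finrank
  rwa [Fintype.card_fin] at this

/-! ### sup-norm normalisation -/

/-- **sup-norm normalisation**: every nonzero function is a constant times an element of
`O₁ ∩ O₂` with nonzero reduction pair. -/
theorem exists_const_mul_O12 (f : FL) (hf : f ≠ 0) :
    ∃ c : L, c ≠ 0 ∧ ∃ w : O12 N, f = algebraMap L FL c * ((w : O12 N) : FL) ∧ red12 N w ≠ 0 := by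
  obtain ⟨a1, ha1, u1, hyu1⟩ := N.R1.exists_const_mul_unit f hf
  obtain ⟨a2, ha2, u2, hyu2⟩ := N.R2.exists_const_mul_unit f hf
  have hAa1 : algebraMap L FL a1 ≠ 0 := (map_ne_zero_iff _ (algebraMap L FL).injective).mpr ha1
  have hAa2 : algebraMap L FL a2 ≠ 0 := (map_ne_zero_iff _ (algebraMap L FL).injective).mpr ha2
  have hyy : algebraMap L FL a1 * ((u1 : N.R1.O) : FL) = algebraMap L FL a2 * ((u2 : N.R2.O) : FL) := by
    rw [← hyu1, ← hyu2]
  rcases le_total (A.valuation a2) (A.valuation a1) with hle | hle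
  · -- `w = u1 = (a2 / a1) u2`
    have hτA : a2 / a1 ∈ A := Fermat.Agent.S34.NodalCore.div_mem_of_valuation_le ha1 hle
    have hu12 : ((u1 : N.R1.O) : FL) = algebraMap L FL (a2 / a1) * ((u2 : N.R2.O) : FL) := by
      rw [map_div₀]
      field_simp
      linear_combination hyy
    have hmem2 : ((u1 : N.R1.O) : FL) ∈ N.R2.O := by
      rw [hu12]
      exact N.R2.O.mul_mem _ _ (N.R2.algebraMap_mem ⟨a2 / a1, hτA⟩) (u2 : N.R2.O).2
    refine ⟨a1, ha1, ⟨((u1 : N.R1.O) : FL), (mem_O12 N).mpr ⟨(u1 : N.R1.O).2, hmem2⟩⟩, hyu1, ?_⟩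
    intro h
    have h1 := congrArg Prod.fst h
    rw [red12_fst] at h1
    exact red_unit_ne_zero N.R1.toBranch u1 h1
  · have hτA : a1 / a2 ∈ A := Fermat.Agent.S34.NodalCore.div_mem_of_valuation_le ha2 hle
    have hu21 : ((u2 : N.R2.O) : FL) = algebraMap L FL (a1 / a2) * ((u1 : N.R1.O) : FL) := by
      rw [map_div₀]
      field_simp
      linear_combination -hyy
    have hmem1 : ((u2 : N.R2.O) : FL) ∈ N.R1.O := by
      rw [hu21]
      exact N.R1.O.mul_mem _ _ (N.R1.algebraMap_mem ⟨a1 / a2, hτA⟩) (u1 : N.R1.O).2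
    refine ⟨a2, ha2, ⟨((u2 : N.R2.O) : FL), (mem_O12 N).mpr ⟨hmem1, (u2 : N.R2.O).2⟩⟩, hyu2, ?_⟩
    intro h
    have h2 := congrArg Prod.snd h
    rw [red12_snd] at h2
    exact red_unit_ne_zero N.R2.toBranch u2 h2

end Fermat.Agent.S33.Nodal.SemiCont
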