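import Mathlib
import Fermat.Agent.S33.Nodal.SemiCont

/-!
# PROJECT N (S33), route H8, [N1]: the three-case lemma (rigidity of the glued space)

Frame `N : GNodalDatum A π FL F1 F2 ι`, and a rigid pair of families `Q1 : Fin g1 → Place k F1`,
`Q2 : Fin m2 → Place k F2` in the sense of `S34.NodalDefs.NodalRigid`:
`L(∑ Q1) = k` and no nonzero element of `L(∑ Q2)` vanishes at all the nodes.

* `IsRigidPair N Q1 Q2` : the two clauses, packaged;
* `glued_rigid` : **the three-case lemma**: `Glued (∑ Q1) (∑ Q2)` consists of the constant pairs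
  `(c, c)`; `finrank_glued_rigid_le_one`;
* `exists_const_of_rigid` : a section `w ∈ O₁ ∩ O₂` of `O(D)`, `D` good-supported with
  `push D = (∑ Q1, ∑ Q2)` and `red12 w ≠ 0`, reduces to `(c, c)` with `c ≠ 0`;
  `isUnit_incl1_of_red12`, `isUnit_incl2_of_red12` : it is a unit of BOTH Gauss rings;
* `exists_points_of_push` : an effective divisor of degree `g1 + m2` whose push-forwards take the
  value `1` at every `Q1 i`, `Q2 j` is `∑ Ps1 + ∑ Ps2` with `Ps1 i`, `Ps2 j` in the discs.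
-/

set_option autoImplicit false
set_option linter.unusedSectionVars false
set_option linter.unusedVariables false

namespace Fermat.Agent.S33.Nodal.Rigid3

open AlgebraicCurve Fermat.Agent.S24.Ord Fermat.Agent.S34.NodalDefs Fermat.Agent.S34.NodalDisc
  Fermat.Agent.S33.Nodal.Glued Fermat.Agent.S33.Nodal.SemiCont Fermat.Agent.S18.NonSpecial
open Fermat.Agent.S34.NodalCore (hasValue_const sum_single_nonneg' sum_single_apply_of_injective'
  sum_single_apply_of_notMem' eq_sum_single_of_degree)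
open Fermat.Agent.S18.CoreOrd (mapDomain_nonneg exists_unique_of_mapDomain_eq_one)

variable {L : Type*} [Field L] {FL : Type*} [Field FL] [Algebra L FL]
variable {k : Type*} [Field k] {F1 : Type*} [Field F1] [Algebra k F1]
  {F2 : Type*} [Field F2] [Algebra k F2]
variable {A : ValuationSubring L} {π : A →+* k} {ι : Type*}
variable (N : GNodalDatum A π FL F1 F2 ι)

/-- a rigid pair of families of good places (the output of `NodalRigid`) -/
structure IsRigidPair {g1 m2 : ℕ} (Q1 : Fin g1 → Place k F1) (Q2 : Fin m2 → Place k F2) :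
    Prop where
  inj1 : Function.Injective Q1
  inj2 : Function.Injective Q2
  good1 : ∀ i, Q1 i ∈ N.R1.good
  good2 : ∀ j, Q2 j ∈ N.R2.good
  rigid1 : ∀ y : F1, y ∈ riemannRochSpace (∑ i, Finsupp.single (Q1 i) (1 : ℤ)) →
    ∃ c : k, y = algebraMap k F1 c
  rigid2 : ∀ y : F2, y ∈ riemannRochSpace (∑ j, Finsupp.single (Q2 j) (1 : ℤ)) →
    (∀ e, y = 0 ∨ 0 < (N.e2 e).ord y) → y = 0

/-- `NodalRigid` produces rigid pairs off any finite sets -/
theorem exists_isRigidPair {g1 m2 : ℕ} (hG : NodalRigid k F1 F2 N.e2 g1 m2)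
    (Bad1 : Set (Place k F1)) (hBad1 : Bad1.Finite) (Bad2 : Set (Place k F2))
    (hBad2 : Bad2.Finite) :
    ∃ (Q1 : Fin g1 → Place k F1) (Q2 : Fin m2 → Place k F2), IsRigidPair N Q1 Q2 ∧
      (∀ i, Q1 i ∉ Bad1) ∧ (∀ j, Q2 j ∉ Bad2) := by
  obtain ⟨Q1, Q2, h1, h2, hb1, hb2, hr1, hr2⟩ :=
    hG (Bad1 ∪ (N.R1.good)ᶜ) (hBad1.union N.finite_compl_good1) (Bad2 ∪ (N.R2.good)ᶜ)
      (hBad2.union N.finite_compl_good2)
  refine ⟨Q1, Q2, ⟨h1, h2, fun i => ?_, fun j => ?_, hr1, hr2⟩, fun i h => hb1 i (Or.inl h),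
    fun j h => hb2 j (Or.inl h)⟩
  · by_contra h
    exact hb1 i (Or.inr h)
  · by_contra h
    exact hb2 j (Or.inr h)

variable {N}
variable {g1 m2 : ℕ} {Q1 : Fin g1 → Place k F1} {Q2 : Fin m2 → Place k F2}

/-- **the three-case lemma**: the glued space of a rigid pair consists of the constant pairs -/
theorem glued_rigid (hQ : IsRigidPair N Q1 Q2) {y : F1 × F2}
    (hy : y ∈ Glued N (∑ i, Finsupp.single (Q1 i) (1 : ℤ)) (∑ j, Finsupp.single (Q2 j) (1 : ℤ))) :
    ∃ c : k, y = (algebraMap k F1 c, algebraMap k F2 c) := by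
  obtain ⟨hy1, hy2, hgl⟩ := hy
  obtain ⟨c, hc⟩ := hQ.rigid1 _ hy1
  have hval : ∀ e, HasValue (N.e2 e) y.2 c := by
    intro e
    obtain ⟨γ, h1, h2⟩ := hgl e
    rw [hc] at h1
    rwa [hasValue_const _ h1] at h2
  have hcmem : algebraMap k F2 c ∈ riemannRochSpace (∑ j, Finsupp.single (Q2 j) (1 : ℤ)) := by
    have h0 : (0 : Divisor k F2) ≤ ∑ j, Finsupp.single (Q2 j) (1 : ℤ) := by
      rw [Finsupp.le_def]
      intro Q
      exact sum_single_nonneg' Q2 Q
    have := Submodule.smul_mem _ c (one_mem_riemannRochSpace h0)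
    rwa [Algebra.smul_def, mul_one] at this
  have hz : y.2 - algebraMap k F2 c = 0 := by
    refine hQ.rigid2 _ (Submodule.sub_mem _ hy2 hcmem) fun e => ?_
    rcases hval e with h | h
    · left; rw [h, sub_self]
    · right; exact h
  refine ⟨c, Prod.ext hc (sub_eq_zero.mp hz)⟩

theorem finrank_glued_rigid_le_one (hQ : IsRigidPair N Q1 Q2) :
    Module.finrank k
      (Glued N (∑ i, Finsupp.single (Q1 i) (1 : ℤ)) (∑ j, Finsupp.single (Q2 j) (1 : ℤ))) ≤ 1 := by
  have hle : Glued N (∑ i, Finsupp.single (Q1 i) (1 : ℤ)) (∑ j, Finsupp.single (Q2 j) (1 : ℤ)) ≤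
      Submodule.span k {((1 : F1), (1 : F2))} := by
    intro y hy
    obtain ⟨c, rfl⟩ := glued_rigid hQ hy
    rw [Submodule.mem_span_singleton]
    refine ⟨c, Prod.ext ?_ ?_⟩
    · simp [Algebra.smul_def]
    · simp [Algebra.smul_def]
  calc _ ≤ Module.finrank k (Submodule.span k {((1 : F1), (1 : F2))}) :=
        Submodule.finrank_mono hle
    _ ≤ 1 := by
        have := finrank_span_le_card (R := k) ({((1 : F1), (1 : F2))} : Set (F1 × F2))
        simpa using this

/-- a section whose push-forward is a rigid pair reduces to a nonzero constant pair -/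
theorem exists_const_of_rigid [HasPrincipalDivisors L FL] (hQ : IsRigidPair N Q1 Q2)
    (w : O12 N) (hw : red12 N w ≠ 0) (D : Divisor L FL) (hD : GoodSupp N D)
    (hwD : ((w : O12 N) : FL) ∈ riemannRochSpace D)
    (h1 : push1 N D = ∑ i, Finsupp.single (Q1 i) (1 : ℤ))
    (h2 : push2 N D = ∑ j, Finsupp.single (Q2 j) (1 : ℤ)) :
    ∃ c : k, c ≠ 0 ∧ red12 N w = (algebraMap k F1 c, algebraMap k F2 c) := by
  have hmem := red12_mem_glued N w D hD hwD
  rw [h1, h2] at hmem
  obtain ⟨c, hc⟩ := glued_rigid hQ hmem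
  refine ⟨c, ?_, hc⟩
  rintro rfl
  apply hw
  rw [hc, map_zero, map_zero]
  rfl

theorem isUnit_incl1_of_red12 {w : O12 N} {c : k} (hc : c ≠ 0)
    (h : red12 N w = (algebraMap k F1 c, algebraMap k F2 c)) : IsUnit (incl1 N w) := by
  refine (red_ne_zero_iff_isUnit N.R1.toBranch _).mp ?_
  have := congrArg Prod.fst h
  rw [red12_fst] at this
  rw [this]
  exact (map_ne_zero_iff _ (algebraMap k F1).injective).mpr hc

theorem isUnit_incl2_of_red12 {w : O12 N} {c : k} (hc : c ≠ 0)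
    (h : red12 N w = (algebraMap k F1 c, algebraMap k F2 c)) : IsUnit (incl2 N w) := by
  refine (red_ne_zero_iff_isUnit N.R2.toBranch _).mp ?_
  have := congrArg Prod.snd h
  rw [red12_snd] at this
  rw [this]
  exact (map_ne_zero_iff _ (algebraMap k F2).injective).mpr hc

/-- **the counting**: an effective divisor of degree `g1 + m2` whose push-forwards are `1` at
every place of a pair of injective families is the sum of `g1 + m2` points, one in each disc. -/
theorem exists_points_of_push (hdegL : ∀ P : Place L FL, P.deg = 1)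
    (hQ1 : Function.Injective Q1) (hQ2 : Function.Injective Q2)
    (Z : Divisor L FL) (hZ : ∀ P, 0 ≤ Z P)
    (hdeg : Divisor.degree Z = ((g1 + m2 : ℕ) : ℤ))
    (h1 : ∀ i, push1 N Z (Q1 i) = 1) (h2 : ∀ j, push2 N Z (Q2 j) = 1) :
    ∃ (Ps1 : Fin g1 → Place L FL) (Ps2 : Fin m2 → Place L FL),
      (∀ i, N.R1.r (Ps1 i) = some (Q1 i)) ∧ (∀ j, N.R2.r (Ps2 j) = some (Q2 j)) ∧
      Z = (∑ i, Finsupp.single (Ps1 i) (1 : ℤ)) + ∑ j, Finsupp.single (Ps2 j) (1 : ℤ) := by
  classical
  have hex1 : ∀ i, ∃ P, N.R1.r P = some (Q1 i) ∧ Z P = 1 := by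
    intro i
    have h := h1 i
    rw [push1_apply] at h
    obtain ⟨P, hP, hP1, -⟩ := exists_unique_of_mapDomain_eq_one N.R1.r Z (some (Q1 i))
      (fun P _ => hZ P) h
    exact ⟨P, hP, hP1⟩
  have hex2 : ∀ j, ∃ P, N.R2.r P = some (Q2 j) ∧ Z P = 1 := by
    intro j
    have h := h2 j
    rw [push2_apply] at h
    obtain ⟨P, hP, hP1, -⟩ := exists_unique_of_mapDomain_eq_one N.R2.r Z (some (Q2 j))
      (fun P _ => hZ P) h
    exact ⟨P, hP, hP1⟩
  choose Ps1 hPs1 hPs1E using hex1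
  choose Ps2 hPs2 hPs2E using hex2
  have hinj : Function.Injective (Sum.elim Ps1 Ps2) := by
    rintro (i | j) (i' | j') h
    · simp only [Sum.elim_inl] at h
      have := (hPs1 i).symm.trans (h ▸ hPs1 i')
      rw [hQ1 (Option.some_injective _ this)]
    · simp only [Sum.elim_inl, Sum.elim_inr] at h
      exact (N.excl _ _ _ (hPs1 i) (h ▸ hPs2 j')).elim
    · simp only [Sum.elim_inl, Sum.elim_inr] at h
      exact (N.excl _ _ _ (h ▸ hPs1 i') (hPs2 j)).elim
    · simp only [Sum.elim_inr] at h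
      have := (hPs2 j).symm.trans (h ▸ hPs2 j')
      rw [hQ2 (Option.some_injective _ this)]
  have hEsum : Z = ∑ x : Fin g1 ⊕ Fin m2, Finsupp.single (Sum.elim Ps1 Ps2 x) (1 : ℤ) := by
    refine eq_sum_single_of_degree hdegL Z hZ _ hinj ?_ ?_
    · rintro (i | j)
      · simp only [Sum.elim_inl]; rw [hPs1E]
      · simp only [Sum.elim_inr]; rw [hPs2E]
    · rw [hdeg]
      simp
  refine ⟨Ps1, Ps2, hPs1, hPs2, ?_⟩
  conv_lhs => rw [hEsum]
  rw [Fintype.sum_sum_type]
  simp only [Sum.elim_inl, Sum.elim_inr]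

end Fermat.Agent.S33.Nodal.Rigid3
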