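import Mathlib
import Fermat.Agent.S33.Nodal.Rigid3
import Fermat.Agent.S19.InterpMulti

/-!
# PROJECT N (S33), route H8, [N1]: the dimension block of the nodal interpolation datum

Record-free twin of the dimension part of `S19/InterpDatum`.  Frame
`N : GNodalDatum A π FL F1 F2 ι`, two rigid pairs `(Q1b, Q2b)` (the chart) and `(R1b, R2b)` (the
auxiliary family), and ANY divisor `E` of `FL` supported in good discs with
`deg E = 3 (g1 + m2)`, `push1 E = Ebar R1b Q1b`, `push2 E = Ebar R2b Q2b`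
(`Ebar Rb Qb = ∑ Rb + 2 ∑ Qb`).

* one field: `Ebar`, `Ebar_apply_*`, `mem_sumR_of_regular`, `mem_sumQ_of_regular`;
* `rank_a`, `rank_b` : the rank lemmas on the nodal fibre, for glued pairs;
* `finrank_glued_Ebar_le` : `dim Glued(Ebar, Ebar) ≤ 2 (g1 + m2) + 1` (each added point costs
  at most one, the rigid pair `Rb` gives `1`);
* `ell_E`, `finrank_glued_Ebar` : **the squeeze**
  `2G + 1 ≤ ℓ_L(E) ≤ dim Glued(push E) ≤ 2G + 1`, `G = g1 + m2` (Riemann upstairs only);
* `exists_reduced_basis` : `2G + 1` elements of `O₁ ∩ O₂ ∩ L(E)` whose reduction pairs are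
  `k`-independent; they span on both sides;
* `exists_reduced_basis_one` : twin of `S19/InterpMulti.exists_reduced_basis_one` (reduced basis
  with `φ 0 = 1`), and `exists_reduced_basis_one_E` : the instance `D = E`, `n = 2G`;
* `ell_of_push_rigid` : `ℓ_L(D) = 1` for `D ≥ 0` good-supported with rigid push-forward
  (`D = ∑ Rp`, `D = ∑ Q`): the generic-fibre kernel.
-/

set_option autoImplicit false
set_option linter.unusedSectionVars false
set_option linter.unusedVariables false

namespace Fermat.Agent.S33.Nodal.Interp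

open AlgebraicCurve Fermat.Agent.S24.Ord Fermat.Agent.S34.NodalDefs Fermat.Agent.S34.NodalDisc
  Fermat.Agent.S33.Nodal.Glued Fermat.Agent.S33.Nodal.SemiCont Fermat.Agent.S33.Nodal.Rigid3
  Fermat.Agent.S18.NonSpecial
open Fermat.Agent.S34.NodalCore (sum_single_nonneg' sum_single_apply_of_injective'
  sum_single_apply_of_notMem')

/-! ### one field -/

section OneField

variable {k : Type*} [Field k] {Fk : Type*} [Field Fk] [Algebra k Fk]
variable {n m : ℕ}

/-- `R̄₀ + 2 D̄₀` -/
noncomputable def Ebar (Rb : Fin n → Place k Fk) (Qb : Fin m → Place k Fk) : Divisor k Fk :=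
  (∑ j, Finsupp.single (Rb j) (1 : ℤ)) + (∑ i, Finsupp.single (Qb i) (1 : ℤ)) +
    (∑ i, Finsupp.single (Qb i) (1 : ℤ))

variable {Rb : Fin n → Place k Fk} {Qb : Fin m → Place k Fk}

theorem Ebar_apply_Qb (hQ : Function.Injective Qb) (hd : ∀ i j, Qb i ≠ Rb j) (i : Fin m) :
    Ebar Rb Qb (Qb i) = 2 := by
  unfold Ebar
  rw [Finsupp.add_apply, Finsupp.add_apply, sum_single_apply_of_injective' Qb hQ,
    sum_single_apply_of_notMem' Rb (Qb i) (fun j h => hd i j h.symm)]
  norm_num

theorem Ebar_apply_Rb (hR : Function.Injective Rb) (hd : ∀ i j, Qb i ≠ Rb j) (j : Fin n) :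
    Ebar Rb Qb (Rb j) = 1 := by
  unfold Ebar
  rw [Finsupp.add_apply, Finsupp.add_apply, sum_single_apply_of_injective' Rb hR,
    sum_single_apply_of_notMem' Qb (Rb j) (fun i h => hd i j h)]
  norm_num

theorem Ebar_apply_of_notMem_Qb {v : Place k Fk} (h : ∀ i, Qb i ≠ v) :
    Ebar Rb Qb v = (∑ j, Finsupp.single (Rb j) (1 : ℤ)) v := by
  unfold Ebar
  rw [Finsupp.add_apply, Finsupp.add_apply, sum_single_apply_of_notMem' Qb v h]
  norm_num

theorem Ebar_apply_of_notMem_Rb {v : Place k Fk} (h : ∀ j, Rb j ≠ v) :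
    Ebar Rb Qb v = 2 * (∑ i, Finsupp.single (Qb i) (1 : ℤ)) v := by
  unfold Ebar
  rw [Finsupp.add_apply, Finsupp.add_apply, sum_single_apply_of_notMem' Rb v h]
  ring

theorem Ebar_nonneg : 0 ≤ Ebar Rb Qb := by
  rw [Finsupp.le_def]
  intro v
  unfold Ebar
  rw [Finsupp.add_apply, Finsupp.add_apply, Finsupp.zero_apply]
  have h1 := sum_single_nonneg' Rb v
  have h2 := sum_single_nonneg' Qb v
  omega

theorem sum_single_nonneg_div (Qs : Fin m → Place k Fk) :
    (0 : Divisor k Fk) ≤ ∑ i, Finsupp.single (Qs i) (1 : ℤ) := by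
  rw [Finsupp.le_def]
  intro v
  exact sum_single_nonneg' Qs v

/-- (RR-a), one field: a section of `O(Ē)` regular at every `Qb i` is a section of `O(R̄₀)` -/
theorem mem_sumR_of_regular (hQ : Function.Injective Qb) (hd : ∀ i j, Qb i ≠ Rb j) {y : Fk}
    (hy : y ∈ riemannRochSpace (Ebar Rb Qb)) (h : ∀ i, 0 ≤ (Qb i).ord y) :
    y ∈ riemannRochSpace (∑ j, Finsupp.single (Rb j) (1 : ℤ)) := by
  rw [mem_riemannRochSpace_iff]
  intro v
  rcases eq_or_ne y 0 with rfl | hy0
  · exact Or.inl rfl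
  right
  by_cases hv : ∃ i, Qb i = v
  · obtain ⟨i, rfl⟩ := hv
    rw [sum_single_apply_of_notMem' Rb (Qb i) (fun j hj => hd i j hj.symm)]
    simpa using h i
  · push Not at hv
    have := ((mem_riemannRochSpace_iff.mp hy) v).resolve_left hy0
    rwa [Ebar_apply_of_notMem_Qb hv] at this

/-- (RR-b), one field: a section of `O(Ē)` regular at every `Rb j` with at most simple poles at
the `Qb i` is a section of `O(D̄₀)` -/
theorem mem_sumQ_of_regular (hQ : Function.Injective Qb) {y : Fk}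
    (hy : y ∈ riemannRochSpace (Ebar Rb Qb)) (hR : ∀ j, 0 ≤ (Rb j).ord y)
    (hQ1 : ∀ i, -1 ≤ (Qb i).ord y) :
    y ∈ riemannRochSpace (∑ i, Finsupp.single (Qb i) (1 : ℤ)) := by
  rw [mem_riemannRochSpace_iff]
  intro v
  rcases eq_or_ne y 0 with rfl | hy0
  · exact Or.inl rfl
  right
  by_cases hv : ∃ i, Qb i = v
  · obtain ⟨i, rfl⟩ := hv
    rw [sum_single_apply_of_injective' Qb hQ]
    exact hQ1 i
  · push Not at hv
    rw [sum_single_apply_of_notMem' Qb v hv]
    by_cases hv' : ∃ j, Rb j = v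
    · obtain ⟨j, rfl⟩ := hv'
      simpa using hR j
    · push Not at hv'
      have := ((mem_riemannRochSpace_iff.mp hy) v).resolve_left hy0
      rw [Ebar_apply_of_notMem_Rb hv', sum_single_apply_of_notMem' Qb v hv] at this
      simpa using this

end OneField

/-! ### the nodal frame -/

variable {L : Type*} [Field L] {FL : Type*} [Field FL] [Algebra L FL]
variable {k : Type*} [Field k] {F1 : Type*} [Field F1] [Algebra k F1]
  {F2 : Type*} [Field F2] [Algebra k F2]
variable {A : ValuationSubring L} {π : A →+* k} {ι : Type*}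
variable {N : GNodalDatum A π FL F1 F2 ι}
variable {g1 m2 : ℕ} {Q1b R1b : Fin g1 → Place k F1} {Q2b R2b : Fin m2 → Place k F2}

/-- **(RR-a)** on the nodal fibre: a glued section of `O(Ē)` regular at every chart place is a
constant pair. -/
theorem rank_a (hQb : IsRigidPair N Q1b Q2b) (hRb : IsRigidPair N R1b R2b)
    (hd1 : ∀ i j, Q1b i ≠ R1b j) (hd2 : ∀ i j, Q2b i ≠ R2b j) {y : F1 × F2}
    (hy : y ∈ Glued N (Ebar R1b Q1b) (Ebar R2b Q2b))
    (h1 : ∀ i, 0 ≤ (Q1b i).ord y.1) (h2 : ∀ j, 0 ≤ (Q2b j).ord y.2) :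
    ∃ c : k, y = (algebraMap k F1 c, algebraMap k F2 c) := by
  obtain ⟨hy1, hy2, hgl⟩ := hy
  exact glued_rigid hRb ⟨mem_sumR_of_regular hQb.inj1 hd1 hy1 h1,
    mem_sumR_of_regular hQb.inj2 hd2 hy2 h2, hgl⟩

/-- **(RR-b)** on the nodal fibre: a glued section of `O(Ē)` regular at every auxiliary place
with at most simple poles at the chart places is a constant pair. -/
theorem rank_b (hQb : IsRigidPair N Q1b Q2b) {y : F1 × F2}
    (hy : y ∈ Glued N (Ebar R1b Q1b) (Ebar R2b Q2b))
    (hR1 : ∀ j, 0 ≤ (R1b j).ord y.1) (hR2 : ∀ j, 0 ≤ (R2b j).ord y.2)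
    (hQ1 : ∀ i, -1 ≤ (Q1b i).ord y.1) (hQ2 : ∀ j, -1 ≤ (Q2b j).ord y.2) :
    ∃ c : k, y = (algebraMap k F1 c, algebraMap k F2 c) := by
  obtain ⟨hy1, hy2, hgl⟩ := hy
  exact glued_rigid hQb ⟨mem_sumQ_of_regular hQb.inj1 hy1 hR1 hQ1,
    mem_sumQ_of_regular hQb.inj2 hy2 hR2 hQ2, hgl⟩

/-- the upper bound of the squeeze -/
theorem finrank_glued_Ebar_le (hRb : IsRigidPair N R1b R2b)
    (hfin1 : ∀ D : Divisor k F1, Module.Finite k (riemannRochSpace D))
    (hfin2 : ∀ D : Divisor k F2, Module.Finite k (riemannRochSpace D))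
    (hdeg1 : ∀ Q : Place k F1, Q.deg = 1) (hdeg2 : ∀ Q : Place k F2, Q.deg = 1) :
    Module.finrank k (Glued N (Ebar R1b Q1b) (Ebar R2b Q2b)) ≤ 2 * (g1 + m2) + 1 := by
  have h0 := finrank_glued_rigid_le_one hRb
  have hA := finrank_glued_add_sum_le N (∑ j, Finsupp.single (R1b j) (1 : ℤ))
    (∑ j, Finsupp.single (R2b j) (1 : ℤ)) hfin1 hfin2 hdeg1 hdeg2 Q1b Q2b
  have hB := finrank_glued_add_sum_le N
    ((∑ j, Finsupp.single (R1b j) (1 : ℤ)) + ∑ i, Finsupp.single (Q1b i) (1 : ℤ))
    ((∑ j, Finsupp.single (R2b j) (1 : ℤ)) + ∑ i, Finsupp.single (Q2b i) (1 : ℤ))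
    hfin1 hfin2 hdeg1 hdeg2 Q1b Q2b
  unfold Ebar
  omega

section Squeeze

variable [HasPrincipalDivisors L FL]
variable (hO : OrthoPair N) (hL : RiemannHyp L FL (g1 + m2))
variable (hQb : IsRigidPair N Q1b Q2b) (hRb : IsRigidPair N R1b R2b)
variable (hfin1 : ∀ D : Divisor k F1, Module.Finite k (riemannRochSpace D))
variable (hfin2 : ∀ D : Divisor k F2, Module.Finite k (riemannRochSpace D))
variable (hdeg1 : ∀ Q : Place k F1, Q.deg = 1) (hdeg2 : ∀ Q : Place k F2, Q.deg = 1)
variable (E : Divisor L FL) (hE : GoodSupp N E)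
variable (hdegE : Divisor.degree E = 3 * ((g1 + m2 : ℕ) : ℤ))
variable (hp1 : push1 N E = Ebar R1b Q1b) (hp2 : push2 N E = Ebar R2b Q2b)

include hO hL hRb hfin1 hfin2 hdeg1 hdeg2 hE hdegE hp1 hp2

/-- **the squeeze**, generic side: `ℓ_L(E) = 2 (g1 + m2) + 1` -/
theorem ell_E : ell E = 2 * (g1 + m2) + 1 := by
  have hfinL := hL.finite E
  have := hfin1 (push1 N E)
  have := hfin2 (push2 N E)
  have hfinG : Module.Finite k (Glued N (push1 N E) (push2 N E)) := finite_glued N _ _
  have hlow := riemann_ineq hL E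
  have hmid := ell_le_finrank_glued N hO E hE
  have hup := finrank_glued_Ebar_le (Q1b := Q1b) (Q2b := Q2b) hRb hfin1 hfin2 hdeg1 hdeg2
  rw [hp1, hp2] at hmid
  rw [hdegE] at hlow
  push_cast at hlow
  omega

/-- **the squeeze**, special side: `dim Glued(Ē₁, Ē₂) = 2 (g1 + m2) + 1` -/
theorem finrank_glued_Ebar :
    Module.finrank k (Glued N (Ebar R1b Q1b) (Ebar R2b Q2b)) = 2 * (g1 + m2) + 1 := by
  have hfinL := hL.finite E
  have := hfin1 (push1 N E)
  have := hfin2 (push2 N E)
  have hfinG : Module.Finite k (Glued N (push1 N E) (push2 N E)) := finite_glued N _ _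
  have hlow := riemann_ineq hL E
  have hmid := ell_le_finrank_glued N hO E hE
  have hup := finrank_glued_Ebar_le (Q1b := Q1b) (Q2b := Q2b) hRb hfin1 hfin2 hdeg1 hdeg2
  rw [hp1, hp2] at hmid
  rw [hdegE] at hlow
  push_cast at hlow
  omega

/-- **reduced basis of `L(E)`**: `2G + 1` elements of `O₁ ∩ O₂ ∩ L(E)` whose reduction pairs are
`k`-independent glued sections of `O(Ē)`; they span on both sides. -/
theorem exists_reduced_basis :
    ∃ φ : Fin (2 * (g1 + m2) + 1) → O12 N,
      (∀ a, ((φ a : O12 N) : FL) ∈ riemannRochSpace E) ∧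
      (∀ a, red12 N (φ a) ∈ Glued N (Ebar R1b Q1b) (Ebar R2b Q2b)) ∧
      LinearIndependent k (fun a => red12 N (φ a)) ∧
      LinearIndependent L (fun a => ((φ a : O12 N) : FL)) ∧
      Submodule.span L (Set.range fun a => ((φ a : O12 N) : FL)) = riemannRochSpace E ∧
      Submodule.span k (Set.range fun a => red12 N (φ a)) =
        Glued N (Ebar R1b Q1b) (Ebar R2b Q2b) := by
  have hfinL := hL.finite E
  have := hfin1 (Ebar R1b Q1b)
  have := hfin2 (Ebar R2b Q2b)
  have hfinG : Module.Finite k (Glued N (Ebar R1b Q1b) (Ebar R2b Q2b)) := finite_glued N _ _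
  obtain ⟨f, hfW, hli⟩ := hO (riemannRochSpace E)
  have hn : Module.finrank L (riemannRochSpace E) = 2 * (g1 + m2) + 1 :=
    ell_E hO hL hRb hfin1 hfin2 hdeg1 hdeg2 E hE hdegE hp1 hp2
  let e : Fin (2 * (g1 + m2) + 1) ≃ Fin (Module.finrank L (riemannRochSpace E)) :=
    finCongr hn.symm
  have hmem : ∀ a, red12 N (f (e a)) ∈ Glued N (Ebar R1b Q1b) (Ebar R2b Q2b) := by
    intro a
    have := red12_mem_glued N (f (e a)) E hE (hfW (e a))
    rwa [hp1, hp2] at this
  refine ⟨fun a => f (e a), fun a => hfW (e a), hmem, ?_, ?_, ?_, ?_⟩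
  · exact hli.comp e e.injective
  · exact linearIndependent_of_red12 N (fun a => f (e a)) (hli.comp e e.injective)
  · have hliL : LinearIndependent L (fun a => ((f (e a) : O12 N) : FL)) :=
      linearIndependent_of_red12 N (fun a => f (e a)) (hli.comp e e.injective)
    refine Submodule.eq_of_le_of_finrank_eq ?_ ?_
    · rw [Submodule.span_le]
      rintro _ ⟨a, rfl⟩
      exact hfW (e a)
    · rw [finrank_span_eq_card hliL, Fintype.card_fin, hn]
  · have hlik : LinearIndependent k (fun a => red12 N (f (e a))) := hli.comp e e.injective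
    refine Submodule.eq_of_le_of_finrank_eq ?_ ?_
    · rw [Submodule.span_le]
      rintro _ ⟨a, rfl⟩
      exact hmem a
    · rw [finrank_span_eq_card hlik, Fintype.card_fin]
      exact (finrank_glued_Ebar hO hL hRb hfin1 hfin2 hdeg1 hdeg2 E hE hdegE hp1 hp2).symm

end Squeeze

/-- **generic-fibre kernel**: an effective divisor supported in good discs whose push-forward is
a rigid pair has `ℓ = 1`. -/
theorem ell_of_push_rigid [HasPrincipalDivisors L FL] (hO : OrthoPair N)
    (hQb : IsRigidPair N Q1b Q2b)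
    (hfin1 : ∀ D : Divisor k F1, Module.Finite k (riemannRochSpace D))
    (hfin2 : ∀ D : Divisor k F2, Module.Finite k (riemannRochSpace D))
    (D : Divisor L FL) (hD : GoodSupp N D) (hD0 : 0 ≤ D)
    [Module.Finite L (riemannRochSpace D)]
    (hp1 : push1 N D = ∑ i, Finsupp.single (Q1b i) (1 : ℤ))
    (hp2 : push2 N D = ∑ j, Finsupp.single (Q2b j) (1 : ℤ)) : ell D = 1 := by
  have := hfin1 (push1 N D)
  have := hfin2 (push2 N D)
  have hfinG : Module.Finite k (Glued N (push1 N D) (push2 N D)) := finite_glued N _ _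
  have h1 := ell_le_finrank_glued N hO D hD
  rw [hp1, hp2] at h1
  have h2 := finrank_glued_rigid_le_one hQb
  have h3 : 1 ≤ ell D := by
    have hone : (1 : FL) ∈ riemannRochSpace D := one_mem_riemannRochSpace hD0
    have hne : (⟨1, hone⟩ : riemannRochSpace D) ≠ 0 := by
      intro h0
      exact one_ne_zero (congrArg Subtype.val h0)
    exact Module.finrank_pos_iff_exists_ne_zero.mpr ⟨_, hne⟩
  omega

/-! ### reduced bases normalised by `φ 0 = 1` -/

/-- the pair `(1, 1)` is a glued section of any effective pair of divisors -/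
theorem one_mem_glued {D1 : Divisor k F1} {D2 : Divisor k F2} (h1 : 0 ≤ D1) (h2 : 0 ≤ D2) :
    (1 : F1 × F2) ∈ Glued N D1 D2 := by
  have := const_mem_glued N h1 h2 1
  rwa [map_one, map_one] at this

/-- **reduced basis with `φ 0 = 1`** of `L(D)`, for an effective good-supported divisor `D` whose
`ℓ` does not jump under reduction (twin of `S19/InterpMulti.exists_reduced_basis_one`). -/
theorem exists_reduced_basis_one [HasPrincipalDivisors L FL] (hO : OrthoPair N)
    (D : Divisor L FL) (hD : GoodSupp N D) (hD0 : 0 ≤ D) (n : ℕ)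
    [Module.Finite L (riemannRochSpace D)]
    [Module.Finite k (Glued N (push1 N D) (push2 N D))]
    (hn : ell D = n + 1)
    (hn' : Module.finrank k (Glued N (push1 N D) (push2 N D)) = n + 1) :
    ∃ φ : Fin (n + 1) → O12 N,
      φ 0 = 1 ∧
      (∀ a, ((φ a : O12 N) : FL) ∈ riemannRochSpace D) ∧
      (∀ a, red12 N (φ a) ∈ Glued N (push1 N D) (push2 N D)) ∧
      LinearIndependent k (fun a => red12 N (φ a)) ∧
      LinearIndependent L (fun a => ((φ a : O12 N) : FL)) ∧
      Submodule.span L (Set.range fun a => ((φ a : O12 N) : FL)) = riemannRochSpace D ∧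
      Submodule.span k (Set.range fun a => red12 N (φ a))
        = Glued N (push1 N D) (push2 N D) := by
  classical
  obtain ⟨f₀, hfW₀, hli₀⟩ := hO (riemannRochSpace D)
  have hn0 : Module.finrank L (riemannRochSpace D) = n + 1 := hn
  let e : Fin (n + 1) ≃ Fin (Module.finrank L (riemannRochSpace D)) := finCongr hn0.symm
  set f : Fin (n + 1) → O12 N := fun a => f₀ (e a) with hf
  have hfW : ∀ a, ((f a : O12 N) : FL) ∈ riemannRochSpace D := fun a => hfW₀ (e a)
  have hli : LinearIndependent k (fun a => red12 N (f a)) := hli₀.comp e e.injective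
  have hfred : ∀ a, red12 N (f a) ∈ Glued N (push1 N D) (push2 N D) := fun a =>
    red12_mem_glued N (f a) D hD (hfW a)
  have hspan : Submodule.span k (Set.range fun a => red12 N (f a))
      = Glued N (push1 N D) (push2 N D) := by
    refine Submodule.eq_of_le_of_finrank_eq ?_ ?_
    · rw [Submodule.span_le]
      rintro _ ⟨a, rfl⟩
      exact hfred a
    · rw [finrank_span_eq_card hli, Fintype.card_fin]
      exact hn'.symm
  have hone : (1 : F1 × F2) ∈ Glued N (push1 N D) (push2 N D) :=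
    one_mem_glued (push1_nonneg N hD0) (push2_nonneg N hD0)
  have h1 : (1 : F1 × F2) ∈ Submodule.span k (Set.range fun a => red12 N (f a)) := by
    rw [hspan]
    exact hone
  obtain ⟨x, hx⟩ := (Submodule.mem_span_range_iff_exists_fun k).mp h1
  obtain ⟨a₀, ha₀⟩ : ∃ a₀, x a₀ ≠ 0 := by
    by_contra hne
    push Not at hne
    simp [hne] at hx
  set f' : Fin (n + 1) → O12 N := Function.update f a₀ 1 with hf'
  have hf'a₀ : f' a₀ = 1 := Function.update_self _ _ _
  have hf'ne : ∀ a, a ≠ a₀ → f' a = f a := fun a ha => Function.update_of_ne ha _ _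
  have hred' : (fun a => red12 N (f' a))
      = Function.update (fun a => red12 N (f a)) a₀ (∑ a, x a • red12 N (f a)) := by
    funext a
    rw [hx]
    by_cases ha : a = a₀
    · rw [ha, hf'a₀, map_one, Function.update_self]
    · rw [hf'ne a ha, Function.update_of_ne ha]
  have hli' : LinearIndependent k (fun a => red12 N (f' a)) := by
    rw [hred']
    exact Fermat.Agent.S19.InterpMulti.linearIndependent_update_sum _ hli x a₀ ha₀
  have hfW' : ∀ a, ((f' a : O12 N) : FL) ∈ riemannRochSpace D := by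
    intro a
    by_cases ha : a = a₀
    · rw [ha, hf'a₀]
      exact one_mem_riemannRochSpace hD0
    · rw [hf'ne a ha]
      exact hfW a
  have hfred' : ∀ a, red12 N (f' a) ∈ Glued N (push1 N D) (push2 N D) := by
    intro a
    by_cases ha : a = a₀
    · rw [ha, hf'a₀, map_one]
      exact hone
    · rw [hf'ne a ha]
      exact hfred a
  let σ : Fin (n + 1) ≃ Fin (n + 1) := Equiv.swap 0 a₀
  have hlik : LinearIndependent k (fun a => red12 N (f' (σ a))) := hli'.comp σ σ.injective
  have hliL : LinearIndependent L (fun a => ((f' (σ a) : O12 N) : FL)) :=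
    linearIndependent_of_red12 N (fun a => f' (σ a)) hlik
  refine ⟨fun a => f' (σ a), ?_, fun a => hfW' (σ a), fun a => hfred' (σ a), hlik, hliL, ?_, ?_⟩
  · show f' (σ 0) = 1
    rw [Equiv.swap_apply_left, hf'a₀]
  · refine Submodule.eq_of_le_of_finrank_eq ?_ ?_
    · rw [Submodule.span_le]
      rintro _ ⟨a, rfl⟩
      exact hfW' (σ a)
    · rw [finrank_span_eq_card hliL, Fintype.card_fin]
      exact hn0.symm
  · refine Submodule.eq_of_le_of_finrank_eq ?_ ?_
    · rw [Submodule.span_le]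
      rintro _ ⟨a, rfl⟩
      exact hfred' (σ a)
    · rw [finrank_span_eq_card hlik, Fintype.card_fin]
      exact hn'.symm

/-- the instance `D = E`, `n = 2 (g1 + m2)` of `exists_reduced_basis_one`: what the nodal
`NormBasis.exists_isNormalised` consumes. -/
theorem exists_reduced_basis_one_E [HasPrincipalDivisors L FL] (hO : OrthoPair N)
    (hL : RiemannHyp L FL (g1 + m2)) (hRb : IsRigidPair N R1b R2b)
    (hfin1 : ∀ D : Divisor k F1, Module.Finite k (riemannRochSpace D))
    (hfin2 : ∀ D : Divisor k F2, Module.Finite k (riemannRochSpace D))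
    (hdeg1 : ∀ Q : Place k F1, Q.deg = 1) (hdeg2 : ∀ Q : Place k F2, Q.deg = 1)
    (E : Divisor L FL) (hE : GoodSupp N E) (hE0 : 0 ≤ E)
    (hdegE : Divisor.degree E = 3 * ((g1 + m2 : ℕ) : ℤ))
    (hp1 : push1 N E = Ebar R1b Q1b) (hp2 : push2 N E = Ebar R2b Q2b) :
    ∃ φ : Fin (2 * (g1 + m2) + 1) → O12 N,
      φ 0 = 1 ∧
      (∀ a, ((φ a : O12 N) : FL) ∈ riemannRochSpace E) ∧
      (∀ a, red12 N (φ a) ∈ Glued N (Ebar R1b Q1b) (Ebar R2b Q2b)) ∧
      LinearIndependent k (fun a => red12 N (φ a)) ∧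
      LinearIndependent L (fun a => ((φ a : O12 N) : FL)) ∧
      Submodule.span L (Set.range fun a => ((φ a : O12 N) : FL)) = riemannRochSpace E ∧
      Submodule.span k (Set.range fun a => red12 N (φ a))
        = Glued N (Ebar R1b Q1b) (Ebar R2b Q2b) := by
  have hfinL := hL.finite E
  have := hfin1 (push1 N E)
  have := hfin2 (push2 N E)
  have hfinG : Module.Finite k (Glued N (push1 N E) (push2 N E)) := finite_glued N _ _
  have hn := ell_E hO hL hRb hfin1 hfin2 hdeg1 hdeg2 E hE hdegE hp1 hp2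
  have hn' := finrank_glued_Ebar hO hL hRb hfin1 hfin2 hdeg1 hdeg2 E hE hdegE hp1 hp2
  rw [← hp1, ← hp2] at hn'
  have := exists_reduced_basis_one hO E hE hE0 (2 * (g1 + m2)) hn hn'
  rwa [hp1, hp2] at this

end Fermat.Agent.S33.Nodal.Interp
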