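import Fermat.Agent.S19.Taylor
import Fermat.Agent.S34.NodalDisc

/-!
# PROJECT N (S33), route H8, slice [N1]: values and Taylor expansion on a residue disc of ONE
# smooth component of a nodal reduction (helper18)

The twin of `Fermat/Agent/S19/Taylor.lean` in the frame of `Fermat/Agent/S34/NodalDefs.lean`:
`R : SmoothRed A π FL Fk` is one component of the reduction, with its PARTIAL specialisation map
`R.r : Place L FL → Option (Place k Fk)` and the set `R.good` of generic places.  The frame-free
calculus of values (`Fermat.Agent.S19.Taylor.ValAt` and its lemmas, `valAt_taylorPoly`,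
`taylor_unique`) is reused from `S19/Taylor` as it stands.

For a good parameter `T` on the residue disc of a generic place `Q` (`IsGoodParam R T Q` of
`S34/NodalDisc`, which carries `Q ∈ R.good`) with zero `P0`:

* `taylor_step` : `y = c + T * y'` with `c ∈ A` the value at `P0` and `y'` again Gauss-integral
  and regular on the disc;
* `DiscParam.taylor_n` : the Taylor polynomial of order `n` with coefficients in `A` and a regular
  remainder;
* `DiscParam.ev_congr` : for every point `P` of the disc, `y(P) = ∑_{m<n} c_m T(P)^m + T(P)^n d`,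
  `d ∈ A`;
* `DiscParam.eq_of_valAt`, `DiscParam.exists_place_of_mem` : `P ↦ T(P)` is a bijection from the
  disc onto `𝔪_A`;
* `factor`, `DiscParam.recentre`, `DiscParam.recentreAt`, `DiscParam.valueAt`.
-/

set_option autoImplicit false
set_option linter.unusedSectionVars false
set_option linter.unusedVariables false

namespace Fermat.Agent.S33.Nodal.Taylor

open AlgebraicCurve Fermat.Agent.S24.Ord Fermat.Agent.S34.NodalDefs Fermat.Agent.S34.NodalDisc
open Fermat.Agent.S19.Taylor (ValAt valAt_const exists_valAt valAt_zero_iff valAt_sum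
  valAt_taylorPoly taylor_unique)

variable {L : Type*} [Field L] {FL : Type*} [Field FL] [Algebra L FL]
variable {k : Type*} [Field k] {Fk : Type*} [Field Fk] [Algebra k Fk]
variable {A : ValuationSubring L} {π : A →+* k}

/-- unfolding of `ValAt`, by `Iff.rfl` -/
theorem valAt_iff (P : Place L FL) (y : FL) (c : L) :
    ValAt P y c ↔ P.adicValuation (y - algebraMap L FL c) < 1 := Iff.rfl

/-! ### The Taylor step -/

section Step

variable [HasPrincipalDivisors L FL] (R : SmoothRed A π FL Fk)

/-- a value in `A` of a Gauss-integral function which is regular on the disc of a generic place -/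
theorem valAt_mem (y : R.O) (Q : Place k Fk) (hQ : Q ∈ R.good) (hreg : RegOn R.r (y : FL) Q)
    (P : Place L FL) (hP : R.r P = some Q) {c : L} (hc : ValAt P (y : FL) c) : c ∈ A :=
  value_mem' R y Q hQ hreg P hP c hc

/-- a value of a good parameter on its disc lies in `𝔪_A` -/
theorem valAt_param_mem {T : R.O} {Q : Place k Fk} (hT : IsGoodParam R T Q)
    (P : Place L FL) (hP : R.r P = some Q) {c : L} (hc : ValAt P (T : FL) c) :
    ∃ hcA : c ∈ A, (⟨c, hcA⟩ : A) ∈ IsLocalRing.maximalIdeal A :=
  hT.value_mem P hP c hc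

/-- **Taylor step.** `y = c + T * y'`, `c` the value of `y` at the zero `P0` of `T`. -/
theorem taylor_step {T : R.O} {Q : Place k Fk} (hT : IsGoodParam R T Q)
    (P0 : Place L FL) (hP0 : R.r P0 = some Q) (hP0deg : P0.deg = 1)
    (hz : P0.adicValuation (T : FL) < 1)
    (y : R.O) (hy : RegOn R.r (y : FL) Q) :
    ∃ (c : A) (y' : R.O), RegOn R.r (y' : FL) Q ∧ ValAt P0 (y : FL) (c : L) ∧
      (y : FL) = algebraMap L FL (c : L) + (T : FL) * (y' : FL) := by
  classical
  obtain ⟨c, hc⟩ := exists_valAt P0 hP0deg (hy P0 hP0)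
  have hcA : c ∈ A := valAt_mem R y Q hT.good hy P0 hP0 hc
  set uT : R.Oˣ := unitOfRed R.toBranch T hT.red_ne_zero with huT
  set y' : R.O := (y - constHom R.toBranch ⟨c, hcA⟩) * ((uT⁻¹ : R.Oˣ) : R.O) with hy'
  have hT0 : (T : FL) ≠ 0 := hT.coe_ne_zero
  have hy'coe : (y' : FL) = ((y : FL) - algebraMap L FL c) * ((T : FL))⁻¹ := by
    rw [hy']
    push_cast
    rw [coe_inv_unit R.toBranch, huT, coe_unitOfRed]
    simp
  refine ⟨⟨c, hcA⟩, y', ?_, hc, ?_⟩
  · -- regularity of the quotient
    intro P hP
    rw [hy'coe]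
    rcases eq_or_ne ((y : FL) - algebraMap L FL c) 0 with h0 | h0
    · rw [h0, zero_mul, map_zero]; exact zero_le_one
    · have hne : ((y : FL) - algebraMap L FL c) * ((T : FL))⁻¹ ≠ 0 :=
        mul_ne_zero h0 (inv_ne_zero hT0)
      rw [← ord_nonneg_iff P hne, P.ord_mul h0 (inv_ne_zero hT0), P.ord_inv,
        hT.ord_eq_ite hP0 hz P hP]
      have hreg : 0 ≤ P.ord ((y : FL) - algebraMap L FL c) :=
        (ord_nonneg_iff P h0).mpr ((hy.sub (regOn_const R.r c Q)) P hP)
      split_ifs with hPP
      · subst hPP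
        have : 0 < P.ord ((y : FL) - algebraMap L FL c) := (ord_pos_iff P h0).mpr hc
        omega
      · omega
  · rw [hy'coe]
    field_simp
    ring

end Step

/-! ### Taylor coefficients -/

section Coeff

variable [HasPrincipalDivisors L FL] (R : SmoothRed A π FL Fk)

/-- The data of a residue disc (over a generic place of the component `R`) with a good parameter
and its zero. -/
structure DiscParam (R : SmoothRed A π FL Fk) where
  /-- the centre of the disc on the component -/
  Q : Place k Fk
  /-- the parameter -/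
  T : R.O
  /-- it is a good parameter (in particular `Q ∈ R.good`) -/
  good : IsGoodParam R T Q
  /-- its zero -/
  P0 : Place L FL
  hP0 : R.r P0 = some Q
  deg_one : P0.deg = 1
  zero : P0.adicValuation (T : FL) < 1

variable {R}

/-- the centre of the disc is a generic place -/
theorem DiscParam.hQ (D : DiscParam R) : D.Q ∈ R.good := D.good.good

/-- Gauss-integral functions regular on the disc of `D` -/
def DiscParam.Reg (D : DiscParam R) : Type _ := {y : R.O // RegOn R.r (y : FL) D.Q}

/-- one Taylor step, by choice -/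
noncomputable def DiscParam.step (D : DiscParam R) (y : D.Reg) : A × D.Reg :=
  let h := taylor_step R D.good D.P0 D.hP0 D.deg_one D.zero y.1 y.2
  (h.choose, ⟨h.choose_spec.choose, h.choose_spec.choose_spec.1⟩)

theorem DiscParam.step_valAt (D : DiscParam R) (y : D.Reg) :
    ValAt D.P0 ((y.1 : R.O) : FL) ((D.step y).1 : L) :=
  (taylor_step R D.good D.P0 D.hP0 D.deg_one D.zero y.1 y.2).choose_spec.choose_spec.2.1

theorem DiscParam.step_eq (D : DiscParam R) (y : D.Reg) :
    ((y.1 : R.O) : FL) = algebraMap L FL ((D.step y).1 : L) +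
      (D.T : FL) * (((D.step y).2.1 : R.O) : FL) :=
  (taylor_step R D.good D.P0 D.hP0 D.deg_one D.zero y.1 y.2).choose_spec.choose_spec.2.2

/-- the `n`-th remainder -/
noncomputable def DiscParam.rem (D : DiscParam R) (y : D.Reg) : ℕ → D.Reg
  | 0 => y
  | n + 1 => (D.step (D.rem y n)).2

/-- the `n`-th Taylor coefficient of `y` at `P0` with respect to `T` -/
noncomputable def DiscParam.coeff (D : DiscParam R) (y : D.Reg) (n : ℕ) : A :=
  (D.step (D.rem y n)).1

theorem DiscParam.rem_zero (D : DiscParam R) (y : D.Reg) : D.rem y 0 = y := rfl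

theorem DiscParam.rem_succ (D : DiscParam R) (y : D.Reg) (n : ℕ) :
    D.rem y (n + 1) = (D.step (D.rem y n)).2 := rfl

theorem DiscParam.coeff_def (D : DiscParam R) (y : D.Reg) (n : ℕ) :
    D.coeff y n = (D.step (D.rem y n)).1 := rfl

/-- **Taylor expansion of order `n`** with coefficients in `A` and a regular remainder. -/
theorem DiscParam.taylor_n (D : DiscParam R) (y : D.Reg) (n : ℕ) :
    ((y.1 : R.O) : FL) = ∑ m ∈ Finset.range n, algebraMap L FL ((D.coeff y m : A) : L) * (D.T : FL) ^ m
      + (D.T : FL) ^ n * (((D.rem y n).1 : R.O) : FL) := by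
  induction n with
  | zero => simp [DiscParam.rem_zero]
  | succ n ih =>
    rw [Finset.sum_range_succ, ih]
    have h := D.step_eq (D.rem y n)
    rw [h, DiscParam.rem_succ, DiscParam.coeff_def]
    ring

/-- **Evaluation congruence**: at every point `P` of the disc, with `a = T(P)` and `b = y(P)`,
`b = ∑_{m<n} c_m a^m + a^n d` with `d ∈ A`. -/
theorem DiscParam.ev_congr (D : DiscParam R) (y : D.Reg) (n : ℕ) (P : Place L FL)
    (hP : R.r P = some D.Q) (hPdeg : P.deg = 1) (a b : L) (ha : ValAt P (D.T : FL) a)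
    (hb : ValAt P ((y.1 : R.O) : FL) b) :
    ∃ d : A, b = ∑ m ∈ Finset.range n, ((D.coeff y m : A) : L) * a ^ m + a ^ n * (d : L) := by
  obtain ⟨d, hd⟩ := exists_valAt P hPdeg ((D.rem y n).2 P hP)
  have hdA : d ∈ A := valAt_mem R (D.rem y n).1 D.Q D.hQ (D.rem y n).2 P hP hd
  refine ⟨⟨d, hdA⟩, ?_⟩
  have h1 := (valAt_taylorPoly P (D.T : FL) a ha (fun m => ((D.coeff y m : A) : L)) n).add
    ((ha.pow n).mul hd)
  rw [← D.taylor_n y n] at h1
  exact hb.unique h1

/-- the reduction of the Taylor expansion -/
theorem DiscParam.red_taylor (D : DiscParam R) (y : D.Reg) (n : ℕ) :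
    R.red y.1 = ∑ m ∈ Finset.range n, algebraMap k Fk (π (D.coeff y m)) * (R.red D.T) ^ m
      + (R.red D.T) ^ n * R.red (D.rem y n).1 := by
  have h : y.1 = ∑ m ∈ Finset.range n, constHom R.toBranch (D.coeff y m) * D.T ^ m
      + D.T ^ n * (D.rem y n).1 := by
    apply Subtype.ext
    rw [D.taylor_n y n]
    push_cast
    simp
  conv_lhs => rw [h]
  rw [map_add, map_sum, map_mul, map_pow]
  congr 1
  refine Finset.sum_congr rfl fun m _ => ?_
  rw [map_mul, map_pow, red_constHom]

theorem DiscParam.red_rem_regular (D : DiscParam R) (y : D.Reg) (n : ℕ) :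
    D.Q.adicValuation (R.red (D.rem y n).1) ≤ 1 :=
  red_regular R _ D.Q D.hQ (D.rem y n).2

theorem DiscParam.coeff_unique (D : DiscParam R) (y : D.Reg) (n : ℕ) (c : ℕ → L) (z : FL)
    (hz : D.P0.adicValuation z ≤ 1)
    (h : ((y.1 : R.O) : FL) = ∑ m ∈ Finset.range n, algebraMap L FL (c m) * (D.T : FL) ^ m
      + (D.T : FL) ^ n * z) :
    ∀ m < n, c m = ((D.coeff y m : A) : L) :=
  taylor_unique D.P0 (D.T : FL) D.good.coe_ne_zero D.zero n _ c _ z _ hz
    ((D.rem y n).2 D.P0 D.hP0) h (D.taylor_n y n)

/-- **Rationality of Taylor coefficients**: a pair of compatible ring endomorphisms of `L` and `FL`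
fixing the place `P0`, the parameter and the function fixes every Taylor coefficient. -/
theorem DiscParam.coeff_fixed (D : DiscParam R) (y : D.Reg) (sL : L →+* L) (sF : FL →+* FL)
    (hcomp : ∀ c : L, sF (algebraMap L FL c) = algebraMap L FL (sL c))
    (hP0 : ∀ z : FL, D.P0.adicValuation (sF z) = D.P0.adicValuation z)
    (hT : sF (D.T : FL) = (D.T : FL)) (hy : sF ((y.1 : R.O) : FL) = ((y.1 : R.O) : FL)) (m : ℕ) :
    sL ((D.coeff y m : A) : L) = ((D.coeff y m : A) : L) := by
  have h := congrArg sF (D.taylor_n y (m + 1))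
  rw [hy, map_add, map_sum, map_mul, map_pow, hT] at h
  have h' : ((y.1 : R.O) : FL) = ∑ i ∈ Finset.range (m + 1),
      algebraMap L FL (sL ((D.coeff y i : A) : L)) * (D.T : FL) ^ i +
        (D.T : FL) ^ (m + 1) * sF (((D.rem y (m + 1)).1 : R.O) : FL) := by
    rw [h]
    congr 1
    refine Finset.sum_congr rfl fun i _ => ?_
    rw [map_mul, map_pow, hT, hcomp]
  exact D.coeff_unique y (m + 1) (fun i => sL ((D.coeff y i : A) : L)) _
    (by rw [hP0]; exact (D.rem y (m + 1)).2 D.P0 D.hP0) h' m (Nat.lt_succ_self m)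

end Coeff

/-! ### The disc is parametrised by `𝔪_A` -/

section DiscBij

variable [HasPrincipalDivisors L FL] {R : SmoothRed A π FL Fk}

theorem coe_sub_constHom (T : R.O) (a : A) :
    ((T - constHom R.toBranch a : R.O) : FL) = (T : FL) - algebraMap L FL (a : L) := by
  push_cast; simp

/-- the value of the parameter at a point of the disc exists and lies in `𝔪_A` -/
theorem DiscParam.exists_valAt_param (D : DiscParam R) (P : Place L FL) (hP : R.r P = some D.Q)
    (hPdeg : P.deg = 1) :
    ∃ a : A, a ∈ IsLocalRing.maximalIdeal A ∧ ValAt P (D.T : FL) (a : L) := by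
  obtain ⟨c, hc⟩ := exists_valAt P hPdeg (D.good.reg P hP)
  obtain ⟨hcA, hcm⟩ := valAt_param_mem R D.good P hP hc
  exact ⟨⟨c, hcA⟩, hcm, hc⟩

/-- injectivity of `P ↦ T(P)` on the disc -/
theorem DiscParam.eq_of_valAt (D : DiscParam R) {P P' : Place L FL} (hP : R.r P = some D.Q)
    (hP' : R.r P' = some D.Q) {a : A} (ha : a ∈ IsLocalRing.maximalIdeal A)
    (h : ValAt P (D.T : FL) (a : L)) (h' : ValAt P' (D.T : FL) (a : L)) : P' = P := by
  classical
  have hg : IsGoodParam R (D.T - constHom R.toBranch a) D.Q := D.good.sub_const ha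
  have hz : P.adicValuation ((D.T - constHom R.toBranch a : R.O) : FL) < 1 := by
    rw [coe_sub_constHom]; exact h
  have hz' : P'.adicValuation ((D.T - constHom R.toBranch a : R.O) : FL) < 1 := by
    rw [coe_sub_constHom]; exact h'
  have hord := hg.ord_eq_ite hP hz P' hP'
  have hpos : 0 < P'.ord ((D.T - constHom R.toBranch a : R.O) : FL) :=
    (ord_pos_iff P' hg.coe_ne_zero).mpr hz'
  by_contra hne
  rw [if_neg hne] at hord
  omega

/-- surjectivity of `P ↦ T(P)` onto `𝔪_A` -/
theorem DiscParam.exists_place_of_mem (D : DiscParam R) (a : A)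
    (ha : a ∈ IsLocalRing.maximalIdeal A) :
    ∃ P : Place L FL, R.r P = some D.Q ∧ ValAt P (D.T : FL) (a : L) := by
  have hg : IsGoodParam R (D.T - constHom R.toBranch a) D.Q := D.good.sub_const ha
  obtain ⟨P, hP, h1, -⟩ := hg.exists_unique_zero
  refine ⟨P, hP, ?_⟩
  have : 0 < P.ord ((D.T - constHom R.toBranch a : R.O) : FL) := by rw [h1]; exact one_pos
  have hv := adicValuation_lt_one_of_ord_pos P this
  rw [coe_sub_constHom] at hv
  exact hv

/-- the zero of the parameter is the point with coordinate `0` -/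
theorem DiscParam.valAt_P0 (D : DiscParam R) : ValAt D.P0 (D.T : FL) 0 :=
  valAt_zero_iff.mpr D.zero

/-- re-centring: the same disc with the parameter `T - a` and its zero -/
noncomputable def DiscParam.recentre (D : DiscParam R) (hdegL : ∀ P : Place L FL, P.deg = 1)
    (a : A) (ha : a ∈ IsLocalRing.maximalIdeal A) : DiscParam R :=
  let h := D.exists_place_of_mem a ha
  { Q := D.Q
    T := D.T - constHom R.toBranch a
    good := D.good.sub_const ha
    P0 := h.choose
    hP0 := h.choose_spec.1
    deg_one := hdegL _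
    zero := by rw [coe_sub_constHom]; exact h.choose_spec.2 }

/-- **Factor lemma**: a function regular on the disc which vanishes at the point `P` of the
disc where `T` takes the value `a` is divisible by `T - a`, with a quotient regular on the disc. -/
theorem factor {T : R.O} {Q : Place k Fk} (hT : IsGoodParam R T Q) (y : R.O)
    (hy : RegOn R.r (y : FL) Q) (P : Place L FL) (hP : R.r P = some Q) (hPdeg : P.deg = 1) (a : A)
    (ha : ValAt P (T : FL) (a : L)) (h0 : ValAt P (y : FL) 0) :
    ∃ y1 : R.O, RegOn R.r (y1 : FL) Q ∧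
      (y : FL) = ((T : FL) - algebraMap L FL (a : L)) * (y1 : FL) := by
  obtain ⟨haA, ham⟩ := valAt_param_mem R hT P hP ha
  have ham' : a ∈ IsLocalRing.maximalIdeal A := ham
  have hg : IsGoodParam R (T - constHom R.toBranch a) Q := hT.sub_const ham'
  have hz : P.adicValuation ((T - constHom R.toBranch a : R.O) : FL) < 1 := by
    rw [coe_sub_constHom]; exact ha
  obtain ⟨c, y1, hy1, hc, heq⟩ := taylor_step R hg P hP hPdeg hz y hy
  have hc0 : (c : L) = 0 := hc.unique h0
  refine ⟨y1, hy1, ?_⟩
  rw [heq, hc0, map_zero, zero_add, coe_sub_constHom]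

/-- re-centring at a given point of the disc -/
noncomputable def DiscParam.recentreAt (D : DiscParam R) (P : Place L FL) (hP : R.r P = some D.Q)
    (hPdeg : P.deg = 1) : DiscParam R :=
  let h := D.exists_valAt_param P hP hPdeg
  { Q := D.Q
    T := D.T - constHom R.toBranch h.choose
    good := D.good.sub_const h.choose_spec.1
    P0 := P
    hP0 := hP
    deg_one := hPdeg
    zero := by rw [coe_sub_constHom]; exact h.choose_spec.2 }

/-- the value of `D.T` at `P`, as chosen by `recentreAt` -/
noncomputable def DiscParam.valueAt (D : DiscParam R) (P : Place L FL) (hP : R.r P = some D.Q)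
    (hPdeg : P.deg = 1) : A := (D.exists_valAt_param P hP hPdeg).choose

theorem DiscParam.valueAt_mem (D : DiscParam R) (P : Place L FL) (hP : R.r P = some D.Q)
    (hPdeg : P.deg = 1) : D.valueAt P hP hPdeg ∈ IsLocalRing.maximalIdeal A :=
  (D.exists_valAt_param P hP hPdeg).choose_spec.1

theorem DiscParam.valAt_valueAt (D : DiscParam R) (P : Place L FL) (hP : R.r P = some D.Q)
    (hPdeg : P.deg = 1) : ValAt P (D.T : FL) (D.valueAt P hP hPdeg : L) :=
  (D.exists_valAt_param P hP hPdeg).choose_spec.2

theorem DiscParam.recentreAt_T (D : DiscParam R) (P : Place L FL) (hP : R.r P = some D.Q)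
    (hPdeg : P.deg = 1) :
    (D.recentreAt P hP hPdeg).T = D.T - constHom R.toBranch (D.valueAt P hP hPdeg) := rfl

theorem DiscParam.recentreAt_Q (D : DiscParam R) (P : Place L FL) (hP : R.r P = some D.Q)
    (hPdeg : P.deg = 1) : (D.recentreAt P hP hPdeg).Q = D.Q := rfl

theorem DiscParam.recentreAt_P0 (D : DiscParam R) (P : Place L FL) (hP : R.r P = some D.Q)
    (hPdeg : P.deg = 1) : (D.recentreAt P hP hPdeg).P0 = P := rfl

end DiscBij

end Fermat.Agent.S33.Nodal.Taylor
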