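import Mathlib
import Fermat.Agent.S19.InterpDatum
import Fermat.Agent.S33.Nodal.Taylor
import Fermat.Agent.S33.Nodal.Interp

/-!
# PROJECT N (S33), route H8, slice [N1] (helper7): the nodal interpolation datum

Twin of the record `S19/InterpDatum.Datum` in the frame `N : GNodalDatum A π FL F1 F2 ι`: the chart
family and the auxiliary rigid family live on TWO branches (`g1` discs on the first, `m2` on the
second), each disc with its parameter and the zero of the parameter (`Taylor.DiscParam`).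

* `NDatum N g1 m2` : the record (`DQ1`, `DQ2` : the chart; `DR1`, `DR2` : the auxiliary family;
  both are rigid pairs; the centres of the chart and of the auxiliary family are distinct);
* accessors `Qb1 Qb2 Rb1 Rb2` (centres), `Q1 Q2 Rp1 Rp2` (lifts), `T1 T2 v1 v2` (parameters);
* `E = ∑ Rp + 2 ∑ Q` and the four facts consumed by `Nodal/Interp` : `goodSupp_E`, `degree_E`,
  `push1_E`, `push2_E` (in the `Interp.Ebar` shape), together with `E_nonneg`.
-/

set_option autoImplicit false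
set_option linter.unusedSectionVars false
set_option linter.unusedVariables false

noncomputable section

namespace Fermat.Agent.S33.Nodal.Datum

open AlgebraicCurve Fermat.Agent.S34.NodalDefs Fermat.Agent.S34.NodalDisc
open Fermat.Agent.S33.Nodal.Taylor Fermat.Agent.S33.Nodal.Glued Fermat.Agent.S33.Nodal.Rigid3
open Fermat.Agent.S33.Nodal.Interp
open Fermat.Agent.S19.InterpDatum (sum_single_nonneg' degree_sum_single')

variable {L : Type*} [Field L] {FL : Type*} [Field FL] [Algebra L FL]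
variable {k : Type*} [Field k] {F1 : Type*} [Field F1] [Algebra k F1]
  {F2 : Type*} [Field F2] [Algebra k F2]
variable {A : ValuationSubring L} {π : A →+* k} {ι : Type*}

/-- **The nodal interpolation datum**: chart at the origin (`DQ1`, `DQ2`) and auxiliary rigid
family (`DR1`, `DR2`), each disc with its parameter and the zero of the parameter. -/
structure NDatum (N : GNodalDatum A π FL F1 F2 ι) (g1 m2 : ℕ) where
  /-- the discs of the chart on the first branch -/
  DQ1 : Fin g1 → DiscParam N.R1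
  /-- the discs of the chart on the second branch -/
  DQ2 : Fin m2 → DiscParam N.R2
  /-- the discs of the auxiliary family on the first branch -/
  DR1 : Fin g1 → DiscParam N.R1
  /-- the discs of the auxiliary family on the second branch -/
  DR2 : Fin m2 → DiscParam N.R2
  rigidQ : IsRigidPair N (fun i => (DQ1 i).Q) (fun j => (DQ2 j).Q)
  rigidR : IsRigidPair N (fun i => (DR1 i).Q) (fun j => (DR2 j).Q)
  disj1 : ∀ i j, (DQ1 i).Q ≠ (DR1 j).Q
  disj2 : ∀ i j, (DQ2 i).Q ≠ (DR2 j).Q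

namespace NDatum

variable {N : GNodalDatum A π FL F1 F2 ι} {g1 m2 : ℕ} (d : NDatum N g1 m2)

/-! ### accessors -/

/-- centres of the chart, first branch -/
def Qb1 (i : Fin g1) : Place k F1 := (d.DQ1 i).Q
/-- centres of the chart, second branch -/
def Qb2 (j : Fin m2) : Place k F2 := (d.DQ2 j).Q
/-- centres of the auxiliary family, first branch -/
def Rb1 (i : Fin g1) : Place k F1 := (d.DR1 i).Q
/-- centres of the auxiliary family, second branch -/
def Rb2 (j : Fin m2) : Place k F2 := (d.DR2 j).Q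
/-- the origin of the chart, first branch -/
def Q1 (i : Fin g1) : Place L FL := (d.DQ1 i).P0
/-- the origin of the chart, second branch -/
def Q2 (j : Fin m2) : Place L FL := (d.DQ2 j).P0
/-- the lifts of the auxiliary family, first branch -/
def Rp1 (i : Fin g1) : Place L FL := (d.DR1 i).P0
/-- the lifts of the auxiliary family, second branch -/
def Rp2 (j : Fin m2) : Place L FL := (d.DR2 j).P0
/-- the parameters of the chart, first branch -/
def T1 (i : Fin g1) : N.R1.O := (d.DQ1 i).T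
/-- the parameters of the chart, second branch -/
def T2 (j : Fin m2) : N.R2.O := (d.DQ2 j).T
/-- the parameters of the auxiliary family, first branch -/
def v1 (i : Fin g1) : N.R1.O := (d.DR1 i).T
/-- the parameters of the auxiliary family, second branch -/
def v2 (j : Fin m2) : N.R2.O := (d.DR2 j).T

theorem hQ1 (i : Fin g1) : N.R1.r (d.Q1 i) = some (d.Qb1 i) := (d.DQ1 i).hP0
theorem hQ2 (j : Fin m2) : N.R2.r (d.Q2 j) = some (d.Qb2 j) := (d.DQ2 j).hP0
theorem hRp1 (i : Fin g1) : N.R1.r (d.Rp1 i) = some (d.Rb1 i) := (d.DR1 i).hP0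
theorem hRp2 (j : Fin m2) : N.R2.r (d.Rp2 j) = some (d.Rb2 j) := (d.DR2 j).hP0

theorem hT1 (i : Fin g1) : IsGoodParam N.R1 (d.T1 i) (d.Qb1 i) := (d.DQ1 i).good
theorem hT2 (j : Fin m2) : IsGoodParam N.R2 (d.T2 j) (d.Qb2 j) := (d.DQ2 j).good
theorem hv1 (i : Fin g1) : IsGoodParam N.R1 (d.v1 i) (d.Rb1 i) := (d.DR1 i).good
theorem hv2 (j : Fin m2) : IsGoodParam N.R2 (d.v2 j) (d.Rb2 j) := (d.DR2 j).good

theorem Qb1_good (i : Fin g1) : d.Qb1 i ∈ N.R1.good := (d.DQ1 i).good.good
theorem Qb2_good (j : Fin m2) : d.Qb2 j ∈ N.R2.good := (d.DQ2 j).good.good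
theorem Rb1_good (i : Fin g1) : d.Rb1 i ∈ N.R1.good := (d.DR1 i).good.good
theorem Rb2_good (j : Fin m2) : d.Rb2 j ∈ N.R2.good := (d.DR2 j).good.good

theorem rigidQ' : IsRigidPair N d.Qb1 d.Qb2 := d.rigidQ
theorem rigidR' : IsRigidPair N d.Rb1 d.Rb2 := d.rigidR

theorem Qb1_inj : Function.Injective d.Qb1 := d.rigidQ.inj1
theorem Qb2_inj : Function.Injective d.Qb2 := d.rigidQ.inj2
theorem Rb1_inj : Function.Injective d.Rb1 := d.rigidR.inj1
theorem Rb2_inj : Function.Injective d.Rb2 := d.rigidR.inj2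

theorem Q1_inj : Function.Injective d.Q1 := fun i i' h =>
  d.Qb1_inj (Option.some_injective _ (by rw [← d.hQ1 i, ← d.hQ1 i', h]))

theorem Q2_inj : Function.Injective d.Q2 := fun j j' h =>
  d.Qb2_inj (Option.some_injective _ (by rw [← d.hQ2 j, ← d.hQ2 j', h]))

theorem Rp1_inj : Function.Injective d.Rp1 := fun i i' h =>
  d.Rb1_inj (Option.some_injective _ (by rw [← d.hRp1 i, ← d.hRp1 i', h]))

theorem Rp2_inj : Function.Injective d.Rp2 := fun j j' h =>
  d.Rb2_inj (Option.some_injective _ (by rw [← d.hRp2 j, ← d.hRp2 j', h]))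

/-! ### the divisor `E` -/

/-- the part of `E` on the first branch, in the `Ebar` shape -/
def E1 : Divisor L FL :=
  (∑ j, Finsupp.single (d.Rp1 j) (1 : ℤ)) + (∑ i, Finsupp.single (d.Q1 i) (1 : ℤ)) +
    (∑ i, Finsupp.single (d.Q1 i) (1 : ℤ))

/-- the part of `E` on the second branch, in the `Ebar` shape -/
def E2 : Divisor L FL :=
  (∑ j, Finsupp.single (d.Rp2 j) (1 : ℤ)) + (∑ i, Finsupp.single (d.Q2 i) (1 : ℤ)) +
    (∑ i, Finsupp.single (d.Q2 i) (1 : ℤ))

/-- `E = R₀ + 2 D₀` on the generic fibre -/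
def E : Divisor L FL := d.E1 + d.E2

theorem E_def : d.E = d.E1 + d.E2 := rfl

theorem E1_nonneg : 0 ≤ d.E1 :=
  add_nonneg (add_nonneg (sum_single_nonneg' d.Rp1) (sum_single_nonneg' d.Q1))
    (sum_single_nonneg' d.Q1)

theorem E2_nonneg : 0 ≤ d.E2 :=
  add_nonneg (add_nonneg (sum_single_nonneg' d.Rp2) (sum_single_nonneg' d.Q2))
    (sum_single_nonneg' d.Q2)

theorem E_nonneg : 0 ≤ d.E := add_nonneg d.E1_nonneg d.E2_nonneg

theorem goodSupp_sum1 {n : ℕ} (Ps : Fin n → Place L FL) (Qs : Fin n → Place k F1)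
    (hQs : ∀ i, Qs i ∈ N.R1.good) (hPs : ∀ i, N.R1.r (Ps i) = some (Qs i)) :
    GoodSupp N (∑ i, Finsupp.single (Ps i) (1 : ℤ)) :=
  goodSupp_sum N _ _ fun i _ => goodSupp_single1 N (hQs i) (hPs i) 1

theorem goodSupp_sum2 {n : ℕ} (Ps : Fin n → Place L FL) (Qs : Fin n → Place k F2)
    (hQs : ∀ i, Qs i ∈ N.R2.good) (hPs : ∀ i, N.R2.r (Ps i) = some (Qs i)) :
    GoodSupp N (∑ i, Finsupp.single (Ps i) (1 : ℤ)) :=
  goodSupp_sum N _ _ fun i _ => goodSupp_single2 N (hQs i) (hPs i) 1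

theorem goodSupp_E1 : GoodSupp N d.E1 :=
  ((goodSupp_sum1 d.Rp1 d.Rb1 d.Rb1_good d.hRp1).add N
    (goodSupp_sum1 d.Q1 d.Qb1 d.Qb1_good d.hQ1)).add N
      (goodSupp_sum1 d.Q1 d.Qb1 d.Qb1_good d.hQ1)

theorem goodSupp_E2 : GoodSupp N d.E2 :=
  ((goodSupp_sum2 d.Rp2 d.Rb2 d.Rb2_good d.hRp2).add N
    (goodSupp_sum2 d.Q2 d.Qb2 d.Qb2_good d.hQ2)).add N
      (goodSupp_sum2 d.Q2 d.Qb2 d.Qb2_good d.hQ2)

/-- **(fact 1)** `E` is supported in good discs -/
theorem goodSupp_E : GoodSupp N d.E := d.goodSupp_E1.add N d.goodSupp_E2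

/-- **(fact 2)** `deg E = 3 (g1 + m2)` -/
theorem degree_E (hdegL : ∀ P : Place L FL, P.deg = 1) :
    Divisor.degree d.E = 3 * ((g1 + m2 : ℕ) : ℤ) := by
  unfold E E1 E2
  simp only [map_add, degree_sum_single' hdegL]
  push_cast
  ring

/-! ### push-forwards -/

theorem push1_sum_single1 {n : ℕ} (Ps : Fin n → Place L FL) (Qs : Fin n → Place k F1)
    (hPs : ∀ i, N.R1.r (Ps i) = some (Qs i)) :
    push1 N (∑ i, Finsupp.single (Ps i) (1 : ℤ)) = ∑ i, Finsupp.single (Qs i) (1 : ℤ) := by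
  rw [push1_sum]
  exact Finset.sum_congr rfl fun i _ => push1_single_of_some N (hPs i) 1

theorem push2_sum_single2 {n : ℕ} (Ps : Fin n → Place L FL) (Qs : Fin n → Place k F2)
    (hPs : ∀ i, N.R2.r (Ps i) = some (Qs i)) :
    push2 N (∑ i, Finsupp.single (Ps i) (1 : ℤ)) = ∑ i, Finsupp.single (Qs i) (1 : ℤ) := by
  rw [push2_sum]
  exact Finset.sum_congr rfl fun i _ => push2_single_of_some N (hPs i) 1

theorem push1_sum_single2 {n : ℕ} (Ps : Fin n → Place L FL) (Qs : Fin n → Place k F2)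
    (hPs : ∀ i, N.R2.r (Ps i) = some (Qs i)) :
    push1 N (∑ i, Finsupp.single (Ps i) (1 : ℤ)) = 0 := by
  rw [push1_sum]
  exact Finset.sum_eq_zero fun i _ => push1_single_of_some2 N (hPs i) 1

theorem push2_sum_single1 {n : ℕ} (Ps : Fin n → Place L FL) (Qs : Fin n → Place k F1)
    (hPs : ∀ i, N.R1.r (Ps i) = some (Qs i)) :
    push2 N (∑ i, Finsupp.single (Ps i) (1 : ℤ)) = 0 := by
  rw [push2_sum]
  exact Finset.sum_eq_zero fun i _ => push2_single_of_some1 N (hPs i) 1

theorem push1_E1 : push1 N d.E1 = Ebar d.Rb1 d.Qb1 := by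
  unfold E1 Ebar
  rw [push1_add, push1_add, push1_sum_single1 d.Rp1 d.Rb1 d.hRp1,
    push1_sum_single1 d.Q1 d.Qb1 d.hQ1]

theorem push2_E2 : push2 N d.E2 = Ebar d.Rb2 d.Qb2 := by
  unfold E2 Ebar
  rw [push2_add, push2_add, push2_sum_single2 d.Rp2 d.Rb2 d.hRp2,
    push2_sum_single2 d.Q2 d.Qb2 d.hQ2]

theorem push1_E2 : push1 N d.E2 = 0 := by
  unfold E2
  rw [push1_add, push1_add, push1_sum_single2 d.Rp2 d.Rb2 d.hRp2,
    push1_sum_single2 d.Q2 d.Qb2 d.hQ2]
  simp

theorem push2_E1 : push2 N d.E1 = 0 := by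
  unfold E1
  rw [push2_add, push2_add, push2_sum_single1 d.Rp1 d.Rb1 d.hRp1,
    push2_sum_single1 d.Q1 d.Qb1 d.hQ1]
  simp

/-- **(fact 3)** the push-forward of `E` to the first branch, in the `Ebar` shape -/
theorem push1_E : push1 N d.E = Ebar d.Rb1 d.Qb1 := by
  rw [E_def, push1_add, d.push1_E1, d.push1_E2, add_zero]

/-- **(fact 4)** the push-forward of `E` to the second branch, in the `Ebar` shape -/
theorem push2_E : push2 N d.E = Ebar d.Rb2 d.Qb2 := by
  rw [E_def, push2_add, d.push2_E1, d.push2_E2, zero_add]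

end NDatum

end Fermat.Agent.S33.Nodal.Datum
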