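import Mathlib
import Fermat.Agent.S33.Nodal.Rigid3

/-!
# PROJECT N (S33), route H8, [N1]: flip existence in the nodal frame

Twin of `S19/FlipExist` over `N : GNodalDatum A π FL F1 F2 ι`.

* `exists_flip` : for `E`, `M` supported in good discs with `deg (E - M) = g1 + m2` and
  `push (E - M)` a rigid pair `(∑ Q1, ∑ Q2)`, there is `w ∈ O₁ ∩ O₂`, a unit of BOTH Gauss rings
  with `red12 w = (1, 1)`, `w ∈ L(E - M)`, whose residual divisor `div w + E - M` is
  `∑ Ps1 + ∑ Ps2` with `Ps1 i`, `Ps2 j` in the discs of `Q1 i`, `Q2 j`;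
* `pi_coeffs_of_red12_eq_one` : coefficients of such a `w` in a family `1, φ a` with
  `k`-independent reduction PAIRS;
* `exists_flip_coeffs` : the flip function of the form `1 + ∑ ξ a • φ a`, `ξ a ∈ 𝔪_A`.
-/

set_option autoImplicit false
set_option linter.unusedSectionVars false
set_option linter.unusedVariables false

namespace Fermat.Agent.S33.Nodal.Flip

open AlgebraicCurve Fermat.Agent.S24.Ord Fermat.Agent.S34.NodalDefs Fermat.Agent.S34.NodalDisc
  Fermat.Agent.S33.Nodal.Glued Fermat.Agent.S33.Nodal.SemiCont Fermat.Agent.S33.Nodal.Rigid3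
  Fermat.Agent.S18.NonSpecial
open Fermat.Agent.S18.CoreDefs (RiemannGe)
open Fermat.Agent.S34.NodalCore (sum_single_apply_of_injective')
open Fermat.Agent.S18.CoreOrd (ord_const_mul ord_mul_const)

variable {L : Type*} [Field L] {FL : Type*} [Field FL] [Algebra L FL]
variable {k : Type*} [Field k] {F1 : Type*} [Field F1] [Algebra k F1]
  {F2 : Type*} [Field F2] [Algebra k F2]
variable {A : ValuationSubring L} {π : A →+* k} {ι : Type*}
variable {N : GNodalDatum A π FL F1 F2 ι}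
variable {g1 m2 : ℕ} {Q1 : Fin g1 → Place k F1} {Q2 : Fin m2 → Place k F2}

/-- a constant of `A` with nonzero residue is a unit of `A` -/
theorem isUnit_of_pi_ne_zero (R : Branch A π FL F1) {a : A} (ha : π a ≠ 0) : IsUnit a := by
  by_contra hnu
  exact ha ((pi_eq_zero_iff R a).mpr ((IsLocalRing.mem_maximalIdeal a).mpr hnu))

/-- **flip existence** in the nodal frame. -/
theorem exists_flip [HasPrincipalDivisors L FL] (hdegL : ∀ P : Place L FL, P.deg = 1)
    (hπ : Function.Surjective π) (hR : RiemannGe L FL (g1 + m2)) (hQ : IsRigidPair N Q1 Q2)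
    (E M : Divisor L FL) (hE : GoodSupp N E) (hM : GoodSupp N M)
    (hdeg : Divisor.degree (E - M) = ((g1 + m2 : ℕ) : ℤ))
    (h1 : push1 N (E - M) = ∑ i, Finsupp.single (Q1 i) (1 : ℤ))
    (h2 : push2 N (E - M) = ∑ j, Finsupp.single (Q2 j) (1 : ℤ)) :
    ∃ (w : O12 N) (Ps1 : Fin g1 → Place L FL) (Ps2 : Fin m2 → Place L FL),
      red12 N w = 1 ∧ IsUnit (incl1 N w) ∧ IsUnit (incl2 N w) ∧
      ((w : O12 N) : FL) ∈ riemannRochSpace (E - M) ∧
      (∀ i, N.R1.r (Ps1 i) = some (Q1 i)) ∧ (∀ j, N.R2.r (Ps2 j) = some (Q2 j)) ∧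
      ∀ P : Place L FL, ((∑ i, Finsupp.single (Ps1 i) (1 : ℤ)) +
          ∑ j, Finsupp.single (Ps2 j) (1 : ℤ)) P = P.ord ((w : O12 N) : FL) + E P - M P := by
  classical
  have hEM : GoodSupp N (E - M) := hE.sub N hM
  obtain ⟨f, hf, hfL⟩ := hR (E - M) (le_of_eq hdeg.symm)
  obtain ⟨c, hc, w0, hfw, hw0⟩ := exists_const_mul_O12 N f hf
  have hw0L : ((w0 : O12 N) : FL) ∈ riemannRochSpace (E - M) := by
    rw [mem_riemannRochSpace_iff]
    intro P
    rcases (mem_riemannRochSpace_iff.mp hfL) P with h | h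
    · exact absurd h hf
    · right
      rwa [hfw, ord_const_mul P hc] at h
  obtain ⟨γ, hγ0, hγ⟩ := exists_const_of_rigid hQ w0 hw0 (E - M) hEM hw0L h1 h2
  obtain ⟨a, rfl⟩ := hπ γ
  obtain ⟨au, rfl⟩ := isUnit_of_pi_ne_zero N.R1.toBranch hγ0
  -- divide by the constant
  set w : O12 N := const12 N ((au⁻¹ : Aˣ) : A) * w0 with hw
  have hπinv : π ((au⁻¹ : Aˣ) : A) * π (au : A) = 1 := by
    rw [← map_mul, Units.inv_mul, map_one]
  have hwred : red12 N w = 1 := by
    rw [hw, map_mul, red12_const12, hγ]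
    refine Prod.ext ?_ ?_
    · show algebraMap k F1 (π ((au⁻¹ : Aˣ) : A)) * algebraMap k F1 (π (au : A)) = 1
      rw [← map_mul, hπinv, map_one]
    · show algebraMap k F2 (π ((au⁻¹ : Aˣ) : A)) * algebraMap k F2 (π (au : A)) = 1
      rw [← map_mul, hπinv, map_one]
  have hred1 : N.R1.red (incl1 N w) = 1 := by
    have := congrArg Prod.fst hwred
    rwa [red12_fst] at this
  have hred2 : N.R2.red (incl2 N w) = 1 := by
    have := congrArg Prod.snd hwred
    rwa [red12_snd] at this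
  have hinv0 : (((au⁻¹ : Aˣ) : A) : L) ≠ 0 := by
    intro h
    have h1' : ((au⁻¹ : Aˣ) : A) = 0 := Subtype.ext h
    have := hπinv
    rw [h1', map_zero, zero_mul] at this
    exact zero_ne_one this
  have hwcoe : ((w : O12 N) : FL) = algebraMap L FL (((au⁻¹ : Aˣ) : A) : L) * ((w0 : O12 N) : FL) := rfl
  have hordw : ∀ P : Place L FL, P.ord ((w : O12 N) : FL) = P.ord ((w0 : O12 N) : FL) := by
    intro P
    rw [hwcoe, ord_const_mul P hinv0]
  have hw0ne : ((w0 : O12 N) : FL) ≠ 0 := by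
    intro h
    apply hw0
    have : w0 = 0 := Subtype.ext h
    rw [this, map_zero]
  have hwne : ((w : O12 N) : FL) ≠ 0 := by
    rw [hwcoe]
    exact mul_ne_zero ((map_ne_zero_iff _ (algebraMap L FL).injective).mpr hinv0) hw0ne
  have hwL : ((w : O12 N) : FL) ∈ riemannRochSpace (E - M) := by
    rw [mem_riemannRochSpace_iff]
    intro P
    right
    have h := ((mem_riemannRochSpace_iff.mp hw0L) P).resolve_left hw0ne
    rwa [hordw P]
  have hu1 : IsUnit (incl1 N w) :=
    (red_ne_zero_iff_isUnit N.R1.toBranch _).mp (by rw [hred1]; exact one_ne_zero)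
  have hu2 : IsUnit (incl2 N w) :=
    (red_ne_zero_iff_isUnit N.R2.toBranch _).mp (by rw [hred2]; exact one_ne_zero)
  -- the residual divisor
  obtain ⟨Dw, hDw, hDwdeg⟩ := HasPrincipalDivisors.exists_divisor (K := L) ((w : O12 N) : FL) hwne
  set Z : Divisor L FL := Dw + (E - M) with hZ
  have hZnn : ∀ P, 0 ≤ Z P := by
    intro P
    have h := ((mem_riemannRochSpace_iff.mp hwL) P).resolve_left hwne
    rw [hZ, Finsupp.add_apply, hDw P]
    omega
  have hZdeg : Divisor.degree Z = ((g1 + m2 : ℕ) : ℤ) := by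
    rw [hZ, map_add, hDwdeg, hdeg, zero_add]
  have hZ1 : ∀ i, push1 N Z (Q1 i) = 1 := by
    intro i
    have hc' := r_div N.R1 (incl1 N w) (by rw [hred1]; exact one_ne_zero) Dw hDw (Q1 i)
      (hQ.good1 i)
    rw [hred1, Place.ord_one] at hc'
    rw [hZ, push1_add, Finsupp.add_apply, push1_apply, hc', h1,
      sum_single_apply_of_injective' Q1 hQ.inj1, zero_add]
  have hZ2 : ∀ j, push2 N Z (Q2 j) = 1 := by
    intro j
    have hc' := r_div N.R2 (incl2 N w) (by rw [hred2]; exact one_ne_zero) Dw hDw (Q2 j)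
      (hQ.good2 j)
    rw [hred2, Place.ord_one] at hc'
    rw [hZ, push2_add, Finsupp.add_apply, push2_apply, hc', h2,
      sum_single_apply_of_injective' Q2 hQ.inj2, zero_add]
  obtain ⟨Ps1, Ps2, hPs1, hPs2, hZsum⟩ :=
    exists_points_of_push hdegL hQ.inj1 hQ.inj2 Z hZnn hZdeg hZ1 hZ2
  refine ⟨w, Ps1, Ps2, hwred, hu1, hu2, hwL, hPs1, hPs2, fun P => ?_⟩
  rw [← hZsum, hZ, Finsupp.add_apply, Finsupp.sub_apply, hDw P]
  ring

/-! ### coefficients of the flip function in a reduced basis -/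

section Coeffs

variable {κ : Type*} [Fintype κ]

/-- an element of `O₁ ∩ O₂` with reduction `(1, 1)`, written in a family `1, φ a` whose reduction
pairs are `k`-independent, has constant coefficient `≡ 1` and all other coefficients in `𝔪_A` -/
theorem pi_coeffs_of_red12_eq_one (φ : κ → O12 N)
    (hind : LinearIndependent k
      (Sum.elim (fun _ : Unit => (1 : F1 × F2)) (fun a => red12 N (φ a))))
    (u : O12 N) (hu : red12 N u = 1) (c0 : A) (c : κ → A)
    (h : ((u : O12 N) : FL) =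
      algebraMap L FL (c0 : L) + ∑ a, algebraMap L FL (c a : L) * ((φ a : O12 N) : FL)) :
    π c0 = 1 ∧ ∀ a, π (c a) = 0 := by
  classical
  have hO : u = const12 N c0 + ∑ a, const12 N (c a) * φ a := by
    apply Subtype.ext
    rw [h]
    push_cast
    rfl
  have hsmul : ∀ (x : k) (y : F1 × F2),
      ((algebraMap k F1 x, algebraMap k F2 x) : F1 × F2) * y = x • y := by
    intro x y
    refine Prod.ext ?_ ?_
    · simp [Algebra.smul_def]
    · simp [Algebra.smul_def]
  have hred0 : red12 N u = π c0 • (1 : F1 × F2) + ∑ a, π (c a) • red12 N (φ a) := by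
    rw [hO, map_add, map_sum, red12_const12]
    congr 1
    · rw [← hsmul, mul_one]
    · refine Finset.sum_congr rfl fun a _ => ?_
      rw [map_mul, red12_const12, hsmul]
  have hred : (1 : F1 × F2) = π c0 • (1 : F1 × F2) + ∑ a, π (c a) • red12 N (φ a) := by
    rw [← hred0, hu]
  set w : Unit ⊕ κ → k := Sum.elim (fun _ => π c0 - 1) (fun a => π (c a)) with hw
  have hrel : ∑ x, w x • (Sum.elim (fun _ : Unit => (1 : F1 × F2)) (fun a => red12 N (φ a))) x
      = 0 := by
    rw [Fintype.sum_sum_type]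
    simp only [hw, Sum.elim_inl, Sum.elim_inr, Finset.univ_unique, Finset.sum_singleton]
    rw [sub_smul, one_smul]
    rw [sub_add_eq_add_sub, sub_eq_zero]
    exact hred.symm
  have hz := Fintype.linearIndependent_iff.mp hind w hrel
  refine ⟨?_, fun a => ?_⟩
  · have := hz (Sum.inl ())
    simp only [hw, Sum.elim_inl] at this
    exact sub_eq_zero.mp this
  · have := hz (Sum.inr a)
    simpa only [hw, Sum.elim_inr] using this

/-- **flip existence with normalised coefficients** in the nodal frame: the flip function can be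
taken of the form `1 + ∑ ξ a • φ a` with `ξ a ∈ 𝔪_A`. -/
theorem exists_flip_coeffs [HasPrincipalDivisors L FL] (hdegL : ∀ P : Place L FL, P.deg = 1)
    (hπ : Function.Surjective π) (hR : RiemannGe L FL (g1 + m2)) (hQ : IsRigidPair N Q1 Q2)
    (E M : Divisor L FL) (hE : GoodSupp N E) (hM : GoodSupp N M) (hM0 : 0 ≤ M)
    (hdeg : Divisor.degree (E - M) = ((g1 + m2 : ℕ) : ℤ))
    (h1 : push1 N (E - M) = ∑ i, Finsupp.single (Q1 i) (1 : ℤ))
    (h2 : push2 N (E - M) = ∑ j, Finsupp.single (Q2 j) (1 : ℤ))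
    (φ : κ → O12 N)
    (hspan : ∀ f : O12 N, ((f : O12 N) : FL) ∈ riemannRochSpace E → ∃ (c0 : A) (c : κ → A),
      ((f : O12 N) : FL) =
        algebraMap L FL (c0 : L) + ∑ a, algebraMap L FL (c a : L) * ((φ a : O12 N) : FL))
    (hind : LinearIndependent k
      (Sum.elim (fun _ : Unit => (1 : F1 × F2)) (fun a => red12 N (φ a)))) :
    ∃ (w : O12 N) (ξ : κ → A) (Ps1 : Fin g1 → Place L FL) (Ps2 : Fin m2 → Place L FL),
      red12 N w = 1 ∧ IsUnit (incl1 N w) ∧ IsUnit (incl2 N w) ∧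
      (∀ a, ξ a ∈ IsLocalRing.maximalIdeal A) ∧
      ((w : O12 N) : FL) = 1 + ∑ a, algebraMap L FL (ξ a : L) * ((φ a : O12 N) : FL) ∧
      ((w : O12 N) : FL) ∈ riemannRochSpace (E - M) ∧
      (∀ i, N.R1.r (Ps1 i) = some (Q1 i)) ∧ (∀ j, N.R2.r (Ps2 j) = some (Q2 j)) ∧
      ∀ P : Place L FL, ((∑ i, Finsupp.single (Ps1 i) (1 : ℤ)) +
          ∑ j, Finsupp.single (Ps2 j) (1 : ℤ)) P = P.ord ((w : O12 N) : FL) + E P - M P := by
  classical
  obtain ⟨u, Ps1, Ps2, hu1, -, -, huL, hPs1, hPs2, hZ⟩ :=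
    exists_flip hdegL hπ hR hQ E M hE hM hdeg h1 h2
  have hle : E - M ≤ E := sub_le_self E hM0
  have huE : ((u : O12 N) : FL) ∈ riemannRochSpace E := riemannRochSpace_mono hle huL
  obtain ⟨c0, c, hc⟩ := hspan u huE
  obtain ⟨hπ0, hπc⟩ := pi_coeffs_of_red12_eq_one φ hind u hu1 c0 c hc
  have hπ0' : π c0 ≠ 0 := by rw [hπ0]; exact one_ne_zero
  obtain ⟨c0u, rfl⟩ := isUnit_of_pi_ne_zero N.R1.toBranch hπ0'
  have hπinv : π ((c0u⁻¹ : Aˣ) : A) = 1 := by
    have h : π ((c0u⁻¹ : Aˣ) : A) * π (c0u : A) = 1 := by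
      rw [← map_mul, Units.inv_mul, map_one]
    rwa [hπ0, mul_one] at h
  have hinvcoe : (((c0u⁻¹ : Aˣ) : A) : L) = ((c0u : A) : L)⁻¹ := by
    have h1' : ((c0u : A) : L) * (((c0u⁻¹ : Aˣ) : A) : L) = 1 := by
      have h2' : ((c0u : A) * ((c0u⁻¹ : Aˣ) : A) : A) = 1 := Units.mul_inv c0u
      exact congrArg (fun z : A => (z : L)) h2'
    exact eq_inv_of_mul_eq_one_right h1'
  have hc00 : ((c0u : A) : L) ≠ 0 := by
    intro h
    have h1' : (c0u : A) = 0 := Subtype.ext h
    rw [h1', map_zero] at hπ0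
    exact zero_ne_one hπ0
  set w : O12 N := const12 N ((c0u⁻¹ : Aˣ) : A) * u with hw
  have hwcoe : ((w : O12 N) : FL) = algebraMap L FL (((c0u⁻¹ : Aˣ) : A) : L) * ((u : O12 N) : FL) :=
    rfl
  have hinv0 : (((c0u⁻¹ : Aˣ) : A) : L) ≠ 0 := by rw [hinvcoe]; exact inv_ne_zero hc00
  have hordw : ∀ P : Place L FL, P.ord ((w : O12 N) : FL) = P.ord ((u : O12 N) : FL) := by
    intro P
    rw [hwcoe, ord_const_mul P hinv0]
  have hwred : red12 N w = 1 := by
    rw [hw, map_mul, red12_const12, hu1, hπinv, map_one, map_one, mul_one]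
    rfl
  have hred1 : N.R1.red (incl1 N w) = 1 := by
    have := congrArg Prod.fst hwred
    rwa [red12_fst] at this
  have hred2 : N.R2.red (incl2 N w) = 1 := by
    have := congrArg Prod.snd hwred
    rwa [red12_snd] at this
  set ξ : κ → A := fun a => c a * ((c0u⁻¹ : Aˣ) : A) with hξ
  have hune : ((u : O12 N) : FL) ≠ 0 := by
    intro h
    have : u = 0 := Subtype.ext h
    rw [this, map_zero] at hu1
    exact zero_ne_one hu1
  refine ⟨w, ξ, Ps1, Ps2, hwred,
    (red_ne_zero_iff_isUnit N.R1.toBranch _).mp (by rw [hred1]; exact one_ne_zero),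
    (red_ne_zero_iff_isUnit N.R2.toBranch _).mp (by rw [hred2]; exact one_ne_zero),
    fun a => ?_, ?_, ?_, hPs1, hPs2, fun P => ?_⟩
  · rw [← pi_eq_zero_iff N.R1.toBranch, hξ, map_mul, hπc a, zero_mul]
  · rw [hwcoe, hc, mul_add, Finset.mul_sum, hinvcoe, map_inv₀]
    have hA0 : algebraMap L FL ((c0u : A) : L) ≠ 0 :=
      (map_ne_zero_iff _ (algebraMap L FL).injective).mpr hc00
    congr 1
    · exact inv_mul_cancel₀ hA0
    · refine Finset.sum_congr rfl fun a _ => ?_
      have hξcoe : ((ξ a : A) : L) = ((c a : A) : L) * ((c0u : A) : L)⁻¹ := by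
        rw [← hinvcoe]
        rfl
      rw [hξcoe, map_mul, map_inv₀]
      ring
  · rw [mem_riemannRochSpace_iff]
    intro P
    right
    have h := ((mem_riemannRochSpace_iff.mp huL) P).resolve_left hune
    rwa [hordw P]
  · rw [hordw P, hZ P]

end Coeffs

end Fermat.Agent.S33.Nodal.Flip
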