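import Mathlib
import Fermat.Agent.S33.Nodal.AddLawAbs
import Fermat.Agent.S33.Nodal.Datum
import Fermat.Agent.S33.Nodal.Flip

/-!
# PROJECT N (S33), route H8, slice [N1] (helper7): the truncated addition law of the NODAL chart

Twin of `S19/AddLaw.exists_add_congr` in the frame `N : GNodalDatum A π FL F1 F2 ι`, for a nodal
interpolation datum `d : NDatum N g1 m2`:

* `ofBranch R D` : the abstract disc (`AddLawAbs.UDisc`) of a `Taylor.DiscParam` on one branch, and
  `ofBranch_isLawful` (the six primitives, from `S34/NodalDisc` and `Nodal/Taylor`);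
* `frame d` : the abstract frame of `d` over `Fin (g1 + m2)` (first branch first), `frame_isLawful`;
* `flipR`, `flipQ` : the two flips, from `Flip.exists_flip_coeffs`;
* `TaylorAt d φ D n`, `taylorAt_of_branches`;
* `exists_add_congr` : the truncated addition law at actual points, per-branch in and out, in the
  literal shape consumed by `Chart.NodalChart.coord_add_of_exists`.
-/

set_option autoImplicit false
set_option linter.unusedSectionVars false
set_option linter.unusedVariables false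

noncomputable section

namespace Fermat.Agent.S33.Nodal.AddLaw

open AlgebraicCurve Polynomial
open Fermat.Agent.S34.NodalDefs Fermat.Agent.S34.NodalDisc
open Fermat.Agent.S18.CoreDefs (RiemannGe)
open Fermat.Agent.S19.TruncAdd
open Fermat.Agent.S33.Nodal.Taylor (DiscParam coe_sub_constHom)
open Fermat.Agent.S33.Nodal.Glued Fermat.Agent.S33.Nodal.Rigid3 Fermat.Agent.S33.Nodal.Interp
open Fermat.Agent.S33.Nodal.Datum Fermat.Agent.S33.Nodal.AddLawAbs

variable {L : Type*} [Field L] {FL : Type*} [Field FL] [Algebra L FL]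
variable {k : Type*} [Field k]
variable {A : ValuationSubring L} {π : A →+* k}

/-! ### the abstract disc of a `DiscParam` -/

section OfBranch

variable {Fk : Type*} [Field Fk] [Algebra k Fk] (R : SmoothRed A π FL Fk) (D : DiscParam R)

/-- the abstract disc of a disc with parameter on one branch -/
def ofBranch : UDisc A FL where
  O := R.O.toSubring
  In := fun P => R.r P = some D.Q
  T := (D.T : FL)
  P0 := D.P0

@[simp] theorem ofBranch_T : (ofBranch R D).T = (D.T : FL) := rfl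
@[simp] theorem ofBranch_P0 : (ofBranch R D).P0 = D.P0 := rfl
theorem ofBranch_In (P : Place L FL) : (ofBranch R D).In P ↔ R.r P = some D.Q := Iff.rfl
theorem mem_ofBranch_O (y : FL) : y ∈ (ofBranch R D).O ↔ y ∈ R.O := Iff.rfl

theorem ofBranch_reg_iff (y : FL) :
    (ofBranch R D).Reg y ↔ ∃ y' : R.O, (y' : FL) = y ∧ RegOn R.r y D.Q :=
  ⟨fun h => ⟨⟨y, h.1⟩, rfl, h.2⟩, fun ⟨y', hy', h⟩ => ⟨hy' ▸ y'.2, h⟩⟩

theorem ofBranch_reg (y : R.O) (hy : RegOn R.r (y : FL) D.Q) : (ofBranch R D).Reg (y : FL) :=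
  ⟨y.2, hy⟩

/-- the six primitives -/
theorem ofBranch_isLawful [HasPrincipalDivisors L FL] (hdegL : ∀ P : Place L FL, P.deg = 1) :
    (ofBranch R D).IsLawful where
  const_mem := fun a => R.algebraMap_mem a
  T_reg := ⟨D.T.2, D.good.reg⟩
  hP0 := D.hP0
  zero := Fermat.Agent.S19.AddLaw.valAt_zero_of_lt D.zero
  exists_valAt := fun y hy P hP => by
    obtain ⟨c, hc⟩ := Fermat.Agent.S19.AddLaw.exists_valAt (hdegL P) (hy.2 P hP)
    exact ⟨⟨c, value_mem' R ⟨y, hy.1⟩ D.Q D.good.good hy.2 P hP c hc⟩, hc⟩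
  value_mem := fun P hP c hc => by
    obtain ⟨hcA, hm⟩ := D.good.value_mem P hP (c : L) hc
    exact hm
  ord_sub := fun P hP a ha P' hP' inst => by
    obtain ⟨haA, ham⟩ := D.good.value_mem P hP (a : L) ha
    have ham' : a ∈ IsLocalRing.maximalIdeal A := ham
    have hg := D.good.sub_const ham'
    have hz : P.adicValuation ((D.T - constHom R.toBranch a : R.O) : FL) < 1 := by
      rw [coe_sub_constHom]; exact ha
    have := hg.ord_eq_ite hP hz P' hP'
    rwa [coe_sub_constHom] at this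
  factor := fun y hy P hP a ha h0 => by
    obtain ⟨y1, hy1, heq⟩ :=
      Fermat.Agent.S33.Nodal.Taylor.factor D.good ⟨y, hy.1⟩ hy.2 P hP (hdegL P) a ha h0
    exact ⟨(y1 : FL), ⟨y1.2, hy1⟩, heq⟩

end OfBranch

/-! ### the values of `E` on the discs of the datum -/

variable {F1 : Type*} [Field F1] [Algebra k F1] {F2 : Type*} [Field F2] [Algebra k F2]
variable {ι : Type*} {N : GNodalDatum A π FL F1 F2 ι} {g1 m2 : ℕ}

section EValues

open Fermat.Agent.S33.Nodal.AddLawAbs.Frame (sum_single_disc sum_single_other)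

variable (d : NDatum N g1 m2)

theorem sum1_apply_disc {n : ℕ} (Qs : Fin n → Place k F1) (hQs : Function.Injective Qs)
    (Ps : Fin n → Place L FL) (hPs : ∀ i, N.R1.r (Ps i) = some (Qs i)) (i : Fin n)
    (P : Place L FL) (hP : N.R1.r P = some (Qs i)) [Decidable (P = Ps i)] :
    (∑ j, Finsupp.single (Ps j) (1 : ℤ)) P = if P = Ps i then 1 else 0 :=
  sum_single_disc (fun j P => N.R1.r P = some (Qs j))
    (fun j j' P h h' => hQs (Option.some_injective _ (h.symm.trans h'))) Ps hPs i P hP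

theorem sum2_apply_disc {n : ℕ} (Qs : Fin n → Place k F2) (hQs : Function.Injective Qs)
    (Ps : Fin n → Place L FL) (hPs : ∀ i, N.R2.r (Ps i) = some (Qs i)) (i : Fin n)
    (P : Place L FL) (hP : N.R2.r P = some (Qs i)) [Decidable (P = Ps i)] :
    (∑ j, Finsupp.single (Ps j) (1 : ℤ)) P = if P = Ps i then 1 else 0 :=
  sum_single_disc (fun j P => N.R2.r P = some (Qs j))
    (fun j j' P h h' => hQs (Option.some_injective _ (h.symm.trans h'))) Ps hPs i P hP

theorem sum1_apply_other {n : ℕ} (Qs : Fin n → Place k F1)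
    (Ps : Fin n → Place L FL) (hPs : ∀ i, N.R1.r (Ps i) = some (Qs i))
    (P : Place L FL) (hP : ∀ j, N.R1.r P ≠ some (Qs j)) :
    (∑ j, Finsupp.single (Ps j) (1 : ℤ)) P = 0 :=
  sum_single_other (fun j P => N.R1.r P = some (Qs j)) Ps hPs P hP

theorem sum2_apply_other {n : ℕ} (Qs : Fin n → Place k F2)
    (Ps : Fin n → Place L FL) (hPs : ∀ i, N.R2.r (Ps i) = some (Qs i))
    (P : Place L FL) (hP : ∀ j, N.R2.r P ≠ some (Qs j)) :
    (∑ j, Finsupp.single (Ps j) (1 : ℤ)) P = 0 :=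
  sum_single_other (fun j P => N.R2.r P = some (Qs j)) Ps hPs P hP

/-- `E2` vanishes on every disc of the first branch -/
theorem E2_apply_of_some1 (P : Place L FL) {Q : Place k F1} (hP : N.R1.r P = some Q) :
    d.E2 P = 0 := by
  have h : ∀ Q' : Place k F2, N.R2.r P ≠ some Q' := fun Q' h' => N.excl P Q Q' hP h'
  unfold NDatum.E2
  rw [Finsupp.add_apply, Finsupp.add_apply,
    sum2_apply_other d.Rb2 d.Rp2 d.hRp2 P (fun j => h _),
    sum2_apply_other d.Qb2 d.Q2 d.hQ2 P (fun j => h _)]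
  rfl

/-- `E1` vanishes on every disc of the second branch -/
theorem E1_apply_of_some2 (P : Place L FL) {Q : Place k F2} (hP : N.R2.r P = some Q) :
    d.E1 P = 0 := by
  have h : ∀ Q' : Place k F1, N.R1.r P ≠ some Q' := fun Q' h' => N.excl P Q' Q h' hP
  unfold NDatum.E1
  rw [Finsupp.add_apply, Finsupp.add_apply,
    sum1_apply_other d.Rb1 d.Rp1 d.hRp1 P (fun j => h _),
    sum1_apply_other d.Qb1 d.Q1 d.hQ1 P (fun j => h _)]
  rfl

theorem E_apply_disc_Q1 (i : Fin g1) (P : Place L FL) (hP : N.R1.r P = some (d.Qb1 i))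
    [inst : Decidable (P = d.Q1 i)] : d.E P = if P = d.Q1 i then 2 else 0 := by
  rw [NDatum.E_def, Finsupp.add_apply, E2_apply_of_some1 d P hP, add_zero]
  unfold NDatum.E1
  rw [Finsupp.add_apply, Finsupp.add_apply,
    sum1_apply_other d.Rb1 d.Rp1 d.hRp1 P (fun j h => d.disj1 i j
      (Option.some_injective _ (hP.symm.trans h))),
    sum1_apply_disc d.Qb1 d.Qb1_inj d.Q1 d.hQ1 i P hP]
  split_ifs <;> rfl

theorem E_apply_disc_Q2 (j : Fin m2) (P : Place L FL) (hP : N.R2.r P = some (d.Qb2 j))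
    [inst : Decidable (P = d.Q2 j)] : d.E P = if P = d.Q2 j then 2 else 0 := by
  rw [NDatum.E_def, Finsupp.add_apply, E1_apply_of_some2 d P hP, zero_add]
  unfold NDatum.E2
  rw [Finsupp.add_apply, Finsupp.add_apply,
    sum2_apply_other d.Rb2 d.Rp2 d.hRp2 P (fun j' h => d.disj2 j j'
      (Option.some_injective _ (hP.symm.trans h))),
    sum2_apply_disc d.Qb2 d.Qb2_inj d.Q2 d.hQ2 j P hP]
  split_ifs <;> rfl

theorem E_apply_disc_R1 (i : Fin g1) (P : Place L FL) (hP : N.R1.r P = some (d.Rb1 i))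
    [inst : Decidable (P = d.Rp1 i)] : d.E P = if P = d.Rp1 i then 1 else 0 := by
  rw [NDatum.E_def, Finsupp.add_apply, E2_apply_of_some1 d P hP, add_zero]
  unfold NDatum.E1
  rw [Finsupp.add_apply, Finsupp.add_apply,
    sum1_apply_other d.Qb1 d.Q1 d.hQ1 P (fun i' h => d.disj1 i' i
      (Option.some_injective _ (hP.symm.trans h)).symm),
    sum1_apply_disc d.Rb1 d.Rb1_inj d.Rp1 d.hRp1 i P hP]
  split_ifs <;> rfl

theorem E_apply_disc_R2 (j : Fin m2) (P : Place L FL) (hP : N.R2.r P = some (d.Rb2 j))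
    [inst : Decidable (P = d.Rp2 j)] : d.E P = if P = d.Rp2 j then 1 else 0 := by
  rw [NDatum.E_def, Finsupp.add_apply, E1_apply_of_some2 d P hP, zero_add]
  unfold NDatum.E2
  rw [Finsupp.add_apply, Finsupp.add_apply,
    sum2_apply_other d.Qb2 d.Q2 d.hQ2 P (fun j' h => d.disj2 j' j
      (Option.some_injective _ (hP.symm.trans h)).symm),
    sum2_apply_disc d.Rb2 d.Rb2_inj d.Rp2 d.hRp2 j P hP]
  split_ifs <;> rfl

end EValues

/-! ### the abstract frame of a nodal datum -/

section FrameOf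

variable (d : NDatum N g1 m2)

/-- the abstract frame of `d` over `Fin (g1 + m2)`, first branch first -/
def frame : Frame A FL (g1 + m2) where
  dQ := Fin.append (fun i => ofBranch N.R1 (d.DQ1 i)) (fun j => ofBranch N.R2 (d.DQ2 j))
  dR := Fin.append (fun i => ofBranch N.R1 (d.DR1 i)) (fun j => ofBranch N.R2 (d.DR2 j))
  E := d.E

@[simp] theorem frame_dQ_left (i : Fin g1) :
    (frame d).dQ (Fin.castAdd m2 i) = ofBranch N.R1 (d.DQ1 i) :=
  Fin.append_left (fun i => ofBranch N.R1 (d.DQ1 i)) (fun j => ofBranch N.R2 (d.DQ2 j)) i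

@[simp] theorem frame_dQ_right (j : Fin m2) :
    (frame d).dQ (Fin.natAdd g1 j) = ofBranch N.R2 (d.DQ2 j) :=
  Fin.append_right (fun i => ofBranch N.R1 (d.DQ1 i)) (fun j => ofBranch N.R2 (d.DQ2 j)) j

@[simp] theorem frame_dR_left (i : Fin g1) :
    (frame d).dR (Fin.castAdd m2 i) = ofBranch N.R1 (d.DR1 i) :=
  Fin.append_left (fun i => ofBranch N.R1 (d.DR1 i)) (fun j => ofBranch N.R2 (d.DR2 j)) i

@[simp] theorem frame_dR_right (j : Fin m2) :
    (frame d).dR (Fin.natAdd g1 j) = ofBranch N.R2 (d.DR2 j) :=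
  Fin.append_right (fun i => ofBranch N.R1 (d.DR1 i)) (fun j => ofBranch N.R2 (d.DR2 j)) j

@[simp] theorem frame_E : (frame d).E = d.E := rfl

theorem frame_isLawful [HasPrincipalDivisors L FL] (hdegL : ∀ P : Place L FL, P.deg = 1) :
    (frame d).IsLawful where
  lawQ := fun i => by
    refine Fin.addCases (fun i => ?_) (fun j => ?_) i
    · rw [frame_dQ_left]; exact ofBranch_isLawful N.R1 _ hdegL
    · rw [frame_dQ_right]; exact ofBranch_isLawful N.R2 _ hdegL
  lawR := fun i => by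
    refine Fin.addCases (fun i => ?_) (fun j => ?_) i
    · rw [frame_dR_left]; exact ofBranch_isLawful N.R1 _ hdegL
    · rw [frame_dR_right]; exact ofBranch_isLawful N.R2 _ hdegL
  disjQQ := fun i i' P => by
    refine Fin.addCases (fun i => ?_) (fun j => ?_) i <;>
      refine Fin.addCases (fun i' => ?_) (fun j' => ?_) i'
    · rw [frame_dQ_left, frame_dQ_left]
      intro h h'
      rw [d.Qb1_inj (Option.some_injective _ (h.symm.trans h'))]
    · rw [frame_dQ_left, frame_dQ_right]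
      intro h h'
      exact (N.excl P _ _ h h').elim
    · rw [frame_dQ_right, frame_dQ_left]
      intro h h'
      exact (N.excl P _ _ h' h).elim
    · rw [frame_dQ_right, frame_dQ_right]
      intro h h'
      rw [d.Qb2_inj (Option.some_injective _ (h.symm.trans h'))]
  disjRR := fun i i' P => by
    refine Fin.addCases (fun i => ?_) (fun j => ?_) i <;>
      refine Fin.addCases (fun i' => ?_) (fun j' => ?_) i'
    · rw [frame_dR_left, frame_dR_left]
      intro h h'
      rw [d.Rb1_inj (Option.some_injective _ (h.symm.trans h'))]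
    · rw [frame_dR_left, frame_dR_right]
      intro h h'
      exact (N.excl P _ _ h h').elim
    · rw [frame_dR_right, frame_dR_left]
      intro h h'
      exact (N.excl P _ _ h' h).elim
    · rw [frame_dR_right, frame_dR_right]
      intro h h'
      rw [d.Rb2_inj (Option.some_injective _ (h.symm.trans h'))]
  disjQR := fun i i' P => by
    refine Fin.addCases (fun i => ?_) (fun j => ?_) i <;>
      refine Fin.addCases (fun i' => ?_) (fun j' => ?_) i'
    · rw [frame_dQ_left, frame_dR_left]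
      intro h h'
      exact d.disj1 i i' (Option.some_injective _ (h.symm.trans h'))
    · rw [frame_dQ_left, frame_dR_right]
      intro h h'
      exact N.excl P _ _ h h'
    · rw [frame_dQ_right, frame_dR_left]
      intro h h'
      exact N.excl P _ _ h' h
    · rw [frame_dQ_right, frame_dR_right]
      intro h h'
      exact d.disj2 j j' (Option.some_injective _ (h.symm.trans h'))
  E_Q := fun i P => by
    refine Fin.addCases (fun i => ?_) (fun j => ?_) i
    · rw [frame_dQ_left]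
      intro h inst
      exact E_apply_disc_Q1 d i P h (inst := inst)
    · rw [frame_dQ_right]
      intro h inst
      exact E_apply_disc_Q2 d j P h (inst := inst)
  E_R := fun i P => by
    refine Fin.addCases (fun i => ?_) (fun j => ?_) i
    · rw [frame_dR_left]
      intro h inst
      exact E_apply_disc_R1 d i P h (inst := inst)
    · rw [frame_dR_right]
      intro h inst
      exact E_apply_disc_R2 d j P h (inst := inst)

end FrameOf

/-! ### the two flips -/

section Flips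

open Fermat.Agent.S19.InterpDatum (sum_single_nonneg' degree_sum_single')

variable (d : NDatum N g1 m2)

/-- basis functions in `O₁ ∩ O₂` are integral on every branch -/
theorem basisInt (φ : Idx (g1 + m2) → O12 N) :
    (frame d).BasisInt (fun a => ((φ a : O12 N) : FL)) := by
  refine ⟨fun a i => ?_, fun a i => ?_⟩
  · refine Fin.addCases (fun i => ?_) (fun j => ?_) i
    · rw [frame_dQ_left]; exact ((mem_O12 N).mp (φ a).2).1
    · rw [frame_dQ_right]; exact ((mem_O12 N).mp (φ a).2).2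
  · refine Fin.addCases (fun i => ?_) (fun j => ?_) i
    · rw [frame_dR_left]; exact ((mem_O12 N).mp (φ a).2).1
    · rw [frame_dR_right]; exact ((mem_O12 N).mp (φ a).2).2

theorem sum_single_split (P : Fin (g1 + m2) → Place L FL) :
    (∑ i, Finsupp.single (P i) (1 : ℤ)) =
      (∑ i : Fin g1, Finsupp.single (P (Fin.castAdd m2 i)) (1 : ℤ)) +
        ∑ j : Fin m2, Finsupp.single (P (Fin.natAdd g1 j)) (1 : ℤ) :=
  Fin.sum_univ_add _

variable {d}

theorem inQ_left {P : Fin (g1 + m2) → Place L FL} (hP : ∀ i, ((frame d).dQ i).In (P i))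
    (i : Fin g1) : N.R1.r (P (Fin.castAdd m2 i)) = some (d.Qb1 i) := by
  have := hP (Fin.castAdd m2 i)
  rwa [frame_dQ_left] at this

theorem inQ_right {P : Fin (g1 + m2) → Place L FL} (hP : ∀ i, ((frame d).dQ i).In (P i))
    (j : Fin m2) : N.R2.r (P (Fin.natAdd g1 j)) = some (d.Qb2 j) := by
  have := hP (Fin.natAdd g1 j)
  rwa [frame_dQ_right] at this

theorem inR_left {P : Fin (g1 + m2) → Place L FL} (hP : ∀ i, ((frame d).dR i).In (P i))
    (i : Fin g1) : N.R1.r (P (Fin.castAdd m2 i)) = some (d.Rb1 i) := by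
  have := hP (Fin.castAdd m2 i)
  rwa [frame_dR_left] at this

theorem inR_right {P : Fin (g1 + m2) → Place L FL} (hP : ∀ i, ((frame d).dR i).In (P i))
    (j : Fin m2) : N.R2.r (P (Fin.natAdd g1 j)) = some (d.Rb2 j) := by
  have := hP (Fin.natAdd g1 j)
  rwa [frame_dR_right] at this

theorem inQ_of_branches {P : Fin (g1 + m2) → Place L FL}
    (h1 : ∀ i, N.R1.r (P (Fin.castAdd m2 i)) = some (d.Qb1 i))
    (h2 : ∀ j, N.R2.r (P (Fin.natAdd g1 j)) = some (d.Qb2 j)) (i : Fin (g1 + m2)) :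
    ((frame d).dQ i).In (P i) := by
  refine Fin.addCases (fun i => ?_) (fun j => ?_) i
  · rw [frame_dQ_left]; exact h1 i
  · rw [frame_dQ_right]; exact h2 j

theorem inR_of_branches {P : Fin (g1 + m2) → Place L FL}
    (h1 : ∀ i, N.R1.r (P (Fin.castAdd m2 i)) = some (d.Rb1 i))
    (h2 : ∀ j, N.R2.r (P (Fin.natAdd g1 j)) = some (d.Rb2 j)) (i : Fin (g1 + m2)) :
    ((frame d).dR i).In (P i) := by
  refine Fin.addCases (fun i => ?_) (fun j => ?_) i
  · rw [frame_dR_left]; exact h1 i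
  · rw [frame_dR_right]; exact h2 j

/-- a family with one point in each disc of a pair of families of good places: good support,
degree, push-forwards -/
theorem family_facts (X1 : Fin g1 → Place k F1) (X2 : Fin m2 → Place k F2)
    (hX1 : ∀ i, X1 i ∈ N.R1.good) (hX2 : ∀ j, X2 j ∈ N.R2.good)
    (P : Fin (g1 + m2) → Place L FL)
    (h1 : ∀ i, N.R1.r (P (Fin.castAdd m2 i)) = some (X1 i))
    (h2 : ∀ j, N.R2.r (P (Fin.natAdd g1 j)) = some (X2 j)) :
    GoodSupp N (∑ i, Finsupp.single (P i) (1 : ℤ)) ∧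
    push1 N (∑ i, Finsupp.single (P i) (1 : ℤ)) = ∑ i, Finsupp.single (X1 i) (1 : ℤ) ∧
    push2 N (∑ i, Finsupp.single (P i) (1 : ℤ)) = ∑ j, Finsupp.single (X2 j) (1 : ℤ) := by
  rw [sum_single_split]
  refine ⟨(NDatum.goodSupp_sum1 _ X1 hX1 h1).add N (NDatum.goodSupp_sum2 _ X2 hX2 h2), ?_, ?_⟩
  · rw [push1_add, NDatum.push1_sum_single1 _ X1 h1, NDatum.push1_sum_single2 _ X2 h2, add_zero]
  · rw [push2_add, NDatum.push2_sum_single1 _ X1 h1, NDatum.push2_sum_single2 _ X2 h2, zero_add]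

variable [HasPrincipalDivisors L FL]

/-- the flip, in the uniform index -/
theorem flip_core (hdegL : ∀ P : Place L FL, P.deg = 1) (hπ : Function.Surjective π)
    (hR : RiemannGe L FL (g1 + m2)) (φ : Idx (g1 + m2) → O12 N)
    (hspan : ∀ f : O12 N, ((f : O12 N) : FL) ∈ riemannRochSpace d.E →
      ∃ (c0 : A) (c : Idx (g1 + m2) → A), ((f : O12 N) : FL) =
        algebraMap L FL (c0 : L) + ∑ a, algebraMap L FL (c a : L) * ((φ a : O12 N) : FL))
    (hind : LinearIndependent k
      (Sum.elim (fun _ : Unit => (1 : F1 × F2)) (fun a => red12 N (φ a))))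
    {X1 : Fin g1 → Place k F1} {X2 : Fin m2 → Place k F2} (hX : IsRigidPair N X1 X2)
    (M : Divisor L FL) (hM : GoodSupp N M) (hM0 : 0 ≤ M)
    (hdeg : Divisor.degree (d.E - M) = ((g1 + m2 : ℕ) : ℤ))
    (h1 : push1 N (d.E - M) = ∑ i, Finsupp.single (X1 i) (1 : ℤ))
    (h2 : push2 N (d.E - M) = ∑ j, Finsupp.single (X2 j) (1 : ℤ)) :
    ∃ (w : FL) (ξ : Idx (g1 + m2) → A) (S : Fin (g1 + m2) → Place L FL), w ≠ 0 ∧
      w = 1 + ∑ a, algebraMap L FL (ξ a : L) * ((φ a : O12 N) : FL) ∧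
      (∀ i, N.R1.r (S (Fin.castAdd m2 i)) = some (X1 i)) ∧
      (∀ j, N.R2.r (S (Fin.natAdd g1 j)) = some (X2 j)) ∧
      ∀ P₀ : Place L FL, (∑ j, Finsupp.single (S j) (1 : ℤ)) P₀ = P₀.ord w + d.E P₀ - M P₀ := by
  obtain ⟨w, ξ, Ps1, Ps2, -, hu1, -, -, hw, -, hPs1, hPs2, hZ⟩ :=
    Fermat.Agent.S33.Nodal.Flip.exists_flip_coeffs hdegL hπ hR hX d.E M d.goodSupp_E hM hM0
      hdeg h1 h2 φ hspan hind
  obtain ⟨u, hu⟩ := hu1
  have hw0 : ((w : O12 N) : FL) ≠ 0 := by
    have := coe_unit_ne_zero N.R1.toBranch u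
    rwa [hu, coe_incl1] at this
  refine ⟨(w : FL), ξ, Fin.append Ps1 Ps2, hw0, hw, fun i => ?_, fun j => ?_, fun P₀ => ?_⟩
  · rw [Fin.append_left]; exact hPs1 i
  · rw [Fin.append_right]; exact hPs2 j
  · rw [← hZ P₀, sum_single_split]
    simp only [Fin.append_left, Fin.append_right]

/-- **first flip** -/
theorem flipR (hdegL : ∀ P : Place L FL, P.deg = 1) (hπ : Function.Surjective π)
    (hR : RiemannGe L FL (g1 + m2)) (φ : Idx (g1 + m2) → O12 N)
    (hspan : ∀ f : O12 N, ((f : O12 N) : FL) ∈ riemannRochSpace d.E →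
      ∃ (c0 : A) (c : Idx (g1 + m2) → A), ((f : O12 N) : FL) =
        algebraMap L FL (c0 : L) + ∑ a, algebraMap L FL (c a : L) * ((φ a : O12 N) : FL))
    (hind : LinearIndependent k
      (Sum.elim (fun _ : Unit => (1 : F1 × F2)) (fun a => red12 N (φ a)))) :
    (frame d).FlipR (fun a => ((φ a : O12 N) : FL)) := by
  intro P P' hP hP'
  obtain ⟨hPg, hP1, hP2⟩ := family_facts d.Qb1 d.Qb2 d.Qb1_good d.Qb2_good P
    (inQ_left hP) (inQ_right hP)
  obtain ⟨hP'g, hP'1, hP'2⟩ := family_facts d.Qb1 d.Qb2 d.Qb1_good d.Qb2_good P'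
    (inQ_left hP') (inQ_right hP')
  set M : Divisor L FL :=
    (∑ i, Finsupp.single (P i) (1 : ℤ)) + ∑ i, Finsupp.single (P' i) (1 : ℤ) with hM
  have hMg : GoodSupp N M := hPg.add N hP'g
  have hM0 : 0 ≤ M := add_nonneg (sum_single_nonneg' P) (sum_single_nonneg' P')
  have hdeg : Divisor.degree (d.E - M) = ((g1 + m2 : ℕ) : ℤ) := by
    rw [map_sub, d.degree_E hdegL, hM, map_add, degree_sum_single' hdegL,
      degree_sum_single' hdegL]
    push_cast
    ring
  have h1 : push1 N (d.E - M) = ∑ i, Finsupp.single (d.Rb1 i) (1 : ℤ) := by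
    rw [push1_sub, d.push1_E, hM, push1_add, hP1, hP'1]
    unfold Ebar
    abel
  have h2 : push2 N (d.E - M) = ∑ j, Finsupp.single (d.Rb2 j) (1 : ℤ) := by
    rw [push2_sub, d.push2_E, hM, push2_add, hP2, hP'2]
    unfold Ebar
    abel
  obtain ⟨w, ξ, S, hw0, hw, hS1, hS2, hZ⟩ :=
    flip_core hdegL hπ hR φ hspan hind d.rigidR' M hMg hM0 hdeg h1 h2
  exact ⟨w, ξ, S, hw0, hw, inR_of_branches hS1 hS2, hZ⟩

/-- **second flip** -/
theorem flipQ (hdegL : ∀ P : Place L FL, P.deg = 1) (hπ : Function.Surjective π)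
    (hR : RiemannGe L FL (g1 + m2)) (φ : Idx (g1 + m2) → O12 N)
    (hspan : ∀ f : O12 N, ((f : O12 N) : FL) ∈ riemannRochSpace d.E →
      ∃ (c0 : A) (c : Idx (g1 + m2) → A), ((f : O12 N) : FL) =
        algebraMap L FL (c0 : L) + ∑ a, algebraMap L FL (c a : L) * ((φ a : O12 N) : FL))
    (hind : LinearIndependent k
      (Sum.elim (fun _ : Unit => (1 : F1 × F2)) (fun a => red12 N (φ a)))) :
    (frame d).FlipQ (fun a => ((φ a : O12 N) : FL)) := by
  intro S hS
  have hQ0 : ∀ i, ((frame d).dQ i).In (((frame d).dQ i).P0) := fun i => by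
    refine Fin.addCases (fun i => ?_) (fun j => ?_) i
    · rw [frame_dQ_left]; exact d.hQ1 i
    · rw [frame_dQ_right]; exact d.hQ2 j
  obtain ⟨hSg, hS1, hS2⟩ := family_facts d.Rb1 d.Rb2 d.Rb1_good d.Rb2_good S
    (inR_left hS) (inR_right hS)
  obtain ⟨hQg, hQ1, hQ2⟩ := family_facts d.Qb1 d.Qb2 d.Qb1_good d.Qb2_good
    (fun i => ((frame d).dQ i).P0) (inQ_left hQ0) (inQ_right hQ0)
  set M : Divisor L FL :=
    (∑ j, Finsupp.single (S j) (1 : ℤ)) + ∑ i, Finsupp.single (((frame d).dQ i).P0) (1 : ℤ)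
    with hM
  have hMg : GoodSupp N M := hSg.add N hQg
  have hM0 : 0 ≤ M := add_nonneg (sum_single_nonneg' S) (sum_single_nonneg' _)
  have hdeg : Divisor.degree (d.E - M) = ((g1 + m2 : ℕ) : ℤ) := by
    rw [map_sub, d.degree_E hdegL, hM, map_add, degree_sum_single' hdegL,
      degree_sum_single' hdegL]
    push_cast
    ring
  have h1 : push1 N (d.E - M) = ∑ i, Finsupp.single (d.Qb1 i) (1 : ℤ) := by
    rw [push1_sub, d.push1_E, hM, push1_add, hS1, hQ1]
    unfold Ebar
    abel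
  have h2 : push2 N (d.E - M) = ∑ j, Finsupp.single (d.Qb2 j) (1 : ℤ) := by
    rw [push2_sub, d.push2_E, hM, push2_add, hS2, hQ2]
    unfold Ebar
    abel
  obtain ⟨w, η, P'', hw0, hw, hP1, hP2, hZ⟩ :=
    flip_core hdegL hπ hR φ hspan hind d.rigidQ' M hMg hM0 hdeg h1 h2
  exact ⟨w, η, P'', hw0, hw, inQ_of_branches hP1 hP2, hZ⟩

end Flips

/-! ### the main theorem -/

section Main

open Fermat.Agent.S19.Taylor (ValAt)

universe uS

variable (d : NDatum N g1 m2)

/-- `D` consists of Taylor polynomials of order `n` of `φ_a T_i^2` on the discs of the chart and of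
`φ_a v_j` on the discs of the auxiliary family; the index `Fin (g1 + m2)` of `D` runs through the
first branch first (`Fin.castAdd m2 i`, then `Fin.natAdd g1 j`). -/
def TaylorAt (φ : Idx (g1 + m2) → O12 N) {S : Type uS} [CommRing S] [Algebra S A]
    (D : TaylorData S (g1 + m2)) (n : ℕ) : Prop :=
  (frame d).TaylorAt (fun a => ((φ a : O12 N) : FL)) D n

/-- `TaylorAt` from its four per-branch clauses -/
theorem taylorAt_of_branches (φ : Idx (g1 + m2) → O12 N) {S : Type uS} [CommRing S] [Algebra S A]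
    (D : TaylorData S (g1 + m2)) (n : ℕ)
    (hQ1 : ∀ a (i : Fin g1), ∃ h : N.R1.O, RegOn N.R1.r ((h : N.R1.O) : FL) (d.Qb1 i) ∧
      ((φ a : O12 N) : FL) * ((d.T1 i : N.R1.O) : FL) ^ 2 =
        Polynomial.aeval ((d.T1 i : N.R1.O) : FL)
          (((D.p a (Fin.castAdd m2 i)).map (algebraMap S A)).map A.subtype) +
          ((d.T1 i : N.R1.O) : FL) ^ n * ((h : N.R1.O) : FL))
    (hQ2 : ∀ a (j : Fin m2), ∃ h : N.R2.O, RegOn N.R2.r ((h : N.R2.O) : FL) (d.Qb2 j) ∧
      ((φ a : O12 N) : FL) * ((d.T2 j : N.R2.O) : FL) ^ 2 =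
        Polynomial.aeval ((d.T2 j : N.R2.O) : FL)
          (((D.p a (Fin.natAdd g1 j)).map (algebraMap S A)).map A.subtype) +
          ((d.T2 j : N.R2.O) : FL) ^ n * ((h : N.R2.O) : FL))
    (hR1 : ∀ a (i : Fin g1), ∃ h : N.R1.O, RegOn N.R1.r ((h : N.R1.O) : FL) (d.Rb1 i) ∧
      ((φ a : O12 N) : FL) * ((d.v1 i : N.R1.O) : FL) =
        Polynomial.aeval ((d.v1 i : N.R1.O) : FL)
          (((D.q a (Fin.castAdd m2 i)).map (algebraMap S A)).map A.subtype) +
          ((d.v1 i : N.R1.O) : FL) ^ n * ((h : N.R1.O) : FL))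
    (hR2 : ∀ a (j : Fin m2), ∃ h : N.R2.O, RegOn N.R2.r ((h : N.R2.O) : FL) (d.Rb2 j) ∧
      ((φ a : O12 N) : FL) * ((d.v2 j : N.R2.O) : FL) =
        Polynomial.aeval ((d.v2 j : N.R2.O) : FL)
          (((D.q a (Fin.natAdd g1 j)).map (algebraMap S A)).map A.subtype) +
          ((d.v2 j : N.R2.O) : FL) ^ n * ((h : N.R2.O) : FL)) :
    TaylorAt d φ D n := by
  refine ⟨fun a i => ?_, fun a i => ?_⟩
  · refine Fin.addCases (fun i => ?_) (fun j => ?_) i
    · rw [frame_dQ_left]
      obtain ⟨h, hreg, heq⟩ := hQ1 a i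
      exact ⟨(h : FL), ofBranch_reg _ _ h hreg, heq⟩
    · rw [frame_dQ_right]
      obtain ⟨h, hreg, heq⟩ := hQ2 a j
      exact ⟨(h : FL), ofBranch_reg _ _ h hreg, heq⟩
  · refine Fin.addCases (fun i => ?_) (fun j => ?_) i
    · rw [frame_dR_left]
      obtain ⟨h, hreg, heq⟩ := hR1 a i
      exact ⟨(h : FL), ofBranch_reg _ _ h hreg, heq⟩
    · rw [frame_dR_right]
      obtain ⟨h, hreg, heq⟩ := hR2 a j
      exact ⟨(h : FL), ofBranch_reg _ _ h hreg, heq⟩

variable [HasPrincipalDivisors L FL]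

/-- **The truncated addition law of the nodal chart at actual points.**  For points `P`, `P'` in
the discs of the chart (per branch) with coordinates `x`, `x'`, the sum `[P - Q] + [P' - Q]` is
`[P'' - Q]` with `P''` in the same discs, and the coordinates of `P''` are congruent to
`Psi (x, x')` modulo `c ^ n`, uniform index `Fin (g1 + m2)` (first branch first). -/
theorem exists_add_congr (hdegL : ∀ P : Place L FL, P.deg = 1) (hπ : Function.Surjective π)
    (hR : RiemannGe L FL (g1 + m2)) (φ : Idx (g1 + m2) → O12 N)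
    (hspan : ∀ f : O12 N, ((f : O12 N) : FL) ∈ riemannRochSpace d.E →
      ∃ (c0 : A) (c : Idx (g1 + m2) → A), ((f : O12 N) : FL) =
        algebraMap L FL (c0 : L) + ∑ a, algebraMap L FL (c a : L) * ((φ a : O12 N) : FL))
    (hind : LinearIndependent k
      (Sum.elim (fun _ : Unit => (1 : F1 × F2)) (fun a => red12 N (φ a))))
    (P1 P1' : Fin g1 → Place L FL) (P2 P2' : Fin m2 → Place L FL)
    (hP1 : ∀ i, N.R1.r (P1 i) = some (d.Qb1 i)) (hP2 : ∀ j, N.R2.r (P2 j) = some (d.Qb2 j))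
    (hP1' : ∀ i, N.R1.r (P1' i) = some (d.Qb1 i)) (hP2' : ∀ j, N.R2.r (P2' j) = some (d.Qb2 j))
    (x1 x1' : Fin g1 → A) (x2 x2' : Fin m2 → A)
    (hx1 : ∀ i, ValAt (P1 i) ((d.T1 i : N.R1.O) : FL) ((x1 i : A) : L))
    (hx2 : ∀ j, ValAt (P2 j) ((d.T2 j : N.R2.O) : FL) ((x2 j : A) : L))
    (hx1' : ∀ i, ValAt (P1' i) ((d.T1 i : N.R1.O) : FL) ((x1' i : A) : L))
    (hx2' : ∀ j, ValAt (P2' j) ((d.T2 j : N.R2.O) : FL) ((x2' j : A) : L)) :
    ∃ (P1'' : Fin g1 → Place L FL) (P2'' : Fin m2 → Place L FL) (x1'' : Fin g1 → A)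
      (x2'' : Fin m2 → A) (c : A),
      c ∈ IsLocalRing.maximalIdeal A ∧ (∀ i, N.R1.r (P1'' i) = some (d.Qb1 i)) ∧
      (∀ j, N.R2.r (P2'' j) = some (d.Qb2 j)) ∧
      (∀ i, ValAt (P1'' i) ((d.T1 i : N.R1.O) : FL) ((x1'' i : A) : L)) ∧
      (∀ j, ValAt (P2'' j) ((d.T2 j : N.R2.O) : FL) ((x2'' j : A) : L)) ∧
      (∀ i, x1 i ∈ Ideal.span {c} ∧ x1' i ∈ Ideal.span {c} ∧ x1'' i ∈ Ideal.span {c}) ∧
      (∀ j, x2 j ∈ Ideal.span {c} ∧ x2' j ∈ Ideal.span {c} ∧ x2'' j ∈ Ideal.span {c}) ∧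
      (((∑ i, Finsupp.single (P1'' i) (1 : ℤ)) + ∑ j, Finsupp.single (P2'' j) (1 : ℤ)) +
          ((∑ i, Finsupp.single (d.Q1 i) (1 : ℤ)) + ∑ j, Finsupp.single (d.Q2 j) (1 : ℤ)) -
          ((∑ i, Finsupp.single (P1 i) (1 : ℤ)) + ∑ j, Finsupp.single (P2 j) (1 : ℤ)) -
          ((∑ i, Finsupp.single (P1' i) (1 : ℤ)) + ∑ j, Finsupp.single (P2' j) (1 : ℤ)) ∈
        Divisor.principal (K := L) (F := FL)) ∧
      ∀ {S : Type uS} [CommRing S] [Algebra S A] (D : ℕ → TaylorData S (g1 + m2))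
        (_ : ∀ n, TaylorAt d φ (D n) n) (n : ℕ) (i : Fin (g1 + m2)),
        Fin.append x1'' x2'' i -
            MvPolynomial.aeval (Sum.elim (Fin.append x1 x2) (Fin.append x1' x2'))
              (Psi (D (n + 1)) n i) ∈ Ideal.span {c} ^ n := by
  have hF := frame_isLawful d hdegL
  have hP : ∀ i, ((frame d).dQ i).In (Fin.append P1 P2 i) :=
    inQ_of_branches (fun i => by rw [Fin.append_left]; exact hP1 i)
      (fun j => by rw [Fin.append_right]; exact hP2 j)
  have hP' : ∀ i, ((frame d).dQ i).In (Fin.append P1' P2' i) :=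
    inQ_of_branches (fun i => by rw [Fin.append_left]; exact hP1' i)
      (fun j => by rw [Fin.append_right]; exact hP2' j)
  have hx : ∀ i, Fermat.Agent.S19.AddLaw.ValAt (Fin.append P1 P2 i) ((frame d).dQ i).T
      ((Fin.append x1 x2 i : A) : L) := fun i => by
    refine Fin.addCases (fun i => ?_) (fun j => ?_) i
    · rw [Fin.append_left, Fin.append_left, frame_dQ_left]; exact hx1 i
    · rw [Fin.append_right, Fin.append_right, frame_dQ_right]; exact hx2 j
  have hx' : ∀ i, Fermat.Agent.S19.AddLaw.ValAt (Fin.append P1' P2' i) ((frame d).dQ i).T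
      ((Fin.append x1' x2' i : A) : L) := fun i => by
    refine Fin.addCases (fun i => ?_) (fun j => ?_) i
    · rw [Fin.append_left, Fin.append_left, frame_dQ_left]; exact hx1' i
    · rw [Fin.append_right, Fin.append_right, frame_dQ_right]; exact hx2' j
  obtain ⟨P'', x'', c, hcm, hP'', hx'', hsp, hprin, hcong⟩ :=
    Frame.exists_add_congr.{uS, _, _} hF (fun a => ((φ a : O12 N) : FL)) (basisInt d φ)
      (flipR hdegL hπ hR φ hspan hind) (flipQ hdegL hπ hR φ hspan hind)
      (Fin.append P1 P2) (Fin.append P1' P2') hP hP' (Fin.append x1 x2) (Fin.append x1' x2')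
      hx hx'
  refine ⟨fun i => P'' (Fin.castAdd m2 i), fun j => P'' (Fin.natAdd g1 j),
    fun i => x'' (Fin.castAdd m2 i), fun j => x'' (Fin.natAdd g1 j), c, hcm,
    inQ_left hP'', inQ_right hP'', fun i => ?_, fun j => ?_, fun i => ?_, fun j => ?_, ?_, ?_⟩
  · have := hx'' (Fin.castAdd m2 i)
    rw [frame_dQ_left] at this
    exact this
  · have := hx'' (Fin.natAdd g1 j)
    rw [frame_dQ_right] at this
    exact this
  · have := hsp (Fin.castAdd m2 i)
    rw [Fin.append_left, Fin.append_left] at this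
    exact this
  · have := hsp (Fin.natAdd g1 j)
    rw [Fin.append_right, Fin.append_right] at this
    exact this
  · have e0 : (∑ i, Finsupp.single (((frame d).dQ i).P0) (1 : ℤ)) =
        (∑ i, Finsupp.single (d.Q1 i) (1 : ℤ)) + ∑ j, Finsupp.single (d.Q2 j) (1 : ℤ) := by
      rw [sum_single_split]
      simp only [frame_dQ_left, frame_dQ_right, ofBranch_P0]
      rfl
    have e1 : (∑ i, Finsupp.single (Fin.append P1 P2 i) (1 : ℤ)) =
        (∑ i, Finsupp.single (P1 i) (1 : ℤ)) + ∑ j, Finsupp.single (P2 j) (1 : ℤ) := by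
      rw [sum_single_split]
      simp only [Fin.append_left, Fin.append_right]
    have e2 : (∑ i, Finsupp.single (Fin.append P1' P2' i) (1 : ℤ)) =
        (∑ i, Finsupp.single (P1' i) (1 : ℤ)) + ∑ j, Finsupp.single (P2' j) (1 : ℤ) := by
      rw [sum_single_split]
      simp only [Fin.append_left, Fin.append_right]
    rw [sum_single_split P'', e0, e1, e2] at hprin
    exact hprin
  · intro S _ _ D hD n i
    have h := hcong D hD n i
    have e : Fin.append (fun i => x'' (Fin.castAdd m2 i)) (fun j => x'' (Fin.natAdd g1 j)) = x'' :=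
      Fin.append_castAdd_natAdd
    rw [e]
    exact h

end Main

end Fermat.Agent.S33.Nodal.AddLaw
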