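/-
PROJECT N (S33), route H8, slice [N1] (helper25): SYMMETRIES OF THE NODAL INTERPOLATION DATUM.

Twin of `S19/TaylorRat.FixesDatum` + `S19/FixesDatumAut` in the frame
`N : GNodalDatum A π FL F1 F2 ι`, `d : NDatum N g1 m2` (helper7's `S33/Nodal/Datum`).

* `FixesDatum d sL sF` : a semilinear endomorphism `(sL, sF)` of `FL/L` fixing the datum: the same
  record as in `S19`, with the fields doubled per branch;
* `fixesDatum_of_inertial` : a semilinear automorphism `γ` which preserves the two partial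
  specialisation maps (`N.R1.r (γ • P) = N.R1.r P`, `N.R2.r (γ • P) = N.R2.r P`) and fixes the
  parameters `T1 i`, `T2 j`, `v1 i`, `v2 j` fixes the places `Q1 i`, `Q2 j`, `Rp1 i`, `Rp2 j`
  (fixed-point lemma `smul_P0`), hence the divisor `E`, hence satisfies
  `FixesDatum d (baseAut γ) (toRingAut γ)`.
-/
import Fermat.Agent.S19.FixesDatumAut
import Fermat.Agent.S33.Nodal.Datum

set_option autoImplicit false
set_option linter.unusedSectionVars false
set_option linter.unusedVariables false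

namespace Fermat.Agent.S33.Nodal.Fixes

open AlgebraicCurve
open Fermat.Agent.S34.NodalDefs Fermat.Agent.S34.NodalDisc
open Fermat.Agent.S33.Nodal.Taylor Fermat.Agent.S33.Nodal.Datum

variable {L : Type*} [Field L] {FL : Type*} [Field FL] [Algebra L FL]
variable {k : Type*} [Field k] {F1 : Type*} [Field F1] [Algebra k F1]
  {F2 : Type*} [Field F2] [Algebra k F2]
variable {A : ValuationSubring L} {π : A →+* k} {ι : Type*}
variable {N : GNodalDatum A π FL F1 F2 ι} {g1 m2 : ℕ}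

/-- **a semilinear endomorphism `(sL, sF)` of `FL/L` fixing the nodal interpolation datum** -/
structure FixesDatum (d : NDatum N g1 m2) (sL : L →+* L) (sF : FL →+* FL) : Prop where
  comp : ∀ c : L, sF (algebraMap L FL c) = algebraMap L FL (sL c)
  mapsE : ∀ f ∈ riemannRochSpace d.E, sF f ∈ riemannRochSpace d.E
  valQ1 : ∀ (i : Fin g1) (z : FL), (d.Q1 i).adicValuation (sF z) = (d.Q1 i).adicValuation z
  valQ2 : ∀ (j : Fin m2) (z : FL), (d.Q2 j).adicValuation (sF z) = (d.Q2 j).adicValuation z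
  valR1 : ∀ (i : Fin g1) (z : FL), (d.Rp1 i).adicValuation (sF z) = (d.Rp1 i).adicValuation z
  valR2 : ∀ (j : Fin m2) (z : FL), (d.Rp2 j).adicValuation (sF z) = (d.Rp2 j).adicValuation z
  fixT1 : ∀ i, sF ((d.T1 i : N.R1.O) : FL) = ((d.T1 i : N.R1.O) : FL)
  fixT2 : ∀ j, sF ((d.T2 j : N.R2.O) : FL) = ((d.T2 j : N.R2.O) : FL)
  fixv1 : ∀ i, sF ((d.v1 i : N.R1.O) : FL) = ((d.v1 i : N.R1.O) : FL)
  fixv2 : ∀ j, sF ((d.v2 j : N.R2.O) : FL) = ((d.v2 j : N.R2.O) : FL)

variable [HasPrincipalDivisors L FL]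

/-- **Fixed-point lemma**: an automorphism which preserves the partial specialisation map of a
branch and fixes a good parameter fixes the zero of that parameter on its disc. -/
theorem smul_place_eq_of_zero {Fk : Type*} [Field Fk] [Algebra k Fk] (R : SmoothRed A π FL Fk)
    (γ : SemilinearAut L FL) (hin : ∀ P : Place L FL, R.r (γ • P) = R.r P) {T : R.O}
    {Q : Place k Fk} (hT : IsGoodParam R T Q)
    (hfix : γ • ((T : R.O) : FL) = ((T : R.O) : FL)) {P0 : Place L FL} (hP0 : R.r P0 = some Q)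
    (h0 : 0 < P0.ord ((T : R.O) : FL)) : γ • P0 = P0 := by
  obtain ⟨P₁, -, -, hother⟩ := hT.exists_unique_zero
  have e0 : P0 = P₁ := by
    by_contra hne
    have := hother P0 hP0 hne
    omega
  have e1 : γ • P0 = P₁ := by
    by_contra hne
    have h2 := hother (γ • P0) ((hin P0).trans hP0) hne
    have h3 : (γ • P0).ord (γ • ((T : R.O) : FL)) = P0.ord ((T : R.O) : FL) :=
      SemilinearAut.ord_smul γ P0 _
    rw [hfix] at h3
    omega
  rw [e1, ← e0]

/-- the zero of the parameter of a disc is fixed by an automorphism which preserves the partial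
specialisation map and fixes the parameter -/
theorem smul_P0 {Fk : Type*} [Field Fk] [Algebra k Fk] {R : SmoothRed A π FL Fk}
    (γ : SemilinearAut L FL) (hin : ∀ P : Place L FL, R.r (γ • P) = R.r P) (D : DiscParam R)
    (hT : γ • ((D.T : R.O) : FL) = ((D.T : R.O) : FL)) : γ • D.P0 = D.P0 :=
  smul_place_eq_of_zero R γ hin D.good hT D.hP0
    ((Fermat.Agent.S24.Ord.ord_pos_iff D.P0 D.good.coe_ne_zero).mpr D.zero)

/-- the origins `Q1 i` of the chart are fixed -/
theorem smul_Q1 (γ : SemilinearAut L FL) (hin1 : ∀ P : Place L FL, N.R1.r (γ • P) = N.R1.r P)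
    (d : NDatum N g1 m2)
    (hT1 : ∀ i, γ • ((d.T1 i : N.R1.O) : FL) = ((d.T1 i : N.R1.O) : FL)) (i : Fin g1) :
    γ • d.Q1 i = d.Q1 i :=
  smul_P0 γ hin1 (d.DQ1 i) (hT1 i)

/-- the origins `Q2 j` of the chart are fixed -/
theorem smul_Q2 (γ : SemilinearAut L FL) (hin2 : ∀ P : Place L FL, N.R2.r (γ • P) = N.R2.r P)
    (d : NDatum N g1 m2)
    (hT2 : ∀ j, γ • ((d.T2 j : N.R2.O) : FL) = ((d.T2 j : N.R2.O) : FL)) (j : Fin m2) :
    γ • d.Q2 j = d.Q2 j :=
  smul_P0 γ hin2 (d.DQ2 j) (hT2 j)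

/-- the places `Rp1 i` of the auxiliary family are fixed -/
theorem smul_Rp1 (γ : SemilinearAut L FL) (hin1 : ∀ P : Place L FL, N.R1.r (γ • P) = N.R1.r P)
    (d : NDatum N g1 m2)
    (hv1 : ∀ i, γ • ((d.v1 i : N.R1.O) : FL) = ((d.v1 i : N.R1.O) : FL)) (i : Fin g1) :
    γ • d.Rp1 i = d.Rp1 i :=
  smul_P0 γ hin1 (d.DR1 i) (hv1 i)

/-- the places `Rp2 j` of the auxiliary family are fixed -/
theorem smul_Rp2 (γ : SemilinearAut L FL) (hin2 : ∀ P : Place L FL, N.R2.r (γ • P) = N.R2.r P)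
    (d : NDatum N g1 m2)
    (hv2 : ∀ j, γ • ((d.v2 j : N.R2.O) : FL) = ((d.v2 j : N.R2.O) : FL)) (j : Fin m2) :
    γ • d.Rp2 j = d.Rp2 j :=
  smul_P0 γ hin2 (d.DR2 j) (hv2 j)

/-- the divisor `E` is fixed -/
theorem smul_E (γ : SemilinearAut L FL) (d : NDatum N g1 m2)
    (hQ1 : ∀ i, γ • d.Q1 i = d.Q1 i) (hQ2 : ∀ j, γ • d.Q2 j = d.Q2 j)
    (hRp1 : ∀ i, γ • d.Rp1 i = d.Rp1 i) (hRp2 : ∀ j, γ • d.Rp2 j = d.Rp2 j) :
    γ • d.E = d.E := by
  unfold NDatum.E NDatum.E1 NDatum.E2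
  simp only [smul_add, Finset.smul_sum, SemilinearAut.smul_single, hQ1, hQ2, hRp1, hRp2]

/-- `L(D)` is stable under an automorphism fixing the divisor `D` -/
theorem smul_mem_of_smul_eq (γ : SemilinearAut L FL) {D : Divisor L FL} (hD : γ • D = D)
    {f : FL} (hf : f ∈ riemannRochSpace D) : γ • f ∈ riemannRochSpace D := by
  rw [mem_riemannRochSpace_iff] at hf ⊢
  intro v
  rcases hf (γ⁻¹ • v) with h0 | h
  · left
    rw [h0, smul_zero]
  · right
    have h1 := SemilinearAut.ord_smul γ (γ⁻¹ • v) f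
    rw [smul_inv_smul] at h1
    have h2 := SemilinearAut.divisor_smul_apply γ D v
    rw [hD] at h2
    rw [h1, h2]
    exact h

/-- **`FixesDatum` for an automorphism preserving the two specialisation maps and fixing the
parameters.** -/
theorem fixesDatum_of_inertial (γ : SemilinearAut L FL)
    (hin1 : ∀ P : Place L FL, N.R1.r (γ • P) = N.R1.r P)
    (hin2 : ∀ P : Place L FL, N.R2.r (γ • P) = N.R2.r P) (d : NDatum N g1 m2)
    (hT1 : ∀ i, γ • ((d.T1 i : N.R1.O) : FL) = ((d.T1 i : N.R1.O) : FL))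
    (hT2 : ∀ j, γ • ((d.T2 j : N.R2.O) : FL) = ((d.T2 j : N.R2.O) : FL))
    (hv1 : ∀ i, γ • ((d.v1 i : N.R1.O) : FL) = ((d.v1 i : N.R1.O) : FL))
    (hv2 : ∀ j, γ • ((d.v2 j : N.R2.O) : FL) = ((d.v2 j : N.R2.O) : FL)) :
    FixesDatum d ((SemilinearAut.baseAut γ : L ≃+* L) : L →+* L)
      ((SemilinearAut.toRingAut γ : FL ≃+* FL) : FL →+* FL) where
  comp c := SemilinearAut.commutes γ c
  mapsE f hf := smul_mem_of_smul_eq γ (smul_E γ d (smul_Q1 γ hin1 d hT1) (smul_Q2 γ hin2 d hT2)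
    (smul_Rp1 γ hin1 d hv1) (smul_Rp2 γ hin2 d hv2)) hf
  valQ1 i z := Fermat.Agent.S19.FixesDatumAut.adicValuation_smul_of_fixed γ
    (smul_Q1 γ hin1 d hT1 i) z
  valQ2 j z := Fermat.Agent.S19.FixesDatumAut.adicValuation_smul_of_fixed γ
    (smul_Q2 γ hin2 d hT2 j) z
  valR1 i z := Fermat.Agent.S19.FixesDatumAut.adicValuation_smul_of_fixed γ
    (smul_Rp1 γ hin1 d hv1 i) z
  valR2 j z := Fermat.Agent.S19.FixesDatumAut.adicValuation_smul_of_fixed γ
    (smul_Rp2 γ hin2 d hv2 j) z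
  fixT1 i := hT1 i
  fixT2 j := hT2 j
  fixv1 i := hv1 i
  fixv2 j := hv2 j

end Fermat.Agent.S33.Nodal.Fixes
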