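import Fermat.Agent.S33.Nodal.JetAt
import Fermat.Agent.S33.Nodal.Interp

/-!
# PROJECT N (S33), route H8, slice [N1]: the normalised basis of `L(R₀ + 2 D₀)` on the nodal fibre,
# PART B (helper13): normalisation, span, independence, rationality

Twin of `Fermat/Agent/S19/NormBasis.lean` l.470-882 in the record-free frame of
`S33/Nodal/JetAt.lean`: `N : GNodalDatum A π FL F1 F2 ι`, two families of discs with parameters
`D1 : Fin g1 → DiscParam N.R1`, `D2 : Fin m2 → DiscParam N.R2` (the chart), a rigid pair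
`(R1b, R2b)` (the auxiliary family) and a divisor `E` of `FL` with the four facts of
`S33/Nodal/Interp.lean` (`GoodSupp`, `deg E = 3 (g1 + m2)`, `push_i E = Ebar R_ib Q_ib`).
The uniform index of the chart points is `Fin g1 ⊕ Fin m2`.

The two statements of PART A (`S33/Nodal/NormBasisA.lean`, helper4) which are consumed here enter as
the hypotheses `DetHyp` (the `2`-jet matrix of a reduced basis is invertible over `A`) and
`ConstHyp` (a section of `O(E)` regular at the lifts of the chart points is constant).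

* `jets_of_comb_const_branch`, `jets_of_comb_const` : a constant combination of the reductions has
  vanishing combined jets;
* `IsNormalised D1 D2 φ` and `exists_isNormalised`;
* `IsNormalised.linearIndependent`, `.red_mem`, `.span`, `.fixed`;
* `exists_normalised_basis` : the six outputs of `S19/NormBasis.exists_normalised_basis`.
-/

set_option autoImplicit false
set_option linter.unusedSectionVars false
set_option linter.unusedVariables false

namespace Fermat.Agent.S33.Nodal.NormBasisB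

open AlgebraicCurve Fermat.Agent.S24.Ord Fermat.Agent.S34.NodalDefs Fermat.Agent.S34.NodalDisc
open Fermat.Agent.S18.NonSpecial
open Fermat.Agent.S33.Nodal.Taylor Fermat.Agent.S33.Nodal.Jets Fermat.Agent.S33.Nodal.Glued
open Fermat.Agent.S33.Nodal.SemiCont Fermat.Agent.S33.Nodal.Rigid3 Fermat.Agent.S33.Nodal.Interp
open Fermat.Agent.S33.Nodal.JetAt
open Fermat.Agent.S19.NormBasis (jet_unique semilinear_jet_sub)

variable {L : Type*} [Field L] {FL : Type*} [Field FL] [Algebra L FL]
variable {k : Type*} [Field k]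

/-! ### one branch: from a constant combination of the reductions to the vanishing of the jets -/

section Branch

variable {Fk : Type*} [Field Fk] [Algebra k Fk]
variable {A : ValuationSubring L} {π : A →+* k} [HasPrincipalDivisors L FL]
variable {R : SmoothRed A π FL Fk}

/-- twin of `S19/NormBasis.jets_of_comb_const` over one smooth branch, for jets of any order `n` of
the functions `y_a T ^ n` -/
theorem jets_of_comb_const_branch {T : R.O} {Q : Place k Fk} (hT : IsGoodParam R T Q)
    {κ : Type*} [Fintype κ] (y : κ → R.O) (n : ℕ) (c : κ → Fin n → A)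
    (hc : ∀ a, HasJet R T Q (y a * T ^ n) n (c a)) (x : κ → k) (γ : k)
    (hγ : ∑ a, algebraMap k Fk (x a) * R.red (y a) = algebraMap k Fk γ) :
    ∀ m, ∑ a, x a * π (c a m) = 0 := by
  choose z hz hred using fun a => (hc a).red hT.good
  have hT0 : R.red T ≠ 0 := hT.red_ne_zero
  have hTlt : Q.adicValuation (R.red T) < 1 :=
    (ord_pos_iff _ hT0).mp (by rw [hT.ord_one]; exact one_pos)
  have h1 : ∀ a, algebraMap k Fk (x a) * R.red (y a * T ^ n) =
      ∑ m : Fin n, algebraMap k Fk (x a * π (c a m)) * R.red T ^ (m : ℕ) +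
        R.red T ^ n * (algebraMap k Fk (x a) * z a) := by
    intro a
    rw [hred a, mul_add, Finset.mul_sum]
    congr 1
    · refine Finset.sum_congr rfl fun m _ => ?_
      rw [map_mul]
      ring
    · ring
  have h3 : algebraMap k Fk γ * R.red T ^ n =
      ∑ a, algebraMap k Fk (x a) * R.red (y a * T ^ n) := by
    rw [← hγ, Finset.sum_mul]
    refine Finset.sum_congr rfl fun a _ => ?_
    rw [map_mul, map_pow, mul_assoc]
  rw [Finset.sum_congr rfl fun a _ => h1 a, Finset.sum_add_distrib, Finset.sum_comm,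
    ← Finset.mul_sum] at h3
  have h4 : ∑ m : Fin n, algebraMap k Fk (∑ a, x a * π (c a m)) * R.red T ^ (m : ℕ) +
      R.red T ^ n * (∑ a, algebraMap k Fk (x a) * z a - algebraMap k Fk γ) = 0 := by
    have h5 : ∑ m : Fin n, algebraMap k Fk (∑ a, x a * π (c a m)) * R.red T ^ (m : ℕ)
        = ∑ m : Fin n, ∑ a, algebraMap k Fk (x a * π (c a m)) * R.red T ^ (m : ℕ) := by
      refine Finset.sum_congr rfl fun m _ => ?_
      rw [map_sum, Finset.sum_mul]
    rw [h5, mul_sub, ← add_sub_assoc, ← h3]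
    ring
  refine jet_unique Q (R.red T) hT0 hTlt n (fun m => ∑ a, x a * π (c a m)) _ ?_ h4
  have h6 : Q.adicValuation (∑ a, algebraMap k Fk (x a) * z a) ≤ 1 := by
    refine Valuation.map_sum_le _ fun a _ => ?_
    rw [map_mul]
    exact mul_le_one' (Q.adicValuation_algebraMap_le_one _) (hz a)
  have h7 : Q.adicValuation (algebraMap k Fk γ) ≤ 1 := Q.adicValuation_algebraMap_le_one _
  exact Valuation.map_sub_le _ h6 h7

end Branch

variable {F1 : Type*} [Field F1] [Algebra k F1] {F2 : Type*} [Field F2] [Algebra k F2]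
variable {A : ValuationSubring L} {π : A →+* k} {ι : Type*}
variable {N : GNodalDatum A π FL F1 F2 ι} {g1 m2 : ℕ}
variable (D1 : Fin g1 → DiscParam N.R1) (D2 : Fin m2 → DiscParam N.R2)

/-! ### pairs: from a constant combination of the reduction pairs to the vanishing of the jets -/

section Pair

variable [HasPrincipalDivisors L FL]

/-- the first component of a `k`-combination of reduction pairs -/
theorem fst_sum_smul_red12 {κ : Type*} [Fintype κ] (y : κ → O12 N) (x : κ → k) :
    (∑ a, x a • red12 N (y a)).1 = ∑ a, algebraMap k F1 (x a) * N.R1.red (incl1 N (y a)) := by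
  rw [Prod.fst_sum]
  refine Finset.sum_congr rfl fun a _ => ?_
  rw [Prod.smul_fst, Algebra.smul_def, red12_fst]

/-- the second component of a `k`-combination of reduction pairs -/
theorem snd_sum_smul_red12 {κ : Type*} [Fintype κ] (y : κ → O12 N) (x : κ → k) :
    (∑ a, x a • red12 N (y a)).2 = ∑ a, algebraMap k F2 (x a) * N.R2.red (incl2 N (y a)) := by
  rw [Prod.snd_sum]
  refine Finset.sum_congr rfl fun a _ => ?_
  rw [Prod.smul_snd, Algebra.smul_def, red12_snd]

/-- twin of `S19/NormBasis.jets_of_comb_const` for reduction pairs: if the `k`-combination `x` of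
the `red12 (y a)` is a constant pair, then `x` kills the `n`-jets of the `y_a T_i ^ n` at every
chart point `i` -/
theorem jets_of_comb_const {κ : Type*} [Fintype κ] (y : κ → O12 N) (i : Fin g1 ⊕ Fin m2) (n : ℕ)
    (c : κ → Fin n → A) (hc : ∀ a, JetAt D1 D2 i (y a) n n (c a)) (x : κ → k) (γ : k)
    (hγ : ∑ a, x a • red12 N (y a) = (algebraMap k F1 γ, algebraMap k F2 γ)) :
    ∀ m, ∑ a, x a * π (c a m) = 0 := by
  rcases i with i | j
  · refine jets_of_comb_const_branch (D1 i).good (fun a => incl1 N (y a)) n c hc x γ ?_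
    rw [← fst_sum_smul_red12, hγ]
  · refine jets_of_comb_const_branch (D2 j).good (fun a => incl2 N (y a)) n c hc x γ ?_
    rw [← snd_sum_smul_red12, hγ]

end Pair

/-! ### the frame: the two statements of PART A as hypotheses, regularity of `f T_i²` -/

section Frame

variable (R1b : Fin g1 → Place k F1) (R2b : Fin m2 → Place k F2) (E : Divisor L FL)

/-- the statement `isUnit_det_jetMatrix` of PART A: the `2`-jet matrix of a family of glued sections
of `O(Ē)` which is `k`-independent together with `1` is invertible over `A` -/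
def DetHyp : Prop :=
  ∀ F : (Fin g1 ⊕ Fin m2) ⊕ (Fin g1 ⊕ Fin m2) → O12 N,
    (∀ b, red12 N (F b) ∈
      Glued N (Ebar R1b fun i => (D1 i).Q) (Ebar R2b fun j => (D2 j).Q)) →
    LinearIndependent k (Sum.elim (fun _ : Unit => (1 : F1 × F2)) (fun b => red12 N (F b))) →
    ∀ C : (Fin g1 ⊕ Fin m2) ⊕ (Fin g1 ⊕ Fin m2) → Fin g1 ⊕ Fin m2 → Fin 3 → A,
      (∀ b i, JetAt D1 D2 i (F b) 2 3 (C b i)) → IsUnit (jetMatrix C).det

/-- the statement `const_of_regular_Q` of PART A: a section of `O(E)` which is regular at the lift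
of every chart point is constant -/
def ConstHyp : Prop :=
  ∀ f : FL, f ∈ riemannRochSpace E → (∀ i, (lift D1 D2 i).adicValuation f ≤ 1) →
    ∃ c : L, f = algebraMap L FL c

/-- twin of `Datum.regOn_mul_T_sq`: a section of `O(E)` times the square of the parameter is
regular on the disc of the chart point -/
def RegHyp : Prop :=
  ∀ i, ∀ f : FL, f ∈ riemannRochSpace E → RegAt D1 D2 i (f * par D1 D2 i ^ 2)

end Frame

/-! ### coercions of combinations -/

section Coe

theorem coe_sum_const12_mul {κ : Type*} (s : Finset κ) (a : κ → A) (y : κ → O12 N) :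
    (((∑ b ∈ s, const12 N (a b) * y b : O12 N) : O12 N) : FL) =
      ∑ b ∈ s, algebraMap L FL ((a b : A) : L) * ((y b : O12 N) : FL) :=
  map_sum (O12 N).subtype (fun b => const12 N (a b) * y b) s

theorem coe_sub_O12 (x y : O12 N) : (((x - y : O12 N) : O12 N) : FL) = (x : FL) - (y : FL) := rfl

theorem coe_mul_O12 (x y : O12 N) : (((x * y : O12 N) : O12 N) : FL) = (x : FL) * (y : FL) := rfl

/-- a constant of `L` which lies in `O₁ ∩ O₂` lies in `A` -/
theorem exists_const_of_coe_eq (f : O12 N) {c : L} (h : ((f : O12 N) : FL) = algebraMap L FL c) :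
    ∃ c₀ : A, ((f : O12 N) : FL) = algebraMap L FL ((c₀ : A) : L) :=
  ⟨⟨c, N.R1.mem_of_algebraMap_mem c (h ▸ ((mem_O12 N).mp f.2).1)⟩, h⟩

end Coe

/-! ### normalised families and their existence -/

section Normalise

variable [HasPrincipalDivisors L FL]

/-- `φ` is **normalised**: the `2`-jets of `φ_a T_i²` at the chart points are the unit vectors, and
the coefficient of `T_i²` vanishes at the own index -/
def IsNormalised (φ : (Fin g1 ⊕ Fin m2) ⊕ (Fin g1 ⊕ Fin m2) → O12 N) : Prop :=
  ∃ κ : (Fin g1 ⊕ Fin m2) ⊕ (Fin g1 ⊕ Fin m2) → Fin g1 ⊕ Fin m2 → A, (∀ a, κ a (own a) = 0) ∧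
    ∀ a i, JetAt D1 D2 i (φ a) 2 3 (unitJet a i (κ a i))

variable {D1 D2} {φ : (Fin g1 ⊕ Fin m2) ⊕ (Fin g1 ⊕ Fin m2) → O12 N}

/-- the `2`-jets of a normalised family -/
theorem IsNormalised.jetAt_two (h : IsNormalised D1 D2 φ)
    (a : (Fin g1 ⊕ Fin m2) ⊕ (Fin g1 ⊕ Fin m2)) (i : Fin g1 ⊕ Fin m2) :
    JetAt D1 D2 i (φ a) 2 2
      ![if a = Sum.inl i then 1 else 0, if a = Sum.inr i then 1 else 0] := by
  obtain ⟨κ, -, hj⟩ := h
  refine (hj a i).castSucc.congr ?_
  funext m
  fin_cases m <;> rfl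

/-- the `3`-jet of a normalised family at the own index -/
theorem IsNormalised.jetAt_own (h : IsNormalised D1 D2 φ)
    (a : (Fin g1 ⊕ Fin m2) ⊕ (Fin g1 ⊕ Fin m2)) :
    JetAt D1 D2 (own a) (φ a) 2 3
      ![if a = Sum.inl (own a) then 1 else 0, if a = Sum.inr (own a) then 1 else 0, 0] := by
  obtain ⟨κ, hκ, hj⟩ := h
  have := hj a (own a)
  rw [hκ a] at this
  exact this

end Normalise

/-! ### existence of a normalised family -/

section Exists

variable [HasPrincipalDivisors L FL]
variable {R1b : Fin g1 → Place k F1} {R2b : Fin m2 → Place k F2}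

/-- the constant `a` times `T_i²` has the `3`-jet `(0, 0, a)` -/
theorem jetAt_const_two (i : Fin g1 ⊕ Fin m2) (a : A) :
    JetAt D1 D2 i (const12 N a) 2 3 (Pi.single (2 : Fin 3) a) :=
  jetAt_const a (2 : Fin 3)

theorem exists_isNormalised (hO : OrthoPair N) (hL : RiemannHyp L FL (g1 + m2))
    (hRb : IsRigidPair N R1b R2b)
    (hfin1 : ∀ D : Divisor k F1, Module.Finite k (riemannRochSpace D))
    (hfin2 : ∀ D : Divisor k F2, Module.Finite k (riemannRochSpace D))
    (hdeg1 : ∀ Q : Place k F1, Q.deg = 1) (hdeg2 : ∀ Q : Place k F2, Q.deg = 1)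
    (E : Divisor L FL) (hE : GoodSupp N E) (hE0 : 0 ≤ E)
    (hdegE : Divisor.degree E = 3 * ((g1 + m2 : ℕ) : ℤ))
    (hp1 : push1 N E = Ebar R1b fun i => (D1 i).Q)
    (hp2 : push2 N E = Ebar R2b fun j => (D2 j).Q)
    (hreg : RegHyp D1 D2 E) (hdet : DetHyp D1 D2 R1b R2b) :
    ∃ φ : (Fin g1 ⊕ Fin m2) ⊕ (Fin g1 ⊕ Fin m2) → O12 N,
      (∀ a, ((φ a : O12 N) : FL) ∈ riemannRochSpace E) ∧ IsNormalised D1 D2 φ := by
  classical
  obtain ⟨φ₀, h0, hmem, hredmem, hlik, -, -, -⟩ :=
    exists_reduced_basis_one_E hO hL hRb hfin1 hfin2 hdeg1 hdeg2 E hE hE0 hdegE hp1 hp2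
  -- reindex by `Unit ⊕ (I ⊕ I)`
  have hcard : Fintype.card ((Fin g1 ⊕ Fin m2) ⊕ (Fin g1 ⊕ Fin m2)) = 2 * (g1 + m2) := by
    rw [Fintype.card_sum, Fintype.card_sum, Fintype.card_fin, Fintype.card_fin, two_mul]
  let e : (Fin g1 ⊕ Fin m2) ⊕ (Fin g1 ⊕ Fin m2) ≃ Fin (2 * (g1 + m2)) :=
    Fintype.equivFinOfCardEq hcard
  set F : (Fin g1 ⊕ Fin m2) ⊕ (Fin g1 ⊕ Fin m2) → O12 N := fun b => φ₀ (e b).succ with hF
  have hFmem : ∀ b, ((F b : O12 N) : FL) ∈ riemannRochSpace E := fun b => hmem _
  have hFb : ∀ b, red12 N (F b) ∈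
      Glued N (Ebar R1b fun i => (D1 i).Q) (Ebar R2b fun j => (D2 j).Q) := fun b => hredmem _
  have hli : LinearIndependent k
      (Sum.elim (fun _ : Unit => (1 : F1 × F2)) (fun b => red12 N (F b))) := by
    let ε : Unit ⊕ ((Fin g1 ⊕ Fin m2) ⊕ (Fin g1 ⊕ Fin m2)) → Fin (2 * (g1 + m2) + 1) :=
      Sum.elim (fun _ => 0) (fun b => (e b).succ)
    have hε : Function.Injective ε := by
      rintro (u | b) (u' | b') h
      · rfl
      · exact absurd h.symm (Fin.succ_ne_zero _)
      · exact absurd h (Fin.succ_ne_zero _)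
      · exact congrArg Sum.inr (e.injective (Fin.succ_injective _ h))
    have h1 := hlik.comp ε hε
    have h2 : (fun a => red12 N (φ₀ a)) ∘ ε
        = Sum.elim (fun _ : Unit => (1 : F1 × F2)) (fun b => red12 N (F b)) := by
      funext a
      rcases a with u | b
      · simp only [Function.comp_apply, ε, Sum.elim_inl, h0, map_one]
      · rfl
    rwa [h2] at h1
  -- the jets of the `F b`
  choose C hC using fun b i => exists_jetAt D1 D2 i (F b) 2 (hreg i _ (hFmem b)) 3
  have hdetC := hdet F hFb hli C hC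
  -- solve the linear systems
  set M := jetMatrix C with hM
  set n : (Fin g1 ⊕ Fin m2) ⊕ (Fin g1 ⊕ Fin m2) → (Fin g1 ⊕ Fin m2) ⊕ (Fin g1 ⊕ Fin m2) → A :=
    fun a => M⁻¹.mulVec (Pi.single a 1) with hn
  have hMn : ∀ a, M.mulVec (n a) = Pi.single a 1 := by
    intro a
    rw [hn, Matrix.mulVec_mulVec, Matrix.mul_nonsing_inv _ hdetC, Matrix.one_mulVec]
  set γ : (Fin g1 ⊕ Fin m2) ⊕ (Fin g1 ⊕ Fin m2) → Fin g1 ⊕ Fin m2 → A :=
    fun a i => ∑ b, n a b * C b i 2 with hγ
  refine ⟨fun a => ∑ b, const12 N (n a b) * F b - const12 N (γ a (own a)), fun a => ?_,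
    fun a i => γ a i - γ a (own a), fun a => sub_self _, fun a i => ?_⟩
  · -- membership
    rw [coe_sub_O12, coe_sum_const12_mul]
    refine Submodule.sub_mem _ (Submodule.sum_mem _ fun b _ => ?_) ?_
    · rw [← Algebra.smul_def]
      exact Submodule.smul_mem _ _ (hFmem b)
    · have := Submodule.smul_mem (riemannRochSpace E) ((γ a (own a) : A) : L)
        (one_mem_riemannRochSpace hE0)
      rwa [Algebra.smul_def, mul_one] at this
  · -- the jets
    refine ((JetAt.sum Finset.univ (n a) F (fun b => C b i) (fun b _ => hC b i)).sub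
      (jetAt_const_two D1 D2 i (γ a (own a)))).congr ?_
    have hrow0 : ∑ b, n a b * C b i 0 = if a = Sum.inl i then 1 else 0 := by
      have h1 : ∑ b, M (Sum.inl i) b * n a b = (Pi.single a 1 : _ → A) (Sum.inl i) :=
        congrFun (hMn a) (Sum.inl i)
      rw [Pi.single_apply] at h1
      rw [if_congr (eq_comm (a := a) (b := Sum.inl i)) rfl rfl, ← h1]
      exact Finset.sum_congr rfl fun b _ => mul_comm _ _
    have hrow1 : ∑ b, n a b * C b i 1 = if a = Sum.inr i then 1 else 0 := by
      have h1 : ∑ b, M (Sum.inr i) b * n a b = (Pi.single a 1 : _ → A) (Sum.inr i) :=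
        congrFun (hMn a) (Sum.inr i)
      rw [Pi.single_apply] at h1
      rw [if_congr (eq_comm (a := a) (b := Sum.inr i)) rfl rfl, ← h1]
      exact Finset.sum_congr rfl fun b _ => mul_comm _ _
    funext m
    fin_cases m
    · show ∑ b, n a b * C b i 0 - (Pi.single (2 : Fin 3) (γ a (own a)) : Fin 3 → A) 0 = _
      rw [hrow0, Pi.single_eq_of_ne (by decide), sub_zero]
      rfl
    · show ∑ b, n a b * C b i 1 - (Pi.single (2 : Fin 3) (γ a (own a)) : Fin 3 → A) 1 = _
      rw [hrow1, Pi.single_eq_of_ne (by decide), sub_zero]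
      rfl
    · show ∑ b, n a b * C b i 2 - (Pi.single (2 : Fin 3) (γ a (own a)) : Fin 3 → A) 2 = _
      rw [Pi.single_eq_same]
      rfl

end Exists

/-! ### properties of normalised families -/

section Properties

variable [HasPrincipalDivisors L FL]
variable {R1b : Fin g1 → Place k F1} {R2b : Fin m2 → Place k F2}
variable {D1 D2} {φ : (Fin g1 ⊕ Fin m2) ⊕ (Fin g1 ⊕ Fin m2) → O12 N}

/-- **(N4)** the reduction pairs of a normalised family are `k`-independent together with `1` -/
theorem IsNormalised.linearIndependent (h : IsNormalised D1 D2 φ) :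
    LinearIndependent k (Sum.elim (fun _ : Unit => (1 : F1 × F2)) (fun a => red12 N (φ a))) := by
  classical
  rw [Fintype.linearIndependent_iff]
  intro x hx
  rw [Fintype.sum_sum_type] at hx
  simp only [Sum.elim_inl, Sum.elim_inr, Finset.univ_unique, Finset.sum_singleton] at hx
  have hone : x (Sum.inl default) • (1 : F1 × F2) =
      (algebraMap k F1 (x (Sum.inl default)), algebraMap k F2 (x (Sum.inl default))) := by
    refine Prod.ext ?_ ?_
    · rw [Prod.smul_fst, Prod.fst_one, Algebra.smul_def, mul_one]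
    · rw [Prod.smul_snd, Prod.snd_one, Algebra.smul_def, mul_one]
  have hγ : ∑ a, x (Sum.inr a) • red12 N (φ a) =
      (algebraMap k F1 (-x (Sum.inl default)), algebraMap k F2 (-x (Sum.inl default))) := by
    rw [map_neg, map_neg, ← Prod.neg_mk, ← hone, eq_neg_iff_add_eq_zero, add_comm]
    exact hx
  have hkill := fun i => jets_of_comb_const D1 D2 φ i 2 _ (fun a => h.jetAt_two a i)
    (fun a => x (Sum.inr a)) _ hγ
  have hinl : ∀ i, x (Sum.inr (Sum.inl i)) = 0 := by
    intro i
    have := hkill i 0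
    simpa [apply_ite π] using this
  have hinr : ∀ i, x (Sum.inr (Sum.inr i)) = 0 := by
    intro i
    have := hkill i 1
    simpa [apply_ite π] using this
  have hall : ∀ a, x (Sum.inr a) = 0 := by
    rintro (i | i)
    · exact hinl i
    · exact hinr i
  have h0 : x (Sum.inl default) = 0 := by
    simp only [hall, zero_smul, Finset.sum_const_zero, add_zero] at hx
    rw [hone] at hx
    exact (map_eq_zero_iff _ (algebraMap k F1).injective).mp (congrArg Prod.fst hx)
  rintro (u | a)
  · rw [Subsingleton.elim u default]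
    exact h0
  · exact hall a

/-- **(N0)** the reduction pairs of a normalised family are glued sections of `O(Ē)` -/
theorem IsNormalised.red_mem (h : IsNormalised D1 D2 φ) (E : Divisor L FL) (hE : GoodSupp N E)
    (hp1 : push1 N E = Ebar R1b fun i => (D1 i).Q)
    (hp2 : push2 N E = Ebar R2b fun j => (D2 j).Q)
    (hφ : ∀ a, ((φ a : O12 N) : FL) ∈ riemannRochSpace E)
    (a : (Fin g1 ⊕ Fin m2) ⊕ (Fin g1 ⊕ Fin m2)) :
    red12 N (φ a) ∈ Glued N (Ebar R1b fun i => (D1 i).Q) (Ebar R2b fun j => (D2 j).Q) := by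
  have := red12_mem_glued N (φ a) E hE (hφ a)
  rwa [hp1, hp2] at this

/-- **(N3)** a normalised family spans, together with `1`, the sections of `O(E)` in `O₁ ∩ O₂`
over `A`; the coefficients are the `2`-jets -/
theorem IsNormalised.span (h : IsNormalised D1 D2 φ) (E : Divisor L FL)
    (hφ : ∀ a, ((φ a : O12 N) : FL) ∈ riemannRochSpace E)
    (hreg : RegHyp D1 D2 E) (hconst : ConstHyp D1 D2 E)
    (f : O12 N) (hf : ((f : O12 N) : FL) ∈ riemannRochSpace E) :
    ∃ (c₀ : A) (c : (Fin g1 ⊕ Fin m2) ⊕ (Fin g1 ⊕ Fin m2) → A), ((f : O12 N) : FL) =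
      algebraMap L FL ((c₀ : A) : L) +
        ∑ a, algebraMap L FL ((c a : A) : L) * ((φ a : O12 N) : FL) := by
  classical
  choose Cf hCf using fun i => exists_jetAt D1 D2 i f 2 (hreg i _ hf) 3
  set c : (Fin g1 ⊕ Fin m2) ⊕ (Fin g1 ⊕ Fin m2) → A :=
    Sum.elim (fun i => Cf i 0) (fun i => Cf i 1) with hc
  set f' : O12 N := f - ∑ a, const12 N (c a) * φ a with hf'
  have hcoe : ((f' : O12 N) : FL) =
      ((f : O12 N) : FL) - ∑ a, algebraMap L FL ((c a : A) : L) * ((φ a : O12 N) : FL) := by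
    rw [hf', coe_sub_O12, coe_sum_const12_mul]
  have hf'mem : ((f' : O12 N) : FL) ∈ riemannRochSpace E := by
    rw [hcoe]
    refine Submodule.sub_mem _ hf (Submodule.sum_mem _ fun a _ => ?_)
    rw [← Algebra.smul_def]
    exact Submodule.smul_mem _ _ (hφ a)
  have hf'reg : ∀ i, (lift D1 D2 i).adicValuation ((f' : O12 N) : FL) ≤ 1 := by
    intro i
    refine RegAt.le_one (JetAt.regAt (e := 2) ?_)
    refine ((hCf i).castSucc.sub (JetAt.sum Finset.univ c φ _
      (fun a _ => h.jetAt_two a i))).congr ?_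
    have hsum0 : ∑ a, c a * (if a = Sum.inl i then (1 : A) else 0) = Cf i 0 := by
      rw [Finset.sum_eq_single (Sum.inl i)]
      · rw [if_pos rfl, mul_one, hc, Sum.elim_inl]
      · intro b _ hb
        rw [if_neg hb, mul_zero]
      · intro hi
        exact absurd (Finset.mem_univ _) hi
    have hsum1 : ∑ a, c a * (if a = Sum.inr i then (1 : A) else 0) = Cf i 1 := by
      rw [Finset.sum_eq_single (Sum.inr i)]
      · rw [if_pos rfl, mul_one, hc, Sum.elim_inr]
      · intro b _ hb
        rw [if_neg hb, mul_zero]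
      · intro hi
        exact absurd (Finset.mem_univ _) hi
    funext m
    fin_cases m
    · show Cf i 0 - ∑ a, c a * (if a = Sum.inl i then (1 : A) else 0) = 0
      rw [hsum0, sub_self]
    · show Cf i 1 - ∑ a, c a * (if a = Sum.inr i then (1 : A) else 0) = 0
      rw [hsum1, sub_self]
  obtain ⟨c', hc'⟩ := hconst _ hf'mem hf'reg
  obtain ⟨c₀, hc₀⟩ := exists_const_of_coe_eq f' hc'
  refine ⟨c₀, c, ?_⟩
  rw [← hc₀, hcoe]
  ring

end Properties

/-! ### rationality: a normalised family is fixed by semilinear automorphisms fixing the datum -/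

section Rationality

variable [HasPrincipalDivisors L FL]
variable {R1b : Fin g1 → Place k F1} {R2b : Fin m2 → Place k F2}
variable {D1 D2} {φ : (Fin g1 ⊕ Fin m2) ⊕ (Fin g1 ⊕ Fin m2) → O12 N}

/-- **(N5)** a normalised family is fixed by every semilinear endomorphism `(sL, sF)` of `FL/L`
which preserves `L(E)`, the valuations at the lifts of the chart points, and the parameters -/
theorem IsNormalised.fixed (h : IsNormalised D1 D2 φ) (E : Divisor L FL)
    (hφ : ∀ a, ((φ a : O12 N) : FL) ∈ riemannRochSpace E) (hconst : ConstHyp D1 D2 E)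
    (sL : L →+* L) (sF : FL →+* FL)
    (hcomp : ∀ c, sF (algebraMap L FL c) = algebraMap L FL (sL c))
    (hE : ∀ f ∈ riemannRochSpace E, sF f ∈ riemannRochSpace E)
    (hQ : ∀ i (z : FL), (lift D1 D2 i).adicValuation (sF z) = (lift D1 D2 i).adicValuation z)
    (hT : ∀ i, sF (par D1 D2 i) = par D1 D2 i)
    (a : (Fin g1 ⊕ Fin m2) ⊕ (Fin g1 ⊕ Fin m2)) :
    sF ((φ a : O12 N) : FL) = ((φ a : O12 N) : FL) := by
  set ψ : FL := sF ((φ a : O12 N) : FL) - ((φ a : O12 N) : FL) with hψ
  have hψmem : ψ ∈ riemannRochSpace E := Submodule.sub_mem _ (hE _ (hφ a)) (hφ a)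
  have hmul : ∀ i, sF (((φ a : O12 N) : FL) * par D1 D2 i ^ 2) -
      ((φ a : O12 N) : FL) * par D1 D2 i ^ 2 = ψ * par D1 D2 i ^ 2 := by
    intro i
    rw [map_mul, map_pow, hT i, hψ]
    ring
  -- regular at the lift of every chart point
  have hreg : ∀ i, (lift D1 D2 i).adicValuation ψ ≤ 1 := by
    intro i
    obtain ⟨z, hz, hy⟩ := (h.jetAt_two a i).coe
    have h1 := semilinear_jet_sub sL sF hcomp _ (hT i) 2
      (fun m => (((![if a = Sum.inl i then 1 else 0, if a = Sum.inr i then 1 else 0] :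
        Fin 2 → A) m : A) : L)) (fun m => ?_) _ z hy
    · rw [hmul i, mul_comm] at h1
      have h2 : ψ = sF z - z := mul_left_cancel₀ (pow_ne_zero 2 (par_ne_zero D1 D2 i)) h1
      rw [h2]
      refine Valuation.map_sub_le _ ?_ hz.le_one
      rw [hQ i]
      exact hz.le_one
    · fin_cases m
      · show sL (((if a = Sum.inl i then (1 : A) else 0 : A) : A) : L) = _
        split_ifs <;> simp
      · show sL (((if a = Sum.inr i then (1 : A) else 0 : A) : A) : L) = _
        split_ifs <;> simp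
  obtain ⟨c, hc⟩ := hconst ψ hψmem hreg
  -- the constant vanishes at the own index
  have hlt : (lift D1 D2 (own a)).adicValuation ψ < 1 := by
    obtain ⟨z, hz, hy⟩ := (h.jetAt_own a).coe
    have h1 := semilinear_jet_sub sL sF hcomp _ (hT (own a)) 3
      (fun m => (((![if a = Sum.inl (own a) then 1 else 0, if a = Sum.inr (own a) then 1 else 0,
        0] : Fin 3 → A) m : A) : L)) (fun m => ?_) _ z hy
    · rw [hmul (own a)] at h1
      have h2 : ψ = par D1 D2 (own a) * (sF z - z) := by
        apply mul_right_cancel₀ (pow_ne_zero 2 (par_ne_zero D1 D2 (own a)))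
        rw [h1]
        ring
      rw [h2, map_mul]
      refine mul_lt_one_of_lt_of_le (par_lt_one D1 D2 (own a)) ?_
      refine Valuation.map_sub_le _ ?_ hz.le_one
      rw [hQ (own a)]
      exact hz.le_one
    · fin_cases m
      · show sL (((if a = Sum.inl (own a) then (1 : A) else 0 : A) : A) : L) = _
        split_ifs <;> simp
      · show sL (((if a = Sum.inr (own a) then (1 : A) else 0 : A) : A) : L) = _
        split_ifs <;> simp
      · show sL (((0 : A) : A) : L) = _
        simp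
  have hc0 : c = 0 := by
    by_contra hne
    rw [hc, adicValuation_algebraMap _ hne] at hlt
    exact lt_irrefl _ hlt
  rw [hc0, map_zero] at hc
  exact sub_eq_zero.mp hc

variable (D1 D2) in
/-- **the normalised basis** of `L(R₀ + 2 D₀)` modulo constants on the nodal fibre (twin of
`S19/NormBasis.exists_normalised_basis`; `hdet`, `hconst` are PART A) -/
theorem exists_normalised_basis (hO : OrthoPair N) (hL : RiemannHyp L FL (g1 + m2))
    (hRb : IsRigidPair N R1b R2b)
    (hfin1 : ∀ D : Divisor k F1, Module.Finite k (riemannRochSpace D))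
    (hfin2 : ∀ D : Divisor k F2, Module.Finite k (riemannRochSpace D))
    (hdeg1 : ∀ Q : Place k F1, Q.deg = 1) (hdeg2 : ∀ Q : Place k F2, Q.deg = 1)
    (E : Divisor L FL) (hE : GoodSupp N E) (hE0 : 0 ≤ E)
    (hdegE : Divisor.degree E = 3 * ((g1 + m2 : ℕ) : ℤ))
    (hp1 : push1 N E = Ebar R1b fun i => (D1 i).Q)
    (hp2 : push2 N E = Ebar R2b fun j => (D2 j).Q)
    (hreg : RegHyp D1 D2 E) (hdet : DetHyp D1 D2 R1b R2b) (hconst : ConstHyp D1 D2 E) :
    ∃ φ : (Fin g1 ⊕ Fin m2) ⊕ (Fin g1 ⊕ Fin m2) → O12 N,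
      (∀ a, ((φ a : O12 N) : FL) ∈ riemannRochSpace E) ∧
      (∀ a, red12 N (φ a) ∈
        Glued N (Ebar R1b fun i => (D1 i).Q) (Ebar R2b fun j => (D2 j).Q)) ∧
      IsNormalised D1 D2 φ ∧
      (∀ f : O12 N, ((f : O12 N) : FL) ∈ riemannRochSpace E →
        ∃ (c₀ : A) (c : (Fin g1 ⊕ Fin m2) ⊕ (Fin g1 ⊕ Fin m2) → A), ((f : O12 N) : FL) =
          algebraMap L FL ((c₀ : A) : L) +
            ∑ a, algebraMap L FL ((c a : A) : L) * ((φ a : O12 N) : FL)) ∧
      LinearIndependent k (Sum.elim (fun _ : Unit => (1 : F1 × F2)) (fun a => red12 N (φ a))) ∧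
      (∀ (sL : L →+* L) (sF : FL →+* FL),
        (∀ c, sF (algebraMap L FL c) = algebraMap L FL (sL c)) →
        (∀ f ∈ riemannRochSpace E, sF f ∈ riemannRochSpace E) →
        (∀ i (z : FL), (lift D1 D2 i).adicValuation (sF z) = (lift D1 D2 i).adicValuation z) →
        (∀ i, sF (par D1 D2 i) = par D1 D2 i) →
        ∀ a, sF ((φ a : O12 N) : FL) = ((φ a : O12 N) : FL)) := by
  obtain ⟨φ, hφ, hn⟩ := exists_isNormalised D1 D2 hO hL hRb hfin1 hfin2 hdeg1 hdeg2 E hE hE0
    hdegE hp1 hp2 hreg hdet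
  exact ⟨φ, hφ, hn.red_mem E hE hp1 hp2 hφ, hn, hn.span E hφ hreg hconst, hn.linearIndependent,
    fun sL sF hcomp hEs hQ hT a => hn.fixed E hφ hconst sL sF hcomp hEs hQ hT a⟩

end Rationality

/-! ### the hypothesis `RegHyp` from the local shape of `E` at the discs of the chart -/

section RegHypOfApply

variable [HasPrincipalDivisors L FL]

/-- one branch: if `E` is at most `2 P0` on the disc of `D`, sections of `O(E)` times `T²` are
regular on the disc (twin of `Datum.regOn_mul_T_sq`) -/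
theorem regOn_mul_sq_of_apply {Fk : Type*} [Field Fk] [Algebra k Fk] {R : SmoothRed A π FL Fk}
    (D : DiscParam R) (E : Divisor L FL) (h0 : E D.P0 ≤ 2)
    (h : ∀ P : Place L FL, R.r P = some D.Q → P ≠ D.P0 → E P ≤ 0) {f : FL}
    (hf : f ∈ riemannRochSpace E) : RegOn R.r (f * ((D.T : R.O) : FL) ^ 2) D.Q := by
  classical
  refine regOn_of_ord_nonneg fun P hP => ?_
  rcases eq_or_ne f 0 with rfl | hf0
  · rw [zero_mul, Place.ord_zero]
  have hT0 : ((D.T : R.O) : FL) ≠ 0 := D.good.coe_ne_zero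
  have hfP : -E P ≤ P.ord f := ((mem_riemannRochSpace_iff.mp hf) P).resolve_left hf0
  rw [P.ord_mul hf0 (pow_ne_zero 2 hT0), Fermat.Agent.S18.CoreOrd.ord_pow,
    D.good.ord_eq_ite D.hP0 D.zero P hP]
  by_cases hPP : P = D.P0
  · rw [if_pos hPP]
    rw [hPP] at hfP ⊢
    push_cast
    omega
  · rw [if_neg hPP]
    have := h P hP hPP
    push_cast
    omega

/-- one branch, any multiplicity: if `E` is at most `e P0` on the disc of `D`, sections of `O(E)`
times `T ^ e` are regular on the disc (`e = 2` : `Datum.regOn_mul_T_sq`, `e = 1` :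
`Datum.regOn_mul_v`) -/
theorem regOn_mul_pow_of_apply {Fk : Type*} [Field Fk] [Algebra k Fk] {R : SmoothRed A π FL Fk}
    (D : DiscParam R) (E : Divisor L FL) (e : ℕ) (h0 : E D.P0 ≤ e)
    (h : ∀ P : Place L FL, R.r P = some D.Q → P ≠ D.P0 → E P ≤ 0) {f : FL}
    (hf : f ∈ riemannRochSpace E) : RegOn R.r (f * ((D.T : R.O) : FL) ^ e) D.Q := by
  classical
  refine regOn_of_ord_nonneg fun P hP => ?_
  rcases eq_or_ne f 0 with rfl | hf0
  · rw [zero_mul, Place.ord_zero]
  have hT0 : ((D.T : R.O) : FL) ≠ 0 := D.good.coe_ne_zero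
  have hfP : -E P ≤ P.ord f := ((mem_riemannRochSpace_iff.mp hf) P).resolve_left hf0
  rw [P.ord_mul hf0 (pow_ne_zero e hT0), Fermat.Agent.S18.CoreOrd.ord_pow,
    D.good.ord_eq_ite D.hP0 D.zero P hP]
  by_cases hPP : P = D.P0
  · rw [if_pos hPP]
    rw [hPP] at hfP ⊢
    omega
  · rw [if_neg hPP]
    have := h P hP hPP
    omega

/-- one branch, multiplicity one (twin of `Datum.regOn_mul_v`) -/
theorem regOn_mul_of_apply {Fk : Type*} [Field Fk] [Algebra k Fk] {R : SmoothRed A π FL Fk}
    (D : DiscParam R) (E : Divisor L FL) (h0 : E D.P0 ≤ 1)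
    (h : ∀ P : Place L FL, R.r P = some D.Q → P ≠ D.P0 → E P ≤ 0) {f : FL}
    (hf : f ∈ riemannRochSpace E) : RegOn R.r (f * ((D.T : R.O) : FL)) D.Q := by
  have := regOn_mul_pow_of_apply D E 1 (by exact_mod_cast h0) h hf
  rwa [pow_one] at this

/-- `RegHyp` from the local shape of `E` at the discs of the chart points -/
theorem regHyp_of_apply (E : Divisor L FL) (h01 : ∀ i, E (D1 i).P0 ≤ 2)
    (h1 : ∀ i (P : Place L FL), N.R1.r P = some (D1 i).Q → P ≠ (D1 i).P0 → E P ≤ 0)
    (h02 : ∀ j, E (D2 j).P0 ≤ 2)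
    (h2 : ∀ j (P : Place L FL), N.R2.r P = some (D2 j).Q → P ≠ (D2 j).P0 → E P ≤ 0) :
    RegHyp D1 D2 E := by
  rintro (i | j) f hf
  · exact regOn_mul_sq_of_apply (D1 i) E (h01 i) (h1 i) hf
  · exact regOn_mul_sq_of_apply (D2 j) E (h02 j) (h2 j) hf

end RegHypOfApply

end Fermat.Agent.S33.Nodal.NormBasisB
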