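import Fermat.Agent.S33.Nodal.NormBasisAD
import Fermat.Agent.S33.Nodal.NormBasisB

/-!
# PROJECT N (S33), route H8, slice [N1]: the normalised basis at an `NDatum` (helper13)

`Nodal/NormBasisB` is record-free and takes PART A as hypotheses.  Here everything is discharged for
the interpolation datum `d : Datum.NDatum N g1 m2` (helper7):

* `E_apply_le_1/2`, `E_apply_P0_le_1/2` : `E ≤ 2 Q_i` on the disc of the chart point `i`, hence
  `regHyp` : the twin of `Datum.regOn_mul_T_sq`;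
* `E_apply_le_R1/2`, `E_apply_P0_le_R1/2` : `E ≤ Rp_j` on the disc of the auxiliary point `j`, hence
  `regOn_mul_v1/2`, `regAt_mul_v` : the twin of `Datum.regOn_mul_v`;
* `detHyp`, `constHyp` : PART A at the datum (`NormBasisAD`, helper4);
* `exists_normalised_basis d` : the twin of `S19/NormBasis.exists_normalised_basis`, with the six
  outputs of the original.
-/

set_option autoImplicit false
set_option linter.unusedSectionVars false
set_option linter.unusedVariables false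

namespace Fermat.Agent.S33.Nodal.NormBasisD

open AlgebraicCurve Fermat.Agent.S24.Ord Fermat.Agent.S34.NodalDefs Fermat.Agent.S34.NodalDisc
open Fermat.Agent.S18.NonSpecial
open Fermat.Agent.S33.Nodal.Taylor Fermat.Agent.S33.Nodal.Glued Fermat.Agent.S33.Nodal.SemiCont
open Fermat.Agent.S33.Nodal.Rigid3 Fermat.Agent.S33.Nodal.Interp Fermat.Agent.S33.Nodal.JetAt
open Fermat.Agent.S33.Nodal.Datum Fermat.Agent.S33.Nodal.NormBasisB
open Fermat.Agent.S34.NodalCore (sum_single_apply_of_injective' sum_single_apply_of_notMem')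

variable {L : Type*} [Field L] {FL : Type*} [Field FL] [Algebra L FL]
variable {k : Type*} [Field k] {F1 : Type*} [Field F1] [Algebra k F1]
  {F2 : Type*} [Field F2] [Algebra k F2]
variable {A : ValuationSubring L} {π : A →+* k} {ι : Type*}
variable {N : GNodalDatum A π FL F1 F2 ι} {g1 m2 : ℕ} (d : NDatum N g1 m2)

/-! ### the local shape of `E` on the discs of the chart -/

/-- off the chart point, `E` vanishes on the disc of a chart point of the first branch -/
theorem E_apply_le_1 (i : Fin g1) (P : Place L FL) (hP : N.R1.r P = some (d.DQ1 i).Q)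
    (hne : P ≠ (d.DQ1 i).P0) : d.E P ≤ 0 := by
  have hR1 : ∀ j, d.Rp1 j ≠ P := by
    rintro j rfl
    have h := d.hRp1 j
    rw [hP] at h
    exact d.disj1 i j (Option.some_injective _ h)
  have hQ1 : ∀ i', d.Q1 i' ≠ P := by
    rintro i' rfl
    have h := d.hQ1 i'
    rw [hP] at h
    have hi : i = i' := d.Qb1_inj (Option.some_injective _ h)
    exact hne (by rw [hi]; rfl)
  have hR2 : ∀ j, d.Rp2 j ≠ P := by
    rintro j rfl
    exact N.excl _ _ _ hP (d.hRp2 j)
  have hQ2 : ∀ j, d.Q2 j ≠ P := by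
    rintro j rfl
    exact N.excl _ _ _ hP (d.hQ2 j)
  have h0 : d.E P = 0 := by
    show (d.E1 + d.E2) P = 0
    unfold NDatum.E1 NDatum.E2
    simp only [Finsupp.add_apply]
    rw [sum_single_apply_of_notMem' d.Rp1 P hR1, sum_single_apply_of_notMem' d.Q1 P hQ1,
      sum_single_apply_of_notMem' d.Rp2 P hR2, sum_single_apply_of_notMem' d.Q2 P hQ2]
    norm_num
  rw [h0]

/-- off the chart point, `E` vanishes on the disc of a chart point of the second branch -/
theorem E_apply_le_2 (j : Fin m2) (P : Place L FL) (hP : N.R2.r P = some (d.DQ2 j).Q)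
    (hne : P ≠ (d.DQ2 j).P0) : d.E P ≤ 0 := by
  have hR2 : ∀ j', d.Rp2 j' ≠ P := by
    rintro j' rfl
    have h := d.hRp2 j'
    rw [hP] at h
    exact d.disj2 j j' (Option.some_injective _ h)
  have hQ2 : ∀ j', d.Q2 j' ≠ P := by
    rintro j' rfl
    have h := d.hQ2 j'
    rw [hP] at h
    have hj : j = j' := d.Qb2_inj (Option.some_injective _ h)
    exact hne (by rw [hj]; rfl)
  have hR1 : ∀ i, d.Rp1 i ≠ P := by
    rintro i rfl
    exact N.excl _ _ _ (d.hRp1 i) hP
  have hQ1 : ∀ i, d.Q1 i ≠ P := by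
    rintro i rfl
    exact N.excl _ _ _ (d.hQ1 i) hP
  have h0 : d.E P = 0 := by
    show (d.E1 + d.E2) P = 0
    unfold NDatum.E1 NDatum.E2
    simp only [Finsupp.add_apply]
    rw [sum_single_apply_of_notMem' d.Rp1 P hR1, sum_single_apply_of_notMem' d.Q1 P hQ1,
      sum_single_apply_of_notMem' d.Rp2 P hR2, sum_single_apply_of_notMem' d.Q2 P hQ2]
    norm_num
  rw [h0]

/-- `E` has multiplicity (at most) two at a chart point of the first branch -/
theorem E_apply_P0_le_1 (i : Fin g1) : d.E (d.DQ1 i).P0 ≤ 2 := by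
  have hR1 : ∀ j, d.Rp1 j ≠ d.Q1 i := by
    intro j hj
    have h := d.hRp1 j
    rw [hj, d.hQ1 i] at h
    exact d.disj1 i j (Option.some_injective _ h)
  have hR2 : ∀ j, d.Rp2 j ≠ d.Q1 i := by
    intro j hj
    have h := d.hRp2 j
    rw [hj] at h
    exact N.excl _ _ _ (d.hQ1 i) h
  have hQ2 : ∀ j, d.Q2 j ≠ d.Q1 i := by
    intro j hj
    have h := d.hQ2 j
    rw [hj] at h
    exact N.excl _ _ _ (d.hQ1 i) h
  have h0 : d.E (d.Q1 i) = 2 := by
    show (d.E1 + d.E2) (d.Q1 i) = 2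
    unfold NDatum.E1 NDatum.E2
    simp only [Finsupp.add_apply]
    rw [sum_single_apply_of_notMem' d.Rp1 _ hR1, sum_single_apply_of_injective' d.Q1 d.Q1_inj i,
      sum_single_apply_of_notMem' d.Rp2 _ hR2, sum_single_apply_of_notMem' d.Q2 _ hQ2]
    norm_num
  exact le_of_eq h0

/-- `E` has multiplicity (at most) two at a chart point of the second branch -/
theorem E_apply_P0_le_2 (j : Fin m2) : d.E (d.DQ2 j).P0 ≤ 2 := by
  have hR2 : ∀ j', d.Rp2 j' ≠ d.Q2 j := by
    intro j' hj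
    have h := d.hRp2 j'
    rw [hj, d.hQ2 j] at h
    exact d.disj2 j j' (Option.some_injective _ h)
  have hR1 : ∀ i, d.Rp1 i ≠ d.Q2 j := by
    intro i hi
    have h := d.hRp1 i
    rw [hi] at h
    exact N.excl _ _ _ h (d.hQ2 j)
  have hQ1 : ∀ i, d.Q1 i ≠ d.Q2 j := by
    intro i hi
    have h := d.hQ1 i
    rw [hi] at h
    exact N.excl _ _ _ h (d.hQ2 j)
  have h0 : d.E (d.Q2 j) = 2 := by
    show (d.E1 + d.E2) (d.Q2 j) = 2
    unfold NDatum.E1 NDatum.E2
    simp only [Finsupp.add_apply]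
    rw [sum_single_apply_of_notMem' d.Rp1 _ hR1, sum_single_apply_of_notMem' d.Q1 _ hQ1,
      sum_single_apply_of_notMem' d.Rp2 _ hR2, sum_single_apply_of_injective' d.Q2 d.Q2_inj j]
    norm_num
  exact le_of_eq h0

/-! ### the local shape of `E` on the discs of the auxiliary points -/

/-- off the auxiliary point, `E` vanishes on the disc of an auxiliary point of the first branch -/
theorem E_apply_le_R1 (j : Fin g1) (P : Place L FL) (hP : N.R1.r P = some (d.DR1 j).Q)
    (hne : P ≠ (d.DR1 j).P0) : d.E P ≤ 0 := by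
  have hR1 : ∀ j', d.Rp1 j' ≠ P := by
    rintro j' rfl
    have h := d.hRp1 j'
    rw [hP] at h
    have hj : j = j' := d.Rb1_inj (Option.some_injective _ h)
    exact hne (by rw [hj]; rfl)
  have hQ1 : ∀ i, d.Q1 i ≠ P := by
    rintro i rfl
    have h := d.hQ1 i
    rw [hP] at h
    exact d.disj1 i j (Option.some_injective _ h).symm
  have hR2 : ∀ j', d.Rp2 j' ≠ P := by
    rintro j' rfl
    exact N.excl _ _ _ hP (d.hRp2 j')
  have hQ2 : ∀ j', d.Q2 j' ≠ P := by
    rintro j' rfl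
    exact N.excl _ _ _ hP (d.hQ2 j')
  have h0 : d.E P = 0 := by
    show (d.E1 + d.E2) P = 0
    unfold NDatum.E1 NDatum.E2
    simp only [Finsupp.add_apply]
    rw [sum_single_apply_of_notMem' d.Rp1 P hR1, sum_single_apply_of_notMem' d.Q1 P hQ1,
      sum_single_apply_of_notMem' d.Rp2 P hR2, sum_single_apply_of_notMem' d.Q2 P hQ2]
    norm_num
  rw [h0]

/-- off the auxiliary point, `E` vanishes on the disc of an auxiliary point of the second branch -/
theorem E_apply_le_R2 (j : Fin m2) (P : Place L FL) (hP : N.R2.r P = some (d.DR2 j).Q)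
    (hne : P ≠ (d.DR2 j).P0) : d.E P ≤ 0 := by
  have hR2 : ∀ j', d.Rp2 j' ≠ P := by
    rintro j' rfl
    have h := d.hRp2 j'
    rw [hP] at h
    have hj : j = j' := d.Rb2_inj (Option.some_injective _ h)
    exact hne (by rw [hj]; rfl)
  have hQ2 : ∀ i, d.Q2 i ≠ P := by
    rintro i rfl
    have h := d.hQ2 i
    rw [hP] at h
    exact d.disj2 i j (Option.some_injective _ h).symm
  have hR1 : ∀ i, d.Rp1 i ≠ P := by
    rintro i rfl
    exact N.excl _ _ _ (d.hRp1 i) hP
  have hQ1 : ∀ i, d.Q1 i ≠ P := by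
    rintro i rfl
    exact N.excl _ _ _ (d.hQ1 i) hP
  have h0 : d.E P = 0 := by
    show (d.E1 + d.E2) P = 0
    unfold NDatum.E1 NDatum.E2
    simp only [Finsupp.add_apply]
    rw [sum_single_apply_of_notMem' d.Rp1 P hR1, sum_single_apply_of_notMem' d.Q1 P hQ1,
      sum_single_apply_of_notMem' d.Rp2 P hR2, sum_single_apply_of_notMem' d.Q2 P hQ2]
    norm_num
  rw [h0]

/-- `E` has multiplicity (at most) one at an auxiliary point of the first branch -/
theorem E_apply_P0_le_R1 (j : Fin g1) : d.E (d.DR1 j).P0 ≤ 1 := by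
  have hQ1 : ∀ i, d.Q1 i ≠ d.Rp1 j := by
    intro i hi
    have h := d.hQ1 i
    rw [hi, d.hRp1 j] at h
    exact d.disj1 i j (Option.some_injective _ h).symm
  have hR2 : ∀ j', d.Rp2 j' ≠ d.Rp1 j := by
    intro j' hj
    have h := d.hRp2 j'
    rw [hj] at h
    exact N.excl _ _ _ (d.hRp1 j) h
  have hQ2 : ∀ j', d.Q2 j' ≠ d.Rp1 j := by
    intro j' hj
    have h := d.hQ2 j'
    rw [hj] at h
    exact N.excl _ _ _ (d.hRp1 j) h
  have h0 : d.E (d.Rp1 j) = 1 := by
    show (d.E1 + d.E2) (d.Rp1 j) = 1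
    unfold NDatum.E1 NDatum.E2
    simp only [Finsupp.add_apply]
    rw [sum_single_apply_of_injective' d.Rp1 d.Rp1_inj j, sum_single_apply_of_notMem' d.Q1 _ hQ1,
      sum_single_apply_of_notMem' d.Rp2 _ hR2, sum_single_apply_of_notMem' d.Q2 _ hQ2]
    norm_num
  exact le_of_eq h0

/-- `E` has multiplicity (at most) one at an auxiliary point of the second branch -/
theorem E_apply_P0_le_R2 (j : Fin m2) : d.E (d.DR2 j).P0 ≤ 1 := by
  have hQ2 : ∀ i, d.Q2 i ≠ d.Rp2 j := by
    intro i hi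
    have h := d.hQ2 i
    rw [hi, d.hRp2 j] at h
    exact d.disj2 i j (Option.some_injective _ h).symm
  have hR1 : ∀ i, d.Rp1 i ≠ d.Rp2 j := by
    intro i hi
    have h := d.hRp1 i
    rw [hi] at h
    exact N.excl _ _ _ h (d.hRp2 j)
  have hQ1 : ∀ i, d.Q1 i ≠ d.Rp2 j := by
    intro i hi
    have h := d.hQ1 i
    rw [hi] at h
    exact N.excl _ _ _ h (d.hRp2 j)
  have h0 : d.E (d.Rp2 j) = 1 := by
    show (d.E1 + d.E2) (d.Rp2 j) = 1
    unfold NDatum.E1 NDatum.E2
    simp only [Finsupp.add_apply]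
    rw [sum_single_apply_of_notMem' d.Rp1 _ hR1, sum_single_apply_of_notMem' d.Q1 _ hQ1,
      sum_single_apply_of_injective' d.Rp2 d.Rp2_inj j, sum_single_apply_of_notMem' d.Q2 _ hQ2]
    norm_num
  exact le_of_eq h0

/-! ### the three hypotheses of `NormBasisB` at the datum -/

section Hyps

variable [HasPrincipalDivisors L FL]

/-- twin of `Datum.regOn_mul_T_sq` -/
theorem regHyp : RegHyp d.DQ1 d.DQ2 d.E :=
  regHyp_of_apply d.DQ1 d.DQ2 d.E (E_apply_P0_le_1 d) (E_apply_le_1 d) (E_apply_P0_le_2 d)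
    (E_apply_le_2 d)

/-- twin of `Datum.regOn_mul_T_sq`, first branch -/
theorem regOn_mul_T1_sq (i : Fin g1) {f : FL} (hf : f ∈ riemannRochSpace d.E) :
    RegOn N.R1.r (f * ((d.T1 i : N.R1.O) : FL) ^ 2) (d.Qb1 i) :=
  regHyp d (Sum.inl i) f hf

/-- twin of `Datum.regOn_mul_T_sq`, second branch -/
theorem regOn_mul_T2_sq (j : Fin m2) {f : FL} (hf : f ∈ riemannRochSpace d.E) :
    RegOn N.R2.r (f * ((d.T2 j : N.R2.O) : FL) ^ 2) (d.Qb2 j) :=
  regHyp d (Sum.inr j) f hf

/-- twin of `Datum.regOn_mul_v`, first branch -/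
theorem regOn_mul_v1 (j : Fin g1) {f : FL} (hf : f ∈ riemannRochSpace d.E) :
    RegOn N.R1.r (f * ((d.v1 j : N.R1.O) : FL)) (d.Rb1 j) :=
  regOn_mul_of_apply (d.DR1 j) d.E (E_apply_P0_le_R1 d j) (E_apply_le_R1 d j) hf

/-- twin of `Datum.regOn_mul_v`, second branch -/
theorem regOn_mul_v2 (j : Fin m2) {f : FL} (hf : f ∈ riemannRochSpace d.E) :
    RegOn N.R2.r (f * ((d.v2 j : N.R2.O) : FL)) (d.Rb2 j) :=
  regOn_mul_of_apply (d.DR2 j) d.E (E_apply_P0_le_R2 d j) (E_apply_le_R2 d j) hf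

/-- twin of `Datum.regOn_mul_v`, uniformly in the branch -/
theorem regAt_mul_v (i : Fin g1 ⊕ Fin m2) {f : FL} (hf : f ∈ riemannRochSpace d.E) :
    RegAt d.DR1 d.DR2 i (f * par d.DR1 d.DR2 i) := by
  rcases i with i | j
  · exact regOn_mul_v1 d i hf
  · exact regOn_mul_v2 d j hf

/-- the same with the exponent `1` written out (the form `exists_jetAt` consumes) -/
theorem regAt_mul_v_pow (i : Fin g1 ⊕ Fin m2) {f : FL} (hf : f ∈ riemannRochSpace d.E) :
    RegAt d.DR1 d.DR2 i (f * par d.DR1 d.DR2 i ^ 1) := by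
  rw [pow_one]
  exact regAt_mul_v d i hf

/-- PART A, the determinant, at the datum -/
theorem detHyp : DetHyp d.DQ1 d.DQ2 d.Rb1 d.Rb2 := fun F hFb hli C hC =>
  NormBasisAD.isUnit_det_jetMatrix d F hFb hli C hC

/-- PART A, the generic-fibre kernel, at the datum -/
theorem constHyp (hO : OrthoPair N)
    (hfinL : ∀ D : Divisor L FL, Module.Finite L (riemannRochSpace D))
    (hfin1 : ∀ D : Divisor k F1, Module.Finite k (riemannRochSpace D))
    (hfin2 : ∀ D : Divisor k F2, Module.Finite k (riemannRochSpace D)) :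
    ConstHyp d.DQ1 d.DQ2 d.E := fun f hf h =>
  NormBasisAD.const_of_regular_Q d hO hfinL hfin1 hfin2 hf h

end Hyps

/-! ### the normalised basis at the datum -/

/-- **the normalised basis** of `L(R₀ + 2 D₀)` modulo constants for a nodal interpolation datum
(twin of `S19/NormBasis.exists_normalised_basis`) -/
theorem exists_normalised_basis [HasPrincipalDivisors L FL] (hO : OrthoPair N)
    (hL : RiemannHyp L FL (g1 + m2))
    (hfin1 : ∀ D : Divisor k F1, Module.Finite k (riemannRochSpace D))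
    (hfin2 : ∀ D : Divisor k F2, Module.Finite k (riemannRochSpace D))
    (hdeg1 : ∀ Q : Place k F1, Q.deg = 1) (hdeg2 : ∀ Q : Place k F2, Q.deg = 1) :
    ∃ φ : (Fin g1 ⊕ Fin m2) ⊕ (Fin g1 ⊕ Fin m2) → O12 N,
      (∀ a, ((φ a : O12 N) : FL) ∈ riemannRochSpace d.E) ∧
      (∀ a, red12 N (φ a) ∈ Glued N (Ebar d.Rb1 d.Qb1) (Ebar d.Rb2 d.Qb2)) ∧
      IsNormalised d.DQ1 d.DQ2 φ ∧
      (∀ f : O12 N, ((f : O12 N) : FL) ∈ riemannRochSpace d.E →
        ∃ (c₀ : A) (c : (Fin g1 ⊕ Fin m2) ⊕ (Fin g1 ⊕ Fin m2) → A), ((f : O12 N) : FL) =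
          algebraMap L FL ((c₀ : A) : L) +
            ∑ a, algebraMap L FL ((c a : A) : L) * ((φ a : O12 N) : FL)) ∧
      LinearIndependent k (Sum.elim (fun _ : Unit => (1 : F1 × F2)) (fun a => red12 N (φ a))) ∧
      (∀ (sL : L →+* L) (sF : FL →+* FL),
        (∀ c, sF (algebraMap L FL c) = algebraMap L FL (sL c)) →
        (∀ f ∈ riemannRochSpace d.E, sF f ∈ riemannRochSpace d.E) →
        (∀ i (z : FL), (lift d.DQ1 d.DQ2 i).adicValuation (sF z) =
          (lift d.DQ1 d.DQ2 i).adicValuation z) →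
        (∀ i, sF (par d.DQ1 d.DQ2 i) = par d.DQ1 d.DQ2 i) →
        ∀ a, sF ((φ a : O12 N) : FL) = ((φ a : O12 N) : FL)) :=
  NormBasisB.exists_normalised_basis d.DQ1 d.DQ2 hO hL d.rigidR' hfin1 hfin2 hdeg1 hdeg2 d.E
    d.goodSupp_E d.E_nonneg (d.degree_E hL.deg_one) d.push1_E d.push2_E (regHyp d) (detHyp d)
    (constHyp d hO hL.finite hfin1 hfin2)

end Fermat.Agent.S33.Nodal.NormBasisD
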