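import Mathlib
import Fermat.Agent.S19.TaylorRat
import Fermat.Agent.S33.Nodal.AddLawAbs

/-!
# PROJECT N (S33), route H8, [N1]: Taylor data over the fixed ring, in the abstract disc frame

Branch-free twin of the second half of `S19/TaylorRat` (l. 206-459), typed over the abstract frame
of `S33/Nodal/AddLawAbs` (`UDisc`, `UDisc.IsLawful`, `Frame A FL g`, `Frame.TaylorAt`).

* `taylor_step`, `exists_taylor_seq` : on a lawful disc every regular function has Taylor
  expansions of every order in the parameter, with coefficients in `A` and regular remainders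
  (from the primitives `exists_valAt` and `factor` at the centre `P0` only);
* `taylor_coeff_unique` : the coefficients are unique (`S19/NormBasis.jet_unique` at `P0`);
* `taylor_coeff_fixed` : they are fixed by a semilinear endomorphism `(sL, sF)` preserving the
  valuation at `P0`, the parameter and the function;
* `FixesFrame F sL sF` : `(sL, sF)` fixes the centres and parameters of the frame `F`
  (the branch-free `FixesDatum`);
* `exists_taylorData_fixed_abs` : for a family `φ` with `φ_a T_i²`, `φ_a v_j` regular on their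
  discs, normalised `2`-jets at the chart, invertible value matrix, fixed by all `(sL σ, sF σ)`:
  Taylor data of every order with coefficients in the fixed ring `S`;
* `exists_add_congr_fixed_abs` : fed into `Frame.exists_add_congr`.

`truncPoly`, `valueMatrix`, `isUnit_of_isUnit_algebraMap` are cited from main's `S19/TaylorRat`.
-/

set_option autoImplicit false
set_option linter.unusedSectionVars false
set_option linter.unusedVariables false
set_option linter.dupNamespace false

noncomputable section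

namespace Fermat.Agent.S33.Nodal.TaylorFixAbs

open AlgebraicCurve Polynomial
open Fermat.Agent.S19.AddLaw Fermat.Agent.S19.TruncAdd
open Fermat.Agent.S19.TaylorRat (truncPoly coeff_truncPoly aeval_map_truncPoly valueMatrix
  isUnit_of_isUnit_algebraMap)
open Fermat.Agent.S33.Nodal.AddLawAbs

universe uS

variable {L : Type*} [Field L] {FL : Type*} [Field FL] [Algebra L FL] {A : ValuationSubring L}

/-! ### Taylor expansions on a lawful disc -/

section Disc

variable {D : UDisc A FL} (hD : D.IsLawful)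
include hD

/-- one Taylor step at the centre: `y = y(P0) + T y₁` with `y₁` regular on the disc -/
theorem taylor_step (y : FL) (hy : D.Reg y) :
    ∃ (c : A) (y₁ : FL), D.Reg y₁ ∧ ValAt D.P0 y ((c : A) : L) ∧
      y = algebraMap L FL ((c : A) : L) + D.T * y₁ := by
  obtain ⟨c, hc⟩ := hD.exists_valAt y hy D.P0 hD.hP0
  have hreg : D.Reg (y - algebraMap L FL ((c : A) : L)) := hy.sub (hD.reg_const c)
  have h0 : ValAt D.P0 (y - algebraMap L FL ((c : A) : L)) 0 := by
    have := hc.sub (valAt_const (P := D.P0) ((c : A) : L))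
    rwa [sub_self] at this
  have hz : ValAt D.P0 D.T (((0 : A) : A) : L) := by
    have := hD.zero
    simpa using this
  obtain ⟨y₁, hy₁, heq⟩ := hD.factor _ hreg D.P0 hD.hP0 0 hz h0
  refine ⟨c, y₁, hy₁, hc, ?_⟩
  have h1 : D.T - algebraMap L FL (((0 : A) : A) : L) = D.T := by simp
  rw [h1] at heq
  rw [← heq]
  ring

/-- the value at the centre from a first order expansion -/
theorem valAt_of_expansion {y : FL} {c : A} {h : FL} (hh : D.Reg h)
    (e : y = algebraMap L FL ((c : A) : L) + D.T * h) : ValAt D.P0 y ((c : A) : L) := by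
  have h1 : ValAt D.P0 (D.T * h) 0 := by
    apply valAt_zero_of_lt
    rw [map_mul]
    exact mul_lt_one_of_lt_of_le hD.zero.lt_of_zero (hh.2 _ hD.hP0)
  have := (valAt_const (P := D.P0) ((c : A) : L)).add h1
  rwa [add_zero, ← e] at this

/-- **Taylor expansions of every order**, with ONE sequence of coefficients -/
theorem exists_taylor_seq (y : FL) (hy : D.Reg y) :
    ∃ (c : ℕ → A) (h : ℕ → FL), (∀ n, D.Reg (h n)) ∧
      ∀ n, y = ∑ m ∈ Finset.range n, algebraMap L FL ((c m : A) : L) * D.T ^ m + D.T ^ n * h n := by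
  have step : ∀ z : {z : FL // D.Reg z}, ∃ (c : A) (z' : {z : FL // D.Reg z}),
      z.1 = algebraMap L FL ((c : A) : L) + D.T * z'.1 := by
    intro z
    obtain ⟨c, y₁, hy₁, -, heq⟩ := taylor_step hD z.1 z.2
    exact ⟨c, ⟨y₁, hy₁⟩, heq⟩
  choose cf nf hcf using step
  have key : ∀ n, y = ∑ m ∈ Finset.range n,
      algebraMap L FL ((cf (nf^[m] ⟨y, hy⟩) : A) : L) * D.T ^ m + D.T ^ n * (nf^[n] ⟨y, hy⟩).1 := by
    intro n
    induction n with
    | zero => simp
    | succ n ih =>
      have hf : nf^[n + 1] ⟨y, hy⟩ = nf (nf^[n] ⟨y, hy⟩) := Function.iterate_succ_apply' nf n _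
      rw [Finset.sum_range_succ, hf]
      have h2 := hcf (nf^[n] ⟨y, hy⟩)
      calc y = ∑ m ∈ Finset.range n,
            algebraMap L FL ((cf (nf^[m] ⟨y, hy⟩) : A) : L) * D.T ^ m +
              D.T ^ n * (nf^[n] ⟨y, hy⟩).1 := ih
        _ = _ := by rw [h2]; ring
  exact ⟨fun m => cf (nf^[m] ⟨y, hy⟩), fun n => (nf^[n] ⟨y, hy⟩).1,
    fun n => (nf^[n] ⟨y, hy⟩).2, key⟩

/-- **uniqueness of the Taylor coefficients** -/
theorem taylor_coeff_unique {n : ℕ} {y : FL} (c c' : ℕ → A) (h h' : FL) (hh : D.Reg h)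
    (hh' : D.Reg h')
    (e : y = ∑ m ∈ Finset.range n, algebraMap L FL ((c m : A) : L) * D.T ^ m + D.T ^ n * h)
    (e' : y = ∑ m ∈ Finset.range n, algebraMap L FL ((c' m : A) : L) * D.T ^ m + D.T ^ n * h') :
    ∀ m < n, c m = c' m := by
  have hT0 := hD.T_ne_zero
  have hTlt : D.P0.adicValuation D.T < 1 := hD.zero.lt_of_zero
  have hz : D.P0.adicValuation (h - h') ≤ 1 :=
    Valuation.map_sub_le _ (hh.2 _ hD.hP0) (hh'.2 _ hD.hP0)
  rw [Finset.sum_range] at e e'
  have key : ∑ m : Fin n, algebraMap L FL (((c m : A) : L) - ((c' m : A) : L)) * D.T ^ (m : ℕ) +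
      D.T ^ n * (h - h') = 0 := by
    have h1 : ∑ m : Fin n, algebraMap L FL (((c m : A) : L) - ((c' m : A) : L)) * D.T ^ (m : ℕ) +
        D.T ^ n * (h - h') =
        (∑ m : Fin n, algebraMap L FL ((c m : A) : L) * D.T ^ (m : ℕ) + D.T ^ n * h) -
          (∑ m : Fin n, algebraMap L FL ((c' m : A) : L) * D.T ^ (m : ℕ) + D.T ^ n * h') := by
      simp only [map_sub, sub_mul, Finset.sum_sub_distrib]
      ring
    rw [h1, ← e, ← e', sub_self]
  have hall := Fermat.Agent.S19.NormBasis.jet_unique D.P0 D.T hT0 hTlt n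
    (fun m => ((c m : A) : L) - ((c' m : A) : L)) (h - h') hz key
  intro m hm
  exact Subtype.ext (sub_eq_zero.mp (hall ⟨m, hm⟩))

/-- **the Taylor coefficients of a fixed function are fixed** -/
theorem taylor_coeff_fixed (sL : L →+* L) (sF : FL →+* FL)
    (hcomp : ∀ c : L, sF (algebraMap L FL c) = algebraMap L FL (sL c))
    (hval : ∀ z : FL, D.P0.adicValuation (sF z) = D.P0.adicValuation z)
    (hT : sF D.T = D.T) {n : ℕ} {y : FL} (hy : sF y = y) (c : ℕ → A) (h : FL) (hh : D.Reg h)
    (e : y = ∑ m ∈ Finset.range n, algebraMap L FL ((c m : A) : L) * D.T ^ m + D.T ^ n * h) :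
    ∀ m < n, sL ((c m : A) : L) = ((c m : A) : L) := by
  have hT0 := hD.T_ne_zero
  have hTlt : D.P0.adicValuation D.T < 1 := hD.zero.lt_of_zero
  have hz : D.P0.adicValuation (sF h - h) ≤ 1 := by
    refine Valuation.map_sub_le _ ?_ (hh.2 _ hD.hP0)
    rw [hval]
    exact hh.2 _ hD.hP0
  rw [Finset.sum_range] at e
  have e2 : y = ∑ m : Fin n, algebraMap L FL (sL ((c m : A) : L)) * D.T ^ (m : ℕ) +
      D.T ^ n * sF h := by
    have := congrArg sF e
    rw [hy, map_add, map_sum, map_mul, map_pow, hT] at this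
    rw [this]
    congr 1
    refine Finset.sum_congr rfl fun m _ => ?_
    rw [map_mul, map_pow, hT, hcomp]
  have key : ∑ m : Fin n, algebraMap L FL (sL ((c m : A) : L) - ((c m : A) : L)) * D.T ^ (m : ℕ) +
      D.T ^ n * (sF h - h) = 0 := by
    have h1 : ∑ m : Fin n, algebraMap L FL (sL ((c m : A) : L) - ((c m : A) : L)) * D.T ^ (m : ℕ) +
        D.T ^ n * (sF h - h) =
        (∑ m : Fin n, algebraMap L FL (sL ((c m : A) : L)) * D.T ^ (m : ℕ) + D.T ^ n * sF h) -
          (∑ m : Fin n, algebraMap L FL ((c m : A) : L) * D.T ^ (m : ℕ) + D.T ^ n * h) := by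
      simp only [map_sub, sub_mul, Finset.sum_sub_distrib]
      ring
    rw [h1, ← e, ← e2, sub_self]
  have hall := Fermat.Agent.S19.NormBasis.jet_unique D.P0 D.T hT0 hTlt n
    (fun m => sL ((c m : A) : L) - ((c m : A) : L)) (sF h - h) hz key
  intro m hm
  exact sub_eq_zero.mp (hall ⟨m, hm⟩)

end Disc

/-! ### semilinear endomorphisms fixing a frame -/

/-- a semilinear endomorphism `(sL, sF)` of `FL/L` fixing the centres (as valuations) and the
parameters of the two families of discs of a frame -/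
structure FixesFrame {g : ℕ} (F : Frame A FL g) (sL : L →+* L) (sF : FL →+* FL) : Prop where
  comp : ∀ c : L, sF (algebraMap L FL c) = algebraMap L FL (sL c)
  valQ : ∀ (i : Fin g) (z : FL),
    (F.dQ i).P0.adicValuation (sF z) = (F.dQ i).P0.adicValuation z
  valR : ∀ (j : Fin g) (z : FL),
    (F.dR j).P0.adicValuation (sF z) = (F.dR j).P0.adicValuation z
  fixT : ∀ i, sF (F.dQ i).T = (F.dQ i).T
  fixv : ∀ j, sF (F.dR j).T = (F.dR j).T

/-! ### the Taylor data over the fixed ring -/

/-- **Taylor data over the fixed ring, abstract frame.**  `S → A` is the fixed ring of the `sL σ`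
on `A`, every `(sL σ, sF σ)` fixes the frame and the family `φ`; `φ` has normalised `2`-jets at
the chart and an invertible value matrix.  Then `φ` has Taylor data of every order with
coefficients in `S`. -/
theorem exists_taylorData_fixed_abs {g : ℕ} (F : Frame A FL g) (hF : F.IsLawful)
    (φ : Idx g → FL)
    (hregQ : ∀ a i, (F.dQ i).Reg (φ a * (F.dQ i).T ^ 2))
    (hregR : ∀ a j, (F.dR j).Reg (φ a * (F.dR j).T))
    (hnorm : ∀ a i, ∃ h : FL, (F.dQ i).Reg h ∧ φ a * (F.dQ i).T ^ 2 =
      algebraMap L FL (if a = Sum.inl i then 1 else 0) +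
        algebraMap L FL (if a = Sum.inr i then 1 else 0) * (F.dQ i).T + (F.dQ i).T ^ 2 * h)
    (hdet : ∀ cR cQ : Idx g → Fin g → A,
      (∀ a j, ValAt (F.dR j).P0 (φ a * (F.dR j).T) ((cR a j : A) : L)) →
      (∀ a i, ValAt (F.dQ i).P0 (φ a * (F.dQ i).T ^ 2) ((cQ a i : A) : L)) →
      IsUnit (valueMatrix cR cQ).det)
    {S : Type uS} [CommRing S] [Algebra S A] (hinj : Function.Injective (algebraMap S A))
    {ι : Type*} (sL : ι → L →+* L) (sF : ι → FL →+* FL)
    (hfix : ∀ σ, FixesFrame F (sL σ) (sF σ)) (hfixφ : ∀ σ a, sF σ (φ a) = φ a)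
    (hSfix : ∀ σ (w : S), sL σ (((algebraMap S A w : A) : A) : L) = ((algebraMap S A w : A) : L))
    (hSmem : ∀ x : A, (∀ σ, sL σ ((x : A) : L) = ((x : A) : L)) → ∃ w : S, algebraMap S A w = x) :
    ∃ D : ℕ → TaylorData S g, ∀ N, Frame.TaylorAt F φ (D N) N := by
  classical
  -- the Taylor sequences of `φ_a T_i²` and `φ_a v_j`
  choose cQ hQ hQreg hQeq using fun (a : Idx g) (i : Fin g) =>
    exists_taylor_seq (hF.lawQ i) _ (hregQ a i)
  choose cR hR hRreg hReq using fun (a : Idx g) (j : Fin g) =>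
    exists_taylor_seq (hF.lawR j) _ (hregR a j)
  -- the functions are fixed, hence their coefficients
  have hyQfix : ∀ σ a i, sF σ (φ a * (F.dQ i).T ^ 2) = φ a * (F.dQ i).T ^ 2 := by
    intro σ a i
    rw [map_mul, map_pow, (hfix σ).fixT i, hfixφ σ a]
  have hyRfix : ∀ σ a j, sF σ (φ a * (F.dR j).T) = φ a * (F.dR j).T := by
    intro σ a j
    rw [map_mul, (hfix σ).fixv j, hfixφ σ a]
  have hcQfix : ∀ a i m σ, sL σ ((cQ a i m : A) : L) = ((cQ a i m : A) : L) := fun a i m σ =>
    taylor_coeff_fixed (hF.lawQ i) (sL σ) (sF σ) (hfix σ).comp ((hfix σ).valQ i)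
      ((hfix σ).fixT i) (hyQfix σ a i) (cQ a i) (hQ a i (m + 1)) (hQreg a i (m + 1))
      (hQeq a i (m + 1)) m (Nat.lt_succ_self m)
  have hcRfix : ∀ a j m σ, sL σ ((cR a j m : A) : L) = ((cR a j m : A) : L) := fun a j m σ =>
    taylor_coeff_fixed (hF.lawR j) (sL σ) (sF σ) (hfix σ).comp ((hfix σ).valR j)
      ((hfix σ).fixv j) (hyRfix σ a j) (cR a j) (hR a j (m + 1)) (hRreg a j (m + 1))
      (hReq a j (m + 1)) m (Nat.lt_succ_self m)
  choose sQ hsQ using fun a i m => hSmem _ (hcQfix a i m)
  choose sR hsR using fun a j m => hSmem _ (hcRfix a j m)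
  -- the low coefficients are those of the normalisation
  have hQ01 : ∀ a i, cQ a i 0 = (if a = Sum.inl i then 1 else 0) ∧
      cQ a i 1 = (if a = Sum.inr i then 1 else 0) := by
    intro a i
    obtain ⟨h, hh, he⟩ := hnorm a i
    set c' : ℕ → A := fun m =>
      if m = 0 then (if a = Sum.inl i then 1 else 0) else (if a = Sum.inr i then 1 else 0) with hc'
    have e' : φ a * (F.dQ i).T ^ 2 = ∑ m ∈ Finset.range 2,
        algebraMap L FL ((c' m : A) : L) * (F.dQ i).T ^ m + (F.dQ i).T ^ 2 * h := by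
      rw [he, Finset.sum_range_succ, Finset.sum_range_one]
      have h0 : ((c' 0 : A) : L) = if a = Sum.inl i then 1 else 0 := by
        simp only [hc', if_true]
        split_ifs <;> simp
      have h1 : ((c' 1 : A) : L) = if a = Sum.inr i then 1 else 0 := by
        simp only [hc', one_ne_zero, if_false]
        split_ifs <;> simp
      rw [h0, h1, pow_zero, mul_one, pow_one]
    have hu := taylor_coeff_unique (hF.lawQ i) (cQ a i) c' (hQ a i 2) h (hQreg a i 2) hh
      (hQeq a i 2) e'
    refine ⟨?_, ?_⟩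
    · rw [hu 0 (by norm_num)]
      simp [hc']
    · rw [hu 1 (by norm_num)]
      simp [hc']
  have hQ0 : ∀ a i, sQ a i 0 = if a = Sum.inl i then 1 else 0 := by
    intro a i
    apply hinj
    rw [hsQ, apply_ite (algebraMap S A), map_one, map_zero]
    exact (hQ01 a i).1
  have hQ1 : ∀ a i, sQ a i 1 = if a = Sum.inr i then 1 else 0 := by
    intro a i
    apply hinj
    rw [hsQ, apply_ite (algebraMap S A), map_one, map_zero]
    exact (hQ01 a i).2
  -- the two determinants
  have hdet1 : ∀ N, IsUnit (Matrix.of fun (row a : Idx g) =>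
      Sum.elim (fun i => (truncPoly (sQ a i) (N + 2)).coeff 0)
        (fun i => (truncPoly (sQ a i) (N + 2)).coeff 1) row).det := by
    intro N
    have : (Matrix.of fun (row a : Idx g) =>
        Sum.elim (fun i => (truncPoly (sQ a i) (N + 2)).coeff 0)
          (fun i => (truncPoly (sQ a i) (N + 2)).coeff 1) row) = (1 : Matrix (Idx g) (Idx g) S) := by
      ext row a
      rcases row with i | i
      · simp only [Matrix.of_apply, Sum.elim_inl, coeff_truncPoly, Matrix.one_apply]
        rw [if_pos (by omega), hQ0]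
        exact if_congr eq_comm rfl rfl
      · simp only [Matrix.of_apply, Sum.elim_inr, coeff_truncPoly, Matrix.one_apply]
        rw [if_pos (by omega), hQ1]
        exact if_congr eq_comm rfl rfl
    rw [this, Matrix.det_one]
    exact isUnit_one
  have hdet2 : ∀ N, IsUnit (Matrix.of fun (row a : Idx g) =>
      Sum.elim (fun j => (truncPoly (sR a j) (N + 1)).coeff 0)
        (fun i => (truncPoly (sQ a i) (N + 2)).coeff 0) row).det := by
    intro N
    apply isUnit_of_isUnit_algebraMap sL hinj hSfix hSmem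
    rw [RingHom.map_det]
    have hM : (algebraMap S A).mapMatrix (Matrix.of fun (row a : Idx g) =>
        Sum.elim (fun j => (truncPoly (sR a j) (N + 1)).coeff 0)
          (fun i => (truncPoly (sQ a i) (N + 2)).coeff 0) row)
        = valueMatrix (fun a j => cR a j 0) (fun a i => cQ a i 0) := by
      ext row a
      rcases row with j | i
      · simp only [RingHom.mapMatrix_apply, Matrix.map_apply, Matrix.of_apply, Sum.elim_inl,
          coeff_truncPoly, valueMatrix]
        rw [if_pos (by omega), hsR]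
      · simp only [RingHom.mapMatrix_apply, Matrix.map_apply, Matrix.of_apply, Sum.elim_inr,
          coeff_truncPoly, valueMatrix]
        rw [if_pos (by omega), hsQ]
    rw [hM]
    refine hdet _ _ (fun a j => ?_) (fun a i => ?_)
    · refine valAt_of_expansion (hF.lawR j) (hRreg a j 1) ?_
      have := hReq a j 1
      rwa [Finset.sum_range_one, pow_zero, mul_one, pow_one] at this
    · refine valAt_of_expansion (hF.lawQ i) (hQreg a i 1) ?_
      have := hQeq a i 1
      rwa [Finset.sum_range_one, pow_zero, mul_one, pow_one] at this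
  refine ⟨fun N => ⟨fun a i => truncPoly (sQ a i) (N + 2), fun a j => truncPoly (sR a j) (N + 1),
    hdet1 N, hdet2 N⟩, fun N => ⟨fun a i => ?_, fun a j => ?_⟩⟩
  · refine ⟨(F.dQ i).T ^ 2 * hQ a i (N + 2), ((hF.lawQ i).T_reg.pow 2).mul (hQreg a i (N + 2)), ?_⟩
    rw [Polynomial.map_map, aeval_map_truncPoly]
    have h4 : ∀ m, (A.subtype.comp (algebraMap S A)) (sQ a i m) = ((cQ a i m : A) : L) := fun m => by
      rw [RingHom.comp_apply, hsQ]
      rfl
    simp only [h4]
    rw [hQeq a i (N + 2)]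
    ring
  · refine ⟨(F.dR j).T * hR a j (N + 1), (hF.lawR j).T_reg.mul (hRreg a j (N + 1)), ?_⟩
    rw [Polynomial.map_map, aeval_map_truncPoly]
    have h4 : ∀ m, (A.subtype.comp (algebraMap S A)) (sR a j m) = ((cR a j m : A) : L) := fun m => by
      rw [RingHom.comp_apply, hsR]
      rfl
    simp only [h4]
    rw [hReq a j (N + 1)]
    ring

/-! ### the seam: the truncated addition law with coefficients in the fixed ring -/

/-- **The addition law of a frame, with a universal polynomial over the fixed ring `S`.**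
`exists_taylorData_fixed_abs` fed into `Frame.exists_add_congr`: ONE family
`D : ℕ → TaylorData S g` works for all pairs of points of the discs of the chart. -/
theorem exists_add_congr_fixed_abs {g : ℕ} (F : Frame A FL g) (hF : F.IsLawful)
    (φ : Idx g → FL) (hφ : F.BasisInt φ) (hflipR : F.FlipR φ) (hflipQ : F.FlipQ φ)
    (hregQ : ∀ a i, (F.dQ i).Reg (φ a * (F.dQ i).T ^ 2))
    (hregR : ∀ a j, (F.dR j).Reg (φ a * (F.dR j).T))
    (hnorm : ∀ a i, ∃ h : FL, (F.dQ i).Reg h ∧ φ a * (F.dQ i).T ^ 2 =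
      algebraMap L FL (if a = Sum.inl i then 1 else 0) +
        algebraMap L FL (if a = Sum.inr i then 1 else 0) * (F.dQ i).T + (F.dQ i).T ^ 2 * h)
    (hdet : ∀ cR cQ : Idx g → Fin g → A,
      (∀ a j, ValAt (F.dR j).P0 (φ a * (F.dR j).T) ((cR a j : A) : L)) →
      (∀ a i, ValAt (F.dQ i).P0 (φ a * (F.dQ i).T ^ 2) ((cQ a i : A) : L)) →
      IsUnit (valueMatrix cR cQ).det)
    {S : Type uS} [CommRing S] [Algebra S A] (hinj : Function.Injective (algebraMap S A))
    {ι : Type*} (sL : ι → L →+* L) (sF : ι → FL →+* FL)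
    (hfix : ∀ σ, FixesFrame F (sL σ) (sF σ)) (hfixφ : ∀ σ a, sF σ (φ a) = φ a)
    (hSfix : ∀ σ (w : S), sL σ (((algebraMap S A w : A) : A) : L) = ((algebraMap S A w : A) : L))
    (hSmem : ∀ x : A, (∀ σ, sL σ ((x : A) : L) = ((x : A) : L)) → ∃ w : S, algebraMap S A w = x) :
    ∃ D : ℕ → TaylorData S g,
      ∀ (P P' : Fin g → Place L FL), (∀ i, (F.dQ i).In (P i)) → (∀ i, (F.dQ i).In (P' i)) →
      ∀ (x x' : Fin g → A), (∀ i, ValAt (P i) (F.dQ i).T ((x i : A) : L)) →
        (∀ i, ValAt (P' i) (F.dQ i).T ((x' i : A) : L)) →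
        ∃ (P'' : Fin g → Place L FL) (x'' : Fin g → A) (c : A),
          c ∈ IsLocalRing.maximalIdeal A ∧ (∀ i, (F.dQ i).In (P'' i)) ∧
          (∀ i, ValAt (P'' i) (F.dQ i).T ((x'' i : A) : L)) ∧
          (∀ i, x i ∈ Ideal.span {c} ∧ x' i ∈ Ideal.span {c} ∧ x'' i ∈ Ideal.span {c}) ∧
          ((∑ i, Finsupp.single (P'' i) (1 : ℤ)) +
              (∑ i, Finsupp.single ((F.dQ i).P0) (1 : ℤ)) -
              (∑ i, Finsupp.single (P i) (1 : ℤ)) - (∑ i, Finsupp.single (P' i) (1 : ℤ)) ∈
            Divisor.principal (K := L) (F := FL)) ∧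
          ∀ (n : ℕ) (i : Fin g),
            x'' i - MvPolynomial.aeval (Sum.elim x x') (Psi (D (n + 1)) n i) ∈
              Ideal.span {c} ^ n := by
  obtain ⟨D, hD⟩ := exists_taylorData_fixed_abs F hF φ hregQ hregR hnorm hdet hinj sL sF hfix
    hfixφ hSfix hSmem
  refine ⟨D, fun P P' hP hP' x x' hx hx' => ?_⟩
  obtain ⟨P'', x'', c, hc, hP'', hx'', hspanc, hprin, hcongr⟩ :=
    Frame.exists_add_congr hF φ hφ hflipR hflipQ P P' hP hP' x x' hx hx'
  exact ⟨P'', x'', c, hc, hP'', hx'', hspanc, hprin, fun n i => hcongr D hD n i⟩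

end Fermat.Agent.S33.Nodal.TaylorFixAbs
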