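import Fermat.Agent.S33.Nodal.JetsPair
import Fermat.Agent.S33.Nodal.Interp

/-!
# PROJECT N (S33), route H8, slice [N1]: the value matrix of a reduced basis, nodal frame (helper24)

The twin, in the pair frame of `Fermat/Agent/S34/NodalDefs.lean` (`N : GNodalDatum A π FL F1 F2 ι`,
functions in `O12 N = O₁ ∩ O₂`, reductions `red12 N : O12 N →+* F1 × F2`), of
`Fermat/Agent/S19/TaylorRat.lean` l. 100-205: `const_of_values`, `valueMatrix`,
`isUnit_det_valueMatrix`.

RECORD-FREE, in the uniform-index frame of `Nodal/JetAt.lean`, `Nodal/JetsPair.lean`: TWO pairs of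
families of residue discs, `(DR1, DR2)` (the auxiliary points `R̄`, parameters `v`) and `(DQ1, DQ2)`
(the chart points `Q̄`, parameters `T`), both indexed by `Fin g1` on the first component and
`Fin m2` on the second; uniform index `Fin g1 ⊕ Fin m2`.  S19's

* `HasJet R (d.v j) (d.Rb j) (y * d.v j) 1 c`      is `JetAt DR1 DR2 j y 1 1 c`,
* `HasJet R (d.T i) (d.Qb i) (y * d.T i ^ 2) 1 c`  is `JetAt DQ1 DQ2 i y 2 1 c`.

The special-fibre divisors `Eb1`, `Eb2` enter only through the rank lemma (RR-b), which is the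
hypothesis `hrank` of the general statements (shape of `Interp.rank_b`); the `_rigid` versions
discharge it for `Eb = R̄ + 2 Q̄` (`Interp.Ebar`) and a rigid pair of chart centres.

The value matrix itself is `JetsPair.valueMatrix` (index `I := Fin g1 ⊕ Fin m2`).
-/

set_option autoImplicit false
set_option linter.unusedSectionVars false
set_option linter.unusedVariables false

namespace Fermat.Agent.S33.Nodal.TaylorRatG

open AlgebraicCurve
open Fermat.Agent.S24.Ord Fermat.Agent.S34.NodalDefs Fermat.Agent.S34.NodalDisc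
open Fermat.Agent.S33.Nodal.Glued Fermat.Agent.S33.Nodal.Rigid3
open Fermat.Agent.S33.Nodal.Taylor Fermat.Agent.S33.Nodal.Jets Fermat.Agent.S33.Nodal.JetAt
open Fermat.Agent.S33.Nodal.JetsPair
open Fermat.Agent.S33.Nodal.Interp (Ebar rank_b Ebar_nonneg)

variable {L : Type*} [Field L] {FL : Type*} [Field FL] [Algebra L FL]
variable {k : Type*} [Field k]
variable {F1 : Type*} [Field F1] [Algebra k F1] {F2 : Type*} [Field F2] [Algebra k F2]
variable {A : ValuationSubring L} {π : A →+* k} {ι : Type*}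
variable {N : GNodalDatum A π FL F1 F2 ι} {g1 m2 : ℕ}
variable {DR1 : Fin g1 → DiscParam N.R1} {DR2 : Fin m2 → DiscParam N.R2}
variable {DQ1 : Fin g1 → DiscParam N.R1} {DQ2 : Fin m2 → DiscParam N.R2}

/-! ### (M2): combinations killed by the value matrix are constant pairs -/

section Kernel

variable [HasPrincipalDivisors L FL]

/-- **(M2)**, pair form: if `x` kills the values of all `y_a v_j` at the auxiliary points and of all
`y_a T_i²` at the chart points, the combination `∑ x_a red12 (y_a)` of glued sections of `O(Ē)` is a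
constant pair ((RR-b); the rank lemma for glued pairs is the hypothesis `hrank`) -/
theorem const_of_values (Eb1 : Divisor k F1) (Eb2 : Divisor k F2)
    (hrank : ∀ z ∈ Glued N Eb1 Eb2, (∀ j, 0 ≤ (DR1 j).Q.ord z.1) → (∀ j, 0 ≤ (DR2 j).Q.ord z.2) →
      (∀ i, -1 ≤ (DQ1 i).Q.ord z.1) → (∀ j, -1 ≤ (DQ2 j).Q.ord z.2) →
      ∃ γ : k, z = (algebraMap k F1 γ, algebraMap k F2 γ))
    {ι' : Type*} [Fintype ι'] (y : ι' → O12 N) (hyb : ∀ a, red12 N (y a) ∈ Glued N Eb1 Eb2)
    (cR : ι' → Fin g1 ⊕ Fin m2 → Fin 1 → A)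
    (hcR : ∀ a j, JetAt DR1 DR2 j (y a) 1 1 (cR a j))
    (cQ : ι' → Fin g1 ⊕ Fin m2 → Fin 1 → A)
    (hcQ : ∀ a i, JetAt DQ1 DQ2 i (y a) 2 1 (cQ a i)) (x : ι' → k)
    (hxR : ∀ j, ∑ a, x a * π (cR a j 0) = 0) (hxQ : ∀ i, ∑ a, x a * π (cQ a i 0) = 0) :
    ∃ γ : k, ∑ a, x a • red12 N (y a) = (algebraMap k F1 γ, algebraMap k F2 γ) := by
  have hR : ∀ j, 0 ≤ ordBar DR1 DR2 j (∑ a, x a • red12 N (y a)) := by
    intro j
    have h := comb_jets_pair (D1 := DR1) (D2 := DR2) (i := j) (le_refl 1) y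
      (fun a => cR a j) (fun a => hcR a j) x
      (fun m => by rw [Subsingleton.elim m 0]; exact hxR j)
    simpa using h
  have hQ : ∀ i, -1 ≤ ordBar DQ1 DQ2 i (∑ a, x a • red12 N (y a)) := by
    intro i
    have h := comb_jets_pair (D1 := DQ1) (D2 := DQ2) (i := i) (e := 2) (n := 1)
      (by norm_num) y (fun a => cQ a i) (fun a => hcQ a i) x
      (fun m => by rw [Subsingleton.elim m 0]; exact hxQ i)
    have h' : ((1 : ℕ) : ℤ) - ((2 : ℕ) : ℤ) = -1 := by norm_num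
    rwa [h'] at h
  exact hrank _ (Submodule.sum_mem _ fun a _ => Submodule.smul_mem _ _ (hyb a))
    (fun j => hR (Sum.inl j)) (fun j => hR (Sum.inr j))
    (fun i => hQ (Sum.inl i)) (fun j => hQ (Sum.inr j))

/-- (M2) for `Ē = R̄ + 2 Q̄` on each component and a rigid pair of chart centres -/
theorem const_of_values_rigid
    (hQb : IsRigidPair N (fun i => (DQ1 i).Q) (fun j => (DQ2 j).Q))
    {ι' : Type*} [Fintype ι'] (y : ι' → O12 N)
    (hyb : ∀ a, red12 N (y a) ∈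
      Glued N (Ebar (fun j => (DR1 j).Q) (fun i => (DQ1 i).Q))
        (Ebar (fun j => (DR2 j).Q) (fun i => (DQ2 i).Q)))
    (cR : ι' → Fin g1 ⊕ Fin m2 → Fin 1 → A)
    (hcR : ∀ a j, JetAt DR1 DR2 j (y a) 1 1 (cR a j))
    (cQ : ι' → Fin g1 ⊕ Fin m2 → Fin 1 → A)
    (hcQ : ∀ a i, JetAt DQ1 DQ2 i (y a) 2 1 (cQ a i)) (x : ι' → k)
    (hxR : ∀ j, ∑ a, x a * π (cR a j 0) = 0) (hxQ : ∀ i, ∑ a, x a * π (cQ a i 0) = 0) :
    ∃ γ : k, ∑ a, x a • red12 N (y a) = (algebraMap k F1 γ, algebraMap k F2 γ) :=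
  const_of_values _ _ (fun z hz hR1 hR2 hQ1 hQ2 => rank_b hQb hz hR1 hR2 hQ1 hQ2)
    y hyb cR hcR cQ hcQ x hxR hxQ

end Kernel

/-! ### the value matrix of a reduced basis is invertible over `A` -/

section Matrix

variable [HasPrincipalDivisors L FL]

/-- **the value matrix of a reduced basis is invertible over `A`** (pair form; the rank lemma (RR-b)
for glued pairs is the hypothesis `hrank`) -/
theorem isUnit_det_valueMatrix (Eb1 : Divisor k F1) (Eb2 : Divisor k F2)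
    (hrank : ∀ z ∈ Glued N Eb1 Eb2, (∀ j, 0 ≤ (DR1 j).Q.ord z.1) → (∀ j, 0 ≤ (DR2 j).Q.ord z.2) →
      (∀ i, -1 ≤ (DQ1 i).Q.ord z.1) → (∀ j, -1 ≤ (DQ2 j).Q.ord z.2) →
      ∃ γ : k, z = (algebraMap k F1 γ, algebraMap k F2 γ))
    (F : (Fin g1 ⊕ Fin m2) ⊕ (Fin g1 ⊕ Fin m2) → O12 N)
    (hFb : ∀ b, red12 N (F b) ∈ Glued N Eb1 Eb2)
    (hli : LinearIndependent k
      (Sum.elim (fun _ : Unit => (1 : F1 × F2)) (fun b => red12 N (F b))))
    (cR cQ : (Fin g1 ⊕ Fin m2) ⊕ (Fin g1 ⊕ Fin m2) → Fin g1 ⊕ Fin m2 → A)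
    (hcR : ∀ a j, JetAt DR1 DR2 j (F a) 1 1 (fun _ => cR a j))
    (hcQ : ∀ a i, JetAt DQ1 DQ2 i (F a) 2 1 (fun _ => cQ a i)) :
    IsUnit (valueMatrix cR cQ).det := by
  classical
  by_contra hnu
  have hm : (valueMatrix cR cQ).det ∈ IsLocalRing.maximalIdeal A :=
    (IsLocalRing.mem_maximalIdeal _).mpr hnu
  have hpi : π (valueMatrix cR cQ).det = 0 := (pi_eq_zero_iff N.R1.toBranch _).mpr hm
  rw [RingHom.map_det] at hpi
  obtain ⟨v, hv0, hv⟩ := Matrix.exists_mulVec_eq_zero_iff.mpr hpi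
  apply hv0
  have hxR : ∀ j, ∑ a, v a * π (cR a j) = 0 := by
    intro j
    have := congrFun hv (Sum.inl j)
    simp only [Matrix.mulVec, dotProduct, RingHom.mapMatrix_apply, Matrix.map_apply,
      valueMatrix_inl, Pi.zero_apply] at this
    rw [← this]
    exact Finset.sum_congr rfl fun b _ => mul_comm _ _
  have hxQ : ∀ i, ∑ a, v a * π (cQ a i) = 0 := by
    intro i
    have := congrFun hv (Sum.inr i)
    simp only [Matrix.mulVec, dotProduct, RingHom.mapMatrix_apply, Matrix.map_apply,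
      valueMatrix_inr, Pi.zero_apply] at this
    rw [← this]
    exact Finset.sum_congr rfl fun b _ => mul_comm _ _
  obtain ⟨γ, hγ⟩ := const_of_values Eb1 Eb2 hrank F hFb (fun a j _ => cR a j) hcR
    (fun a i _ => cQ a i) hcQ v hxR hxQ
  have hrel : ∑ a, (Sum.elim (fun _ : Unit => -γ) v) a •
      (Sum.elim (fun _ : Unit => (1 : F1 × F2)) (fun b => red12 N (F b))) a = 0 := by
    rw [Fintype.sum_sum_type]
    simp only [Sum.elim_inl, Sum.elim_inr, Finset.univ_unique, Finset.sum_singleton]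
    rw [hγ]
    refine Prod.ext ?_ ?_
    · simp [Algebra.smul_def]
    · simp [Algebra.smul_def]
  have h0 := Fintype.linearIndependent_iff.mp hli _ hrel
  funext b
  exact h0 (Sum.inr b)

/-- the value matrix of a reduced basis is invertible over `A`, for `Ē = R̄ + 2 Q̄` on each
component and a rigid pair of chart centres -/
theorem isUnit_det_valueMatrix_rigid
    (hQb : IsRigidPair N (fun i => (DQ1 i).Q) (fun j => (DQ2 j).Q))
    (F : (Fin g1 ⊕ Fin m2) ⊕ (Fin g1 ⊕ Fin m2) → O12 N)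
    (hFb : ∀ b, red12 N (F b) ∈
      Glued N (Ebar (fun j => (DR1 j).Q) (fun i => (DQ1 i).Q))
        (Ebar (fun j => (DR2 j).Q) (fun i => (DQ2 i).Q)))
    (hli : LinearIndependent k
      (Sum.elim (fun _ : Unit => (1 : F1 × F2)) (fun b => red12 N (F b))))
    (cR cQ : (Fin g1 ⊕ Fin m2) ⊕ (Fin g1 ⊕ Fin m2) → Fin g1 ⊕ Fin m2 → A)
    (hcR : ∀ a j, JetAt DR1 DR2 j (F a) 1 1 (fun _ => cR a j))
    (hcQ : ∀ a i, JetAt DQ1 DQ2 i (F a) 2 1 (fun _ => cQ a i)) :
    IsUnit (valueMatrix cR cQ).det :=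
  isUnit_det_valueMatrix _ _ (fun z hz hR1 hR2 hQ1 hQ2 => rank_b hQb hz hR1 hR2 hQ1 hQ2)
    F hFb hli cR cQ hcR hcQ

/-- the value matrix with the Taylor coefficients of order `0` of the `F_a v_j`, `F_a T_i²` as
entries (the form in which `exists_taylorData_fixed` meets it) -/
theorem isUnit_det_valueMatrix_tcoeff (Eb1 : Divisor k F1) (Eb2 : Divisor k F2)
    (hrank : ∀ z ∈ Glued N Eb1 Eb2, (∀ j, 0 ≤ (DR1 j).Q.ord z.1) → (∀ j, 0 ≤ (DR2 j).Q.ord z.2) →
      (∀ i, -1 ≤ (DQ1 i).Q.ord z.1) → (∀ j, -1 ≤ (DQ2 j).Q.ord z.2) →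
      ∃ γ : k, z = (algebraMap k F1 γ, algebraMap k F2 γ))
    (F : (Fin g1 ⊕ Fin m2) ⊕ (Fin g1 ⊕ Fin m2) → O12 N)
    (hFb : ∀ b, red12 N (F b) ∈ Glued N Eb1 Eb2)
    (hli : LinearIndependent k
      (Sum.elim (fun _ : Unit => (1 : F1 × F2)) (fun b => red12 N (F b))))
    (hregR : ∀ a j, RegAt DR1 DR2 j (((F a : O12 N) : FL) * par DR1 DR2 j ^ 1))
    (hregQ : ∀ a i, RegAt DQ1 DQ2 i (((F a : O12 N) : FL) * par DQ1 DQ2 i ^ 2)) :
    IsUnit (valueMatrix (fun a j => tcoeff DR1 DR2 j (F a) 1 (hregR a j) 0)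
      (fun a i => tcoeff DQ1 DQ2 i (F a) 2 (hregQ a i) 0)).det :=
  isUnit_det_valueMatrix Eb1 Eb2 hrank F hFb hli _ _
    (fun a j => (jetAt_tcoeff j (F a) 1 (hregR a j) 1).congr
      (funext fun m => by rw [Subsingleton.elim m 0]; rfl))
    (fun a i => (jetAt_tcoeff i (F a) 2 (hregQ a i) 1).congr
      (funext fun m => by rw [Subsingleton.elim m 0]; rfl))

end Matrix

/-! ### descent of the value matrix to the fixed ring -/

section Fixed

variable [HasPrincipalDivisors L FL]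

universe uS

theorem map_valueMatrix {I : Type*} [Fintype I] [DecidableEq I] {S T : Type*} [CommRing S]
    [CommRing T] (f : S →+* T) (cR cQ : I ⊕ I → I → S) :
    f.mapMatrix (valueMatrix cR cQ) =
      valueMatrix (fun a j => f (cR a j)) (fun a i => f (cQ a i)) := by
  ext row a
  rcases row with j | i
  · rfl
  · rfl

/-- **the value matrix over the fixed ring is invertible**: if the values `cR`, `cQ` come from the
fixed ring `S` of a family of endomorphisms `sL σ` of `L` (on `A`), the value matrix is invertible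
over `S` -/
theorem isUnit_det_valueMatrix_fixed (Eb1 : Divisor k F1) (Eb2 : Divisor k F2)
    (hrank : ∀ z ∈ Glued N Eb1 Eb2, (∀ j, 0 ≤ (DR1 j).Q.ord z.1) → (∀ j, 0 ≤ (DR2 j).Q.ord z.2) →
      (∀ i, -1 ≤ (DQ1 i).Q.ord z.1) → (∀ j, -1 ≤ (DQ2 j).Q.ord z.2) →
      ∃ γ : k, z = (algebraMap k F1 γ, algebraMap k F2 γ))
    (F : (Fin g1 ⊕ Fin m2) ⊕ (Fin g1 ⊕ Fin m2) → O12 N)
    (hFb : ∀ b, red12 N (F b) ∈ Glued N Eb1 Eb2)
    (hli : LinearIndependent k
      (Sum.elim (fun _ : Unit => (1 : F1 × F2)) (fun b => red12 N (F b))))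
    {S : Type uS} [CommRing S] [Algebra S A] (hinj : Function.Injective (algebraMap S A))
    {ι' : Type*} (sL : ι' → L →+* L)
    (hSfix : ∀ σ (w : S), sL σ (((algebraMap S A w : A) : A) : L) = ((algebraMap S A w : A) : L))
    (hSmem : ∀ x : A, (∀ σ, sL σ ((x : A) : L) = ((x : A) : L)) → ∃ w : S, algebraMap S A w = x)
    (sR sQ : (Fin g1 ⊕ Fin m2) ⊕ (Fin g1 ⊕ Fin m2) → Fin g1 ⊕ Fin m2 → S)
    (hcR : ∀ a j, JetAt DR1 DR2 j (F a) 1 1 (fun _ => algebraMap S A (sR a j)))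
    (hcQ : ∀ a i, JetAt DQ1 DQ2 i (F a) 2 1 (fun _ => algebraMap S A (sQ a i))) :
    IsUnit (valueMatrix sR sQ).det := by
  classical
  apply Fermat.Agent.S19.TaylorRat.isUnit_of_isUnit_algebraMap sL hinj hSfix hSmem
  rw [RingHom.map_det, map_valueMatrix]
  exact isUnit_det_valueMatrix Eb1 Eb2 hrank F hFb hli _ _ hcR hcQ

end Fixed

/-! ### values at the lifts instead of jets, and the index `Fin (g1 + m2)` -/

section ValAt

variable [HasPrincipalDivisors L FL]

open Fermat.Agent.S19.AddLaw (ValAt)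

/-- the constant term of a `1`-jet is the value at the lift of the point -/
theorem valAt_of_jetAt_one {D1 : Fin g1 → DiscParam N.R1} {D2 : Fin m2 → DiscParam N.R2}
    {i : Fin g1 ⊕ Fin m2} {y : O12 N} {e : ℕ} {c : Fin 1 → A} (h : JetAt D1 D2 i y e 1 c) :
    ValAt (lift D1 D2 i) (((y : O12 N) : FL) * par D1 D2 i ^ e) ((c 0 : A) : L) := by
  obtain ⟨z, hz, hexp⟩ := h.coe
  unfold Fermat.Agent.S19.AddLaw.ValAt
  rw [hexp]
  simp only [Fin.sum_univ_one, Fin.val_zero, pow_zero, mul_one, pow_one, add_sub_cancel_left]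
  rw [map_mul]
  exact mul_lt_one_of_lt_of_le (par_lt_one D1 D2 i) hz.le_one

/-- a `1`-jet from a value at the lift of the point: if `y T_i^e` is regular on the disc of `i` and
takes the value `c` at the lift of `i`, then `(c)` is its `1`-jet -/
theorem jetAt_one_of_valAt {D1 : Fin g1 → DiscParam N.R1} {D2 : Fin m2 → DiscParam N.R2}
    {i : Fin g1 ⊕ Fin m2} {y : O12 N} {e : ℕ}
    (hreg : RegAt D1 D2 i (((y : O12 N) : FL) * par D1 D2 i ^ e)) {c : A}
    (hc : ValAt (lift D1 D2 i) (((y : O12 N) : FL) * par D1 D2 i ^ e) ((c : A) : L)) :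
    JetAt D1 D2 i y e 1 (fun _ => c) := by
  obtain ⟨c', hj⟩ := exists_jetAt D1 D2 i y e hreg 1
  have h0 : ((c : A) : L) = ((c' 0 : A) : L) := hc.unique (valAt_of_jetAt_one hj)
  refine hj.congr (funext fun m => ?_)
  rw [Subsingleton.elim m 0]
  exact (Subtype.ext h0).symm

/-- **the value matrix of a reduced basis is invertible over `A`**, with the values given at the
lifts of the points -/
theorem isUnit_det_valueMatrix_valAt (Eb1 : Divisor k F1) (Eb2 : Divisor k F2)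
    (hrank : ∀ z ∈ Glued N Eb1 Eb2, (∀ j, 0 ≤ (DR1 j).Q.ord z.1) → (∀ j, 0 ≤ (DR2 j).Q.ord z.2) →
      (∀ i, -1 ≤ (DQ1 i).Q.ord z.1) → (∀ j, -1 ≤ (DQ2 j).Q.ord z.2) →
      ∃ γ : k, z = (algebraMap k F1 γ, algebraMap k F2 γ))
    (F : (Fin g1 ⊕ Fin m2) ⊕ (Fin g1 ⊕ Fin m2) → O12 N)
    (hFb : ∀ b, red12 N (F b) ∈ Glued N Eb1 Eb2)
    (hli : LinearIndependent k
      (Sum.elim (fun _ : Unit => (1 : F1 × F2)) (fun b => red12 N (F b))))
    (hregR : ∀ a j, RegAt DR1 DR2 j (((F a : O12 N) : FL) * par DR1 DR2 j ^ 1))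
    (hregQ : ∀ a i, RegAt DQ1 DQ2 i (((F a : O12 N) : FL) * par DQ1 DQ2 i ^ 2))
    (cR cQ : (Fin g1 ⊕ Fin m2) ⊕ (Fin g1 ⊕ Fin m2) → Fin g1 ⊕ Fin m2 → A)
    (hcR : ∀ a j, ValAt (lift DR1 DR2 j) (((F a : O12 N) : FL) * par DR1 DR2 j)
      ((cR a j : A) : L))
    (hcQ : ∀ a i, ValAt (lift DQ1 DQ2 i) (((F a : O12 N) : FL) * par DQ1 DQ2 i ^ 2)
      ((cQ a i : A) : L)) :
    IsUnit (valueMatrix cR cQ).det :=
  isUnit_det_valueMatrix Eb1 Eb2 hrank F hFb hli cR cQ
    (fun a j => jetAt_one_of_valAt (hregR a j) (by rw [pow_one]; exact hcR a j))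
    (fun a i => jetAt_one_of_valAt (hregQ a i) (hcQ a i))

/-- `S19/TaylorRat.valueMatrix` over `Fin (g1 + m2)` is `JetsPair.valueMatrix` over
`Fin g1 ⊕ Fin m2`, reindexed along `finSumFinEquiv` -/
theorem valueMatrix_fin_eq_submatrix {S : Type*}
    (cR cQ : Fin (g1 + m2) ⊕ Fin (g1 + m2) → Fin (g1 + m2) → S) :
    valueMatrix (I := Fin g1 ⊕ Fin m2)
        (fun a j => cR (Sum.map finSumFinEquiv finSumFinEquiv a) (finSumFinEquiv j))
        (fun a i => cQ (Sum.map finSumFinEquiv finSumFinEquiv a) (finSumFinEquiv i)) =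
      (Matrix.of fun (row a : Fin (g1 + m2) ⊕ Fin (g1 + m2)) =>
        Sum.elim (fun j => cR a j) (fun i => cQ a i) row).submatrix
        (Equiv.sumCongr finSumFinEquiv finSumFinEquiv)
        (Equiv.sumCongr finSumFinEquiv finSumFinEquiv) := by
  ext row a
  rcases row with j | i
  · rfl
  · rfl

/-- **the value matrix of a reduced basis is invertible over `A`**, index `Fin (g1 + m2)` (first
branch = `Fin.castAdd m2 i`, second branch = `Fin.natAdd g1 j`, i.e. `finSumFinEquiv`), values at the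
lifts, matrix = main's `S19/TaylorRat.valueMatrix`: the shape of the hypothesis `hdet` of
`TaylorFixAbs.exists_taylorData_fixed_abs` -/
theorem isUnit_det_valueMatrix_fin (Eb1 : Divisor k F1) (Eb2 : Divisor k F2)
    (hrank : ∀ z ∈ Glued N Eb1 Eb2, (∀ j, 0 ≤ (DR1 j).Q.ord z.1) → (∀ j, 0 ≤ (DR2 j).Q.ord z.2) →
      (∀ i, -1 ≤ (DQ1 i).Q.ord z.1) → (∀ j, -1 ≤ (DQ2 j).Q.ord z.2) →
      ∃ γ : k, z = (algebraMap k F1 γ, algebraMap k F2 γ))
    (F : Fin (g1 + m2) ⊕ Fin (g1 + m2) → O12 N)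
    (hFb : ∀ b, red12 N (F b) ∈ Glued N Eb1 Eb2)
    (hli : LinearIndependent k
      (Sum.elim (fun _ : Unit => (1 : F1 × F2)) (fun b => red12 N (F b))))
    (hregR : ∀ a (j : Fin g1 ⊕ Fin m2),
      RegAt DR1 DR2 j (((F a : O12 N) : FL) * par DR1 DR2 j ^ 1))
    (hregQ : ∀ a (i : Fin g1 ⊕ Fin m2),
      RegAt DQ1 DQ2 i (((F a : O12 N) : FL) * par DQ1 DQ2 i ^ 2))
    (cR cQ : Fin (g1 + m2) ⊕ Fin (g1 + m2) → Fin (g1 + m2) → A)
    (hcR : ∀ a (j : Fin g1 ⊕ Fin m2), ValAt (lift DR1 DR2 j)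
      (((F a : O12 N) : FL) * par DR1 DR2 j) ((cR a (finSumFinEquiv j) : A) : L))
    (hcQ : ∀ a (i : Fin g1 ⊕ Fin m2), ValAt (lift DQ1 DQ2 i)
      (((F a : O12 N) : FL) * par DQ1 DQ2 i ^ 2) ((cQ a (finSumFinEquiv i) : A) : L)) :
    IsUnit (Fermat.Agent.S19.TaylorRat.valueMatrix cR cQ).det := by
  classical
  have h := isUnit_det_valueMatrix_valAt Eb1 Eb2 hrank
    (fun b => F (Sum.map finSumFinEquiv finSumFinEquiv b)) (fun b => hFb _)
    (by
      have hinj : Function.Injective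
          (Sum.map (id : Unit → Unit) (Sum.map (finSumFinEquiv (m := g1) (n := m2))
            (finSumFinEquiv (m := g1) (n := m2)))) :=
        Function.Injective.sumMap Function.injective_id
          (Function.Injective.sumMap finSumFinEquiv.injective finSumFinEquiv.injective)
      have h1 := hli.comp _ hinj
      have h2 : (Sum.elim (fun _ : Unit => (1 : F1 × F2)) fun b => red12 N (F b)) ∘
          Sum.map (id : Unit → Unit) (Sum.map (finSumFinEquiv (m := g1) (n := m2))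
            (finSumFinEquiv (m := g1) (n := m2))) =
          Sum.elim (fun _ : Unit => (1 : F1 × F2))
            (fun b => red12 N (F (Sum.map finSumFinEquiv finSumFinEquiv b))) := by
        funext b
        rcases b with u | b
        · rfl
        · rfl
      rw [h2] at h1
      exact h1)
    (fun a j => hregR _ j) (fun a i => hregQ _ i)
    (fun a j => cR (Sum.map finSumFinEquiv finSumFinEquiv a) (finSumFinEquiv j))
    (fun a i => cQ (Sum.map finSumFinEquiv finSumFinEquiv a) (finSumFinEquiv i))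
    (fun a j => hcR _ j) (fun a i => hcQ _ i)
  rw [valueMatrix_fin_eq_submatrix, Matrix.det_submatrix_equiv_self] at h
  exact h

end ValAt

end Fermat.Agent.S33.Nodal.TaylorRatG
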