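import Mathlib
import Fermat.Agent.S33.Nodal.TaylorFixAbs
import Fermat.Agent.S33.Nodal.AddLaw
import Fermat.Agent.S33.Nodal.NormBasisD
import Fermat.Agent.S33.Nodal.TaylorRatG
import Fermat.Agent.S33.Nodal.Fixes

/-!
# PROJECT N (S33), route H8, [N1]: Taylor data over the fixed ring at a nodal interpolation datum

The glue at `d : NDatum N g1 m2` (twin of `S19/TaylorRat.exists_taylorData_fixed`):

* `fixesFrame_of_fixesDatum` : `Fixes.FixesDatum d sL sF → TaylorFixAbs.FixesFrame (frame d) sL sF`
  (field by field, through `AddLaw.frame_dQ_left/right`, `frame_dR_left/right`);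
* `reidx`, `reidx_eq_inl`, `reidx_eq_inr` : the normalised basis of `Nodal/NormBasisD` is indexed by
  `(Fin g1 ⊕ Fin m2) ⊕ (Fin g1 ⊕ Fin m2)`, the frame and the Taylor data by
  `Idx (g1 + m2) = Fin (g1 + m2) ⊕ Fin (g1 + m2)`; the conversion is `finSumFinEquiv` (first branch
  `Fin.castAdd m2 i`, second branch `Fin.natAdd g1 j`);
* `exists_taylorData_fixed d ..` : the normalised basis `φ : Idx (g1 + m2) → O12 N` of `L(E)`
  modulo constants satisfies the hypotheses `hspan`, `hind` of `AddLaw.flipR` / `AddLaw.flipQ`, and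
  has Taylor data of every order with coefficients in the fixed ring `S`
  (`TaylorFixAbs.exists_taylorData_fixed_abs` at `F := AddLaw.frame d`, with the normalised basis of
  `NormBasisD.exists_normalised_basis` and the determinant of
  `TaylorRatG.isUnit_det_valueMatrix_fin`);
* `exists_data_fixed d ..` : the same in the literal shape of the hypothesis `hdata` of
  `Nodal/ChartAddD.coord_add_fixed_of_data`.
-/

set_option autoImplicit false
set_option linter.unusedSectionVars false
set_option linter.unusedVariables false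

noncomputable section

namespace Fermat.Agent.S33.Nodal.TaylorRatFix

open AlgebraicCurve
open Fermat.Agent.S34.NodalDefs Fermat.Agent.S34.NodalDisc
open Fermat.Agent.S18.NonSpecial (RiemannHyp)
open Fermat.Agent.S19.TruncAdd (Idx TaylorData)
open Fermat.Agent.S19.AddLaw (ValAt)
open Fermat.Agent.S33.Nodal.Taylor (DiscParam)
open Fermat.Agent.S33.Nodal.Jets (HasJet)
open Fermat.Agent.S33.Nodal.Glued Fermat.Agent.S33.Nodal.SemiCont Fermat.Agent.S33.Nodal.Rigid3
open Fermat.Agent.S33.Nodal.Interp (Ebar rank_b)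
open Fermat.Agent.S33.Nodal.JetAt (lift par RegAt JetAt)
open Fermat.Agent.S33.Nodal.Datum Fermat.Agent.S33.Nodal.AddLawAbs Fermat.Agent.S33.Nodal.AddLaw
open Fermat.Agent.S33.Nodal.Fixes (FixesDatum)
open Fermat.Agent.S33.Nodal.TaylorFixAbs (FixesFrame exists_taylorData_fixed_abs)

universe uS

variable {L : Type*} [Field L] {FL : Type*} [Field FL] [Algebra L FL]
variable {k : Type*} [Field k] {F1 : Type*} [Field F1] [Algebra k F1]
  {F2 : Type*} [Field F2] [Algebra k F2]
variable {A : ValuationSubring L} {π : A →+* k} {ι : Type*}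
variable {N : GNodalDatum A π FL F1 F2 ι} {g1 m2 : ℕ}

/-! ### a symmetry of the datum is a symmetry of its frame -/

/-- a semilinear endomorphism fixing the nodal interpolation datum fixes its abstract frame -/
theorem fixesFrame_of_fixesDatum (d : NDatum N g1 m2) {sL : L →+* L} {sF : FL →+* FL}
    (h : FixesDatum d sL sF) : FixesFrame (frame d) sL sF where
  comp := h.comp
  valQ := fun i z => by
    refine Fin.addCases (fun i => ?_) (fun j => ?_) i
    · rw [frame_dQ_left]; exact h.valQ1 i z
    · rw [frame_dQ_right]; exact h.valQ2 j z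
  valR := fun j z => by
    refine Fin.addCases (fun i => ?_) (fun j => ?_) j
    · rw [frame_dR_left]; exact h.valR1 i z
    · rw [frame_dR_right]; exact h.valR2 j z
  fixT := fun i => by
    refine Fin.addCases (fun i => ?_) (fun j => ?_) i
    · rw [frame_dQ_left]; exact h.fixT1 i
    · rw [frame_dQ_right]; exact h.fixT2 j
  fixv := fun j => by
    refine Fin.addCases (fun i => ?_) (fun j => ?_) j
    · rw [frame_dR_left]; exact h.fixv1 i
    · rw [frame_dR_right]; exact h.fixv2 j

/-! ### the index conversion -/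

/-- from the index of the frame to the index of the normalised basis -/
def reidx (g1 m2 : ℕ) : Idx (g1 + m2) → (Fin g1 ⊕ Fin m2) ⊕ (Fin g1 ⊕ Fin m2) :=
  Sum.map finSumFinEquiv.symm finSumFinEquiv.symm

theorem reidx_eq_inl (a : Idx (g1 + m2)) (j : Fin g1 ⊕ Fin m2) :
    reidx g1 m2 a = Sum.inl j ↔ a = Sum.inl (finSumFinEquiv j) := by
  rcases a with a | a
  · simp [reidx, Equiv.symm_apply_eq]
  · simp [reidx]

theorem reidx_eq_inr (a : Idx (g1 + m2)) (j : Fin g1 ⊕ Fin m2) :
    reidx g1 m2 a = Sum.inr j ↔ a = Sum.inr (finSumFinEquiv j) := by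
  rcases a with a | a
  · simp [reidx]
  · simp [reidx, Equiv.symm_apply_eq]

theorem reidx_injective : Function.Injective (reidx g1 m2) :=
  Function.Injective.sumMap finSumFinEquiv.symm.injective finSumFinEquiv.symm.injective

/-- the equivalence behind `reidx` -/
def reidxEquiv (g1 m2 : ℕ) : Idx (g1 + m2) ≃ (Fin g1 ⊕ Fin m2) ⊕ (Fin g1 ⊕ Fin m2) :=
  Equiv.sumCongr finSumFinEquiv.symm finSumFinEquiv.symm

theorem reidxEquiv_apply (a : Idx (g1 + m2)) : reidxEquiv g1 m2 a = reidx g1 m2 a := rfl

/-- the coercion of a Kronecker symbol, along an equivalence of the conditions -/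
theorem coe_ite_of_iff {p q : Prop} [Decidable p] [Decidable q] (h : p ↔ q) :
    (((if p then (1 : A) else 0 : A) : A) : L) = if q then 1 else 0 := by
  by_cases hq : q
  · rw [if_pos hq, if_pos (h.mpr hq)]
    simp
  · rw [if_neg hq, if_neg fun hp => hq (h.mp hp)]
    simp

/-! ### one branch: the expansion of order two read in `FL` -/

/-- a `2`-jet of `y T²` on a branch, read in `FL`, with remainder regular on the abstract disc -/
theorem expansion_of_hasJet_two {Fk : Type*} [Field Fk] [Algebra k Fk] {R : SmoothRed A π FL Fk}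
    (D : DiscParam R) (y : R.O) (c : Fin 2 → A)
    (h : HasJet R D.T D.Q (y * D.T ^ 2) 2 c) :
    ∃ z : FL, (ofBranch R D).Reg z ∧ ((y : R.O) : FL) * ((D.T : R.O) : FL) ^ 2 =
      algebraMap L FL ((c 0 : A) : L) + algebraMap L FL ((c 1 : A) : L) * ((D.T : R.O) : FL) +
        ((D.T : R.O) : FL) ^ 2 * z := by
  obtain ⟨rem, hrem, hy⟩ := h
  refine ⟨(rem : FL), ofBranch_reg R D rem hrem, ?_⟩
  have hy' := congrArg (fun t : R.O => ((t : R.O) : FL)) hy
  simp only [Fin.sum_univ_two] at hy'
  push_cast at hy'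
  rw [hy']
  simp

/-! ### the Taylor data over the fixed ring -/

section Main

variable [HasPrincipalDivisors L FL]

/-- **Taylor data over the fixed ring, nodal datum** (twin of
`S19/TaylorRat.exists_taylorData_fixed`).  `S → A` is the fixed ring of the `sL σ` on `A`, and every
`(sL σ, sF σ)` fixes the datum `d`.  Then the normalised basis `φ` of `L(E)` modulo constants
satisfies the hypotheses `hspan`, `hind` of `AddLaw.exists_add_congr`, and has Taylor data of every
order with coefficients in `S`. -/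
theorem exists_taylorData_fixed (d : NDatum N g1 m2) (hO : OrthoPair N)
    (hL : RiemannHyp L FL (g1 + m2))
    (hfin1 : ∀ D : Divisor k F1, Module.Finite k (riemannRochSpace D))
    (hfin2 : ∀ D : Divisor k F2, Module.Finite k (riemannRochSpace D))
    (hdeg1 : ∀ Q : Place k F1, Q.deg = 1) (hdeg2 : ∀ Q : Place k F2, Q.deg = 1)
    {S : Type uS} [CommRing S] [Algebra S A] (hinj : Function.Injective (algebraMap S A))
    {ι' : Type*} (sL : ι' → L →+* L) (sF : ι' → FL →+* FL)
    (hfix : ∀ σ, FixesDatum d (sL σ) (sF σ))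
    (hSfix : ∀ σ (w : S), sL σ (((algebraMap S A w : A) : A) : L) = ((algebraMap S A w : A) : L))
    (hSmem : ∀ x : A, (∀ σ, sL σ ((x : A) : L) = ((x : A) : L)) → ∃ w : S, algebraMap S A w = x) :
    ∃ φ : Idx (g1 + m2) → O12 N,
      (∀ a, ((φ a : O12 N) : FL) ∈ riemannRochSpace d.E) ∧
      (∀ f : O12 N, ((f : O12 N) : FL) ∈ riemannRochSpace d.E →
        ∃ (c0 : A) (c : Idx (g1 + m2) → A), ((f : O12 N) : FL) =
          algebraMap L FL (c0 : L) + ∑ a, algebraMap L FL (c a : L) * ((φ a : O12 N) : FL)) ∧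
      LinearIndependent k
        (Sum.elim (fun _ : Unit => (1 : F1 × F2)) (fun a => red12 N (φ a))) ∧
      ∃ D : ℕ → TaylorData S (g1 + m2), ∀ n, TaylorAt d φ (D n) n := by
  classical
  have hdegL := hL.deg_one
  obtain ⟨φ0, hφE0, hφb0, hn, hspan0, hind0, hfixφ0⟩ :=
    NormBasisD.exists_normalised_basis d hO hL hfin1 hfin2 hdeg1 hdeg2
  set φ : Idx (g1 + m2) → O12 N := fun a => φ0 (reidx g1 m2 a) with hφ
  have hφE : ∀ a, ((φ a : O12 N) : FL) ∈ riemannRochSpace d.E := fun a => hφE0 _
  -- `hspan`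
  have hspan : ∀ f : O12 N, ((f : O12 N) : FL) ∈ riemannRochSpace d.E →
      ∃ (c0 : A) (c : Idx (g1 + m2) → A), ((f : O12 N) : FL) =
        algebraMap L FL (c0 : L) + ∑ a, algebraMap L FL (c a : L) * ((φ a : O12 N) : FL) := by
    intro f hf
    obtain ⟨c0, c, hc⟩ := hspan0 f hf
    refine ⟨c0, fun a => c (reidx g1 m2 a), ?_⟩
    rw [hc]
    congr 1
    exact (Fintype.sum_equiv (reidxEquiv g1 m2) _ _ fun a => rfl).symm
  -- `hind`
  have hind : LinearIndependent k
      (Sum.elim (fun _ : Unit => (1 : F1 × F2)) (fun a => red12 N (φ a))) := by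
    have hinj' : Function.Injective (Sum.map (id : Unit → Unit) (reidx g1 m2)) :=
      Function.Injective.sumMap Function.injective_id reidx_injective
    have h1 := hind0.comp _ hinj'
    have h2 : (Sum.elim (fun _ : Unit => (1 : F1 × F2)) fun a => red12 N (φ0 a)) ∘
        Sum.map (id : Unit → Unit) (reidx g1 m2) =
        Sum.elim (fun _ : Unit => (1 : F1 × F2)) (fun a => red12 N (φ a)) := by
      funext b
      rcases b with u | b
      · rfl
      · rfl
    rw [h2] at h1
    exact h1
  refine ⟨φ, hφE, hspan, hind, ?_⟩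
  -- the abstract frame of the datum
  have hF := frame_isLawful d hdegL
  -- regularity of `φ_a T_i²` on the discs of the chart
  have hregQ : ∀ a i, ((frame d).dQ i).Reg (((φ a : O12 N) : FL) * ((frame d).dQ i).T ^ 2) := by
    intro a i
    refine Fin.addCases (fun i => ?_) (fun j => ?_) i
    · rw [frame_dQ_left]
      exact ofBranch_reg N.R1 (d.DQ1 i) (incl1 N (φ a) * (d.DQ1 i).T ^ 2)
        (NormBasisD.regOn_mul_T1_sq d i (hφE a))
    · rw [frame_dQ_right]
      exact ofBranch_reg N.R2 (d.DQ2 j) (incl2 N (φ a) * (d.DQ2 j).T ^ 2)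
        (NormBasisD.regOn_mul_T2_sq d j (hφE a))
  -- regularity of `φ_a v_j` on the discs of the auxiliary family
  have hregR : ∀ a j, ((frame d).dR j).Reg (((φ a : O12 N) : FL) * ((frame d).dR j).T) := by
    intro a j
    refine Fin.addCases (fun i => ?_) (fun j => ?_) j
    · rw [frame_dR_left]
      exact ofBranch_reg N.R1 (d.DR1 i) (incl1 N (φ a) * (d.DR1 i).T)
        (NormBasisD.regOn_mul_v1 d i (hφE a))
    · rw [frame_dR_right]
      exact ofBranch_reg N.R2 (d.DR2 j) (incl2 N (φ a) * (d.DR2 j).T)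
        (NormBasisD.regOn_mul_v2 d j (hφE a))
  -- the normalised `2`-jets
  have hnorm : ∀ a i, ∃ h : FL, ((frame d).dQ i).Reg h ∧
      ((φ a : O12 N) : FL) * ((frame d).dQ i).T ^ 2 =
        algebraMap L FL (if a = Sum.inl i then 1 else 0) +
          algebraMap L FL (if a = Sum.inr i then 1 else 0) * ((frame d).dQ i).T +
          ((frame d).dQ i).T ^ 2 * h := by
    intro a i
    refine Fin.addCases (fun i => ?_) (fun j => ?_) i
    · rw [frame_dQ_left]
      obtain ⟨z, hz, he⟩ := expansion_of_hasJet_two (d.DQ1 i) (incl1 N (φ a)) _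
        (hn.jetAt_two (reidx g1 m2 a) (Sum.inl i))
      refine ⟨z, hz, ?_⟩
      rw [ofBranch_T]
      have e0 : (((![if reidx g1 m2 a = Sum.inl (Sum.inl i) then (1 : A) else 0,
          if reidx g1 m2 a = Sum.inr (Sum.inl i) then (1 : A) else 0] : Fin 2 → A) 0 : A) : L) =
          if a = Sum.inl (Fin.castAdd m2 i) then 1 else 0 := by
        rw [Matrix.cons_val_zero]
        exact coe_ite_of_iff ((reidx_eq_inl a _).trans (by rw [finSumFinEquiv_apply_left]))
      have e1 : (((![if reidx g1 m2 a = Sum.inl (Sum.inl i) then (1 : A) else 0,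
          if reidx g1 m2 a = Sum.inr (Sum.inl i) then (1 : A) else 0] : Fin 2 → A) 1 : A) : L) =
          if a = Sum.inr (Fin.castAdd m2 i) then 1 else 0 := by
        rw [Matrix.cons_val_one, Matrix.cons_val_zero]
        exact coe_ite_of_iff ((reidx_eq_inr a _).trans (by rw [finSumFinEquiv_apply_left]))
      rw [← e0, ← e1]
      exact he
    · rw [frame_dQ_right]
      obtain ⟨z, hz, he⟩ := expansion_of_hasJet_two (d.DQ2 j) (incl2 N (φ a)) _
        (hn.jetAt_two (reidx g1 m2 a) (Sum.inr j))
      refine ⟨z, hz, ?_⟩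
      rw [ofBranch_T]
      have e0 : (((![if reidx g1 m2 a = Sum.inl (Sum.inr j) then (1 : A) else 0,
          if reidx g1 m2 a = Sum.inr (Sum.inr j) then (1 : A) else 0] : Fin 2 → A) 0 : A) : L) =
          if a = Sum.inl (Fin.natAdd g1 j) then 1 else 0 := by
        rw [Matrix.cons_val_zero]
        exact coe_ite_of_iff ((reidx_eq_inl a _).trans (by rw [finSumFinEquiv_apply_right]))
      have e1 : (((![if reidx g1 m2 a = Sum.inl (Sum.inr j) then (1 : A) else 0,
          if reidx g1 m2 a = Sum.inr (Sum.inr j) then (1 : A) else 0] : Fin 2 → A) 1 : A) : L) =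
          if a = Sum.inr (Fin.natAdd g1 j) then 1 else 0 := by
        rw [Matrix.cons_val_one, Matrix.cons_val_zero]
        exact coe_ite_of_iff ((reidx_eq_inr a _).trans (by rw [finSumFinEquiv_apply_right]))
      rw [← e0, ← e1]
      exact he
  -- the value matrix
  have hdet : ∀ cR cQ : Idx (g1 + m2) → Fin (g1 + m2) → A,
      (∀ a j, ValAt ((frame d).dR j).P0 (((φ a : O12 N) : FL) * ((frame d).dR j).T)
        ((cR a j : A) : L)) →
      (∀ a i, ValAt ((frame d).dQ i).P0 (((φ a : O12 N) : FL) * ((frame d).dQ i).T ^ 2)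
        ((cQ a i : A) : L)) →
      IsUnit (Fermat.Agent.S19.TaylorRat.valueMatrix cR cQ).det := by
    intro cR cQ hcR hcQ
    refine TaylorRatG.isUnit_det_valueMatrix_fin (DR1 := d.DR1) (DR2 := d.DR2) (DQ1 := d.DQ1)
      (DQ2 := d.DQ2) (Ebar d.Rb1 d.Qb1) (Ebar d.Rb2 d.Qb2)
      (fun z hz hR1 hR2 hQ1 hQ2 => rank_b d.rigidQ' hz hR1 hR2 hQ1 hQ2) φ (fun b => hφb0 _) hind
      (fun a j => NormBasisD.regAt_mul_v_pow d j (hφE a))
      (fun a i => NormBasisD.regHyp d i _ (hφE a)) cR cQ (fun a j => ?_) (fun a i => ?_)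
    · rcases j with i | j
      · have := hcR a (Fin.castAdd m2 i)
        rw [frame_dR_left] at this
        rw [finSumFinEquiv_apply_left]
        exact this
      · have := hcR a (Fin.natAdd g1 j)
        rw [frame_dR_right] at this
        rw [finSumFinEquiv_apply_right]
        exact this
    · rcases i with i | j
      · have := hcQ a (Fin.castAdd m2 i)
        rw [frame_dQ_left] at this
        rw [finSumFinEquiv_apply_left]
        exact this
      · have := hcQ a (Fin.natAdd g1 j)
        rw [frame_dQ_right] at this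
        rw [finSumFinEquiv_apply_right]
        exact this
  -- the basis is fixed
  have hfixφ : ∀ σ a, sF σ ((φ a : O12 N) : FL) = ((φ a : O12 N) : FL) := fun σ a =>
    hfixφ0 (sL σ) (sF σ) (hfix σ).comp (hfix σ).mapsE
      (fun i z => by
        rcases i with i | j
        · exact (hfix σ).valQ1 i z
        · exact (hfix σ).valQ2 j z)
      (fun i => by
        rcases i with i | j
        · exact (hfix σ).fixT1 i
        · exact (hfix σ).fixT2 j) _
  exact exists_taylorData_fixed_abs (frame d) hF (fun a => ((φ a : O12 N) : FL)) hregQ hregR hnorm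
    hdet hinj sL sF (fun σ => fixesFrame_of_fixesDatum d (hfix σ)) hfixφ hSfix hSmem

/-- **the rationality seam in the shape of `Nodal/ChartAddD.coord_add_fixed_of_data`**: the
hypothesis `hdata` of that theorem, for a datum fixed by all `(sL σ, sF σ)`. -/
theorem exists_data_fixed (d : NDatum N g1 m2) (hO : OrthoPair N)
    (hL : RiemannHyp L FL (g1 + m2))
    (hfin1 : ∀ D : Divisor k F1, Module.Finite k (riemannRochSpace D))
    (hfin2 : ∀ D : Divisor k F2, Module.Finite k (riemannRochSpace D))
    (hdeg1 : ∀ Q : Place k F1, Q.deg = 1) (hdeg2 : ∀ Q : Place k F2, Q.deg = 1)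
    {S : Type uS} [CommRing S] [Algebra S A] (hinj : Function.Injective (algebraMap S A))
    {ι' : Type*} (sL : ι' → L →+* L) (sF : ι' → FL →+* FL)
    (hfix : ∀ σ, FixesDatum d (sL σ) (sF σ))
    (hSfix : ∀ σ (w : S), sL σ (((algebraMap S A w : A) : A) : L) = ((algebraMap S A w : A) : L))
    (hSmem : ∀ x : A, (∀ σ, sL σ ((x : A) : L) = ((x : A) : L)) → ∃ w : S, algebraMap S A w = x) :
    ∃ φ : Idx (g1 + m2) → O12 N,
      (∀ f : O12 N, ((f : O12 N) : FL) ∈ riemannRochSpace d.E →
        ∃ (c0 : A) (c : Idx (g1 + m2) → A), ((f : O12 N) : FL) =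
          algebraMap L FL (c0 : L) + ∑ a, algebraMap L FL (c a : L) * ((φ a : O12 N) : FL)) ∧
      LinearIndependent k
        (Sum.elim (fun _ : Unit => (1 : F1 × F2)) (fun a => red12 N (φ a))) ∧
      ∃ D : ℕ → TaylorData S (g1 + m2), ∀ n, TaylorAt d φ (D n) n := by
  obtain ⟨φ, -, hspan, hind, D, hD⟩ :=
    exists_taylorData_fixed d hO hL hfin1 hfin2 hdeg1 hdeg2 hinj sL sF hfix hSfix hSmem
  exact ⟨φ, hspan, hind, D, hD⟩

end Main

end Fermat.Agent.S33.Nodal.TaylorRatFix
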