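import Mathlib
import Fermat.Agent.S34.NodalCore

/-!
# PROJECT N (S33), slice [N4]: the nodal effective lift at the residue characteristic

`effective_liftP` : the twin of `Fermat.Agent.S34.NodalCore.effective_liftG` (Steps 1-3 of the
abstract nodal core) for `p = ℓ ^ j`, `ℓ = char k`, WITHOUT the gluing hypothesis `GlueG N D`:
the class of a degree-zero divisor `D` with `p • D = div f`, `f` a `1`-unit at both Gauss
valuations, contains `∑ Ps - ∑ P0s` with `Ps` in the residue discs of the base points.  No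
hypothesis on the support of `D` (points in the bad discs or in the annuli are allowed): the pole
control + gluing field `pcg` of the nodal datum is applied to `u ^ p * f`, whose poles lie in the
discs of the base points, and Frobenius is injective on the residue function fields.

`hasValue_of_pow_char_pow` : `HasValue Q (φ ^ ℓ ^ j) (γ ^ ℓ ^ j) → HasValue Q φ γ` in
characteristic `ℓ`.
-/

set_option autoImplicit false
set_option linter.unusedSectionVars false
set_option linter.unusedVariables false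

namespace Fermat.Agent.S33.Nodal.LiftP

open AlgebraicCurve Fermat.Agent.S24.Ord Fermat.Agent.S34.NodalDefs Fermat.Agent.S34.NodalDisc
  Fermat.Agent.S34.NodalCore
open Fermat.Agent.S18.CoreDefs (RiemannGe)
open Fermat.Agent.S18.CoreOrd hiding coe_unit_ne_zero red_unit_ne_zero unitOfRed coe_unitOfRed constO
  coe_constO red_constO isUnit_iff_red_ne_zero exists_div_unit ord_red_nonneg le_ord_red
  ord_red_eq_zero exists_unique_zero

section Frob

variable {k : Type*} [Field k] {Fk : Type*} [Field Fk] [Algebra k Fk]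

/-- **Uniqueness of `ℓ ^ j`-th roots in characteristic `ℓ`, in the `HasValue` form.** -/
theorem hasValue_of_pow_char_pow (ℓ : ℕ) [Fact ℓ.Prime] [CharP k ℓ] (j : ℕ) (Q : Place k Fk)
    {φ : Fk} {γ : k} (h : HasValue Q (φ ^ ℓ ^ j) (γ ^ ℓ ^ j)) : HasValue Q φ γ := by
  have hchar : CharP Fk ℓ := charP_of_injective_algebraMap (algebraMap k Fk).injective ℓ
  have hsub : φ ^ ℓ ^ j - algebraMap k Fk (γ ^ ℓ ^ j) = (φ - algebraMap k Fk γ) ^ ℓ ^ j := by
    rw [map_pow, sub_pow_char_pow]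
  have hpos : (0 : ℤ) < ((ℓ ^ j : ℕ) : ℤ) := by
    exact_mod_cast pow_pos (Fact.out : ℓ.Prime).pos j
  rcases h with h | h
  · left
    have h0 : (φ - algebraMap k Fk γ) ^ ℓ ^ j = 0 := by rw [← hsub, h, sub_self]
    exact sub_eq_zero.mp (pow_eq_zero_iff (pow_pos (Fact.out : ℓ.Prime).pos j).ne' |>.mp h0)
  · right
    rw [hsub, ord_pow] at h
    exact (mul_pos_iff_of_pos_left hpos).mp h

end Frob

section Main

variable {L : Type*} [Field L] {FL : Type*} [Field FL] [Algebra L FL]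
variable {k : Type*} [Field k] {F1 : Type*} [Field F1] [Algebra k F1]
  {F2 : Type*} [Field F2] [Algebra k F2]
variable {A : ValuationSubring L} {π : A →+* k} {ι : Type*}

/-- **The nodal effective lift for a GIVEN section** (the three-case lemma).  Same data as
`effective_liftPG`, but the nonzero section `y ∈ L(DK + DG + ∑ P0s)` is given instead of being
produced by Riemann's inequality; the unit `u1` of the conclusion is `y` up to a nonzero constant.

**The nodal effective lift, general form.**  `D = DK + DG` of degree zero, where `DK` is a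
"Kummer part" (`p • DK = div f`, `f` a unit of both Gauss rings reducing to `1` on both components,
ARBITRARY support) and `DG` is supported in the good discs with zero push-forward to both
components.  If `p`-th roots are unique on the second component (`hroot`: automatic for `p = 1`,
and for `p = ℓ ^ j` in characteristic `ℓ`), the class of `D` contains `∑ Ps - ∑ P0s` with `Ps` in the
residue discs of the base points `P0s`, via a function which is a unit of both Gauss rings with the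
same constant reduction on both components.  No gluing hypothesis: `N.pcg` is applied to
`u ^ p * f`, all of whose poles lie in good discs. -/
theorem effective_lift_of_section [HasPrincipalDivisors L FL] [Fintype ι] [Nonempty ι]
    (N : GNodalDatum A π FL F1 F2 ι) (hdegL : ∀ P : Place L FL, P.deg = 1)
    (p : ℕ) (hp : p ≠ 0) {g1 m2 : ℕ}
    (Q1 : Fin g1 → Place k F1) (Q2 : Fin m2 → Place k F2)
    (hQ1 : Function.Injective Q1) (hQ2 : Function.Injective Q2)
    (hQ1g : ∀ i, Q1 i ∈ N.R1.good) (hQ2g : ∀ j, Q2 j ∈ N.R2.good)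
    (hrig1 : ∀ y : F1, y ∈ riemannRochSpace (∑ i, Finsupp.single (Q1 i) (1 : ℤ)) →
      ∃ c : k, y = algebraMap k F1 c)
    (hrig2 : ∀ y : F2, y ∈ riemannRochSpace (∑ i, Finsupp.single (Q2 i) (1 : ℤ)) →
      (∀ e, y = 0 ∨ 0 < (N.e2 e).ord y) → y = 0)
    (P01 : Fin g1 → Place L FL) (P02 : Fin m2 → Place L FL)
    (hP01 : ∀ i, N.R1.r (P01 i) = some (Q1 i)) (hP02 : ∀ j, N.R2.r (P02 j) = some (Q2 j))
    (DK DG : Divisor L FL) (hD0 : Divisor.degree (DK + DG) = 0)
    (f1 : N.R1.Oˣ) (f2 : N.R2.Oˣ) (hf12 : ((f1 : N.R1.O) : FL) = ((f2 : N.R2.O) : FL))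
    (hred1 : N.R1.red (f1 : N.R1.O) = 1) (hred2 : N.R2.red (f2 : N.R2.O) = 1)
    (hfD : ∀ P : Place L FL, P.ord ((f1 : N.R1.O) : FL) = p * DK P)
    (hDGsupp : ∀ P : Place L FL, DG P ≠ 0 →
      (∃ Q ∈ N.R1.good, N.R1.r P = some Q) ∨ (∃ Q ∈ N.R2.good, N.R2.r P = some Q))
    (hDG1 : ∀ Q ∈ N.R1.good, Finsupp.mapDomain N.R1.r DG (some Q) = 0)
    (hDG2 : ∀ Q ∈ N.R2.good, Finsupp.mapDomain N.R2.r DG (some Q) = 0)
    (hroot : ∀ (Q : Place k F2) (φ : F2) (γ : k), HasValue Q (φ ^ p) (γ ^ p) → HasValue Q φ γ)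
    (y : FL) (hy : y ≠ 0)
    (hyL : y ∈ riemannRochSpace (DK + DG + ((∑ i, Finsupp.single (P01 i) (1 : ℤ)) +
      ∑ j, Finsupp.single (P02 j) (1 : ℤ)))) :
    ∃ (Ps1 : Fin g1 → Place L FL) (Ps2 : Fin m2 → Place L FL) (u1 : N.R1.Oˣ) (u2 : N.R2.Oˣ)
      (γ : k), γ ≠ 0 ∧ (∃ a : L, a ≠ 0 ∧ y = algebraMap L FL a * ((u1 : N.R1.O) : FL)) ∧
      ((u1 : N.R1.O) : FL) = ((u2 : N.R2.O) : FL) ∧
      N.R1.red (u1 : N.R1.O) = algebraMap k F1 γ ∧ N.R2.red (u2 : N.R2.O) = algebraMap k F2 γ ∧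
      (∀ i, N.R1.r (Ps1 i) = some (Q1 i)) ∧ (∀ j, N.R2.r (Ps2 j) = some (Q2 j)) ∧
      ∀ P : Place L FL, P.ord ((u1 : N.R1.O) : FL) + (DK + DG) P =
        (∑ i, Finsupp.single (Ps1 i) (1 : ℤ)) P + (∑ j, Finsupp.single (Ps2 j) (1 : ℤ)) P
          - (∑ i, Finsupp.single (P01 i) (1 : ℤ)) P - (∑ j, Finsupp.single (P02 j) (1 : ℤ)) P := by
  classical
  set D : Divisor L FL := DK + DG with hDdef
  have hp0 : (p : ℤ) ≠ 0 := by exact_mod_cast hp
  have hppos : (0 : ℤ) < p := by exact_mod_cast Nat.pos_of_ne_zero hp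
  set B : Divisor L FL := (∑ i, Finsupp.single (P01 i) (1 : ℤ)) +
    ∑ j, Finsupp.single (P02 j) (1 : ℤ) with hB
  have hdegB : Divisor.degree B = ((g1 + m2 : ℕ) : ℤ) := by
    rw [hB, map_add, Fermat.Agent.S18.Core.degree_sum_single hdegL,
      Fermat.Agent.S18.Core.degree_sum_single hdegL]
    push_cast
    ring
  change y ∈ riemannRochSpace (D + B) at hyL
  obtain ⟨Dy, hDy, hDydeg⟩ := HasPrincipalDivisors.exists_divisor (K := L) y hy
  set E : Divisor L FL := Dy + D + B with hE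
  have hEnonneg : ∀ P : Place L FL, 0 ≤ E P := by
    intro P
    rcases (mem_riemannRochSpace_iff.mp hyL) P with h | h
    · exact absurd h hy
    · rw [hE, Finsupp.add_apply, Finsupp.add_apply, hDy]
      rw [Finsupp.add_apply] at h
      omega
  have hdegE : Divisor.degree E = ((g1 + m2 : ℕ) : ℤ) := by
    rw [hE, map_add, map_add, hDydeg, hD0, hdegB]
    ring
  obtain ⟨a1, ha1, u1, hyu1⟩ := N.R1.exists_const_mul_unit y hy
  obtain ⟨a2, ha2, u2, hyu2⟩ := N.R2.exists_const_mul_unit y hy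
  have hordu1 : ∀ P : Place L FL, P.ord ((u1 : N.R1.O) : FL) = Dy P := by
    intro P
    rw [hDy, hyu1, ord_const_mul P ha1]
  have hordu2 : ∀ P : Place L FL, P.ord ((u2 : N.R2.O) : FL) = Dy P := by
    intro P
    rw [hDy, hyu2, ord_const_mul P ha2]
  have hDt1 : ∀ P : Place L FL,
      p * P.ord ((u1 : N.R1.O) : FL) + P.ord ((f1 : N.R1.O) : FL) = p * (E - DG - B) P := by
    intro P
    rw [hordu1, hfD, hE, hDdef, Finsupp.sub_apply, Finsupp.sub_apply, Finsupp.add_apply,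
      Finsupp.add_apply, Finsupp.add_apply]
    ring
  have hDt2 : ∀ P : Place L FL,
      p * P.ord ((u2 : N.R2.O) : FL) + P.ord ((f2 : N.R2.O) : FL) = p * (E - DG - B) P := by
    intro P
    rw [hordu2, ← hf12, hfD, hE, hDdef, Finsupp.sub_apply, Finsupp.sub_apply, Finsupp.add_apply,
      Finsupp.add_apply, Finsupp.add_apply]
    ring
  have hB1 : ∀ Q : Place k F1, Finsupp.mapDomain N.R1.r B (some Q) =
      (∑ i, Finsupp.single (Q1 i) (1 : ℤ)) Q :=
    fun Q => mapDomain_base1 N Q1 Q2 P01 P02 hP01 hP02 Q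
  have hB2 : ∀ Q : Place k F2, Finsupp.mapDomain N.R2.r B (some Q) =
      (∑ j, Finsupp.single (Q2 j) (1 : ℤ)) Q :=
    fun Q => mapDomain_base2 N Q1 Q2 P01 P02 hP01 hP02 Q
  have hy1 : ∀ Q ∈ N.R1.good, Q.ord (N.R1.red (u1 : N.R1.O)) =
      Finsupp.mapDomain N.R1.r E (some Q) - (∑ i, Finsupp.single (Q1 i) (1 : ℤ)) Q := by
    intro Q hQ
    rw [smooth_ord N.R1 p hp0 u1 f1 hred1 (E - DG - B) hDt1 Q hQ, Finsupp.mapDomain_sub,
      Finsupp.mapDomain_sub, Finsupp.sub_apply, Finsupp.sub_apply, hB1, hDG1 Q hQ, sub_zero]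
  have hy2 : ∀ Q ∈ N.R2.good, Q.ord (N.R2.red (u2 : N.R2.O)) =
      Finsupp.mapDomain N.R2.r E (some Q) - (∑ j, Finsupp.single (Q2 j) (1 : ℤ)) Q := by
    intro Q hQ
    rw [smooth_ord N.R2 p hp0 u2 f2 hred2 (E - DG - B) hDt2 Q hQ, Finsupp.mapDomain_sub,
      Finsupp.mapDomain_sub, Finsupp.sub_apply, Finsupp.sub_apply, hB2, hDG2 Q hQ, sub_zero]
  have hEr1 : ∀ Q : Place k F1, 0 ≤ Finsupp.mapDomain N.R1.r E (some Q) :=
    fun Q => mapDomain_nonneg _ E _ (fun P _ => hEnonneg P)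
  have hEr2 : ∀ Q : Place k F2, 0 ≤ Finsupp.mapDomain N.R2.r E (some Q) :=
    fun Q => mapDomain_nonneg _ E _ (fun P _ => hEnonneg P)
  -- the admissible pair
  set G1 : Set (Place k F1) :=
    {Q | Q ∈ N.R1.good ∧ ∃ P : Place L FL, DG P ≠ 0 ∧ N.R1.r P = some Q} with hG1
  set G2 : Set (Place k F2) :=
    {Q | Q ∈ N.R2.good ∧ ∃ P : Place L FL, DG P ≠ 0 ∧ N.R2.r P = some Q} with hG2
  have hG1fin : G1.Finite := by
    have h := (DG.support.finite_toSet).image N.R1.r
    refine (h.preimage (Option.some_injective _).injOn).subset ?_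
    rintro Q ⟨-, P, hP, hPQ⟩
    exact ⟨P, Finset.mem_coe.mpr (Finsupp.mem_support_iff.mpr hP), hPQ⟩
  have hG2fin : G2.Finite := by
    have h := (DG.support.finite_toSet).image N.R2.r
    refine (h.preimage (Option.some_injective _).injOn).subset ?_
    rintro Q ⟨-, P, hP, hPQ⟩
    exact ⟨P, Finset.mem_coe.mpr (Finsupp.mem_support_iff.mpr hP), hPQ⟩
  obtain ⟨S1, S2, hadm, hT1', hT2'⟩ := N.exists_adm (Set.range Q1 ∪ G1) (Set.range Q2 ∪ G2)
    ((Set.finite_range _).union hG1fin) ((Set.finite_range _).union hG2fin)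
    (by
      rintro Q (⟨i, rfl⟩ | hQ)
      · exact hQ1g i
      · exact hQ.1)
    (by
      rintro Q (⟨j, rfl⟩ | hQ)
      · exact hQ2g j
      · exact hQ.1)
  have hT1 : Set.range Q1 ⊆ S1 := fun Q hQ => hT1' (Or.inl hQ)
  have hT2 : Set.range Q2 ⊆ S2 := fun Q hQ => hT2' (Or.inl hQ)
  obtain ⟨hS1g, hS2g⟩ := N.adm_subset_good S1 S2 hadm
  have hpole : ∀ P : Place L FL, (E - DG - B) P < 0 →
      (∃ Q ∈ S1, N.R1.r P = some Q) ∨ (∃ Q ∈ S2, N.R2.r P = some Q) := by
    intro P hP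
    by_cases hDGP : DG P ≠ 0
    · rcases hDGsupp P hDGP with ⟨Q, hQ, hPQ⟩ | ⟨Q, hQ, hPQ⟩
      · exact Or.inl ⟨Q, hT1' (Or.inr ⟨hQ, P, hDGP, hPQ⟩), hPQ⟩
      · exact Or.inr ⟨Q, hT2' (Or.inr ⟨hQ, P, hDGP, hPQ⟩), hPQ⟩
    rw [not_not] at hDGP
    have hBP : 0 < B P := by
      have := hEnonneg P
      rw [Finsupp.sub_apply, Finsupp.sub_apply, hDGP] at hP
      omega
    rw [hB, Finsupp.add_apply] at hBP
    by_cases h1 : ∃ i, P01 i = P
    · obtain ⟨i, rfl⟩ := h1
      exact Or.inl ⟨Q1 i, hT1 ⟨i, rfl⟩, hP01 i⟩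
    · by_cases h2 : ∃ j, P02 j = P
      · obtain ⟨j, rfl⟩ := h2
        exact Or.inr ⟨Q2 j, hT2 ⟨j, rfl⟩, hP02 j⟩
      · push Not at h1 h2
        rw [sum_single_apply_of_notMem' P01 P h1, sum_single_apply_of_notMem' P02 P h2] at hBP
        omega
  have hu10 : ((u1 : N.R1.O) : FL) ≠ 0 := coe_unit_ne_zero N.R1.toBranch u1
  have hu20 : ((u2 : N.R2.O) : FL) ≠ 0 := coe_unit_ne_zero N.R2.toBranch u2
  have hf10 : ((f1 : N.R1.O) : FL) ≠ 0 := coe_unit_ne_zero N.R1.toBranch f1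
  -- the orders of `u1 ^ p * f1`
  have hordG : ∀ P : Place L FL,
      P.ord (((u1 : N.R1.O) : FL) ^ p * ((f1 : N.R1.O) : FL)) = p * (E - DG - B) P := by
    intro P
    rw [P.ord_mul (pow_ne_zero _ hu10) hf10, ord_pow, hDt1 P]
  have hyy : algebraMap L FL a1 * ((u1 : N.R1.O) : FL) = algebraMap L FL a2 * ((u2 : N.R2.O) : FL) := by
    rw [← hyu1, ← hyu2]
  have hAa1 : algebraMap L FL a1 ≠ 0 := (map_ne_zero_iff _ (algebraMap L FL).injective).mpr ha1
  have hAa2 : algebraMap L FL a2 ≠ 0 := (map_ne_zero_iff _ (algebraMap L FL).injective).mpr ha2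
  have hpoleG : ∀ P : Place L FL,
      P.ord (((u1 : N.R1.O) : FL) ^ p * ((f1 : N.R1.O) : FL)) < 0 →
      (∃ Q ∈ S1, N.R1.r P = some Q) ∨ (∃ Q ∈ S2, N.R2.r P = some Q) := by
    intro P hP
    rw [hordG] at hP
    exact hpole P (by by_contra hcon; rw [not_lt] at hcon; nlinarith)
  -- the reductions
  have hu1red0 : N.R1.red (u1 : N.R1.O) ≠ 0 := red_unit_ne_zero N.R1.toBranch u1
  have hu2red0 : N.R2.red (u2 : N.R2.O) ≠ 0 := red_unit_ne_zero N.R2.toBranch u2
  have hordpow1 : ∀ Q : Place k F1, Q.ord (N.R1.red (u1 : N.R1.O) ^ p) =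
      p * Q.ord (N.R1.red (u1 : N.R1.O)) := fun Q => ord_pow Q _ p
  have hordpow2 : ∀ Q : Place k F2, Q.ord (N.R2.red (u2 : N.R2.O) ^ p) =
      p * Q.ord (N.R2.red (u2 : N.R2.O)) := fun Q => ord_pow Q _ p
  -- trichotomy
  rcases lt_trichotomy (A.valuation a2) (A.valuation a1) with hlt | heq | hgt
  · -- `v₂(y) > v₁(y)`: impossible
    exfalso
    have hτA : a2 / a1 ∈ A := div_mem_of_valuation_le ha1 hlt.le
    have hπτ := pi_div_eq_zero N.R2.toBranch ha1 hlt hτA
    set h1 : N.R1.O := ((u1 ^ p * f1 : N.R1.Oˣ) : N.R1.O) with hh1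
    set h2 : N.R2.O := constHom N.R2.toBranch ⟨a2 / a1, hτA⟩ ^ p *
      ((u2 ^ p * f2 : N.R2.Oˣ) : N.R2.O) with hh2
    have hh1coe : ((h1 : N.R1.O) : FL) = ((u1 : N.R1.O) : FL) ^ p * ((f1 : N.R1.O) : FL) := by
      rw [hh1, Units.val_mul, Units.val_pow_eq_pow_val, MulMemClass.coe_mul,
        SubmonoidClass.coe_pow]
    have hh12 : ((h1 : N.R1.O) : FL) = ((h2 : N.R2.O) : FL) := by
      rw [hh1coe, hh2, Units.val_mul, Units.val_pow_eq_pow_val, MulMemClass.coe_mul,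
        MulMemClass.coe_mul, SubmonoidClass.coe_pow, SubmonoidClass.coe_pow, coe_constHom,
        ← hf12]
      have : ((u1 : N.R1.O) : FL) = algebraMap L FL (a2 / a1) * ((u2 : N.R2.O) : FL) := by
        rw [map_div₀]
        field_simp
        linear_combination hyy
      rw [this, mul_pow]
      ring
    have hred2h : N.R2.red h2 = 0 := by
      rw [hh2, map_mul, map_pow, red_constHom, hπτ, map_zero, zero_pow hp, zero_mul]
    have hred1h : N.R1.red h1 = N.R1.red (u1 : N.R1.O) ^ p := by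
      rw [hh1, Units.val_mul, Units.val_pow_eq_pow_val, map_mul, map_pow, hred1, mul_one]
    obtain ⟨hreg1, -, hgl⟩ := N.pcg S1 S2 hadm h1 h2 hh12 (by rw [hh1coe]; exact hpoleG)
    have hmem : N.R1.red (u1 : N.R1.O) ∈
        riemannRochSpace (∑ i, Finsupp.single (Q1 i) (1 : ℤ)) := by
      refine mem_L_of_bounds Q1 N.R1.good _ (fun Q hQ => ?_) (fun Q hQ => ?_)
      · rw [hy1 Q hQ]
        have := hEr1 Q
        omega
      · have h := hreg1 Q (fun hQS => hQ (hS1g hQS))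
        rw [hred1h, hordpow1] at h
        exact le_of_mul_le_mul_left (by simpa using h) hppos
    obtain ⟨c, hc⟩ := hrig1 _ hmem
    obtain ⟨e⟩ := ‹Nonempty ι›
    obtain ⟨γ, hγ1, hγ2⟩ := hgl e
    rw [hred2h] at hγ2
    have hγ0 : γ = 0 := hasValue_zero _ hγ2
    rw [hγ0, hred1h, hc, ← map_pow] at hγ1
    have := hasValue_const _ hγ1
    have hc0 : c = 0 := by
      have h0 : c ^ p = 0 := this.symm
      exact pow_eq_zero_iff hp |>.mp h0
    apply hu1red0
    rw [hc, hc0, map_zero]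
  · -- the main case `v₁(y) = v₂(y)`
    have hτA : a2 / a1 ∈ A := div_mem_of_valuation_le ha1 heq.le
    have hπτ := pi_div_ne_zero N.R2.toBranch ha1 heq hτA
    -- the unit of `O₂` equal to `u1`
    set z : N.R2.O := constHom N.R2.toBranch ⟨a2 / a1, hτA⟩ * (u2 : N.R2.O) with hz
    have hzred : N.R2.red z = algebraMap k F2 (π ⟨a2 / a1, hτA⟩) * N.R2.red (u2 : N.R2.O) := by
      rw [hz, map_mul, red_constHom]
    have hzred0 : N.R2.red z ≠ 0 := by
      rw [hzred]
      exact mul_ne_zero ((map_ne_zero_iff _ (algebraMap k F2).injective).mpr hπτ) hu2red0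
    set u2' : N.R2.Oˣ := unitOfRed N.R2.toBranch z hzred0 with hu2'
    have hu2'val : ((u2' : N.R2.Oˣ) : N.R2.O) = z := coe_unitOfRed N.R2.toBranch z hzred0
    have hu12 : ((u1 : N.R1.O) : FL) = ((u2' : N.R2.O) : FL) := by
      rw [hu2'val, hz, MulMemClass.coe_mul, coe_constHom]
      show ((u1 : N.R1.O) : FL) = algebraMap L FL (a2 / a1) * ((u2 : N.R2.O) : FL)
      rw [map_div₀]
      field_simp
      linear_combination hyy
    have hordz : ∀ Q : Place k F2, Q.ord (N.R2.red z) = Q.ord (N.R2.red (u2 : N.R2.O)) := by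
      intro Q
      rw [hzred, ord_const_mul Q hπτ]
    -- pole control for `u1 ^ p * f1 = u2' ^ p * f2`
    set h1 : N.R1.O := ((u1 ^ p * f1 : N.R1.Oˣ) : N.R1.O) with hh1
    set h2 : N.R2.O := ((u2' ^ p * f2 : N.R2.Oˣ) : N.R2.O) with hh2
    have hh1coe : ((h1 : N.R1.O) : FL) = ((u1 : N.R1.O) : FL) ^ p * ((f1 : N.R1.O) : FL) := by
      rw [hh1, Units.val_mul, Units.val_pow_eq_pow_val, MulMemClass.coe_mul,
        SubmonoidClass.coe_pow]
    have hh12 : ((h1 : N.R1.O) : FL) = ((h2 : N.R2.O) : FL) := by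
      rw [hh1coe, hh2, Units.val_mul, Units.val_pow_eq_pow_val, MulMemClass.coe_mul,
        SubmonoidClass.coe_pow, ← hf12, ← hu12]
    have hred1h : N.R1.red h1 = N.R1.red (u1 : N.R1.O) ^ p := by
      rw [hh1, Units.val_mul, Units.val_pow_eq_pow_val, map_mul, map_pow, hred1, mul_one]
    have hred2h : N.R2.red h2 = N.R2.red z ^ p := by
      rw [hh2, Units.val_mul, Units.val_pow_eq_pow_val, map_mul, map_pow, hred2, mul_one,
        hu2'val]
    obtain ⟨hreg1, hreg2, hglp⟩ := N.pcg S1 S2 hadm h1 h2 hh12 (by rw [hh1coe]; exact hpoleG)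
    have hmem1 : N.R1.red (u1 : N.R1.O) ∈
        riemannRochSpace (∑ i, Finsupp.single (Q1 i) (1 : ℤ)) := by
      refine mem_L_of_bounds Q1 N.R1.good _ (fun Q hQ => ?_) (fun Q hQ => ?_)
      · rw [hy1 Q hQ]
        have := hEr1 Q
        omega
      · have h := hreg1 Q (fun hQS => hQ (hS1g hQS))
        rw [hred1h, hordpow1] at h
        exact le_of_mul_le_mul_left (by simpa using h) hppos
    obtain ⟨γ, hγ⟩ := hrig1 _ hmem1
    have hγ0 : γ ≠ 0 := by
      rintro rfl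
      rw [map_zero] at hγ
      exact hu1red0 hγ
    -- the gluing of the `p`-th powers, and uniqueness of `p`-th roots in characteristic `ℓ`
    have hval2 : ∀ e, HasValue (N.e2 e) (N.R2.red z) γ := by
      intro e
      obtain ⟨γ', h1', h2'⟩ := hglp e
      rw [hred1h, hγ, ← map_pow] at h1'
      rw [hasValue_const _ h1', hred2h] at h2'
      exact hroot (N.e2 e) _ _ h2'
    -- `red z - γ` lies in `L(∑ Q2)` and vanishes at the nodes
    have hz2 : N.R2.red z - algebraMap k F2 γ = 0 := by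
      refine hrig2 _ ?_ (fun e => hval2 e |>.imp (fun h => by rw [h, sub_self]) id)
      by_cases hzero : N.R2.red z - algebraMap k F2 γ = 0
      · rw [hzero]; exact Submodule.zero_mem _
      refine mem_L_of_bounds Q2 N.R2.good _ (fun Q hQ => ?_) (fun Q hQ => ?_)
      · have h1 : -(∑ j, Finsupp.single (Q2 j) (1 : ℤ)) Q ≤ Q.ord (N.R2.red z) := by
          rw [hordz, hy2 Q hQ]
          have := hEr2 Q
          omega
        have h2 : -(∑ j, Finsupp.single (Q2 j) (1 : ℤ)) Q ≤ Q.ord (algebraMap k F2 γ) := by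
          rw [ord_algebraMap]
          have := sum_single_nonneg' Q2 Q
          omega
        exact (le_min h1 h2).trans (min_le_ord_sub Q hzero)
      · have h := hreg2 Q (fun hQS => hQ (hS2g hQS))
        rw [hred2h, ord_pow] at h
        have h1 : 0 ≤ Q.ord (N.R2.red z) := le_of_mul_le_mul_left (by simpa using h) hppos
        have h2 : 0 ≤ Q.ord (algebraMap k F2 γ) := by rw [ord_algebraMap]
        exact (le_min h1 h2).trans (min_le_ord_sub Q hzero)
    have hzγ : N.R2.red z = algebraMap k F2 γ := sub_eq_zero.mp hz2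
    -- the counting
    have hE1 : ∀ i, Finsupp.mapDomain N.R1.r E (some (Q1 i)) = 1 := by
      intro i
      have h := hy1 (Q1 i) (hQ1g i)
      rw [hγ, ord_algebraMap, sum_single_apply_of_injective' Q1 hQ1] at h
      omega
    have hE2 : ∀ j, Finsupp.mapDomain N.R2.r E (some (Q2 j)) = 1 := by
      intro j
      have h := hy2 (Q2 j) (hQ2g j)
      rw [← hordz, hzγ, ord_algebraMap, sum_single_apply_of_injective' Q2 hQ2] at h
      omega
    have hex1 : ∀ i, ∃ P, N.R1.r P = some (Q1 i) ∧ E P = 1 := by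
      intro i
      obtain ⟨P, hP, hP1, -⟩ := exists_unique_of_mapDomain_eq_one N.R1.r E (some (Q1 i))
        (fun P _ => hEnonneg P) (hE1 i)
      exact ⟨P, hP, hP1⟩
    have hex2 : ∀ j, ∃ P, N.R2.r P = some (Q2 j) ∧ E P = 1 := by
      intro j
      obtain ⟨P, hP, hP1, -⟩ := exists_unique_of_mapDomain_eq_one N.R2.r E (some (Q2 j))
        (fun P _ => hEnonneg P) (hE2 j)
      exact ⟨P, hP, hP1⟩
    choose Ps1 hPs1 hPs1E using hex1
    choose Ps2 hPs2 hPs2E using hex2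
    have hinj : Function.Injective (Sum.elim Ps1 Ps2) := by
      rintro (i | j) (i' | j') h
      · simp only [Sum.elim_inl] at h
        have := (hPs1 i).symm.trans (h ▸ hPs1 i')
        rw [hQ1 (Option.some_injective _ this)]
      · simp only [Sum.elim_inl, Sum.elim_inr] at h
        exact (N.excl _ _ _ (hPs1 i) (h ▸ hPs2 j')).elim
      · simp only [Sum.elim_inl, Sum.elim_inr] at h
        exact (N.excl _ _ _ (h ▸ hPs1 i') (hPs2 j)).elim
      · simp only [Sum.elim_inr] at h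
        have := (hPs2 j).symm.trans (h ▸ hPs2 j')
        rw [hQ2 (Option.some_injective _ this)]
    have hEsum : E = ∑ x : Fin g1 ⊕ Fin m2, Finsupp.single (Sum.elim Ps1 Ps2 x) (1 : ℤ) := by
      refine eq_sum_single_of_degree hdegL E hEnonneg _ hinj ?_ ?_
      · rintro (i | j)
        · simp only [Sum.elim_inl]; rw [hPs1E]
        · simp only [Sum.elim_inr]; rw [hPs2E]
      · rw [hdegE]
        simp
    refine ⟨Ps1, Ps2, u1, u2', γ, hγ0, ⟨a1, ha1, hyu1⟩, hu12, hγ, by rw [hu2'val]; exact hzγ,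
      hPs1, hPs2, fun P => ?_⟩
    have hEP : E P = (∑ i, Finsupp.single (Ps1 i) (1 : ℤ)) P +
        (∑ j, Finsupp.single (Ps2 j) (1 : ℤ)) P := by
      conv_lhs => rw [hEsum]
      rw [Fintype.sum_sum_type, Finsupp.add_apply]
      simp only [Sum.elim_inl, Sum.elim_inr]
    have hDP : (DK + DG) P = D P := rfl
    rw [hDP, ← hEP, hordu1, hE, hB]
    simp only [Finsupp.add_apply]
    ring
  · -- `v₁(y) > v₂(y)`: impossible
    exfalso
    have hτA : a1 / a2 ∈ A := div_mem_of_valuation_le ha2 hgt.le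
    have hπτ := pi_div_eq_zero N.R1.toBranch ha2 hgt hτA
    set h2 : N.R2.O := ((u2 ^ p * f2 : N.R2.Oˣ) : N.R2.O) with hh2
    set h1 : N.R1.O := constHom N.R1.toBranch ⟨a1 / a2, hτA⟩ ^ p *
      ((u1 ^ p * f1 : N.R1.Oˣ) : N.R1.O) with hh1
    have hh2coe : ((h2 : N.R2.O) : FL) = ((u2 : N.R2.O) : FL) ^ p * ((f2 : N.R2.O) : FL) := by
      rw [hh2, Units.val_mul, Units.val_pow_eq_pow_val, MulMemClass.coe_mul,
        SubmonoidClass.coe_pow]
    have hu21 : ((u2 : N.R2.O) : FL) = algebraMap L FL (a1 / a2) * ((u1 : N.R1.O) : FL) := by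
      rw [map_div₀]
      field_simp
      linear_combination -hyy
    have hh12 : ((h1 : N.R1.O) : FL) = ((h2 : N.R2.O) : FL) := by
      rw [hh2coe, hh1, Units.val_mul, Units.val_pow_eq_pow_val, MulMemClass.coe_mul,
        MulMemClass.coe_mul, SubmonoidClass.coe_pow, SubmonoidClass.coe_pow, coe_constHom,
        ← hf12, hu21, mul_pow]
      ring
    have hred1h : N.R1.red h1 = 0 := by
      rw [hh1, map_mul, map_pow, red_constHom, hπτ, map_zero, zero_pow hp, zero_mul]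
    have hred2h : N.R2.red h2 = N.R2.red (u2 : N.R2.O) ^ p := by
      rw [hh2, Units.val_mul, Units.val_pow_eq_pow_val, map_mul, map_pow, hred2, mul_one]
    have hAτ : algebraMap L FL (a1 / a2) ≠ 0 :=
      (map_ne_zero_iff _ (algebraMap L FL).injective).mpr (div_ne_zero ha1 ha2)
    obtain ⟨-, hreg2, hgl⟩ := N.pcg S1 S2 hadm h1 h2 hh12 (fun P hP => by
      refine hpoleG P ?_
      rw [hh12, hh2coe, hu21, ← hf12, mul_pow, mul_assoc, ← map_pow,
        ord_const_mul P (pow_ne_zero _ (div_ne_zero ha1 ha2))] at hP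
      exact hP)
    have hmem : N.R2.red (u2 : N.R2.O) ∈
        riemannRochSpace (∑ j, Finsupp.single (Q2 j) (1 : ℤ)) := by
      refine mem_L_of_bounds Q2 N.R2.good _ (fun Q hQ => ?_) (fun Q hQ => ?_)
      · rw [hy2 Q hQ]
        have := hEr2 Q
        omega
      · have h := hreg2 Q (fun hQS => hQ (hS2g hQS))
        rw [hred2h, hordpow2] at h
        exact le_of_mul_le_mul_left (by simpa using h) hppos
    apply hu2red0
    refine hrig2 _ hmem (fun e => ?_)
    obtain ⟨γ, hγ1, hγ2⟩ := hgl e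
    rw [hred1h] at hγ1
    have hγ0 : γ = 0 := hasValue_zero _ hγ1
    rw [hγ0, hred2h] at hγ2
    right
    rcases hγ2 with h | h
    · rw [map_zero] at h
      exact absurd h (pow_ne_zero _ hu2red0)
    · rw [map_zero, sub_zero, hordpow2] at h
      exact (mul_pos_iff_of_pos_left hppos).mp h

/-- **The nodal effective lift, general form.**  `D = DK + DG` of degree zero, where `DK` is a
"Kummer part" (`p • DK = div f`, `f` a unit of both Gauss rings reducing to `1` on both components,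
ARBITRARY support) and `DG` is supported in the good discs with zero push-forward to both
components.  If `p`-th roots are unique on the second component (`hroot`: automatic for `p = 1`,
and for `p = ℓ ^ j` in characteristic `ℓ`), the class of `D` contains `∑ Ps - ∑ P0s` with `Ps` in the
residue discs of the base points `P0s`, via a function which is a unit of both Gauss rings with the
same constant reduction on both components.  No gluing hypothesis: `N.pcg` is applied to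
`u ^ p * f`, all of whose poles lie in good discs. -/
theorem effective_liftPG [HasPrincipalDivisors L FL] [Fintype ι] [Nonempty ι]
    (N : GNodalDatum A π FL F1 F2 ι) (hdegL : ∀ P : Place L FL, P.deg = 1)
    (p : ℕ) (hp : p ≠ 0) {g1 m2 : ℕ} (hR : RiemannGe L FL (g1 + m2))
    (Q1 : Fin g1 → Place k F1) (Q2 : Fin m2 → Place k F2)
    (hQ1 : Function.Injective Q1) (hQ2 : Function.Injective Q2)
    (hQ1g : ∀ i, Q1 i ∈ N.R1.good) (hQ2g : ∀ j, Q2 j ∈ N.R2.good)
    (hrig1 : ∀ y : F1, y ∈ riemannRochSpace (∑ i, Finsupp.single (Q1 i) (1 : ℤ)) →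
      ∃ c : k, y = algebraMap k F1 c)
    (hrig2 : ∀ y : F2, y ∈ riemannRochSpace (∑ i, Finsupp.single (Q2 i) (1 : ℤ)) →
      (∀ e, y = 0 ∨ 0 < (N.e2 e).ord y) → y = 0)
    (P01 : Fin g1 → Place L FL) (P02 : Fin m2 → Place L FL)
    (hP01 : ∀ i, N.R1.r (P01 i) = some (Q1 i)) (hP02 : ∀ j, N.R2.r (P02 j) = some (Q2 j))
    (DK DG : Divisor L FL) (hD0 : Divisor.degree (DK + DG) = 0)
    (f1 : N.R1.Oˣ) (f2 : N.R2.Oˣ) (hf12 : ((f1 : N.R1.O) : FL) = ((f2 : N.R2.O) : FL))
    (hred1 : N.R1.red (f1 : N.R1.O) = 1) (hred2 : N.R2.red (f2 : N.R2.O) = 1)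
    (hfD : ∀ P : Place L FL, P.ord ((f1 : N.R1.O) : FL) = p * DK P)
    (hDGsupp : ∀ P : Place L FL, DG P ≠ 0 →
      (∃ Q ∈ N.R1.good, N.R1.r P = some Q) ∨ (∃ Q ∈ N.R2.good, N.R2.r P = some Q))
    (hDG1 : ∀ Q ∈ N.R1.good, Finsupp.mapDomain N.R1.r DG (some Q) = 0)
    (hDG2 : ∀ Q ∈ N.R2.good, Finsupp.mapDomain N.R2.r DG (some Q) = 0)
    (hroot : ∀ (Q : Place k F2) (φ : F2) (γ : k), HasValue Q (φ ^ p) (γ ^ p) → HasValue Q φ γ) :
    ∃ (Ps1 : Fin g1 → Place L FL) (Ps2 : Fin m2 → Place L FL) (u1 : N.R1.Oˣ) (u2 : N.R2.Oˣ)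
      (γ : k), γ ≠ 0 ∧ ((u1 : N.R1.O) : FL) = ((u2 : N.R2.O) : FL) ∧
      N.R1.red (u1 : N.R1.O) = algebraMap k F1 γ ∧ N.R2.red (u2 : N.R2.O) = algebraMap k F2 γ ∧
      (∀ i, N.R1.r (Ps1 i) = some (Q1 i)) ∧ (∀ j, N.R2.r (Ps2 j) = some (Q2 j)) ∧
      ∀ P : Place L FL, P.ord ((u1 : N.R1.O) : FL) + (DK + DG) P =
        (∑ i, Finsupp.single (Ps1 i) (1 : ℤ)) P + (∑ j, Finsupp.single (Ps2 j) (1 : ℤ)) P
          - (∑ i, Finsupp.single (P01 i) (1 : ℤ)) P - (∑ j, Finsupp.single (P02 j) (1 : ℤ)) P := by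
  classical
  have hdegB : Divisor.degree ((∑ i, Finsupp.single (P01 i) (1 : ℤ)) +
      ∑ j, Finsupp.single (P02 j) (1 : ℤ) : Divisor L FL) = ((g1 + m2 : ℕ) : ℤ) := by
    rw [map_add, Fermat.Agent.S18.Core.degree_sum_single hdegL,
      Fermat.Agent.S18.Core.degree_sum_single hdegL]
    push_cast
    ring
  obtain ⟨y, hy, hyL⟩ := hR (DK + DG + ((∑ i, Finsupp.single (P01 i) (1 : ℤ)) +
      ∑ j, Finsupp.single (P02 j) (1 : ℤ))) (by rw [map_add, hD0, hdegB, zero_add])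
  obtain ⟨Ps1, Ps2, u1, u2, γ, hγ, -, h⟩ := effective_lift_of_section N hdegL p hp Q1 Q2 hQ1 hQ2
    hQ1g hQ2g hrig1 hrig2 P01 P02 hP01 hP02 DK DG hD0 f1 f2 hf12 hred1 hred2 hfD hDGsupp hDG1 hDG2
    hroot y hy hyL
  exact ⟨Ps1, Ps2, u1, u2, γ, hγ, h⟩

/-- **(N4), the existence half at the residue characteristic.**  The twin of
`S34.NodalCore.effective_liftG` in which the gluing hypothesis `GlueG N D` is replaced by
`p = ℓ ^ j`, `ℓ` the characteristic of the residue field.  A degree-zero divisor `D` of ARBITRARY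
support with `p • D = div f`, `f` a unit of both Gauss rings reducing to `1` on both components, is
linearly equivalent to `∑ Ps - ∑ P0s` with `Ps` in the residue discs of the base points. -/
theorem effective_liftP [HasPrincipalDivisors L FL] [Fintype ι] [Nonempty ι]
    (N : GNodalDatum A π FL F1 F2 ι) (hdegL : ∀ P : Place L FL, P.deg = 1)
    (p : ℕ) (hp : p ≠ 0) {g1 m2 : ℕ} (hR : RiemannGe L FL (g1 + m2))
    (Q1 : Fin g1 → Place k F1) (Q2 : Fin m2 → Place k F2)
    (hQ1 : Function.Injective Q1) (hQ2 : Function.Injective Q2)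
    (hQ1g : ∀ i, Q1 i ∈ N.R1.good) (hQ2g : ∀ j, Q2 j ∈ N.R2.good)
    (hrig1 : ∀ y : F1, y ∈ riemannRochSpace (∑ i, Finsupp.single (Q1 i) (1 : ℤ)) →
      ∃ c : k, y = algebraMap k F1 c)
    (hrig2 : ∀ y : F2, y ∈ riemannRochSpace (∑ i, Finsupp.single (Q2 i) (1 : ℤ)) →
      (∀ e, y = 0 ∨ 0 < (N.e2 e).ord y) → y = 0)
    (P01 : Fin g1 → Place L FL) (P02 : Fin m2 → Place L FL)
    (hP01 : ∀ i, N.R1.r (P01 i) = some (Q1 i)) (hP02 : ∀ j, N.R2.r (P02 j) = some (Q2 j))
    (D : Divisor L FL) (hD0 : Divisor.degree D = 0)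
    (f1 : N.R1.Oˣ) (f2 : N.R2.Oˣ) (hf12 : ((f1 : N.R1.O) : FL) = ((f2 : N.R2.O) : FL))
    (hred1 : N.R1.red (f1 : N.R1.O) = 1) (hred2 : N.R2.red (f2 : N.R2.O) = 1)
    (hfD : ∀ P : Place L FL, P.ord ((f1 : N.R1.O) : FL) = p * D P)
    (ℓ : ℕ) [Fact ℓ.Prime] [CharP k ℓ] (j : ℕ) (hpℓ : p = ℓ ^ j) :
    ∃ (Ps1 : Fin g1 → Place L FL) (Ps2 : Fin m2 → Place L FL) (u1 : N.R1.Oˣ) (u2 : N.R2.Oˣ)
      (γ : k), γ ≠ 0 ∧ ((u1 : N.R1.O) : FL) = ((u2 : N.R2.O) : FL) ∧
      N.R1.red (u1 : N.R1.O) = algebraMap k F1 γ ∧ N.R2.red (u2 : N.R2.O) = algebraMap k F2 γ ∧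
      (∀ i, N.R1.r (Ps1 i) = some (Q1 i)) ∧ (∀ j, N.R2.r (Ps2 j) = some (Q2 j)) ∧
      ∀ P : Place L FL, P.ord ((u1 : N.R1.O) : FL) + D P =
        (∑ i, Finsupp.single (Ps1 i) (1 : ℤ)) P + (∑ j, Finsupp.single (Ps2 j) (1 : ℤ)) P
          - (∑ i, Finsupp.single (P01 i) (1 : ℤ)) P - (∑ j, Finsupp.single (P02 j) (1 : ℤ)) P := by
  have h := effective_liftPG N hdegL p hp hR Q1 Q2 hQ1 hQ2 hQ1g hQ2g hrig1 hrig2 P01 P02 hP01 hP02
    D 0 (by rwa [add_zero]) f1 f2 hf12 hred1 hred2 hfD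
    (fun P hP => absurd (Finsupp.zero_apply) hP)
    (fun Q _ => by rw [Finsupp.mapDomain_zero, Finsupp.zero_apply])
    (fun Q _ => by rw [Finsupp.mapDomain_zero, Finsupp.zero_apply])
    (fun Q φ γ hv => by
      rw [hpℓ] at hv
      exact hasValue_of_pow_char_pow ℓ j Q hv)
  simpa using h

/-- **The existence half of the nodal origin chart.**  A degree-zero divisor `D` supported in the
good discs with zero push-forward to both components is linearly equivalent to `∑ Ps - ∑ P0s` with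
`Ps` in the residue discs of the base points, via a function which is a unit of both Gauss rings
with the same constant reduction on both components.  Characteristic-free. -/
theorem effective_liftGood [HasPrincipalDivisors L FL] [Fintype ι] [Nonempty ι]
    (N : GNodalDatum A π FL F1 F2 ι) (hdegL : ∀ P : Place L FL, P.deg = 1)
    {g1 m2 : ℕ} (hR : RiemannGe L FL (g1 + m2))
    (Q1 : Fin g1 → Place k F1) (Q2 : Fin m2 → Place k F2)
    (hQ1 : Function.Injective Q1) (hQ2 : Function.Injective Q2)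
    (hQ1g : ∀ i, Q1 i ∈ N.R1.good) (hQ2g : ∀ j, Q2 j ∈ N.R2.good)
    (hrig1 : ∀ y : F1, y ∈ riemannRochSpace (∑ i, Finsupp.single (Q1 i) (1 : ℤ)) →
      ∃ c : k, y = algebraMap k F1 c)
    (hrig2 : ∀ y : F2, y ∈ riemannRochSpace (∑ i, Finsupp.single (Q2 i) (1 : ℤ)) →
      (∀ e, y = 0 ∨ 0 < (N.e2 e).ord y) → y = 0)
    (P01 : Fin g1 → Place L FL) (P02 : Fin m2 → Place L FL)
    (hP01 : ∀ i, N.R1.r (P01 i) = some (Q1 i)) (hP02 : ∀ j, N.R2.r (P02 j) = some (Q2 j))
    (D : Divisor L FL) (hD0 : Divisor.degree D = 0)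
    (hDsupp : ∀ P : Place L FL, D P ≠ 0 →
      (∃ Q ∈ N.R1.good, N.R1.r P = some Q) ∨ (∃ Q ∈ N.R2.good, N.R2.r P = some Q))
    (hD1 : ∀ Q ∈ N.R1.good, Finsupp.mapDomain N.R1.r D (some Q) = 0)
    (hD2 : ∀ Q ∈ N.R2.good, Finsupp.mapDomain N.R2.r D (some Q) = 0) :
    ∃ (Ps1 : Fin g1 → Place L FL) (Ps2 : Fin m2 → Place L FL) (u1 : N.R1.Oˣ) (u2 : N.R2.Oˣ)
      (γ : k), γ ≠ 0 ∧ ((u1 : N.R1.O) : FL) = ((u2 : N.R2.O) : FL) ∧
      N.R1.red (u1 : N.R1.O) = algebraMap k F1 γ ∧ N.R2.red (u2 : N.R2.O) = algebraMap k F2 γ ∧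
      (∀ i, N.R1.r (Ps1 i) = some (Q1 i)) ∧ (∀ j, N.R2.r (Ps2 j) = some (Q2 j)) ∧
      ∀ P : Place L FL, P.ord ((u1 : N.R1.O) : FL) + D P =
        (∑ i, Finsupp.single (Ps1 i) (1 : ℤ)) P + (∑ j, Finsupp.single (Ps2 j) (1 : ℤ)) P
          - (∑ i, Finsupp.single (P01 i) (1 : ℤ)) P - (∑ j, Finsupp.single (P02 j) (1 : ℤ)) P := by
  have h := effective_liftPG N hdegL 1 one_ne_zero hR Q1 Q2 hQ1 hQ2 hQ1g hQ2g hrig1 hrig2 P01 P02
    hP01 hP02 0 D (by rwa [zero_add]) 1 1 (by simp) (by simp) (by simp)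
    (fun P => by simp) hDsupp hD1 hD2
    (fun Q φ γ hv => by simpa using hv)
  simpa using h

end Main

end Fermat.Agent.S33.Nodal.LiftP
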