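import Mathlib
import Fermat.Agent.S19.Chart
import Fermat.Agent.S34.NodalCore
import Fermat.Agent.S33.Nodal.LiftP
import Fermat.Agent.S33.Nodal.Taylor

/-!
# PROJECT N (S33), slice [N1] (chart): the origin chart of the kernel of reduction, NODAL frame

The twin of `Fermat/Agent/S19/Chart.lean` over the nodal reduction datum
`Fermat.Agent.S34.NodalDefs.GNodalDatum` (two components `R1`, `R2` with PARTIAL specialisation
maps onto their good places, nodes, pole control + gluing `pcg`).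

* `GoodSupp N D`, `PushZero N D` : the divisor `D` is supported in the good residue discs, and its
  push-forward to both components vanishes at the good places;
* `J1 N` : the kernel of reduction, an additive subgroup of `Pic0 L FL`: classes having a
  representative of degree zero with `GoodSupp` and `PushZero`;
* `NodalChart N g1 m2` : a rigid family `Q1b` (`g1` good places of the first component,
  `L(∑ Q1b) = k`) and `Q2b` (`m2` good places of the second component, no nonzero element of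
  `L(∑ Q2b)` vanishes at all the nodes), lifts `Q1`, `Q2`, good parameters `T1 i`, `T2 j` vanishing
  at the lifts, and an auxiliary good disc `Qstar` off the chart;
* `cls`, `cls_mem_J1`, `exists_pts` (existence: `LiftP.effective_liftGood`), `pts_unique`
  (uniqueness: `LiftP.effective_lift_of_section` + `S34.NodalCore.normalizeG` / `no_nontrivialG` at
  `p = 1`), `pts1`, `pts2`;
* `coord1`, `coord2` : the coordinates, with values in `𝔪_A`; `coord_eq`, `coord_injective`,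
  `coord_surjective`, `coord_zero`, `cls_add`, `coord_add_eq`;
* `mk_mem_J1_of_oneUnit` : **[N4]**: at the residue characteristic, the class of a degree-zero
  divisor `D` of arbitrary support with `ℓ ^ j • D = div f`, `f` a `1`-unit at both Gauss
  valuations, lies in `J1 N`.
-/

set_option autoImplicit false
set_option linter.unusedSectionVars false
set_option linter.unusedVariables false

noncomputable section

namespace Fermat.Agent.S33.Nodal.Chart

open AlgebraicCurve Fermat.Agent.S24.Ord Fermat.Agent.S34.NodalDefs Fermat.Agent.S34.NodalDisc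
  Fermat.Agent.S34.NodalCore Fermat.Agent.S33.Nodal.LiftP
open Fermat.Agent.S18.CoreDefs (RiemannGe)
open Fermat.Agent.S19.Taylor (ValAt)
open Fermat.Agent.S19.Chart (mk_eq_mk_iff)
open Fermat.Agent.S33.Nodal.Taylor (DiscParam)

variable {L : Type*} [Field L] {FL : Type*} [Field FL] [Algebra L FL]
variable {k : Type*} [Field k] {F1 : Type*} [Field F1] [Algebra k F1]
  {F2 : Type*} [Field F2] [Algebra k F2]
variable {A : ValuationSubring L} {π : A →+* k} {ι : Type*}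

/-! ### Good support, vanishing push-forward, the kernel of reduction -/

section Kernel

/-- the divisor `D` is supported in the good residue discs of the two components -/
def GoodSupp (N : GNodalDatum A π FL F1 F2 ι) (D : Divisor L FL) : Prop :=
  ∀ P : Place L FL, D P ≠ 0 →
    (∃ Q ∈ N.R1.good, N.R1.r P = some Q) ∨ (∃ Q ∈ N.R2.good, N.R2.r P = some Q)

/-- the push-forward of `D` to both components vanishes at the good places -/
def PushZero (N : GNodalDatum A π FL F1 F2 ι) (D : Divisor L FL) : Prop :=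
  (∀ Q ∈ N.R1.good, Finsupp.mapDomain N.R1.r D (some Q) = 0) ∧
    (∀ Q ∈ N.R2.good, Finsupp.mapDomain N.R2.r D (some Q) = 0)

variable (N : GNodalDatum A π FL F1 F2 ι)

theorem goodSupp_zero : GoodSupp N (0 : Divisor L FL) := fun P hP => absurd rfl hP

theorem GoodSupp.add {D E : Divisor L FL} (hD : GoodSupp N D) (hE : GoodSupp N E) :
    GoodSupp N (D + E) := by
  intro P hP
  by_cases h : D P ≠ 0
  · exact hD P h
  · rw [not_not] at h
    refine hE P fun hE0 => hP ?_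
    rw [Finsupp.add_apply, h, hE0, add_zero]

theorem GoodSupp.neg {D : Divisor L FL} (hD : GoodSupp N D) : GoodSupp N (-D) := by
  intro P hP
  refine hD P fun h => hP ?_
  rw [Finsupp.neg_apply, h, neg_zero]

theorem GoodSupp.sub {D E : Divisor L FL} (hD : GoodSupp N D) (hE : GoodSupp N E) :
    GoodSupp N (D - E) := by
  rw [sub_eq_add_neg]
  exact hD.add N (hE.neg N)

theorem pushZero_zero : PushZero N (0 : Divisor L FL) :=
  ⟨fun Q _ => by rw [Finsupp.mapDomain_zero, Finsupp.zero_apply],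
    fun Q _ => by rw [Finsupp.mapDomain_zero, Finsupp.zero_apply]⟩

theorem PushZero.add {D E : Divisor L FL} (hD : PushZero N D) (hE : PushZero N E) :
    PushZero N (D + E) :=
  ⟨fun Q hQ => by rw [Finsupp.mapDomain_add, Finsupp.add_apply, hD.1 Q hQ, hE.1 Q hQ, add_zero],
    fun Q hQ => by rw [Finsupp.mapDomain_add, Finsupp.add_apply, hD.2 Q hQ, hE.2 Q hQ, add_zero]⟩

theorem PushZero.neg {D : Divisor L FL} (hD : PushZero N D) : PushZero N (-D) := by
  have h1 : Finsupp.mapDomain N.R1.r (-D) = -Finsupp.mapDomain N.R1.r D :=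
    map_neg (Finsupp.mapDomain.addMonoidHom (M := ℤ) N.R1.r) _
  have h2 : Finsupp.mapDomain N.R2.r (-D) = -Finsupp.mapDomain N.R2.r D :=
    map_neg (Finsupp.mapDomain.addMonoidHom (M := ℤ) N.R2.r) _
  exact ⟨fun Q hQ => by rw [h1, Finsupp.neg_apply, hD.1 Q hQ, neg_zero],
    fun Q hQ => by rw [h2, Finsupp.neg_apply, hD.2 Q hQ, neg_zero]⟩

theorem PushZero.sub {D E : Divisor L FL} (hD : PushZero N D) (hE : PushZero N E) :
    PushZero N (D - E) := by
  rw [sub_eq_add_neg]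
  exact hD.add N (hE.neg N)

/-- **The kernel of reduction** of the nodal datum: classes of degree zero having a representative
supported in the good discs whose push-forward to both components vanishes. -/
def J1 : AddSubgroup (Pic0 L FL) where
  carrier := {z | ∃ D : Divisor.degZero (K := L) (F := FL), Pic0.mk D = z ∧
    GoodSupp N (D : Divisor L FL) ∧ PushZero N (D : Divisor L FL)}
  zero_mem' := ⟨0, rfl, by rw [ZeroMemClass.coe_zero]; exact goodSupp_zero N,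
    by rw [ZeroMemClass.coe_zero]; exact pushZero_zero N⟩
  add_mem' := by
    rintro _ _ ⟨D, rfl, hD1, hD2⟩ ⟨E, rfl, hE1, hE2⟩
    exact ⟨D + E, rfl, by rw [AddSubgroup.coe_add]; exact hD1.add N hE1,
      by rw [AddSubgroup.coe_add]; exact hD2.add N hE2⟩
  neg_mem' := by
    rintro _ ⟨D, rfl, hD1, hD2⟩
    exact ⟨-D, rfl, by rw [AddSubgroup.coe_neg]; exact hD1.neg N,
      by rw [AddSubgroup.coe_neg]; exact hD2.neg N⟩

theorem mem_J1_iff {z : Pic0 L FL} : z ∈ J1 N ↔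
    ∃ D : Divisor.degZero (K := L) (F := FL), Pic0.mk D = z ∧
      GoodSupp N (D : Divisor L FL) ∧ PushZero N (D : Divisor L FL) := Iff.rfl

end Kernel

/-! ### Sums of points in the discs of two families -/

section Sums

variable (N : GNodalDatum A π FL F1 F2 ι) {g1 m2 : ℕ}

/-- the divisor `∑ Ps1 + ∑ Ps2` of a pair of families of places -/
def ptsDiv (Ps1 : Fin g1 → Place L FL) (Ps2 : Fin m2 → Place L FL) : Divisor L FL :=
  (∑ i, Finsupp.single (Ps1 i) (1 : ℤ)) + ∑ j, Finsupp.single (Ps2 j) (1 : ℤ)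

theorem ptsDiv_apply (Ps1 : Fin g1 → Place L FL) (Ps2 : Fin m2 → Place L FL) (P : Place L FL) :
    ptsDiv Ps1 Ps2 P =
      (∑ i, Finsupp.single (Ps1 i) (1 : ℤ)) P + (∑ j, Finsupp.single (Ps2 j) (1 : ℤ)) P := by
  rw [ptsDiv, Finsupp.add_apply]

theorem ptsDiv_nonneg (Ps1 : Fin g1 → Place L FL) (Ps2 : Fin m2 → Place L FL) (P : Place L FL) :
    0 ≤ ptsDiv Ps1 Ps2 P := by
  rw [ptsDiv_apply]
  exact add_nonneg (sum_single_nonneg' Ps1 P) (sum_single_nonneg' Ps2 P)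

theorem degree_ptsDiv (hdegL : ∀ P : Place L FL, P.deg = 1) (Ps1 : Fin g1 → Place L FL)
    (Ps2 : Fin m2 → Place L FL) : Divisor.degree (ptsDiv Ps1 Ps2) = ((g1 + m2 : ℕ) : ℤ) := by
  rw [ptsDiv, map_add, Fermat.Agent.S18.Core.degree_sum_single hdegL,
    Fermat.Agent.S18.Core.degree_sum_single hdegL]
  push_cast
  ring

/-- a place where `∑ Ps1 + ∑ Ps2` does not vanish is one of the points -/
theorem exists_of_ptsDiv_ne_zero (Ps1 : Fin g1 → Place L FL) (Ps2 : Fin m2 → Place L FL)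
    (P : Place L FL) (hP : ptsDiv Ps1 Ps2 P ≠ 0) : (∃ i, Ps1 i = P) ∨ ∃ j, Ps2 j = P := by
  by_contra hcon
  push Not at hcon
  apply hP
  rw [ptsDiv_apply, sum_single_apply_of_notMem' Ps1 P hcon.1,
    sum_single_apply_of_notMem' Ps2 P hcon.2, add_zero]

variable {N} in
theorem goodSupp_ptsDiv {Q1b : Fin g1 → Place k F1} {Q2b : Fin m2 → Place k F2}
    (hQ1g : ∀ i, Q1b i ∈ N.R1.good) (hQ2g : ∀ j, Q2b j ∈ N.R2.good)
    {Ps1 : Fin g1 → Place L FL} {Ps2 : Fin m2 → Place L FL}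
    (hPs1 : ∀ i, N.R1.r (Ps1 i) = some (Q1b i)) (hPs2 : ∀ j, N.R2.r (Ps2 j) = some (Q2b j)) :
    GoodSupp N (ptsDiv Ps1 Ps2) := by
  intro P hP
  rcases exists_of_ptsDiv_ne_zero Ps1 Ps2 P hP with ⟨i, rfl⟩ | ⟨j, rfl⟩
  · exact Or.inl ⟨Q1b i, hQ1g i, hPs1 i⟩
  · exact Or.inr ⟨Q2b j, hQ2g j, hPs2 j⟩

variable {N} in
/-- the difference of two configurations in the same discs has vanishing push-forward -/
theorem pushZero_ptsDiv_sub {Q1b : Fin g1 → Place k F1} {Q2b : Fin m2 → Place k F2}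
    {Ps1 Ps1' : Fin g1 → Place L FL} {Ps2 Ps2' : Fin m2 → Place L FL}
    (hPs1 : ∀ i, N.R1.r (Ps1 i) = some (Q1b i)) (hPs2 : ∀ j, N.R2.r (Ps2 j) = some (Q2b j))
    (hPs1' : ∀ i, N.R1.r (Ps1' i) = some (Q1b i)) (hPs2' : ∀ j, N.R2.r (Ps2' j) = some (Q2b j)) :
    PushZero N (ptsDiv Ps1 Ps2 - ptsDiv Ps1' Ps2') := by
  constructor
  · intro Q _
    rw [Finsupp.mapDomain_sub, Finsupp.sub_apply, ptsDiv, ptsDiv,
      mapDomain_base1 N Q1b Q2b Ps1 Ps2 hPs1 hPs2 Q,
      mapDomain_base1 N Q1b Q2b Ps1' Ps2' hPs1' hPs2' Q, sub_self]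
  · intro Q _
    rw [Finsupp.mapDomain_sub, Finsupp.sub_apply, ptsDiv, ptsDiv,
      mapDomain_base2 N Q1b Q2b Ps1 Ps2 hPs1 hPs2 Q,
      mapDomain_base2 N Q1b Q2b Ps1' Ps2' hPs1' hPs2' Q, sub_self]

variable {N} in
/-- two configurations in the discs of injective families with the same divisor coincide -/
theorem eq_of_ptsDiv_eq {Q1b : Fin g1 → Place k F1} {Q2b : Fin m2 → Place k F2}
    (hQ1 : Function.Injective Q1b) (hQ2 : Function.Injective Q2b)
    {Ps1 Ps1' : Fin g1 → Place L FL} {Ps2 Ps2' : Fin m2 → Place L FL}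
    (hPs1 : ∀ i, N.R1.r (Ps1 i) = some (Q1b i)) (hPs2 : ∀ j, N.R2.r (Ps2 j) = some (Q2b j))
    (hPs1' : ∀ i, N.R1.r (Ps1' i) = some (Q1b i)) (hPs2' : ∀ j, N.R2.r (Ps2' j) = some (Q2b j))
    (h : ptsDiv Ps1 Ps2 = ptsDiv Ps1' Ps2') : Ps1 = Ps1' ∧ Ps2 = Ps2' := by
  classical
  have hinj1 : Function.Injective Ps1 := fun a b hab =>
    hQ1 (Option.some_injective _ (by rw [← hPs1 a, ← hPs1 b, hab]))
  have hinj2 : Function.Injective Ps2 := fun a b hab =>
    hQ2 (Option.some_injective _ (by rw [← hPs2 a, ← hPs2 b, hab]))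
  constructor
  · funext i
    by_contra hne
    have h1 : ptsDiv Ps1 Ps2 (Ps1 i) = 1 := by
      rw [ptsDiv_apply, sum_single_apply_of_injective' Ps1 hinj1,
        sum_single_apply_of_notMem' Ps2 (Ps1 i) (fun j hj =>
          N.excl (Ps1 i) (Q1b i) (Q2b j) (hPs1 i) (hj ▸ hPs2 j)), add_zero]
    have h0 : ptsDiv Ps1' Ps2' (Ps1 i) = 0 := by
      rw [ptsDiv_apply, sum_single_apply_of_notMem' Ps1' (Ps1 i) (fun i' hi' => ?_),
        sum_single_apply_of_notMem' Ps2' (Ps1 i) (fun j hj =>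
          N.excl (Ps1 i) (Q1b i) (Q2b j) (hPs1 i) (hj ▸ hPs2' j)), add_zero]
      have : i' = i := hQ1 (Option.some_injective _ (by rw [← hPs1' i', hi', hPs1 i]))
      subst this
      exact hne hi'.symm
    rw [h, h0] at h1
    exact zero_ne_one h1
  · funext j
    by_contra hne
    have h1 : ptsDiv Ps1 Ps2 (Ps2 j) = 1 := by
      rw [ptsDiv_apply, sum_single_apply_of_injective' Ps2 hinj2,
        sum_single_apply_of_notMem' Ps1 (Ps2 j) (fun i hi =>
          N.excl (Ps2 j) (Q1b i) (Q2b j) (hi ▸ hPs1 i) (hPs2 j)), zero_add]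
    have h0 : ptsDiv Ps1' Ps2' (Ps2 j) = 0 := by
      rw [ptsDiv_apply, sum_single_apply_of_notMem' Ps2' (Ps2 j) (fun j' hj' => ?_),
        sum_single_apply_of_notMem' Ps1' (Ps2 j) (fun i hi =>
          N.excl (Ps2 j) (Q1b i) (Q2b j) (hi ▸ hPs1' i) (hPs2 j)), add_zero]
      have : j' = j := hQ2 (Option.some_injective _ (by rw [← hPs2' j', hj', hPs2 j]))
      subst this
      exact hne hj'.symm
    rw [h, h0] at h1
    exact zero_ne_one h1

/-- off the points, `∑ Ps1 + ∑ Ps2` vanishes -/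
theorem ptsDiv_apply_of_notMem (Ps1 : Fin g1 → Place L FL) (Ps2 : Fin m2 → Place L FL)
    (P : Place L FL) (h1 : ∀ i, Ps1 i ≠ P) (h2 : ∀ j, Ps2 j ≠ P) : ptsDiv Ps1 Ps2 P = 0 := by
  rw [ptsDiv_apply, sum_single_apply_of_notMem' Ps1 P h1, sum_single_apply_of_notMem' Ps2 P h2,
    add_zero]

end Sums

/-! ### Uniqueness of the points -/

section Unique

/-- **Uniqueness** (the nodal twin of `S19.Chart.eq_of_principal_sub`): two configurations in the
discs of a rigid pair of families whose sums are linearly equivalent coincide.  The function with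
divisor `∑ Ps - ∑ Ps'` is, up to a constant, a unit of both Gauss rings with the same constant
reduction (`LiftP.effective_lift_of_section`); `S34.NodalCore.normalizeG` and `no_nontrivialG` at
`p = 1` show that it is constant. -/
theorem eq_of_principal_sub [HasPrincipalDivisors L FL] [HasPrincipalDivisors k F1]
    [HasPrincipalDivisors k F2] [Fintype ι] [Nonempty ι]
    (N : GNodalDatum A π FL F1 F2 ι) (hdegL : ∀ P : Place L FL, P.deg = 1)
    (hπ : Function.Surjective π) {g1 m2 : ℕ}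
    (Q1b : Fin g1 → Place k F1) (Q2b : Fin m2 → Place k F2)
    (hQ1 : Function.Injective Q1b) (hQ2 : Function.Injective Q2b)
    (hrig1 : ∀ y : F1, y ∈ riemannRochSpace (∑ i, Finsupp.single (Q1b i) (1 : ℤ)) →
      ∃ c : k, y = algebraMap k F1 c)
    (hrig2 : ∀ y : F2, y ∈ riemannRochSpace (∑ j, Finsupp.single (Q2b j) (1 : ℤ)) →
      (∀ e, y = 0 ∨ 0 < (N.e2 e).ord y) → y = 0)
    (T1 : Fin g1 → N.R1.O) (T2 : Fin m2 → N.R2.O)
    (hT1 : ∀ i, IsGoodParam N.R1 (T1 i) (Q1b i)) (hT2 : ∀ j, IsGoodParam N.R2 (T2 j) (Q2b j))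
    (Pstar : Place L FL) (Qstar : Place k F1) (hQstar : Qstar ∈ N.R1.good)
    (hstar : N.R1.r Pstar = some Qstar) (hQstar' : ∀ i, Q1b i ≠ Qstar)
    (Ps1 Ps1' : Fin g1 → Place L FL) (Ps2 Ps2' : Fin m2 → Place L FL)
    (hPs1 : ∀ i, N.R1.r (Ps1 i) = some (Q1b i)) (hPs2 : ∀ j, N.R2.r (Ps2 j) = some (Q2b j))
    (hPs1' : ∀ i, N.R1.r (Ps1' i) = some (Q1b i)) (hPs2' : ∀ j, N.R2.r (Ps2' j) = some (Q2b j))
    (h : ptsDiv Ps1 Ps2 - ptsDiv Ps1' Ps2' ∈ Divisor.principal (K := L) (F := FL)) :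
    Ps1 = Ps1' ∧ Ps2 = Ps2' := by
  classical
  have hQ1g : ∀ i, Q1b i ∈ N.R1.good := fun i => (hT1 i).good
  have hQ2g : ∀ j, Q2b j ∈ N.R2.good := fun j => (hT2 j).good
  obtain ⟨f0, hf0, hf0D⟩ := Divisor.mem_principal.mp h
  set DG : Divisor L FL := ptsDiv Ps1' Ps2' - ptsDiv Ps1 Ps2 with hDG
  have hD0 : Divisor.degree ((0 : Divisor L FL) + DG) = 0 := by
    rw [zero_add, hDG, map_sub, degree_ptsDiv hdegL, degree_ptsDiv hdegL, sub_self]
  have hDGs : GoodSupp N DG :=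
    (goodSupp_ptsDiv hQ1g hQ2g hPs1' hPs2').sub N (goodSupp_ptsDiv hQ1g hQ2g hPs1 hPs2)
  have hDGp : PushZero N DG := pushZero_ptsDiv_sub hPs1' hPs2' hPs1 hPs2
  have hyL : f0 ∈ riemannRochSpace ((0 : Divisor L FL) + DG +
      ((∑ i, Finsupp.single (Ps1 i) (1 : ℤ)) + ∑ j, Finsupp.single (Ps2 j) (1 : ℤ))) := by
    rw [mem_riemannRochSpace_iff]
    intro v
    right
    rw [← hf0D v, zero_add, hDG, Finsupp.add_apply, Finsupp.sub_apply, Finsupp.sub_apply]
    have h1 := ptsDiv_nonneg Ps1 Ps2 v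
    have h2 : ptsDiv Ps1 Ps2 v = ((∑ i, Finsupp.single (Ps1 i) (1 : ℤ)) +
        ∑ j, Finsupp.single (Ps2 j) (1 : ℤ)) v := rfl
    rw [← h2]
    omega
  obtain ⟨Ps1'', Ps2'', u1, u2, γ, hγ, ⟨a, ha, hya⟩, hu12, hr1, hr2, -, -, -⟩ :=
    effective_lift_of_section N hdegL 1 one_ne_zero Q1b Q2b hQ1 hQ2 hQ1g hQ2g hrig1 hrig2
      Ps1 Ps2 hPs1 hPs2 0 DG hD0 1 1 rfl (by simp) (by simp)
      (fun P => by simp) hDGs hDGp.1 hDGp.2
      (fun Q φ γ hv => by rwa [pow_one, pow_one] at hv) f0 hf0 hyL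
  set D' : Divisor L FL := ptsDiv Ps1 Ps2 - ptsDiv Ps1' Ps2' with hD'
  have hordu : ∀ P : Place L FL, P.ord ((u1 : N.R1.O) : FL) = ((1 : ℕ) : ℤ) * D' P := by
    intro P
    rw [Nat.cast_one, one_mul, hf0D P, hya, Fermat.Agent.S18.CoreOrd.ord_const_mul P ha]
  have hstar' : ∀ P : Place L FL, N.R1.r P = some Qstar → D' P = 0 := by
    intro P hP
    rw [hD', Finsupp.sub_apply,
      ptsDiv_apply_of_notMem Ps1 Ps2 P
        (fun i hi => hQstar' i (Option.some_injective _ (by rw [← hPs1 i, hi, hP])))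
        (fun j hj => N.excl P Qstar (Q2b j) hP (hj ▸ hPs2 j)),
      ptsDiv_apply_of_notMem Ps1' Ps2' P
        (fun i hi => hQstar' i (Option.some_injective _ (by rw [← hPs1' i, hi, hP])))
        (fun j hj => N.excl P Qstar (Q2b j) hP (hj ▸ hPs2' j)), sub_zero]
  obtain ⟨G1, G2, hG12, hG1red, hG2red, hGord, hG⟩ :=
    normalizeG N hdegL hπ 1 D' u1 u2 hu12 γ hγ hr1 hr2 hordu Pstar Qstar hQstar hstar hstar'
  rcases hG with hG | hG
  · -- the function is constant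
    refine eq_of_ptsDiv_eq hQ1 hQ2 hPs1 hPs2 hPs1' hPs2' ?_
    ext P
    have := hGord P
    rw [hG, Place.ord_one, Nat.cast_one, one_mul, hD', Finsupp.sub_apply] at this
    omega
  · exfalso
    -- recentre the parameters at the points `Ps'`
    have hδ1 := fun i => (hT1 i).exists_value N.R1 (Ps1' i) (hdegL _) (hPs1' i)
    have hδ2 := fun j => (hT2 j).exists_value N.R2 (Ps2' j) (hdegL _) (hPs2' j)
    choose δ1 hδ1m hδ1v using hδ1
    choose δ2 hδ2m hδ2v using hδ2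
    have hT1' := fun i => (hT1 i).sub_const (hδ1m i)
    have hT2' := fun j => (hT2 j).sub_const (hδ2m j)
    have hc1 : ∀ i, ((T1 i - constHom N.R1.toBranch (δ1 i) : N.R1.O) : FL) =
        ((T1 i : N.R1.O) : FL) - algebraMap L FL ((δ1 i : A) : L) := fun i => by
      push_cast; simp
    have hc2 : ∀ j, ((T2 j - constHom N.R2.toBranch (δ2 j) : N.R2.O) : FL) =
        ((T2 j : N.R2.O) : FL) - algebraMap L FL ((δ2 j : A) : L) := fun j => by
      push_cast; simp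
    refine no_nontrivialG N hdegL hπ 1 (by rw [Nat.cast_one]; exact one_ne_zero) Q1b Q2b hQ1 hQ2
      hQ1g hQ2g hrig1 hrig2
      (fun i => T1 i - constHom N.R1.toBranch (δ1 i)) (fun i => (hT1' i).ord_one)
      (fun i P hP => (hT1' i).reg.ord_nonneg P hP)
      (fun j => T2 j - constHom N.R2.toBranch (δ2 j)) (fun j => (hT2' j).ord_one)
      (fun j P hP => (hT2' j).reg.ord_nonneg P hP)
      Ps1' Ps1 Ps2' Ps2 hPs1' hPs1 hPs2' hPs2
      (fun i => (ord_pos_iff _ (hT1' i).coe_ne_zero).mpr (by rw [hc1]; exact hδ1v i))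
      (fun j => (ord_pos_iff _ (hT2' j).coe_ne_zero).mpr (by rw [hc2]; exact hδ2v j))
      G1 G2 hG12 hG1red hG2red (fun P => ?_) Pstar Qstar hQstar hstar hQstar' hG
    rw [hGord P, hD', Finsupp.sub_apply, ptsDiv_apply, ptsDiv_apply]
    ring

end Unique

/-! ### Nodal origin charts -/

section ChartDef

variable [HasPrincipalDivisors L FL]

/-- **A nodal origin chart**: rigid families `Q1b`, `Q2b` of good places on the two components of
the special fibre (with the two clauses of `S34.NodalDefs.NodalRigid`), lifts `Q1 i`, `Q2 j`, good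
parameters `T1 i`, `T2 j` on the discs vanishing at the lifts, and an auxiliary good disc `Qstar`
of the first component off the chart. -/
structure NodalChart (N : GNodalDatum A π FL F1 F2 ι) (g1 m2 : ℕ) where
  /-- the centres on the first component -/
  Q1b : Fin g1 → Place k F1
  /-- the centres on the second component -/
  Q2b : Fin m2 → Place k F2
  Q1b_inj : Function.Injective Q1b
  Q2b_inj : Function.Injective Q2b
  rigid1 : ∀ y : F1, y ∈ riemannRochSpace (∑ i, Finsupp.single (Q1b i) (1 : ℤ)) →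
    ∃ c : k, y = algebraMap k F1 c
  rigid2 : ∀ y : F2, y ∈ riemannRochSpace (∑ j, Finsupp.single (Q2b j) (1 : ℤ)) →
    (∀ e, y = 0 ∨ 0 < (N.e2 e).ord y) → y = 0
  /-- the base points over the first component -/
  Q1 : Fin g1 → Place L FL
  /-- the base points over the second component -/
  Q2 : Fin m2 → Place L FL
  hQ1 : ∀ i, N.R1.r (Q1 i) = some (Q1b i)
  hQ2 : ∀ j, N.R2.r (Q2 j) = some (Q2b j)
  /-- the parameters on the discs of the first component -/
  T1 : Fin g1 → N.R1.O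
  /-- the parameters on the discs of the second component -/
  T2 : Fin m2 → N.R2.O
  hT1 : ∀ i, IsGoodParam N.R1 (T1 i) (Q1b i)
  hT2 : ∀ j, IsGoodParam N.R2 (T2 j) (Q2b j)
  hT10 : ∀ i, 0 < (Q1 i).ord ((T1 i : N.R1.O) : FL)
  hT20 : ∀ j, 0 < (Q2 j).ord ((T2 j : N.R2.O) : FL)
  /-- an auxiliary place in a good disc of the first component off the chart -/
  Pstar : Place L FL
  /-- its reduction -/
  Qstar : Place k F1
  hQstar : Qstar ∈ N.R1.good
  hstar : N.R1.r Pstar = some Qstar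
  hQstar' : ∀ i, Q1b i ≠ Qstar

namespace NodalChart

variable {N : GNodalDatum A π FL F1 F2 ι} {g1 m2 : ℕ} (C : NodalChart N g1 m2)

theorem Q1b_good (i : Fin g1) : C.Q1b i ∈ N.R1.good := (C.hT1 i).good

theorem Q2b_good (j : Fin m2) : C.Q2b j ∈ N.R2.good := (C.hT2 j).good

/-- the degree-zero divisor `∑ Ps1 + ∑ Ps2 - ∑ Q1 - ∑ Q2` -/
def diffDiv (hdegL : ∀ P : Place L FL, P.deg = 1) (Ps1 : Fin g1 → Place L FL)
    (Ps2 : Fin m2 → Place L FL) : Divisor.degZero (K := L) (F := FL) :=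
  ⟨ptsDiv Ps1 Ps2 - ptsDiv C.Q1 C.Q2, by
    rw [Divisor.mem_degZero, map_sub, degree_ptsDiv hdegL, degree_ptsDiv hdegL, sub_self]⟩

theorem coe_diffDiv (hdegL : ∀ P : Place L FL, P.deg = 1) (Ps1 : Fin g1 → Place L FL)
    (Ps2 : Fin m2 → Place L FL) :
    ((C.diffDiv hdegL Ps1 Ps2 : Divisor.degZero (K := L) (F := FL)) : Divisor L FL) =
      ptsDiv Ps1 Ps2 - ptsDiv C.Q1 C.Q2 := rfl

/-- the class `[∑ Ps1 + ∑ Ps2 - ∑ Q1 - ∑ Q2]` -/
def cls (hdegL : ∀ P : Place L FL, P.deg = 1) (Ps1 : Fin g1 → Place L FL)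
    (Ps2 : Fin m2 → Place L FL) : Pic0 L FL := Pic0.mk (C.diffDiv hdegL Ps1 Ps2)

theorem cls_eq_iff (hdegL : ∀ P : Place L FL, P.deg = 1) (Ps1 Ps1' : Fin g1 → Place L FL)
    (Ps2 Ps2' : Fin m2 → Place L FL) :
    C.cls hdegL Ps1 Ps2 = C.cls hdegL Ps1' Ps2' ↔
      ptsDiv Ps1 Ps2 - ptsDiv Ps1' Ps2' ∈ Divisor.principal (K := L) (F := FL) := by
  unfold cls
  rw [mk_eq_mk_iff, coe_diffDiv, coe_diffDiv, sub_sub_sub_cancel_right]

theorem cls_Q (hdegL : ∀ P : Place L FL, P.deg = 1) : C.cls hdegL C.Q1 C.Q2 = 0 := by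
  unfold cls
  have : C.diffDiv hdegL C.Q1 C.Q2 = 0 := Subtype.ext (by rw [coe_diffDiv, sub_self]; rfl)
  rw [this]; rfl

/-- `[∑ Ps - ∑ Q]` lies in the kernel of reduction if the `Ps` lie in the discs of the chart -/
theorem cls_mem_J1 (hdegL : ∀ P : Place L FL, P.deg = 1) (Ps1 : Fin g1 → Place L FL)
    (Ps2 : Fin m2 → Place L FL) (hPs1 : ∀ i, N.R1.r (Ps1 i) = some (C.Q1b i))
    (hPs2 : ∀ j, N.R2.r (Ps2 j) = some (C.Q2b j)) : C.cls hdegL Ps1 Ps2 ∈ J1 N := by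
  refine ⟨C.diffDiv hdegL Ps1 Ps2, rfl, ?_, ?_⟩
  · rw [coe_diffDiv]
    exact (goodSupp_ptsDiv C.Q1b_good C.Q2b_good hPs1 hPs2).sub N
      (goodSupp_ptsDiv C.Q1b_good C.Q2b_good C.hQ1 C.hQ2)
  · rw [coe_diffDiv]
    exact pushZero_ptsDiv_sub hPs1 hPs2 C.hQ1 C.hQ2

/-- **Existence of the points** of a class of the kernel of reduction. -/
theorem exists_pts [Fintype ι] [Nonempty ι] (hdegL : ∀ P : Place L FL, P.deg = 1)
    (hR : RiemannGe L FL (g1 + m2)) (z : Pic0 L FL) (hz : z ∈ J1 N) :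
    ∃ (Ps1 : Fin g1 → Place L FL) (Ps2 : Fin m2 → Place L FL),
      (∀ i, N.R1.r (Ps1 i) = some (C.Q1b i)) ∧ (∀ j, N.R2.r (Ps2 j) = some (C.Q2b j)) ∧
        z = C.cls hdegL Ps1 Ps2 := by
  obtain ⟨D, rfl, hD1, hD2⟩ := hz
  obtain ⟨Ps1, Ps2, u1, u2, γ, hγ, hu12, hr1, hr2, hPs1, hPs2, hord⟩ :=
    effective_liftGood N hdegL hR C.Q1b C.Q2b C.Q1b_inj C.Q2b_inj C.Q1b_good C.Q2b_good
      C.rigid1 C.rigid2 C.Q1 C.Q2 C.hQ1 C.hQ2 (D : Divisor L FL) (Divisor.mem_degZero.mp D.2)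
      hD1 hD2.1 hD2.2
  refine ⟨Ps1, Ps2, hPs1, hPs2, ?_⟩
  unfold cls
  rw [mk_eq_mk_iff, ← neg_mem_iff]
  refine Divisor.mem_principal.mpr ⟨((u1 : N.R1.O) : FL), coe_unit_ne_zero N.R1.toBranch u1,
    fun P => ?_⟩
  rw [Finsupp.neg_apply, Finsupp.sub_apply, coe_diffDiv, Finsupp.sub_apply, ptsDiv_apply,
    ptsDiv_apply]
  have := hord P
  omega

/-- **[N4], point form.**  At the residue characteristic `ℓ`: a degree-zero divisor `D` of
ARBITRARY support with `ℓ ^ j • D = div f`, `f` a unit of both Gauss rings reducing to `1` on both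
components, is linearly equivalent to `∑ Ps - ∑ Q` with the `Ps` in the discs of the chart. -/
theorem exists_pts_of_oneUnit [Fintype ι] [Nonempty ι] (hdegL : ∀ P : Place L FL, P.deg = 1)
    (hR : RiemannGe L FL (g1 + m2)) (D : Divisor.degZero (K := L) (F := FL))
    (f1 : N.R1.Oˣ) (f2 : N.R2.Oˣ) (hf12 : ((f1 : N.R1.O) : FL) = ((f2 : N.R2.O) : FL))
    (hred1 : N.R1.red (f1 : N.R1.O) = 1) (hred2 : N.R2.red (f2 : N.R2.O) = 1)
    (ℓ : ℕ) [Fact ℓ.Prime] [CharP k ℓ] (j : ℕ)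
    (hfD : ∀ P : Place L FL, P.ord ((f1 : N.R1.O) : FL) =
      ((ℓ ^ j : ℕ) : ℤ) * (D : Divisor L FL) P) :
    ∃ (Ps1 : Fin g1 → Place L FL) (Ps2 : Fin m2 → Place L FL),
      (∀ i, N.R1.r (Ps1 i) = some (C.Q1b i)) ∧ (∀ j, N.R2.r (Ps2 j) = some (C.Q2b j)) ∧
        Pic0.mk D = C.cls hdegL Ps1 Ps2 := by
  obtain ⟨Ps1, Ps2, u1, u2, γ, hγ, hu12, hr1, hr2, hPs1, hPs2, hord⟩ :=
    effective_liftP N hdegL (ℓ ^ j) (pow_ne_zero j (Fact.out : ℓ.Prime).ne_zero) hR C.Q1b C.Q2b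
      C.Q1b_inj C.Q2b_inj C.Q1b_good C.Q2b_good C.rigid1 C.rigid2 C.Q1 C.Q2 C.hQ1 C.hQ2
      (D : Divisor L FL) (Divisor.mem_degZero.mp D.2) f1 f2 hf12 hred1 hred2 hfD ℓ j rfl
  refine ⟨Ps1, Ps2, hPs1, hPs2, ?_⟩
  unfold cls
  rw [mk_eq_mk_iff, ← neg_mem_iff]
  refine Divisor.mem_principal.mpr ⟨((u1 : N.R1.O) : FL), coe_unit_ne_zero N.R1.toBranch u1,
    fun P => ?_⟩
  rw [Finsupp.neg_apply, Finsupp.sub_apply, coe_diffDiv, Finsupp.sub_apply, ptsDiv_apply,
    ptsDiv_apply]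
  have := hord P
  omega

include C in
/-- **[N4].**  At the residue characteristic `ℓ`: the class of a degree-zero divisor `D` of
ARBITRARY support with `ℓ ^ j • D = div f`, `f` a unit of both Gauss rings reducing to `1` on both
components, lies in the kernel of reduction. -/
theorem mk_mem_J1_of_oneUnit [Fintype ι] [Nonempty ι] (hdegL : ∀ P : Place L FL, P.deg = 1)
    (hR : RiemannGe L FL (g1 + m2)) (D : Divisor.degZero (K := L) (F := FL))
    (f1 : N.R1.Oˣ) (f2 : N.R2.Oˣ) (hf12 : ((f1 : N.R1.O) : FL) = ((f2 : N.R2.O) : FL))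
    (hred1 : N.R1.red (f1 : N.R1.O) = 1) (hred2 : N.R2.red (f2 : N.R2.O) = 1)
    (ℓ : ℕ) [Fact ℓ.Prime] [CharP k ℓ] (j : ℕ)
    (hfD : ∀ P : Place L FL, P.ord ((f1 : N.R1.O) : FL) =
      ((ℓ ^ j : ℕ) : ℤ) * (D : Divisor L FL) P) :
    Pic0.mk D ∈ J1 N := by
  obtain ⟨Ps1, Ps2, hPs1, hPs2, h⟩ :=
    C.exists_pts_of_oneUnit hdegL hR D f1 f2 hf12 hred1 hred2 ℓ j hfD
  rw [h]
  exact C.cls_mem_J1 hdegL Ps1 Ps2 hPs1 hPs2

/-- **Uniqueness of the points.** -/
theorem pts_unique [HasPrincipalDivisors k F1] [HasPrincipalDivisors k F2] [Fintype ι]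
    [Nonempty ι] (hdegL : ∀ P : Place L FL, P.deg = 1) (hπ : Function.Surjective π)
    {Ps1 Ps1' : Fin g1 → Place L FL} {Ps2 Ps2' : Fin m2 → Place L FL}
    (hPs1 : ∀ i, N.R1.r (Ps1 i) = some (C.Q1b i)) (hPs2 : ∀ j, N.R2.r (Ps2 j) = some (C.Q2b j))
    (hPs1' : ∀ i, N.R1.r (Ps1' i) = some (C.Q1b i))
    (hPs2' : ∀ j, N.R2.r (Ps2' j) = some (C.Q2b j))
    (h : C.cls hdegL Ps1 Ps2 = C.cls hdegL Ps1' Ps2') : Ps1 = Ps1' ∧ Ps2 = Ps2' :=
  eq_of_principal_sub N hdegL hπ C.Q1b C.Q2b C.Q1b_inj C.Q2b_inj C.rigid1 C.rigid2 C.T1 C.T2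
    C.hT1 C.hT2 C.Pstar C.Qstar C.hQstar C.hstar C.hQstar' Ps1 Ps1' Ps2 Ps2' hPs1 hPs2 hPs1' hPs2'
    ((C.cls_eq_iff hdegL Ps1 Ps1' Ps2 Ps2').mp h)

section Pts

variable [Fintype ι] [Nonempty ι]

/-- the points of a class of the kernel of reduction on the first component -/
def pts1 (hdegL : ∀ P : Place L FL, P.deg = 1) (hR : RiemannGe L FL (g1 + m2)) (z : J1 N) :
    Fin g1 → Place L FL := (C.exists_pts hdegL hR z.1 z.2).choose

/-- the points of a class of the kernel of reduction on the second component -/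
def pts2 (hdegL : ∀ P : Place L FL, P.deg = 1) (hR : RiemannGe L FL (g1 + m2)) (z : J1 N) :
    Fin m2 → Place L FL := (C.exists_pts hdegL hR z.1 z.2).choose_spec.choose

theorem r_pts1 (hdegL : ∀ P : Place L FL, P.deg = 1) (hR : RiemannGe L FL (g1 + m2)) (z : J1 N)
    (i : Fin g1) : N.R1.r (C.pts1 hdegL hR z i) = some (C.Q1b i) :=
  (C.exists_pts hdegL hR z.1 z.2).choose_spec.choose_spec.1 i

theorem r_pts2 (hdegL : ∀ P : Place L FL, P.deg = 1) (hR : RiemannGe L FL (g1 + m2)) (z : J1 N)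
    (j : Fin m2) : N.R2.r (C.pts2 hdegL hR z j) = some (C.Q2b j) :=
  (C.exists_pts hdegL hR z.1 z.2).choose_spec.choose_spec.2.1 j

theorem cls_pts (hdegL : ∀ P : Place L FL, P.deg = 1) (hR : RiemannGe L FL (g1 + m2))
    (z : J1 N) : C.cls hdegL (C.pts1 hdegL hR z) (C.pts2 hdegL hR z) = (z : Pic0 L FL) :=
  (C.exists_pts hdegL hR z.1 z.2).choose_spec.choose_spec.2.2.symm

/-- characterisation of the points -/
theorem pts_eq [HasPrincipalDivisors k F1] [HasPrincipalDivisors k F2]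
    (hdegL : ∀ P : Place L FL, P.deg = 1) (hπ : Function.Surjective π)
    (hR : RiemannGe L FL (g1 + m2)) (z : J1 N)
    {Ps1 : Fin g1 → Place L FL} {Ps2 : Fin m2 → Place L FL}
    (hPs1 : ∀ i, N.R1.r (Ps1 i) = some (C.Q1b i)) (hPs2 : ∀ j, N.R2.r (Ps2 j) = some (C.Q2b j))
    (h : C.cls hdegL Ps1 Ps2 = (z : Pic0 L FL)) :
    C.pts1 hdegL hR z = Ps1 ∧ C.pts2 hdegL hR z = Ps2 :=
  C.pts_unique hdegL hπ (C.r_pts1 hdegL hR z) (C.r_pts2 hdegL hR z) hPs1 hPs2
    (by rw [C.cls_pts hdegL hR z, h])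

/-! ### Coordinates -/

/-- the `i`-th disc of the first component with its parameter -/
def disc1 (hdegL : ∀ P : Place L FL, P.deg = 1) (i : Fin g1) : DiscParam N.R1 where
  Q := C.Q1b i
  T := C.T1 i
  good := C.hT1 i
  P0 := C.Q1 i
  hP0 := C.hQ1 i
  deg_one := hdegL _
  zero := adicValuation_lt_one_of_ord_pos _ (C.hT10 i)

/-- the `j`-th disc of the second component with its parameter -/
def disc2 (hdegL : ∀ P : Place L FL, P.deg = 1) (j : Fin m2) : DiscParam N.R2 where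
  Q := C.Q2b j
  T := C.T2 j
  good := C.hT2 j
  P0 := C.Q2 j
  hP0 := C.hQ2 j
  deg_one := hdegL _
  zero := adicValuation_lt_one_of_ord_pos _ (C.hT20 j)

@[simp] theorem disc1_Q (hdegL : ∀ P : Place L FL, P.deg = 1) (i : Fin g1) :
    (C.disc1 hdegL i).Q = C.Q1b i := rfl

@[simp] theorem disc1_T (hdegL : ∀ P : Place L FL, P.deg = 1) (i : Fin g1) :
    (C.disc1 hdegL i).T = C.T1 i := rfl

@[simp] theorem disc1_P0 (hdegL : ∀ P : Place L FL, P.deg = 1) (i : Fin g1) :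
    (C.disc1 hdegL i).P0 = C.Q1 i := rfl

@[simp] theorem disc2_Q (hdegL : ∀ P : Place L FL, P.deg = 1) (j : Fin m2) :
    (C.disc2 hdegL j).Q = C.Q2b j := rfl

@[simp] theorem disc2_T (hdegL : ∀ P : Place L FL, P.deg = 1) (j : Fin m2) :
    (C.disc2 hdegL j).T = C.T2 j := rfl

@[simp] theorem disc2_P0 (hdegL : ∀ P : Place L FL, P.deg = 1) (j : Fin m2) :
    (C.disc2 hdegL j).P0 = C.Q2 j := rfl

/-- **The coordinates on the first component** of a class of the kernel of reduction: the values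
of the parameters `T1 i` at its points. -/
def coord1 (hdegL : ∀ P : Place L FL, P.deg = 1) (hR : RiemannGe L FL (g1 + m2)) (z : J1 N)
    (i : Fin g1) : A :=
  (C.disc1 hdegL i).valueAt (C.pts1 hdegL hR z i) (C.r_pts1 hdegL hR z i) (hdegL _)

/-- **The coordinates on the second component** of a class of the kernel of reduction: the values
of the parameters `T2 j` at its points. -/
def coord2 (hdegL : ∀ P : Place L FL, P.deg = 1) (hR : RiemannGe L FL (g1 + m2)) (z : J1 N)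
    (j : Fin m2) : A :=
  (C.disc2 hdegL j).valueAt (C.pts2 hdegL hR z j) (C.r_pts2 hdegL hR z j) (hdegL _)

theorem coord1_mem (hdegL : ∀ P : Place L FL, P.deg = 1) (hR : RiemannGe L FL (g1 + m2))
    (z : J1 N) (i : Fin g1) : C.coord1 hdegL hR z i ∈ IsLocalRing.maximalIdeal A :=
  (C.disc1 hdegL i).valueAt_mem _ _ _

theorem coord2_mem (hdegL : ∀ P : Place L FL, P.deg = 1) (hR : RiemannGe L FL (g1 + m2))
    (z : J1 N) (j : Fin m2) : C.coord2 hdegL hR z j ∈ IsLocalRing.maximalIdeal A :=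
  (C.disc2 hdegL j).valueAt_mem _ _ _

theorem valAt_coord1 (hdegL : ∀ P : Place L FL, P.deg = 1) (hR : RiemannGe L FL (g1 + m2))
    (z : J1 N) (i : Fin g1) :
    ValAt (C.pts1 hdegL hR z i) ((C.T1 i : N.R1.O) : FL) ((C.coord1 hdegL hR z i : A) : L) :=
  (C.disc1 hdegL i).valAt_valueAt _ _ _

theorem valAt_coord2 (hdegL : ∀ P : Place L FL, P.deg = 1) (hR : RiemannGe L FL (g1 + m2))
    (z : J1 N) (j : Fin m2) :
    ValAt (C.pts2 hdegL hR z j) ((C.T2 j : N.R2.O) : FL) ((C.coord2 hdegL hR z j : A) : L) :=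
  (C.disc2 hdegL j).valAt_valueAt _ _ _

/-- characterisation of the coordinates: if `z = [∑ Ps - ∑ Q]` with the `Ps` in the discs and
`T1 i (Ps1 i) = x1 i`, `T2 j (Ps2 j) = x2 j`, then `coord1 z = x1` and `coord2 z = x2` -/
theorem coord_eq [HasPrincipalDivisors k F1] [HasPrincipalDivisors k F2]
    (hdegL : ∀ P : Place L FL, P.deg = 1) (hπ : Function.Surjective π)
    (hR : RiemannGe L FL (g1 + m2)) (z : J1 N)
    {Ps1 : Fin g1 → Place L FL} {Ps2 : Fin m2 → Place L FL}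
    (hPs1 : ∀ i, N.R1.r (Ps1 i) = some (C.Q1b i)) (hPs2 : ∀ j, N.R2.r (Ps2 j) = some (C.Q2b j))
    (h : C.cls hdegL Ps1 Ps2 = (z : Pic0 L FL))
    {x1 : Fin g1 → A} {x2 : Fin m2 → A}
    (hx1 : ∀ i, ValAt (Ps1 i) ((C.T1 i : N.R1.O) : FL) ((x1 i : A) : L))
    (hx2 : ∀ j, ValAt (Ps2 j) ((C.T2 j : N.R2.O) : FL) ((x2 j : A) : L)) :
    C.coord1 hdegL hR z = x1 ∧ C.coord2 hdegL hR z = x2 := by
  obtain ⟨e1, e2⟩ := C.pts_eq hdegL hπ hR z hPs1 hPs2 h
  constructor
  · funext i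
    have h1 := C.valAt_coord1 hdegL hR z i
    rw [e1] at h1
    exact Subtype.ext (h1.unique (hx1 i))
  · funext j
    have h1 := C.valAt_coord2 hdegL hR z j
    rw [e2] at h1
    exact Subtype.ext (h1.unique (hx2 j))

/-- the chart is injective -/
theorem coord_injective (hdegL : ∀ P : Place L FL, P.deg = 1) (hR : RiemannGe L FL (g1 + m2))
    {z z' : J1 N} (h1 : C.coord1 hdegL hR z = C.coord1 hdegL hR z')
    (h2 : C.coord2 hdegL hR z = C.coord2 hdegL hR z') : z = z' := by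
  have hpts1 : C.pts1 hdegL hR z = C.pts1 hdegL hR z' := by
    funext i
    have e1 := C.valAt_coord1 hdegL hR z i
    have e2 := C.valAt_coord1 hdegL hR z' i
    rw [← h1] at e2
    exact ((C.disc1 hdegL i).eq_of_valAt (C.r_pts1 hdegL hR z i) (C.r_pts1 hdegL hR z' i)
      (C.coord1_mem hdegL hR z i) e1 e2).symm
  have hpts2 : C.pts2 hdegL hR z = C.pts2 hdegL hR z' := by
    funext j
    have e1 := C.valAt_coord2 hdegL hR z j
    have e2 := C.valAt_coord2 hdegL hR z' j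
    rw [← h2] at e2
    exact ((C.disc2 hdegL j).eq_of_valAt (C.r_pts2 hdegL hR z j) (C.r_pts2 hdegL hR z' j)
      (C.coord2_mem hdegL hR z j) e1 e2).symm
  apply Subtype.ext
  rw [← C.cls_pts hdegL hR z, ← C.cls_pts hdegL hR z', hpts1, hpts2]

/-- the chart is onto `𝔪_A ^ g1 × 𝔪_A ^ m2` -/
theorem coord_surjective [HasPrincipalDivisors k F1] [HasPrincipalDivisors k F2]
    (hdegL : ∀ P : Place L FL, P.deg = 1) (hπ : Function.Surjective π)
    (hR : RiemannGe L FL (g1 + m2)) (x1 : Fin g1 → A) (x2 : Fin m2 → A)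
    (hx1 : ∀ i, x1 i ∈ IsLocalRing.maximalIdeal A) (hx2 : ∀ j, x2 j ∈ IsLocalRing.maximalIdeal A) :
    ∃ z : J1 N, C.coord1 hdegL hR z = x1 ∧ C.coord2 hdegL hR z = x2 := by
  have h1 := fun i => (C.disc1 hdegL i).exists_place_of_mem (x1 i) (hx1 i)
  have h2 := fun j => (C.disc2 hdegL j).exists_place_of_mem (x2 j) (hx2 j)
  choose Ps1 hPs1 hPx1 using h1
  choose Ps2 hPs2 hPx2 using h2
  exact ⟨⟨C.cls hdegL Ps1 Ps2, C.cls_mem_J1 hdegL Ps1 Ps2 hPs1 hPs2⟩,
    C.coord_eq hdegL hπ hR _ hPs1 hPs2 rfl hPx1 hPx2⟩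

/-- the origin has coordinates `0` -/
theorem coord_zero [HasPrincipalDivisors k F1] [HasPrincipalDivisors k F2]
    (hdegL : ∀ P : Place L FL, P.deg = 1) (hπ : Function.Surjective π)
    (hR : RiemannGe L FL (g1 + m2)) :
    C.coord1 hdegL hR 0 = 0 ∧ C.coord2 hdegL hR 0 = 0 := by
  refine C.coord_eq hdegL hπ hR 0 C.hQ1 C.hQ2 (C.cls_Q hdegL) (x1 := 0) (x2 := 0)
    (fun i => ?_) (fun j => ?_)
  · have := (C.disc1 hdegL i).valAt_P0
    simpa using this
  · have := (C.disc2 hdegL j).valAt_P0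
    simpa using this

end Pts

/-- the class of `z + z'` from a linear equivalence -/
theorem cls_add (hdegL : ∀ P : Place L FL, P.deg = 1) (Ps1 Ps1' Ps1'' : Fin g1 → Place L FL)
    (Ps2 Ps2' Ps2'' : Fin m2 → Place L FL)
    (h : ptsDiv Ps1'' Ps2'' + ptsDiv C.Q1 C.Q2 - ptsDiv Ps1 Ps2 - ptsDiv Ps1' Ps2' ∈
      Divisor.principal (K := L) (F := FL)) :
    C.cls hdegL Ps1 Ps2 + C.cls hdegL Ps1' Ps2' = C.cls hdegL Ps1'' Ps2'' := by
  unfold cls
  rw [← Pic0.mk_add, eq_comm, mk_eq_mk_iff]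
  have : ((C.diffDiv hdegL Ps1'' Ps2'' : Divisor.degZero (K := L) (F := FL)) : Divisor L FL) -
      ((C.diffDiv hdegL Ps1 Ps2 + C.diffDiv hdegL Ps1' Ps2' :
        Divisor.degZero (K := L) (F := FL)) : Divisor L FL) =
      ptsDiv Ps1'' Ps2'' + ptsDiv C.Q1 C.Q2 - ptsDiv Ps1 Ps2 - ptsDiv Ps1' Ps2' := by
    rw [AddSubgroup.coe_add, coe_diffDiv, coe_diffDiv, coe_diffDiv]; abel
  rw [this]; exact h

/-- **Identification of the coordinates of `z + z'`** from a linear equivalence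
`∑ Ps'' + ∑ Q ∼ ∑ Ps(z) + ∑ Ps(z')` with the `Ps''` in the discs. -/
theorem coord_add_eq [HasPrincipalDivisors k F1] [HasPrincipalDivisors k F2] [Fintype ι]
    [Nonempty ι] (hdegL : ∀ P : Place L FL, P.deg = 1) (hπ : Function.Surjective π)
    (hR : RiemannGe L FL (g1 + m2)) (z z' : J1 N)
    {Ps1'' : Fin g1 → Place L FL} {Ps2'' : Fin m2 → Place L FL}
    (hPs1'' : ∀ i, N.R1.r (Ps1'' i) = some (C.Q1b i))
    (hPs2'' : ∀ j, N.R2.r (Ps2'' j) = some (C.Q2b j))
    {x1'' : Fin g1 → A} {x2'' : Fin m2 → A}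
    (hx1'' : ∀ i, ValAt (Ps1'' i) ((C.T1 i : N.R1.O) : FL) ((x1'' i : A) : L))
    (hx2'' : ∀ j, ValAt (Ps2'' j) ((C.T2 j : N.R2.O) : FL) ((x2'' j : A) : L))
    (h : ptsDiv Ps1'' Ps2'' + ptsDiv C.Q1 C.Q2 -
        ptsDiv (C.pts1 hdegL hR z) (C.pts2 hdegL hR z) -
        ptsDiv (C.pts1 hdegL hR z') (C.pts2 hdegL hR z') ∈
      Divisor.principal (K := L) (F := FL)) :
    C.coord1 hdegL hR (z + z') = x1'' ∧ C.coord2 hdegL hR (z + z') = x2'' := by
  refine C.coord_eq hdegL hπ hR (z + z') hPs1'' hPs2'' ?_ hx1'' hx2''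
  rw [← C.cls_add hdegL _ _ _ _ _ _ h, C.cls_pts, C.cls_pts, AddSubgroup.coe_add]

end NodalChart

end ChartDef

/-! ### Symmetries -/

section Symm

open Fermat.Agent.S19.Chart (adicValuation_map_of_ord valAt_map degree_eq_zero_of_mem_principal)
open Fermat.Agent.S33.Nodal.Taylor (valAt_param_mem)

/-- push-forward of `∑ Ps1 + ∑ Ps2` along a map of places -/
theorem mapDomain_ptsDiv {g1 m2 : ℕ} (sP : Place L FL → Place L FL) (Ps1 : Fin g1 → Place L FL)
    (Ps2 : Fin m2 → Place L FL) :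
    Finsupp.mapDomain sP (ptsDiv Ps1 Ps2) =
      ptsDiv (fun i => sP (Ps1 i)) (fun j => sP (Ps2 j)) := by
  rw [ptsDiv, Finsupp.mapDomain_add,
    Fermat.Agent.S18.Core.mapDomain_sum_single (r := sP) Ps1 (fun i => sP (Ps1 i)) (fun _ => rfl),
    Fermat.Agent.S18.Core.mapDomain_sum_single (r := sP) Ps2 (fun j => sP (Ps2 j)) (fun _ => rfl)]
  rfl

namespace NodalChart

variable [HasPrincipalDivisors L FL] [HasPrincipalDivisors k F1] [HasPrincipalDivisors k F2]
  [Fintype ι] [Nonempty ι] {N : GNodalDatum A π FL F1 F2 ι} {g1 m2 : ℕ}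

/-- **Equivariance of the coordinates**, point form: a symmetry `(sL, sF, sP)` of the generic
fibre carrying the parameters of the chart `C` to those of the chart `C'`, and the points of `z`
to points in the discs of `C'` representing `z'`, carries the coordinates of `z` in `C` to those
of `z'` in `C'`. -/
theorem coord_map_pts (C C' : NodalChart N g1 m2) (hdegL : ∀ P : Place L FL, P.deg = 1)
    (hπ : Function.Surjective π) (hR : RiemannGe L FL (g1 + m2))
    (sL : L →+* L) (sF : FL →+* FL) (sP : Place L FL → Place L FL)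
    (hcomp : ∀ c : L, sF (algebraMap L FL c) = algebraMap L FL (sL c))
    (hord : ∀ (P : Place L FL) (y : FL), (sP P).ord (sF y) = P.ord y)
    (hT1 : ∀ i, ((C'.T1 i : N.R1.O) : FL) = sF ((C.T1 i : N.R1.O) : FL))
    (hT2 : ∀ j, ((C'.T2 j : N.R2.O) : FL) = sF ((C.T2 j : N.R2.O) : FL))
    (z z' : J1 N)
    (hdisc1 : ∀ i, N.R1.r (sP (C.pts1 hdegL hR z i)) = some (C'.Q1b i))
    (hdisc2 : ∀ j, N.R2.r (sP (C.pts2 hdegL hR z j)) = some (C'.Q2b j))
    (hzz' : C'.cls hdegL (fun i => sP (C.pts1 hdegL hR z i))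
      (fun j => sP (C.pts2 hdegL hR z j)) = (z' : Pic0 L FL)) :
    (∀ i, ((C'.coord1 hdegL hR z' i : A) : L) = sL ((C.coord1 hdegL hR z i : A) : L)) ∧
      ∀ j, ((C'.coord2 hdegL hR z' j : A) : L) = sL ((C.coord2 hdegL hR z j : A) : L) := by
  have h1 : ∀ i, ValAt (sP (C.pts1 hdegL hR z i)) ((C'.T1 i : N.R1.O) : FL)
      (sL ((C.coord1 hdegL hR z i : A) : L)) := by
    intro i
    rw [hT1 i]
    exact valAt_map sL sF hcomp (adicValuation_map_of_ord sF (hord _))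
      (C.valAt_coord1 hdegL hR z i)
  have h2 : ∀ j, ValAt (sP (C.pts2 hdegL hR z j)) ((C'.T2 j : N.R2.O) : FL)
      (sL ((C.coord2 hdegL hR z j : A) : L)) := by
    intro j
    rw [hT2 j]
    exact valAt_map sL sF hcomp (adicValuation_map_of_ord sF (hord _))
      (C.valAt_coord2 hdegL hR z j)
  have hm1 : ∀ i, sL ((C.coord1 hdegL hR z i : A) : L) ∈ A := fun i =>
    (valAt_param_mem N.R1 (C'.hT1 i) _ (hdisc1 i) (h1 i)).1
  have hm2 : ∀ j, sL ((C.coord2 hdegL hR z j : A) : L) ∈ A := fun j =>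
    (valAt_param_mem N.R2 (C'.hT2 j) _ (hdisc2 j) (h2 j)).1
  obtain ⟨e1, e2⟩ := C'.coord_eq hdegL hπ hR z' hdisc1 hdisc2 hzz'
    (x1 := fun i => ⟨sL ((C.coord1 hdegL hR z i : A) : L), hm1 i⟩)
    (x2 := fun j => ⟨sL ((C.coord2 hdegL hR z j : A) : L), hm2 j⟩) h1 h2
  exact ⟨fun i => by rw [e1], fun j => by rw [e2]⟩

/-- **Equivariance of the coordinates**, divisor form.  `sPk1`, `sPk2` are the induced maps on the
places of the two components; `z'` is the image of `z` under the symmetry, in the sense that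
`z = [D]` and `z' = [sP_* D]`. -/
theorem coord_map (C C' : NodalChart N g1 m2) (hdegL : ∀ P : Place L FL, P.deg = 1)
    (hπ : Function.Surjective π) (hR : RiemannGe L FL (g1 + m2))
    (sL : L →+* L) (sF : FL →+* FL) (sP : Place L FL → Place L FL)
    (sPk1 : Place k F1 → Place k F1) (sPk2 : Place k F2 → Place k F2)
    (hcomp : ∀ c : L, sF (algebraMap L FL c) = algebraMap L FL (sL c))
    (hord : ∀ (P : Place L FL) (y : FL), (sP P).ord (sF y) = P.ord y)
    (hr1 : ∀ (P : Place L FL) (Q : Place k F1), N.R1.r P = some Q →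
      N.R1.r (sP P) = some (sPk1 Q))
    (hr2 : ∀ (P : Place L FL) (Q : Place k F2), N.R2.r P = some Q →
      N.R2.r (sP P) = some (sPk2 Q))
    (hprin : ∀ D : Divisor L FL, D ∈ Divisor.principal (K := L) (F := FL) →
      Finsupp.mapDomain sP D ∈ Divisor.principal (K := L) (F := FL))
    (hQ1b : ∀ i, C'.Q1b i = sPk1 (C.Q1b i)) (hQ2b : ∀ j, C'.Q2b j = sPk2 (C.Q2b j))
    (hQ1 : ∀ i, C'.Q1 i = sP (C.Q1 i)) (hQ2 : ∀ j, C'.Q2 j = sP (C.Q2 j))
    (hT1 : ∀ i, ((C'.T1 i : N.R1.O) : FL) = sF ((C.T1 i : N.R1.O) : FL))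
    (hT2 : ∀ j, ((C'.T2 j : N.R2.O) : FL) = sF ((C.T2 j : N.R2.O) : FL))
    (z z' : J1 N) (D D' : Divisor.degZero (K := L) (F := FL))
    (hD : Pic0.mk D = (z : Pic0 L FL)) (hD' : Pic0.mk D' = (z' : Pic0 L FL))
    (hDD' : (D' : Divisor L FL) = Finsupp.mapDomain sP (D : Divisor L FL)) :
    (∀ i, ((C'.coord1 hdegL hR z' i : A) : L) = sL ((C.coord1 hdegL hR z i : A) : L)) ∧
      ∀ j, ((C'.coord2 hdegL hR z' j : A) : L) = sL ((C.coord2 hdegL hR z j : A) : L) := by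
  refine coord_map_pts C C' hdegL hπ hR sL sF sP hcomp hord hT1 hT2 z z' (fun i => ?_)
    (fun j => ?_) ?_
  · rw [hr1 _ _ (C.r_pts1 hdegL hR z i), hQ1b]
  · rw [hr2 _ _ (C.r_pts2 hdegL hR z j), hQ2b]
  · rw [← hD']
    unfold cls
    rw [mk_eq_mk_iff, coe_diffDiv, hDD']
    have h1 : ((C.diffDiv hdegL (C.pts1 hdegL hR z) (C.pts2 hdegL hR z) :
        Divisor.degZero (K := L) (F := FL)) : Divisor L FL) - (D : Divisor L FL) ∈
        Divisor.principal (K := L) (F := FL) := by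
      rw [← mk_eq_mk_iff, hD]
      exact C.cls_pts hdegL hR z
    have h2 := hprin _ h1
    rw [coe_diffDiv, Finsupp.mapDomain_sub, Finsupp.mapDomain_sub, mapDomain_ptsDiv,
      mapDomain_ptsDiv] at h2
    have e1 : (fun i => sP (C.Q1 i)) = C'.Q1 := funext fun i => (hQ1 i).symm
    have e2 : (fun j => sP (C.Q2 j)) = C'.Q2 := funext fun j => (hQ2 j).symm
    rw [e1, e2] at h2
    exact h2

/-- **Rationality of the coordinates**: a class fixed by a symmetry `(sL, sF, sP)` which fixes the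
chart (`sP` commutes with the two specialisation maps, fixes the base points, `sF` fixes the
parameters) has coordinates fixed by `sL`. -/
theorem coord_fixed (C : NodalChart N g1 m2) (hdegL : ∀ P : Place L FL, P.deg = 1)
    (hπ : Function.Surjective π) (hR : RiemannGe L FL (g1 + m2))
    (sL : L →+* L) (sF : FL →+* FL) (sP : Place L FL → Place L FL)
    (hcomp : ∀ c : L, sF (algebraMap L FL c) = algebraMap L FL (sL c))
    (hord : ∀ (P : Place L FL) (y : FL), (sP P).ord (sF y) = P.ord y)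
    (hr1 : ∀ (P : Place L FL) (Q : Place k F1), N.R1.r P = some Q → N.R1.r (sP P) = some Q)
    (hr2 : ∀ (P : Place L FL) (Q : Place k F2), N.R2.r P = some Q → N.R2.r (sP P) = some Q)
    (hprin : ∀ D : Divisor L FL, D ∈ Divisor.principal (K := L) (F := FL) →
      Finsupp.mapDomain sP D ∈ Divisor.principal (K := L) (F := FL))
    (hQ1 : ∀ i, sP (C.Q1 i) = C.Q1 i) (hQ2 : ∀ j, sP (C.Q2 j) = C.Q2 j)
    (hT1 : ∀ i, sF ((C.T1 i : N.R1.O) : FL) = ((C.T1 i : N.R1.O) : FL))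
    (hT2 : ∀ j, sF ((C.T2 j : N.R2.O) : FL) = ((C.T2 j : N.R2.O) : FL))
    (z : J1 N) (D : Divisor.degZero (K := L) (F := FL)) (hD : Pic0.mk D = (z : Pic0 L FL))
    (hfix : Finsupp.mapDomain sP (D : Divisor L FL) - (D : Divisor L FL) ∈
      Divisor.principal (K := L) (F := FL)) :
    (∀ i, sL ((C.coord1 hdegL hR z i : A) : L) = ((C.coord1 hdegL hR z i : A) : L)) ∧
      ∀ j, sL ((C.coord2 hdegL hR z j : A) : L) = ((C.coord2 hdegL hR z j : A) : L) := by
  have hdeg : Finsupp.mapDomain sP (D : Divisor L FL) ∈ Divisor.degZero (K := L) (F := FL) := by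
    have h1 := degree_eq_zero_of_mem_principal hfix
    rw [map_sub, Divisor.mem_degZero.mp D.2, sub_zero] at h1
    exact Divisor.mem_degZero.mpr h1
  have hD' : Pic0.mk (⟨Finsupp.mapDomain sP (D : Divisor L FL), hdeg⟩ :
      Divisor.degZero (K := L) (F := FL)) = (z : Pic0 L FL) := by
    rw [← hD, mk_eq_mk_iff]
    exact hfix
  obtain ⟨e1, e2⟩ := coord_map C C hdegL hπ hR sL sF sP id id hcomp hord hr1 hr2 hprin
    (fun _ => rfl) (fun _ => rfl) (fun i => (hQ1 i).symm) (fun j => (hQ2 j).symm)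
    (fun i => (hT1 i).symm) (fun j => (hT2 j).symm) z z D _ hD hD' rfl
  exact ⟨fun i => (e1 i).symm, fun j => (e2 j).symm⟩

/-- **The addition law in coordinates**, wrapper: the literal conclusion of the geometric lemma
(applied to the points and the coordinates of `z`, `z'`) identifies its output `x''` with the
coordinates of `z + z'`.  `Φ` is an arbitrary property of `(x1'', x2'', c)`. -/
theorem coord_add_of_exists (C : NodalChart N g1 m2) (hdegL : ∀ P : Place L FL, P.deg = 1)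
    (hπ : Function.Surjective π) (hR : RiemannGe L FL (g1 + m2)) (z z' : J1 N)
    {Φ : (Fin g1 → A) → (Fin m2 → A) → A → Prop}
    (h : ∃ (Ps1'' : Fin g1 → Place L FL) (Ps2'' : Fin m2 → Place L FL) (x1'' : Fin g1 → A)
      (x2'' : Fin m2 → A) (c : A),
      c ∈ IsLocalRing.maximalIdeal A ∧ (∀ i, N.R1.r (Ps1'' i) = some (C.Q1b i)) ∧
      (∀ j, N.R2.r (Ps2'' j) = some (C.Q2b j)) ∧
      (∀ i, ValAt (Ps1'' i) ((C.T1 i : N.R1.O) : FL) ((x1'' i : A) : L)) ∧
      (∀ j, ValAt (Ps2'' j) ((C.T2 j : N.R2.O) : FL) ((x2'' j : A) : L)) ∧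
      (∀ i, C.coord1 hdegL hR z i ∈ Ideal.span {c} ∧ C.coord1 hdegL hR z' i ∈ Ideal.span {c} ∧
        x1'' i ∈ Ideal.span {c}) ∧
      (∀ j, C.coord2 hdegL hR z j ∈ Ideal.span {c} ∧ C.coord2 hdegL hR z' j ∈ Ideal.span {c} ∧
        x2'' j ∈ Ideal.span {c}) ∧
      (ptsDiv Ps1'' Ps2'' + ptsDiv C.Q1 C.Q2 -
        ptsDiv (C.pts1 hdegL hR z) (C.pts2 hdegL hR z) -
        ptsDiv (C.pts1 hdegL hR z') (C.pts2 hdegL hR z') ∈
          Divisor.principal (K := L) (F := FL)) ∧ Φ x1'' x2'' c) :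
    ∃ c : A, c ∈ IsLocalRing.maximalIdeal A ∧
      (∀ i, C.coord1 hdegL hR z i ∈ Ideal.span {c} ∧ C.coord1 hdegL hR z' i ∈ Ideal.span {c} ∧
        C.coord1 hdegL hR (z + z') i ∈ Ideal.span {c}) ∧
      (∀ j, C.coord2 hdegL hR z j ∈ Ideal.span {c} ∧ C.coord2 hdegL hR z' j ∈ Ideal.span {c} ∧
        C.coord2 hdegL hR (z + z') j ∈ Ideal.span {c}) ∧
      Φ (C.coord1 hdegL hR (z + z')) (C.coord2 hdegL hR (z + z')) c := by
  obtain ⟨Ps1'', Ps2'', x1'', x2'', c, hc, hP1, hP2, hx1, hx2, hspan1, hspan2, hprin, hΦ⟩ := h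
  obtain ⟨e1, e2⟩ := C.coord_add_eq hdegL hπ hR z z' hP1 hP2 hx1 hx2 hprin
  rw [e1, e2]
  exact ⟨c, hc, hspan1, hspan2, hΦ⟩

end NodalChart

end Symm

end Fermat.Agent.S33.Nodal.Chart
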