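import Mathlib
import Fermat.Agent.S33.Nodal.Chart

/-!
# PROJECT N (S33), route H8, slice [N1] (helper27): the UNIFORM index of the nodal chart

The nodal chart of `S33/Nodal/Chart.lean` has its families indexed per branch (`Fin g1`, `Fin m2`);
the truncated addition law (`S19/TruncAdd`, `S33/Nodal/AddLawAbs`) is typed over `Fin g`.  This file
fixes ONCE the passage `Fin g1 ⊕ Fin m2 ≃ Fin (g1 + m2)` (`finSumFinEquiv`):

* `glue f1 f2 : Fin (g1 + m2) → α` : the family `Sum.elim f1 f2 ∘ finSumFinEquiv.symm`, with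
  `glue_castAdd`, `glue_natAdd`, `glue_comp`, `glue_split`, `forall_glue`, `sum_glue`;
* `sum_single_glue` : `∑ i, single (glue Ps1 Ps2 i) 1 = ptsDiv Ps1 Ps2`;
* `coordU C hdegL hR z : Fin (g1 + m2) → A` : the uniform coordinates of a class of the kernel of
  reduction, with `coordU_castAdd`, `coordU_natAdd`, `coordU_mem`, `coordU_injective`,
  `coordU_zero`.
-/

set_option autoImplicit false
set_option linter.unusedSectionVars false
set_option linter.unusedVariables false

noncomputable section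

namespace Fermat.Agent.S33.Nodal.CoordU

open AlgebraicCurve Fermat.Agent.S34.NodalDefs Fermat.Agent.S33.Nodal.Chart
open Fermat.Agent.S18.CoreDefs (RiemannGe)

section Glue

variable {g1 m2 : ℕ}

/-- the uniform family of a pair of families -/
def glue {α : Sort*} (f1 : Fin g1 → α) (f2 : Fin m2 → α) (i : Fin (g1 + m2)) : α :=
  Sum.elim f1 f2 (finSumFinEquiv.symm i)

@[simp] theorem glue_castAdd {α : Sort*} (f1 : Fin g1 → α) (f2 : Fin m2 → α) (a : Fin g1) :
    glue f1 f2 (Fin.castAdd m2 a) = f1 a := by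
  unfold glue
  rw [finSumFinEquiv_symm_apply_castAdd]
  rfl

@[simp] theorem glue_natAdd {α : Sort*} (f1 : Fin g1 → α) (f2 : Fin m2 → α) (b : Fin m2) :
    glue f1 f2 (Fin.natAdd g1 b) = f2 b := by
  unfold glue
  rw [finSumFinEquiv_symm_apply_natAdd]
  rfl

/-- every index is a `castAdd` or a `natAdd` -/
theorem forall_fin_add {P : Fin (g1 + m2) → Prop} (h1 : ∀ a : Fin g1, P (Fin.castAdd m2 a))
    (h2 : ∀ b : Fin m2, P (Fin.natAdd g1 b)) : ∀ i, P i := fun i =>
  Fin.addCases h1 h2 i

/-- a property of a glued family is checked per branch -/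
theorem forall_glue {α : Sort*} {f1 : Fin g1 → α} {f2 : Fin m2 → α}
    {P : Fin (g1 + m2) → α → Prop} (h1 : ∀ a, P (Fin.castAdd m2 a) (f1 a))
    (h2 : ∀ b, P (Fin.natAdd g1 b) (f2 b)) : ∀ i, P i (glue f1 f2 i) :=
  forall_fin_add (fun a => by rw [glue_castAdd]; exact h1 a)
    (fun b => by rw [glue_natAdd]; exact h2 b)

/-- a uniform family is the glued family of its two halves -/
theorem glue_split {α : Sort*} (f : Fin (g1 + m2) → α) :
    glue (fun a => f (Fin.castAdd m2 a)) (fun b => f (Fin.natAdd g1 b)) = f := by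
  funext i
  exact forall_fin_add (P := fun i => glue (fun a => f (Fin.castAdd m2 a))
    (fun b => f (Fin.natAdd g1 b)) i = f i) (fun a => glue_castAdd _ _ a)
    (fun b => glue_natAdd _ _ b) i

theorem glue_comp {α β : Sort*} (h : α → β) (f1 : Fin g1 → α) (f2 : Fin m2 → α) :
    (fun i => h (glue f1 f2 i)) = glue (fun a => h (f1 a)) (fun b => h (f2 b)) := by
  funext i
  exact forall_fin_add (P := fun i => h (glue f1 f2 i) =
    glue (fun a => h (f1 a)) (fun b => h (f2 b)) i)
    (fun a => by rw [glue_castAdd, glue_castAdd]) (fun b => by rw [glue_natAdd, glue_natAdd]) i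

theorem glue_injective {α : Type*} {f1 : Fin g1 → α} {f2 : Fin m2 → α}
    {f1' : Fin g1 → α} {f2' : Fin m2 → α} (h : glue f1 f2 = glue f1' f2') :
    f1 = f1' ∧ f2 = f2' := by
  constructor
  · funext a
    have := congrFun h (Fin.castAdd m2 a)
    rwa [glue_castAdd, glue_castAdd] at this
  · funext b
    have := congrFun h (Fin.natAdd g1 b)
    rwa [glue_natAdd, glue_natAdd] at this

/-- sums over the uniform index -/
theorem sum_glue {M : Type*} [AddCommMonoid M] (f1 : Fin g1 → M) (f2 : Fin m2 → M) :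
    ∑ i, glue f1 f2 i = (∑ a, f1 a) + ∑ b, f2 b := by
  rw [Fin.sum_univ_add]
  congr 1
  · exact Finset.sum_congr rfl fun a _ => glue_castAdd f1 f2 a
  · exact Finset.sum_congr rfl fun b _ => glue_natAdd f1 f2 b

theorem sum_fin_add_eq {M : Type*} [AddCommMonoid M] (f : Fin (g1 + m2) → M) :
    ∑ i, f i = (∑ a, f (Fin.castAdd m2 a)) + ∑ b, f (Fin.natAdd g1 b) :=
  Fin.sum_univ_add f

end Glue

section Pts

variable {L : Type*} [Field L] {FL : Type*} [Field FL] [Algebra L FL] {g1 m2 : ℕ}

/-- the divisor of a glued family of places -/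
theorem sum_single_glue (Ps1 : Fin g1 → Place L FL) (Ps2 : Fin m2 → Place L FL) :
    (∑ i, Finsupp.single (glue Ps1 Ps2 i) (1 : ℤ)) = ptsDiv Ps1 Ps2 := by
  rw [ptsDiv, ← sum_glue]
  refine Finset.sum_congr rfl fun i _ => ?_
  exact forall_fin_add (P := fun i => Finsupp.single (glue Ps1 Ps2 i) (1 : ℤ) =
    glue (fun a => Finsupp.single (Ps1 a) (1 : ℤ)) (fun b => Finsupp.single (Ps2 b) (1 : ℤ)) i)
    (fun a => by rw [glue_castAdd, glue_castAdd]) (fun b => by rw [glue_natAdd, glue_natAdd]) i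

/-- the divisor of a uniform family of places -/
theorem sum_single_eq_ptsDiv (Ps : Fin (g1 + m2) → Place L FL) :
    (∑ i, Finsupp.single (Ps i) (1 : ℤ)) =
      ptsDiv (fun a => Ps (Fin.castAdd m2 a)) (fun b => Ps (Fin.natAdd g1 b)) := by
  rw [← sum_single_glue, glue_split]

end Pts

section Coord

variable {L : Type*} [Field L] {FL : Type*} [Field FL] [Algebra L FL]
variable {k : Type*} [Field k] {F1 : Type*} [Field F1] [Algebra k F1]
  {F2 : Type*} [Field F2] [Algebra k F2]
variable {A : ValuationSubring L} {π : A →+* k} {ι : Type*}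
variable [HasPrincipalDivisors L FL] [Fintype ι] [Nonempty ι]
variable {N : GNodalDatum A π FL F1 F2 ι} {g1 m2 : ℕ} (C : NodalChart N g1 m2)

/-- **The uniform coordinates** of a class of the kernel of reduction. -/
def coordU (hdegL : ∀ P : Place L FL, P.deg = 1) (hR : RiemannGe L FL (g1 + m2)) (z : J1 N) :
    Fin (g1 + m2) → A :=
  glue (C.coord1 hdegL hR z) (C.coord2 hdegL hR z)

theorem coordU_def (hdegL : ∀ P : Place L FL, P.deg = 1) (hR : RiemannGe L FL (g1 + m2))
    (z : J1 N) : coordU C hdegL hR z = glue (C.coord1 hdegL hR z) (C.coord2 hdegL hR z) := rfl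

@[simp] theorem coordU_castAdd (hdegL : ∀ P : Place L FL, P.deg = 1)
    (hR : RiemannGe L FL (g1 + m2)) (z : J1 N) (a : Fin g1) :
    coordU C hdegL hR z (Fin.castAdd m2 a) = C.coord1 hdegL hR z a :=
  glue_castAdd _ _ a

@[simp] theorem coordU_natAdd (hdegL : ∀ P : Place L FL, P.deg = 1)
    (hR : RiemannGe L FL (g1 + m2)) (z : J1 N) (b : Fin m2) :
    coordU C hdegL hR z (Fin.natAdd g1 b) = C.coord2 hdegL hR z b :=
  glue_natAdd _ _ b

theorem coordU_mem (hdegL : ∀ P : Place L FL, P.deg = 1) (hR : RiemannGe L FL (g1 + m2))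
    (z : J1 N) (i : Fin (g1 + m2)) : coordU C hdegL hR z i ∈ IsLocalRing.maximalIdeal A :=
  forall_glue (P := fun _ x => x ∈ IsLocalRing.maximalIdeal A)
    (fun a => C.coord1_mem hdegL hR z a) (fun b => C.coord2_mem hdegL hR z b) i

theorem coordU_injective (hdegL : ∀ P : Place L FL, P.deg = 1) (hR : RiemannGe L FL (g1 + m2))
    {z z' : J1 N} (h : coordU C hdegL hR z = coordU C hdegL hR z') : z = z' := by
  obtain ⟨h1, h2⟩ := glue_injective h
  exact C.coord_injective hdegL hR h1 h2

theorem coordU_zero [HasPrincipalDivisors k F1] [HasPrincipalDivisors k F2]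
    (hdegL : ∀ P : Place L FL, P.deg = 1) (hπ : Function.Surjective π)
    (hR : RiemannGe L FL (g1 + m2)) : coordU C hdegL hR 0 = 0 := by
  obtain ⟨h1, h2⟩ := C.coord_zero hdegL hπ hR
  rw [coordU, h1, h2]
  funext i
  exact forall_glue (f1 := (0 : Fin g1 → A)) (f2 := (0 : Fin m2 → A))
    (P := fun _ x => x = (0 : A)) (fun _ => rfl) (fun _ => rfl) i

end Coord

end Fermat.Agent.S33.Nodal.CoordU
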