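import Mathlib
import Fermat.Agent.S33.Nodal.AddLawAbs
import Fermat.Agent.S33.Nodal.CoordU

/-!
# PROJECT N (S33), route H8, slice [N1] (helper27): the addition law of the kernel of reduction in
# chart coordinates, NODAL frame (twin of `S19/ChartAdd` + `S19/CoordAddRat`)

Inputs: the nodal chart `C : NodalChart N g1 m2` of `S33/Nodal/Chart.lean` (coordinates per branch),
its uniform coordinates `CoordU.coordU C : J1 N → Fin (g1 + m2) → A`, and an abstract frame
`F : AddLawAbs.Frame A FL (g1 + m2)` of discs (`S33/Nodal/AddLawAbs.lean`) whose chart discs `F.dQ i`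
ARE the discs of `C` in the uniform index (`FrameOfChart`: three `rfl`-type compatibilities).

* `coord_add` : class form of `AddLawAbs.Frame.exists_add_congr`: for `z z' : J1 N`,
  `coordU (z + z') ≡ Psi_n (coordU z, coordU z')` modulo `c ^ n`, `c ∈ 𝔪_A` independent of `n`,
  for every family of Taylor data `D` with `F.TaylorAt φ (D N) N`;
* `coord_add_fixed` : the same with ONE family `Ψ n i : MvPolynomial (Fin g ⊕ Fin g) S` over the
  fixed ring `S`, from Taylor data over `S` (the output of the rationality seam).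
-/

set_option autoImplicit false
set_option linter.unusedSectionVars false
set_option linter.unusedVariables false

universe uS

noncomputable section

namespace Fermat.Agent.S33.Nodal.ChartAdd

open AlgebraicCurve Fermat.Agent.S34.NodalDefs Fermat.Agent.S33.Nodal.Chart
  Fermat.Agent.S33.Nodal.CoordU Fermat.Agent.S33.Nodal.AddLawAbs
open Fermat.Agent.S18.CoreDefs (RiemannGe)
open Fermat.Agent.S19.TruncAdd (Idx TaylorData Psi)
open Fermat.Agent.S19.AddLaw (ValAt)

variable {L : Type*} [Field L] {FL : Type*} [Field FL] [Algebra L FL]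
variable {k : Type*} [Field k] {F1 : Type*} [Field F1] [Algebra k F1]
  {F2 : Type*} [Field F2] [Algebra k F2]
variable {A : ValuationSubring L} {π : A →+* k} {ι : Type*}
variable [HasPrincipalDivisors L FL] [HasPrincipalDivisors k F1] [HasPrincipalDivisors k F2]
  [Fintype ι] [Nonempty ι]
variable {N : GNodalDatum A π FL F1 F2 ι} {g1 m2 : ℕ}

/-- **The chart discs of the frame `F` are the discs of the chart `C`** (uniform index):
membership, parameters and centres agree. -/
structure FrameOfChart (C : NodalChart N g1 m2) (F : Frame A FL (g1 + m2)) : Prop where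
  in1 : ∀ (a : Fin g1) (P : Place L FL),
    (F.dQ (Fin.castAdd m2 a)).In P ↔ N.R1.r P = some (C.Q1b a)
  in2 : ∀ (b : Fin m2) (P : Place L FL),
    (F.dQ (Fin.natAdd g1 b)).In P ↔ N.R2.r P = some (C.Q2b b)
  T1 : ∀ a : Fin g1, (F.dQ (Fin.castAdd m2 a)).T = ((C.T1 a : N.R1.O) : FL)
  T2 : ∀ b : Fin m2, (F.dQ (Fin.natAdd g1 b)).T = ((C.T2 b : N.R2.O) : FL)
  P01 : ∀ a : Fin g1, (F.dQ (Fin.castAdd m2 a)).P0 = C.Q1 a
  P02 : ∀ b : Fin m2, (F.dQ (Fin.natAdd g1 b)).P0 = C.Q2 b

namespace FrameOfChart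

variable {C : NodalChart N g1 m2} {F : Frame A FL (g1 + m2)} (h : FrameOfChart C F)

include h in
/-- a glued family of points of the discs of `C` lies in the chart discs of `F` -/
theorem in_glue {Ps1 : Fin g1 → Place L FL} {Ps2 : Fin m2 → Place L FL}
    (h1 : ∀ a, N.R1.r (Ps1 a) = some (C.Q1b a)) (h2 : ∀ b, N.R2.r (Ps2 b) = some (C.Q2b b)) :
    ∀ i, (F.dQ i).In (glue Ps1 Ps2 i) :=
  forall_glue (P := fun i P => (F.dQ i).In P) (fun a => (h.in1 a _).mpr (h1 a))
    (fun b => (h.in2 b _).mpr (h2 b))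

include h in
/-- the values of the parameters of `F` at a glued family -/
theorem valAt_glue {Ps1 : Fin g1 → Place L FL} {Ps2 : Fin m2 → Place L FL}
    {x1 : Fin g1 → A} {x2 : Fin m2 → A}
    (h1 : ∀ a, ValAt (Ps1 a) ((C.T1 a : N.R1.O) : FL) ((x1 a : A) : L))
    (h2 : ∀ b, ValAt (Ps2 b) ((C.T2 b : N.R2.O) : FL) ((x2 b : A) : L)) :
    ∀ i, ValAt (glue Ps1 Ps2 i) (F.dQ i).T ((glue x1 x2 i : A) : L) :=
  forall_fin_add
    (fun a => by rw [glue_castAdd, glue_castAdd, h.T1]; exact h1 a)
    (fun b => by rw [glue_natAdd, glue_natAdd, h.T2]; exact h2 b)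

include h in
/-- the centres of the chart discs of `F` -/
theorem sum_single_P0 :
    (∑ i, Finsupp.single ((F.dQ i).P0) (1 : ℤ)) = ptsDiv C.Q1 C.Q2 := by
  rw [sum_single_eq_ptsDiv]
  congr 1
  · funext a; exact h.P01 a
  · funext b; exact h.P02 b

end FrameOfChart

/-- **The addition law in chart coordinates** (class form of
`AddLawAbs.Frame.exists_add_congr`; twin of `S19/ChartAdd.coord_add`). -/
theorem coord_add (C : NodalChart N g1 m2) (hdegL : ∀ P : Place L FL, P.deg = 1)
    (hπ : Function.Surjective π) (hR : RiemannGe L FL (g1 + m2))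
    (F : Frame A FL (g1 + m2)) (hF : F.IsLawful) (hCF : FrameOfChart C F)
    (φ : Idx (g1 + m2) → FL) (hφ : F.BasisInt φ) (hflipR : F.FlipR φ) (hflipQ : F.FlipQ φ)
    (z z' : J1 N) :
    ∃ c : A, c ∈ IsLocalRing.maximalIdeal A ∧
      (∀ i, coordU C hdegL hR z i ∈ Ideal.span {c} ∧ coordU C hdegL hR z' i ∈ Ideal.span {c} ∧
        coordU C hdegL hR (z + z') i ∈ Ideal.span {c}) ∧
      ∀ {S : Type uS} [CommRing S] [Algebra S A] (D : ℕ → TaylorData S (g1 + m2))
        (_ : ∀ N', F.TaylorAt φ (D N') N') (n : ℕ) (i : Fin (g1 + m2)),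
        coordU C hdegL hR (z + z') i -
          MvPolynomial.aeval (Sum.elim (coordU C hdegL hR z) (coordU C hdegL hR z'))
            (Psi (D (n + 1)) n i) ∈ Ideal.span {c} ^ n := by
  classical
  -- the geometric lemma at the points of `z`, `z'`
  obtain ⟨P'', x'', c, hc, hP'', hx'', hspan, hprin, hcongr⟩ :=
    Frame.exists_add_congr hF φ hφ hflipR hflipQ
      (glue (C.pts1 hdegL hR z) (C.pts2 hdegL hR z))
      (glue (C.pts1 hdegL hR z') (C.pts2 hdegL hR z'))
      (hCF.in_glue (C.r_pts1 hdegL hR z) (C.r_pts2 hdegL hR z))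
      (hCF.in_glue (C.r_pts1 hdegL hR z') (C.r_pts2 hdegL hR z'))
      (coordU C hdegL hR z) (coordU C hdegL hR z')
      (hCF.valAt_glue (C.valAt_coord1 hdegL hR z) (C.valAt_coord2 hdegL hR z))
      (hCF.valAt_glue (C.valAt_coord1 hdegL hR z') (C.valAt_coord2 hdegL hR z'))
  -- back to the two branches
  have hwrap := C.coord_add_of_exists hdegL hπ hR z z'
    (Φ := fun x1'' x2'' c => ∀ {S : Type uS} [CommRing S] [Algebra S A]
      (D : ℕ → TaylorData S (g1 + m2)) (_ : ∀ N', F.TaylorAt φ (D N') N') (n : ℕ)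
      (i : Fin (g1 + m2)),
      glue x1'' x2'' i -
        MvPolynomial.aeval (Sum.elim (coordU C hdegL hR z) (coordU C hdegL hR z'))
          (Psi (D (n + 1)) n i) ∈ Ideal.span {c} ^ n)
    ⟨fun a => P'' (Fin.castAdd m2 a), fun b => P'' (Fin.natAdd g1 b),
      fun a => x'' (Fin.castAdd m2 a), fun b => x'' (Fin.natAdd g1 b), c, hc,
      fun a => (hCF.in1 a _).mp (hP'' _), fun b => (hCF.in2 b _).mp (hP'' _),
      fun a => by rw [← hCF.T1]; exact hx'' _, fun b => by rw [← hCF.T2]; exact hx'' _,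
      fun a => ⟨by have := (hspan (Fin.castAdd m2 a)).1; rwa [coordU_castAdd] at this,
        by have := (hspan (Fin.castAdd m2 a)).2.1; rwa [coordU_castAdd] at this,
        (hspan (Fin.castAdd m2 a)).2.2⟩,
      fun b => ⟨by have := (hspan (Fin.natAdd g1 b)).1; rwa [coordU_natAdd] at this,
        by have := (hspan (Fin.natAdd g1 b)).2.1; rwa [coordU_natAdd] at this,
        (hspan (Fin.natAdd g1 b)).2.2⟩,
      by
        rw [← sum_single_eq_ptsDiv, ← hCF.sum_single_P0, ← sum_single_glue, ← sum_single_glue]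
        exact hprin,
      by
        intro S _ _ D hD n i
        rw [glue_split]
        exact hcongr D hD n i⟩
  obtain ⟨c', hc', hs1, hs2, hΦ⟩ := hwrap
  refine ⟨c', hc', ?_, ?_⟩
  · refine forall_fin_add (fun a => ?_) (fun b => ?_)
    · rw [coordU_castAdd, coordU_castAdd, coordU_castAdd]; exact hs1 a
    · rw [coordU_natAdd, coordU_natAdd, coordU_natAdd]; exact hs2 b
  · intro S _ _ D hD n i
    exact hΦ D hD n i

/-- **The addition law in chart coordinates, with universal polynomials over the fixed ring**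
(twin of `S19/CoordAddRat.coord_add_fixed`): ONE family `Ψ n i := Psi (D (n + 1)) n i` works for
all `z z' : J1 N`, as soon as the frame has Taylor data `D` over `S`. -/
theorem coord_add_fixed (C : NodalChart N g1 m2) (hdegL : ∀ P : Place L FL, P.deg = 1)
    (hπ : Function.Surjective π) (hR : RiemannGe L FL (g1 + m2))
    (F : Frame A FL (g1 + m2)) (hF : F.IsLawful) (hCF : FrameOfChart C F)
    {S : Type uS} [CommRing S] [Algebra S A]
    (hdata : ∃ φ : Idx (g1 + m2) → FL, F.BasisInt φ ∧ F.FlipR φ ∧ F.FlipQ φ ∧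
      ∃ D : ℕ → TaylorData S (g1 + m2), ∀ N', F.TaylorAt φ (D N') N') :
    ∃ Ψ : ℕ → Fin (g1 + m2) → MvPolynomial (Fin (g1 + m2) ⊕ Fin (g1 + m2)) S, ∀ z z' : J1 N,
      ∃ c : A, c ∈ IsLocalRing.maximalIdeal A ∧
        (∀ i, coordU C hdegL hR z i ∈ Ideal.span {c} ∧
          coordU C hdegL hR z' i ∈ Ideal.span {c} ∧
          coordU C hdegL hR (z + z') i ∈ Ideal.span {c}) ∧
        ∀ (n : ℕ) (i : Fin (g1 + m2)),
          coordU C hdegL hR (z + z') i -
            MvPolynomial.aeval (Sum.elim (coordU C hdegL hR z) (coordU C hdegL hR z'))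
              (Ψ n i) ∈ Ideal.span {c} ^ n := by
  obtain ⟨φ, hφ, hflipR, hflipQ, D, hD⟩ := hdata
  refine ⟨fun n i => Psi (D (n + 1)) n i, fun z z' => ?_⟩
  obtain ⟨c, hc, hspanc, hcongr⟩ :=
    coord_add C hdegL hπ hR F hF hCF φ hφ hflipR hflipQ z z'
  exact ⟨c, hc, hspanc, fun n i => hcongr D hD n i⟩

end Fermat.Agent.S33.Nodal.ChartAdd
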