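import Mathlib
import Fermat.Agent.S33.Nodal.AddLaw
import Fermat.Agent.S33.Nodal.ChartAdd

/-!
# PROJECT N (S33), route H8, slice [N1] (helper27): the addition law in chart coordinates for the
# chart of a nodal interpolation datum (assembly; twin of `S19/ChartDatum` + `S19/ChartAdd`)

`Nodal/ChartAdd.coord_add` is stated over an abstract frame of discs.  Here the frame is the frame
`AddLaw.frame d` of a nodal interpolation datum `d : NDatum N g1 m2` (helper7), the flips and the
integrality of the basis come from `Nodal/AddLaw`, and the chart is ANY `C : NodalChart N g1 m2`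
having the same chart discs as `d` (`SameDiscs C d`: six pointwise equalities, all `rfl` for the
chart `toNodalChart d ..` of the datum and for a chart built from the same points).

* `SameDiscs C d`, `SameDiscs.frameOfChart : FrameOfChart C (frame d)`;
* `toNodalChart d Pstar Qstar ..` : the chart of a datum, `sameDiscs_toNodalChart`;
* `coord_add` : twin of `S19/ChartAdd.coord_add` (basis `φ : Idx (g1 + m2) → O12 N` with `hspan`,
  `hind`; Taylor data in the shape `AddLaw.TaylorAt d φ (D n) n`);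
* `coord_add_fixed_of_data` : twin of `S19/CoordAddRat.coord_add_fixed`, with the output of the
  rationality seam (`exists_taylorData_fixed`) as ONE hypothesis `hdata`.
-/

set_option autoImplicit false
set_option linter.unusedSectionVars false
set_option linter.unusedVariables false

universe uS

noncomputable section

namespace Fermat.Agent.S33.Nodal.ChartAddD

open AlgebraicCurve Fermat.Agent.S24.Ord Fermat.Agent.S34.NodalDefs Fermat.Agent.S34.NodalDisc
  Fermat.Agent.S33.Nodal.Chart Fermat.Agent.S33.Nodal.CoordU Fermat.Agent.S33.Nodal.AddLawAbs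
  Fermat.Agent.S33.Nodal.Datum Fermat.Agent.S33.Nodal.AddLaw Fermat.Agent.S33.Nodal.ChartAdd
open Fermat.Agent.S33.Nodal.Glued (O12 red12)
open Fermat.Agent.S18.CoreDefs (RiemannGe)
open Fermat.Agent.S19.TruncAdd (Idx TaylorData Psi)

variable {L : Type*} [Field L] {FL : Type*} [Field FL] [Algebra L FL]
variable {k : Type*} [Field k] {F1 : Type*} [Field F1] [Algebra k F1]
  {F2 : Type*} [Field F2] [Algebra k F2]
variable {A : ValuationSubring L} {π : A →+* k} {ι : Type*}
variable [HasPrincipalDivisors L FL]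
variable {N : GNodalDatum A π FL F1 F2 ι} {g1 m2 : ℕ}

/-- **The chart `C` and the datum `d` have the same chart discs**: centres, parameters and base
points agree (pointwise equalities; all six are `rfl` in the intended instances). -/
structure SameDiscs (C : NodalChart N g1 m2) (d : NDatum N g1 m2) : Prop where
  Q1b : ∀ i, C.Q1b i = d.Qb1 i
  Q2b : ∀ j, C.Q2b j = d.Qb2 j
  T1 : ∀ i, C.T1 i = d.T1 i
  T2 : ∀ j, C.T2 j = d.T2 j
  Q1 : ∀ i, C.Q1 i = d.Q1 i
  Q2 : ∀ j, C.Q2 j = d.Q2 j

/-- the chart discs of the frame of `d` are the discs of `C` -/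
theorem SameDiscs.frameOfChart {C : NodalChart N g1 m2} {d : NDatum N g1 m2}
    (h : SameDiscs C d) : FrameOfChart C (frame d) where
  in1 := fun a P => by rw [frame_dQ_left, ofBranch_In, h.Q1b]; rfl
  in2 := fun b P => by rw [frame_dQ_right, ofBranch_In, h.Q2b]; rfl
  T1 := fun a => by rw [frame_dQ_left, ofBranch_T, h.T1]; rfl
  T2 := fun b => by rw [frame_dQ_right, ofBranch_T, h.T2]; rfl
  P01 := fun a => by rw [frame_dQ_left, ofBranch_P0, h.Q1]; rfl
  P02 := fun b => by rw [frame_dQ_right, ofBranch_P0, h.Q2]; rfl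

/-- **The nodal chart of an interpolation datum** (twin of `S19/ChartDatum.toOriginChart`), with an
auxiliary good disc `Qstar` of the first component off the chart. -/
def toNodalChart (d : NDatum N g1 m2) (Pstar : Place L FL) (Qstar : Place k F1)
    (hQstar : Qstar ∈ N.R1.good) (hstar : N.R1.r Pstar = some Qstar)
    (hoff : ∀ i, d.Qb1 i ≠ Qstar) : NodalChart N g1 m2 where
  Q1b := d.Qb1
  Q2b := d.Qb2
  Q1b_inj := d.Qb1_inj
  Q2b_inj := d.Qb2_inj
  rigid1 := d.rigidQ.rigid1
  rigid2 := d.rigidQ.rigid2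
  Q1 := d.Q1
  Q2 := d.Q2
  hQ1 := d.hQ1
  hQ2 := d.hQ2
  T1 := d.T1
  T2 := d.T2
  hT1 := d.hT1
  hT2 := d.hT2
  hT10 := fun i => (ord_pos_iff _ (d.hT1 i).coe_ne_zero).mpr (d.DQ1 i).zero
  hT20 := fun j => (ord_pos_iff _ (d.hT2 j).coe_ne_zero).mpr (d.DQ2 j).zero
  Pstar := Pstar
  Qstar := Qstar
  hQstar := hQstar
  hstar := hstar
  hQstar' := hoff

theorem sameDiscs_toNodalChart (d : NDatum N g1 m2) (Pstar : Place L FL) (Qstar : Place k F1)
    (hQstar : Qstar ∈ N.R1.good) (hstar : N.R1.r Pstar = some Qstar)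
    (hoff : ∀ i, d.Qb1 i ≠ Qstar) :
    SameDiscs (toNodalChart d Pstar Qstar hQstar hstar hoff) d :=
  ⟨fun _ => rfl, fun _ => rfl, fun _ => rfl, fun _ => rfl, fun _ => rfl, fun _ => rfl⟩

variable [HasPrincipalDivisors k F1] [HasPrincipalDivisors k F2] [Fintype ι] [Nonempty ι]

/-- **The addition law in chart coordinates** for the chart of a nodal interpolation datum (twin of
`S19/ChartAdd.coord_add`): `coordU (z + z') ≡ Psi_n (coordU z, coordU z')` modulo `c ^ n`, with
`c ∈ 𝔪_A` independent of `n`, for every family of Taylor data of the basis `φ`. -/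
theorem coord_add (C : NodalChart N g1 m2) (d : NDatum N g1 m2) (hCd : SameDiscs C d)
    (hdegL : ∀ P : Place L FL, P.deg = 1) (hπ : Function.Surjective π)
    (hR : RiemannGe L FL (g1 + m2)) (φ : Idx (g1 + m2) → O12 N)
    (hspan : ∀ f : O12 N, ((f : O12 N) : FL) ∈ riemannRochSpace d.E →
      ∃ (c0 : A) (c : Idx (g1 + m2) → A), ((f : O12 N) : FL) =
        algebraMap L FL (c0 : L) + ∑ a, algebraMap L FL (c a : L) * ((φ a : O12 N) : FL))
    (hind : LinearIndependent k
      (Sum.elim (fun _ : Unit => (1 : F1 × F2)) (fun a => red12 N (φ a))))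
    (z z' : J1 N) :
    ∃ c : A, c ∈ IsLocalRing.maximalIdeal A ∧
      (∀ i, coordU C hdegL hR z i ∈ Ideal.span {c} ∧ coordU C hdegL hR z' i ∈ Ideal.span {c} ∧
        coordU C hdegL hR (z + z') i ∈ Ideal.span {c}) ∧
      ∀ {S : Type uS} [CommRing S] [Algebra S A] (D : ℕ → TaylorData S (g1 + m2))
        (_ : ∀ n, TaylorAt d φ (D n) n) (n : ℕ) (i : Fin (g1 + m2)),
        coordU C hdegL hR (z + z') i -
          MvPolynomial.aeval (Sum.elim (coordU C hdegL hR z) (coordU C hdegL hR z'))
            (Psi (D (n + 1)) n i) ∈ Ideal.span {c} ^ n :=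
  Fermat.Agent.S33.Nodal.ChartAdd.coord_add.{uS} C hdegL hπ hR (frame d)
    (frame_isLawful d hdegL) hCd.frameOfChart (fun a => ((φ a : O12 N) : FL)) (basisInt d φ)
    (flipR hdegL hπ hR φ hspan hind) (flipQ hdegL hπ hR φ hspan hind) z z'

/-- **The addition law in chart coordinates, with universal polynomials over the fixed ring**
(twin of `S19/CoordAddRat.coord_add_fixed`; the output of the rationality seam
`exists_taylorData_fixed` is the hypothesis `hdata`). -/
theorem coord_add_fixed_of_data (C : NodalChart N g1 m2) (d : NDatum N g1 m2)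
    (hCd : SameDiscs C d) (hdegL : ∀ P : Place L FL, P.deg = 1) (hπ : Function.Surjective π)
    (hR : RiemannGe L FL (g1 + m2)) {S : Type uS} [CommRing S] [Algebra S A]
    (hdata : ∃ φ : Idx (g1 + m2) → O12 N,
      (∀ f : O12 N, ((f : O12 N) : FL) ∈ riemannRochSpace d.E →
        ∃ (c0 : A) (c : Idx (g1 + m2) → A), ((f : O12 N) : FL) =
          algebraMap L FL (c0 : L) + ∑ a, algebraMap L FL (c a : L) * ((φ a : O12 N) : FL)) ∧
      LinearIndependent k
        (Sum.elim (fun _ : Unit => (1 : F1 × F2)) (fun a => red12 N (φ a))) ∧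
      ∃ D : ℕ → TaylorData S (g1 + m2), ∀ n, TaylorAt d φ (D n) n) :
    ∃ Ψ : ℕ → Fin (g1 + m2) → MvPolynomial (Fin (g1 + m2) ⊕ Fin (g1 + m2)) S, ∀ z z' : J1 N,
      ∃ c : A, c ∈ IsLocalRing.maximalIdeal A ∧
        (∀ i, coordU C hdegL hR z i ∈ Ideal.span {c} ∧
          coordU C hdegL hR z' i ∈ Ideal.span {c} ∧
          coordU C hdegL hR (z + z') i ∈ Ideal.span {c}) ∧
        ∀ (n : ℕ) (i : Fin (g1 + m2)),
          coordU C hdegL hR (z + z') i -
            MvPolynomial.aeval (Sum.elim (coordU C hdegL hR z) (coordU C hdegL hR z'))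
              (Ψ n i) ∈ Ideal.span {c} ^ n := by
  obtain ⟨φ, hspan, hind, D, hD⟩ := hdata
  refine ⟨fun n i => Psi (D (n + 1)) n i, fun z z' => ?_⟩
  obtain ⟨c, hc, hspanc, hcongr⟩ := coord_add C d hCd hdegL hπ hR φ hspan hind z z'
  exact ⟨c, hc, hspanc, fun n i => hcongr D hD n i⟩

end Fermat.Agent.S33.Nodal.ChartAddD
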