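import Mathlib
import Fermat.Agent.S33.Nodal.CoordU

/-!
# PROJECT N (S33), slice [N1]: the total, field-valued coordinates of the nodal origin chart

Twin of `Fermat.Agent.S19.CoordK` for the nodal chart `Fermat.Agent.S33.Nodal.Chart.NodalChart`.
ADAPTER from the uniform chart coordinates (`CoordU.coordU : J1 N → Fin (g1 + m2) → A`)
to the fields `coord_inj`, `coord_mem`, `coord_I`, `coord_add` of `ChartGlue.ChartAPI`: total
coordinates `Pic0 L FL → Fin (g1 + m2) → L`, congruences written as `= c ^ n * a` in the field `L`.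
The passage to the index `Fin (g1 + m2)` is the one of `CoordU` (convention (C5), ruling N-1b (2)).

* `coordK` : the total coordinates (zero outside the kernel of reduction `Chart.J1 N`);
* `coordK_of_mem`, `coordK_coe`, `coordK_castAdd`, `coordK_natAdd`, `coordK_eq_glue`;
* `coordK_mem`, `coordK_mem_nonunits`, `coordK_inj`, `coordK_zero`, `coordK_surj`;
* `coordK_apply_of_coordU`, `coordK_apply_of_coord` : transport of a symmetry of the chart
  coordinates (the shape of `coord_I`), `coordK_fixed` : rationality;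
* `valA`, `coordK_add` : the truncated addition law in the field `L`.
-/

set_option autoImplicit false
set_option linter.unusedSectionVars false
set_option linter.unusedVariables false

universe uS

noncomputable section

namespace Fermat.Agent.S33.Nodal.CoordK

open AlgebraicCurve Fermat.Agent.S34.NodalDefs Fermat.Agent.S34.NodalDisc
open Fermat.Agent.S18.CoreDefs (RiemannGe)
open Fermat.Agent.S19.Taylor (ValAt)
open Fermat.Agent.S33.Nodal.Chart Fermat.Agent.S33.Nodal.CoordU

variable {L : Type*} [Field L] {FL : Type*} [Field FL] [Algebra L FL]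
variable {k : Type*} [Field k] {F1 : Type*} [Field F1] [Algebra k F1]
  {F2 : Type*} [Field F2] [Algebra k F2]
variable {A : ValuationSubring L} {π : A →+* k} {ι : Type*}
variable [HasPrincipalDivisors L FL] [Fintype ι] [Nonempty ι]
variable {N : GNodalDatum A π FL F1 F2 ι} {g1 m2 : ℕ}

open scoped Classical in
/-- the total, `L`-valued coordinates on the single index `Fin (g1 + m2)` (zero outside the kernel
of reduction) -/
def coordK (C : NodalChart N g1 m2) (hdegL : ∀ P : Place L FL, P.deg = 1)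
    (hR : RiemannGe L FL (g1 + m2)) (z : Pic0 L FL) (i : Fin (g1 + m2)) : L :=
  if h : z ∈ J1 N then ((coordU C hdegL hR ⟨z, h⟩ i : A) : L) else 0

variable (C : NodalChart N g1 m2) (hdegL : ∀ P : Place L FL, P.deg = 1)
  (hR : RiemannGe L FL (g1 + m2))

theorem coordK_of_mem {z : Pic0 L FL} (h : z ∈ J1 N) (i : Fin (g1 + m2)) :
    coordK C hdegL hR z i = ((coordU C hdegL hR ⟨z, h⟩ i : A) : L) := by
  classical
  exact dif_pos h

theorem coordK_of_notMem {z : Pic0 L FL} (h : z ∉ J1 N) (i : Fin (g1 + m2)) :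
    coordK C hdegL hR z i = 0 := by
  classical
  exact dif_neg h

theorem coordK_coe (z : J1 N) (i : Fin (g1 + m2)) :
    coordK C hdegL hR (z : Pic0 L FL) i = ((coordU C hdegL hR z i : A) : L) :=
  coordK_of_mem C hdegL hR z.2 i

/-- the first `g1` total coordinates are the coordinates on the first component -/
theorem coordK_castAdd {z : Pic0 L FL} (h : z ∈ J1 N) (i : Fin g1) :
    coordK C hdegL hR z (Fin.castAdd m2 i) = ((C.coord1 hdegL hR ⟨z, h⟩ i : A) : L) := by
  rw [coordK_of_mem C hdegL hR h, coordU_castAdd]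

/-- the last `m2` total coordinates are the coordinates on the second component -/
theorem coordK_natAdd {z : Pic0 L FL} (h : z ∈ J1 N) (j : Fin m2) :
    coordK C hdegL hR z (Fin.natAdd g1 j) = ((C.coord2 hdegL hR ⟨z, h⟩ j : A) : L) := by
  rw [coordK_of_mem C hdegL hR h, coordU_natAdd]

/-- the total coordinates are glued from the two families of chart coordinates -/
theorem coordK_eq_glue {z : Pic0 L FL} (h : z ∈ J1 N) :
    coordK C hdegL hR z = glue (fun i => ((C.coord1 hdegL hR ⟨z, h⟩ i : A) : L))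
      (fun j => ((C.coord2 hdegL hR ⟨z, h⟩ j : A) : L)) := by
  rw [← glue_comp (fun a : A => (a : L))]
  funext i
  rw [coordK_of_mem C hdegL hR h, coordU_def]

/-- the field `coord_mem` -/
theorem coordK_mem {z : Pic0 L FL} (h : z ∈ J1 N) (i : Fin (g1 + m2)) :
    coordK C hdegL hR z i ∈ A := by
  rw [coordK_of_mem C hdegL hR h]
  exact (coordU C hdegL hR ⟨z, h⟩ i).2

/-- the coordinates are non-units of `A` -/
theorem coordK_mem_nonunits {z : Pic0 L FL} (h : z ∈ J1 N) (i : Fin (g1 + m2)) :
    coordK C hdegL hR z i ∈ A.nonunits := by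
  rw [coordK_of_mem C hdegL hR h, ValuationSubring.mem_nonunits_iff_exists_mem_maximalIdeal]
  exact ⟨(coordU C hdegL hR ⟨z, h⟩ i).2, coordU_mem C hdegL hR ⟨z, h⟩ i⟩

/-- the field `coord_inj` -/
theorem coordK_inj {z z' : Pic0 L FL} (h : z ∈ J1 N) (h' : z' ∈ J1 N)
    (heq : coordK C hdegL hR z = coordK C hdegL hR z') : z = z' := by
  have h1 : coordU C hdegL hR ⟨z, h⟩ = coordU C hdegL hR ⟨z', h'⟩ := by
    funext i
    apply Subtype.ext
    have := congrFun heq i
    rwa [coordK_of_mem C hdegL hR h, coordK_of_mem C hdegL hR h'] at this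
  exact congrArg Subtype.val (coordU_injective C hdegL hR h1)

/-- transport of a symmetry of the chart coordinates on the single index to the total coordinates
(the shape of the field `coord_I`) -/
theorem coordK_apply_of_coordU {z w : Pic0 L FL} (hz : z ∈ J1 N) (hw : w ∈ J1 N) (s : L → L)
    (h : ∀ i, ((coordU C hdegL hR ⟨w, hw⟩ i : A) : L) =
      s ((coordU C hdegL hR ⟨z, hz⟩ i : A) : L)) (i : Fin (g1 + m2)) :
    coordK C hdegL hR w i = s (coordK C hdegL hR z i) := by
  rw [coordK_of_mem C hdegL hR hw, coordK_of_mem C hdegL hR hz]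
  exact h i

/-- transport of a symmetry of the two families of chart coordinates to the total coordinates
(the shape of the field `coord_I`, from `coord_smul`-type statements on each component) -/
theorem coordK_apply_of_coord {z w : Pic0 L FL} (hz : z ∈ J1 N) (hw : w ∈ J1 N) (s : L → L)
    (h1 : ∀ i, ((C.coord1 hdegL hR ⟨w, hw⟩ i : A) : L) = s ((C.coord1 hdegL hR ⟨z, hz⟩ i : A) : L))
    (h2 : ∀ j, ((C.coord2 hdegL hR ⟨w, hw⟩ j : A) : L) = s ((C.coord2 hdegL hR ⟨z, hz⟩ j : A) : L))
    (i : Fin (g1 + m2)) :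
    coordK C hdegL hR w i = s (coordK C hdegL hR z i) := by
  obtain ⟨t, rfl⟩ := finSumFinEquiv.surjective i
  rcases t with a | b
  · rw [finSumFinEquiv_apply_left, coordK_castAdd C hdegL hR hw, coordK_castAdd C hdegL hR hz]
    exact h1 a
  · rw [finSumFinEquiv_apply_right, coordK_natAdd C hdegL hR hw, coordK_natAdd C hdegL hR hz]
    exact h2 b

section Geometric

variable [HasPrincipalDivisors k F1] [HasPrincipalDivisors k F2]

/-- the origin has total coordinates `0` -/
theorem coordK_zero (hπ : Function.Surjective π) : coordK C hdegL hR 0 = 0 := by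
  funext i
  have h0 : (0 : Pic0 L FL) ∈ J1 N := zero_mem _
  rw [coordK_of_mem C hdegL hR h0]
  have h1 : (⟨0, h0⟩ : J1 N) = 0 := rfl
  rw [h1, coordU_zero C hdegL hπ hR]
  rfl

/-- the total coordinates are onto the families of non-units of `A` -/
theorem coordK_surj (hπ : Function.Surjective π) (x : Fin (g1 + m2) → L)
    (hx : ∀ i, x i ∈ A.nonunits) : ∃ z : Pic0 L FL, z ∈ J1 N ∧ coordK C hdegL hR z = x := by
  have hxA : ∀ i, x i ∈ A := fun i =>
    ((ValuationSubring.mem_nonunits_iff_exists_mem_maximalIdeal).1 (hx i)).1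
  have hxm : ∀ i, (⟨x i, hxA i⟩ : A) ∈ IsLocalRing.maximalIdeal A := fun i =>
    ((ValuationSubring.mem_nonunits_iff_exists_mem_maximalIdeal).1 (hx i)).2
  obtain ⟨z, hz1, hz2⟩ := C.coord_surjective hdegL hπ hR
    (fun a => (⟨x (Fin.castAdd m2 a), hxA _⟩ : A)) (fun b => (⟨x (Fin.natAdd g1 b), hxA _⟩ : A))
    (fun a => hxm _) (fun b => hxm _)
  refine ⟨(z : Pic0 L FL), z.2, ?_⟩
  rw [coordK_eq_glue C hdegL hR z.2, hz1, hz2]
  exact glue_split x

/-- **Rationality of the total coordinates** (`Chart.NodalChart.coord_fixed` on the uniform index). -/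
theorem coordK_fixed (hπ : Function.Surjective π)
    (sL : L →+* L) (sF : FL →+* FL) (sP : Place L FL → Place L FL)
    (hcomp : ∀ c : L, sF (algebraMap L FL c) = algebraMap L FL (sL c))
    (hord : ∀ (P : Place L FL) (y : FL), (sP P).ord (sF y) = P.ord y)
    (hr1 : ∀ (P : Place L FL) (Q : Place k F1), N.R1.r P = some Q → N.R1.r (sP P) = some Q)
    (hr2 : ∀ (P : Place L FL) (Q : Place k F2), N.R2.r P = some Q → N.R2.r (sP P) = some Q)
    (hprin : ∀ D : Divisor L FL, D ∈ Divisor.principal (K := L) (F := FL) →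
      Finsupp.mapDomain sP D ∈ Divisor.principal (K := L) (F := FL))
    (hQ1 : ∀ i, sP (C.Q1 i) = C.Q1 i) (hQ2 : ∀ j, sP (C.Q2 j) = C.Q2 j)
    (hT1 : ∀ i, sF ((C.T1 i : N.R1.O) : FL) = ((C.T1 i : N.R1.O) : FL))
    (hT2 : ∀ j, sF ((C.T2 j : N.R2.O) : FL) = ((C.T2 j : N.R2.O) : FL))
    {z : Pic0 L FL} (hz : z ∈ J1 N) (D : Divisor.degZero (K := L) (F := FL))
    (hD : Pic0.mk D = z)
    (hfix : Finsupp.mapDomain sP (D : Divisor L FL) - (D : Divisor L FL) ∈
      Divisor.principal (K := L) (F := FL)) (i : Fin (g1 + m2)) :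
    sL (coordK C hdegL hR z i) = coordK C hdegL hR z i := by
  obtain ⟨e1, e2⟩ := C.coord_fixed hdegL hπ hR sL sF sP hcomp hord hr1 hr2 hprin hQ1 hQ2 hT1 hT2
    ⟨z, hz⟩ D hD hfix
  obtain ⟨t, rfl⟩ := finSumFinEquiv.surjective i
  rcases t with a | b
  · rw [finSumFinEquiv_apply_left, coordK_castAdd C hdegL hR hz]
    exact e1 a
  · rw [finSumFinEquiv_apply_right, coordK_natAdd C hdegL hR hz]
    exact e2 b

end Geometric

section Add

variable {S : Type uS} [CommRing S] [Algebra S A] [Algebra S L]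

/-- the inclusion `A → L` as an `S`-algebra homomorphism -/
def valA (hSL : ∀ w : S, algebraMap S L w = ((algebraMap S A w : A) : L)) : A →ₐ[S] L :=
  { A.subtype with commutes' := fun w => (hSL w).symm }

theorem valA_apply (hSL : ∀ w : S, algebraMap S L w = ((algebraMap S A w : A) : L)) (a : A) :
    valA hSL a = (a : L) := rfl

/-- the field `coord_add`, from the addition law in chart coordinates on the uniform index (the
hypothesis `hadd` is the literal conclusion of `ChartAdd.coord_add_fixed`) -/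
theorem coordK_add (hSL : ∀ w : S, algebraMap S L w = ((algebraMap S A w : A) : L))
    (Ψ : ℕ → Fin (g1 + m2) → MvPolynomial (Fin (g1 + m2) ⊕ Fin (g1 + m2)) S)
    (hadd : ∀ z z' : J1 N, ∃ c : A, c ∈ IsLocalRing.maximalIdeal A ∧
      (∀ i, coordU C hdegL hR z i ∈ Ideal.span {c} ∧ coordU C hdegL hR z' i ∈ Ideal.span {c} ∧
        coordU C hdegL hR (z + z') i ∈ Ideal.span {c}) ∧
      ∀ (n : ℕ) (i : Fin (g1 + m2)), coordU C hdegL hR (z + z') i -
        MvPolynomial.aeval (Sum.elim (coordU C hdegL hR z) (coordU C hdegL hR z')) (Ψ n i) ∈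
          Ideal.span {c} ^ n)
    {z z' : Pic0 L FL} (hz : z ∈ J1 N) (hz' : z' ∈ J1 N) :
    ∃ c : L, c ∈ A.nonunits ∧ ∀ (n : ℕ) (i : Fin (g1 + m2)), ∃ a ∈ A,
      coordK C hdegL hR (z + z') i -
        MvPolynomial.aeval (Sum.elim (coordK C hdegL hR z) (coordK C hdegL hR z')) (Ψ n i) =
          c ^ n * a := by
  obtain ⟨c, hc, -, hcongr⟩ := hadd ⟨z, hz⟩ ⟨z', hz'⟩
  refine ⟨(c : L), ?_, fun n i => ?_⟩
  · rw [ValuationSubring.mem_nonunits_iff_exists_mem_maximalIdeal]
    exact ⟨c.2, hc⟩
  · have h1 := hcongr n i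
    rw [Ideal.span_singleton_pow, Ideal.mem_span_singleton'] at h1
    obtain ⟨a, ha⟩ := h1
    refine ⟨(a : L), a.2, ?_⟩
    have h2 := congrArg (valA hSL) ha
    rw [map_mul, map_pow, map_sub, MvPolynomial.comp_aeval_apply] at h2
    have h3 : (a : L) * (c : L) ^ n =
        ((coordU C hdegL hR (⟨z, hz⟩ + ⟨z', hz'⟩) i : A) : L) -
          MvPolynomial.aeval (fun v => ((Sum.elim (coordU C hdegL hR ⟨z, hz⟩)
            (coordU C hdegL hR ⟨z', hz'⟩) v : A) : L)) (Ψ n i) := h2
    have hfun : (fun v => ((Sum.elim (coordU C hdegL hR ⟨z, hz⟩)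
        (coordU C hdegL hR ⟨z', hz'⟩) v : A) : L)) =
        Sum.elim (coordK C hdegL hR z) (coordK C hdegL hR z') := by
      funext v
      rcases v with j | j
      · exact (coordK_of_mem C hdegL hR hz j).symm
      · exact (coordK_of_mem C hdegL hR hz' j).symm
    rw [hfun] at h3
    have hsum : coordK C hdegL hR (z + z') i =
        ((coordU C hdegL hR (⟨z, hz⟩ + ⟨z', hz'⟩) i : A) : L) :=
      coordK_of_mem C hdegL hR (add_mem hz hz') i
    rw [hsum, ← h3, mul_comm]

end Add

end Fermat.Agent.S33.Nodal.CoordK
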