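import Mathlib
import Fermat.Prelude.Def_AlgebraicCurve_BaseChangeGalois
import Fermat.Agent.S19.RedSymm
import Fermat.Agent.S33.Nodal.Chart
import Fermat.Agent.S33.Nodal.CoordU

/-!
# PROJECT N (S33), slice [N1] (symmetries): inertial automorphisms in the NODAL frame

The twins of `Fermat/Agent/S19/{RedSymm, RedSymmJ1, ChartSymm}` over the nodal reduction datum
`Fermat.Agent.S34.NodalDefs.GNodalDatum` and the chart `Fermat.Agent.S33.Nodal.Chart.NodalChart`,
for the Prelude's `SemilinearAut L FL`.  An automorphism `γ` is *inertial on a branch* `R` when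
`R.r (γ • P) = R.r P` for every place `P` (the PARTIAL specialisation map is `γ`-invariant).

One branch (`R : SmoothRed A π FL Fk`):

* `smul_place_eq_of_zero` : **fixed-point lemma**: an inertial `γ` fixing a good parameter fixes
  its zero on the disc;
* `r_inv_smul`, `mapDomain_r_smul` : the inverse is inertial, push-forwards are invariant;
* `regOn_smul`; `smul_P0` (the zero of the parameter of a `Taylor.DiscParam` is fixed),
  `coeff_baseAut_fixed` (rationality of the Taylor coefficients of a fixed function, adapter to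
  `Taylor.DiscParam.coeff_fixed`).

Two branches (`N : GNodalDatum A π FL F1 F2 ι`, `γ` inertial on both):

* `goodSupp_smul`, `pushZero_smul`, `smul_mem_J1`, `smul_mem_J1_iff` : the kernel of reduction
  `Chart.J1 N` is stable;
* `smulJ1` : the induced map on `J1 N`, additive (`smulJ1_add`, `smulJ1_zero`);
* `coord_smul_map` (two charts, general `sPk1`, `sPk2`), `coord_smul` : **`I`-equivariance of the
  coordinates**: for an inertial `γ` fixing the parameters of the chart,
  `coord (γ • z) = baseAut γ (coord z)` on both families;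
* `coord_baseAut_fixed` : the coordinates of a `γ`-fixed class are fixed by `baseAut γ`;
* `coordU_smul`, `coordU_baseAut_fixed` : the same on the uniform index `Fin (g1 + m2)` of
  `CoordU.coordU`;
* `smul_Q1`, `smul_Q2` : the base points of the chart are fixed.
-/

set_option autoImplicit false
set_option linter.unusedSectionVars false
set_option linter.unusedVariables false

namespace Fermat.Agent.S33.Nodal.Symm

open AlgebraicCurve Fermat.Agent.S24.Ord Fermat.Agent.S34.NodalDefs Fermat.Agent.S34.NodalDisc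
  Fermat.Agent.S33.Nodal.Chart
open Fermat.Agent.S18.CoreDefs (RiemannGe)
open Fermat.Agent.S33.Nodal.Taylor (DiscParam)
open Fermat.Agent.S33.Nodal.CoordU (coordU coordU_castAdd coordU_natAdd forall_fin_add)

variable {L : Type*} [Field L] {FL : Type*} [Field FL] [Algebra L FL]
variable {k : Type*} [Field k]
variable {A : ValuationSubring L} {π : A →+* k}

/-! ### One branch -/

section OneBranch

variable {Fk : Type*} [Field Fk] [Algebra k Fk] {R : SmoothRed A π FL Fk}

/-- the inverse of an inertial automorphism is inertial -/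
theorem r_inv_smul (γ : SemilinearAut L FL) (hin : ∀ P : Place L FL, R.r (γ • P) = R.r P)
    (P : Place L FL) : R.r (γ⁻¹ • P) = R.r P := by
  have h := hin (γ⁻¹ • P)
  rw [smul_inv_smul] at h
  exact h.symm

/-- push-forward of divisors along `γ` = the Prelude action -/
theorem mapDomain_smul_eq (γ : SemilinearAut L FL) (D : Divisor L FL) :
    Finsupp.mapDomain (fun P : Place L FL => γ • P) D = γ • D := rfl

/-- the push-forward to the branch is invariant under an inertial automorphism -/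
theorem mapDomain_r_smul (γ : SemilinearAut L FL) (hin : ∀ P : Place L FL, R.r (γ • P) = R.r P)
    (D : Divisor L FL) : Finsupp.mapDomain R.r (γ • D) = Finsupp.mapDomain R.r D := by
  rw [← mapDomain_smul_eq, ← Finsupp.mapDomain_comp]
  have : (R.r ∘ fun P : Place L FL => γ • P) = R.r := funext hin
  rw [this]

/-- regularity on a disc is preserved by an inertial automorphism -/
theorem regOn_smul (γ : SemilinearAut L FL) (hin : ∀ P : Place L FL, R.r (γ • P) = R.r P)
    {y : FL} {Q : Place k Fk} (hy : RegOn R.r y Q) : RegOn R.r (γ • y) Q := by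
  intro P hP
  have h1 : R.r (γ⁻¹ • P) = some Q := by rw [r_inv_smul γ hin, hP]
  have h2 := hy _ h1
  have h3 := Fermat.Agent.S19.RedSymm.adicValuation_smul γ (γ⁻¹ • P) y
  rw [smul_inv_smul] at h3
  rw [h3]
  exact h2

variable [HasPrincipalDivisors L FL]

/-- **Fixed-point lemma**: an inertial automorphism fixing a good parameter fixes its zero. -/
theorem smul_place_eq_of_zero (γ : SemilinearAut L FL)
    (hin : ∀ P : Place L FL, R.r (γ • P) = R.r P)
    {T : R.O} {Q : Place k Fk} (hT : IsGoodParam R T Q)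
    (hfix : γ • ((T : R.O) : FL) = ((T : R.O) : FL)) {P0 : Place L FL} (hP0 : R.r P0 = some Q)
    (h0 : 0 < P0.ord ((T : R.O) : FL)) : γ • P0 = P0 := by
  classical
  have h1 : 0 < (γ • P0).ord ((T : R.O) : FL) := by
    have := SemilinearAut.ord_smul γ P0 ((T : R.O) : FL)
    rw [hfix] at this
    rw [this]; exact h0
  have hz : P0.adicValuation ((T : R.O) : FL) < 1 := adicValuation_lt_one_of_ord_pos P0 h0
  have h2 := hT.ord_eq_ite hP0 hz (γ • P0) (by rw [hin, hP0])
  by_contra hne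
  rw [if_neg hne] at h2
  omega

/-- the zero of the parameter of a disc is fixed by an inertial automorphism fixing the
parameter -/
theorem smul_P0 (D : DiscParam R) (γ : SemilinearAut L FL)
    (hin : ∀ P : Place L FL, R.r (γ • P) = R.r P)
    (hfix : γ • ((D.T : R.O) : FL) = ((D.T : R.O) : FL)) : γ • D.P0 = D.P0 :=
  smul_place_eq_of_zero γ hin D.good hfix D.hP0
    ((ord_pos_iff D.P0 D.good.coe_ne_zero).mpr D.zero)

/-- **Rationality of the Taylor coefficients**: an inertial automorphism fixing the parameter of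
the disc and the function fixes every Taylor coefficient (`Taylor.DiscParam.coeff_fixed` with
`sL := baseAut γ`, `sF := toRingAut γ`). -/
theorem coeff_baseAut_fixed (D : DiscParam R) (y : D.Reg) (γ : SemilinearAut L FL)
    (hin : ∀ P : Place L FL, R.r (γ • P) = R.r P)
    (hT : γ • ((D.T : R.O) : FL) = ((D.T : R.O) : FL))
    (hy : γ • ((y.1 : R.O) : FL) = ((y.1 : R.O) : FL)) (m : ℕ) :
    SemilinearAut.baseAut γ ((D.coeff y m : A) : L) = ((D.coeff y m : A) : L) :=
  D.coeff_fixed y ((SemilinearAut.baseAut γ : L ≃+* L) : L →+* L)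
    ((SemilinearAut.toRingAut γ : FL ≃+* FL) : FL →+* FL)
    (fun c => SemilinearAut.commutes γ c)
    (fun z => Fermat.Agent.S19.RedSymm.adicValuation_smul_of_fixed γ D.P0
      (smul_P0 D γ hin hT) z) hT hy m

end OneBranch

/-! ### Two branches: the kernel of reduction -/

section Kernel

variable {F1 : Type*} [Field F1] [Algebra k F1] {F2 : Type*} [Field F2] [Algebra k F2]
  {ι : Type*} {N : GNodalDatum A π FL F1 F2 ι}

/-- good support is preserved by an automorphism inertial on both branches -/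
theorem goodSupp_smul (γ : SemilinearAut L FL)
    (hin1 : ∀ P : Place L FL, N.R1.r (γ • P) = N.R1.r P)
    (hin2 : ∀ P : Place L FL, N.R2.r (γ • P) = N.R2.r P) {D : Divisor L FL}
    (hD : GoodSupp N D) : GoodSupp N (γ • D) := by
  intro P hP
  rw [SemilinearAut.divisor_smul_apply] at hP
  rcases hD _ hP with ⟨Q, hQ, h⟩ | ⟨Q, hQ, h⟩
  · exact Or.inl ⟨Q, hQ, by rw [← h, r_inv_smul γ hin1]⟩
  · exact Or.inr ⟨Q, hQ, by rw [← h, r_inv_smul γ hin2]⟩

/-- vanishing of the push-forwards is preserved by an automorphism inertial on both branches -/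
theorem pushZero_smul (γ : SemilinearAut L FL)
    (hin1 : ∀ P : Place L FL, N.R1.r (γ • P) = N.R1.r P)
    (hin2 : ∀ P : Place L FL, N.R2.r (γ • P) = N.R2.r P) {D : Divisor L FL}
    (hD : PushZero N D) : PushZero N (γ • D) :=
  ⟨fun Q hQ => by rw [mapDomain_r_smul γ hin1]; exact hD.1 Q hQ,
    fun Q hQ => by rw [mapDomain_r_smul γ hin2]; exact hD.2 Q hQ⟩

/-- **an automorphism inertial on both branches preserves the kernel of reduction** -/
theorem smul_mem_J1 (γ : SemilinearAut L FL)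
    (hin1 : ∀ P : Place L FL, N.R1.r (γ • P) = N.R1.r P)
    (hin2 : ∀ P : Place L FL, N.R2.r (γ • P) = N.R2.r P) {z : Pic0 L FL} (hz : z ∈ J1 N) :
    γ • z ∈ J1 N := by
  obtain ⟨D, rfl, hD1, hD2⟩ := hz
  refine ⟨SemilinearAut.degZeroSMulHom γ D, (SemilinearAut.pic0_smul_mk γ D).symm, ?_, ?_⟩
  · rw [SemilinearAut.coe_degZeroSMulHom]
    exact goodSupp_smul γ hin1 hin2 hD1
  · rw [SemilinearAut.coe_degZeroSMulHom]
    exact pushZero_smul γ hin1 hin2 hD2

theorem smul_mem_J1_iff (γ : SemilinearAut L FL)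
    (hin1 : ∀ P : Place L FL, N.R1.r (γ • P) = N.R1.r P)
    (hin2 : ∀ P : Place L FL, N.R2.r (γ • P) = N.R2.r P) (z : Pic0 L FL) :
    γ • z ∈ J1 N ↔ z ∈ J1 N := by
  refine ⟨fun h => ?_, smul_mem_J1 γ hin1 hin2⟩
  have := smul_mem_J1 γ⁻¹ (r_inv_smul γ hin1) (r_inv_smul γ hin2) h
  rwa [inv_smul_smul] at this

/-- the map induced on the kernel of reduction by an automorphism inertial on both branches -/
noncomputable def smulJ1 (γ : SemilinearAut L FL) (hin1 : ∀ P : Place L FL, N.R1.r (γ • P) = N.R1.r P)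
    (hin2 : ∀ P : Place L FL, N.R2.r (γ • P) = N.R2.r P) (z : J1 N) : J1 N :=
  ⟨γ • (z : Pic0 L FL), smul_mem_J1 γ hin1 hin2 z.2⟩

theorem coe_smulJ1 (γ : SemilinearAut L FL)
    (hin1 : ∀ P : Place L FL, N.R1.r (γ • P) = N.R1.r P)
    (hin2 : ∀ P : Place L FL, N.R2.r (γ • P) = N.R2.r P) (z : J1 N) :
    ((smulJ1 γ hin1 hin2 z : J1 N) : Pic0 L FL) = γ • (z : Pic0 L FL) := rfl

theorem smulJ1_add (γ : SemilinearAut L FL)
    (hin1 : ∀ P : Place L FL, N.R1.r (γ • P) = N.R1.r P)
    (hin2 : ∀ P : Place L FL, N.R2.r (γ • P) = N.R2.r P) (z z' : J1 N) :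
    smulJ1 γ hin1 hin2 (z + z') = smulJ1 γ hin1 hin2 z + smulJ1 γ hin1 hin2 z' :=
  Subtype.ext (by
    rw [AddSubgroup.coe_add, coe_smulJ1, coe_smulJ1, coe_smulJ1, AddSubgroup.coe_add, smul_add])

theorem smulJ1_zero (γ : SemilinearAut L FL)
    (hin1 : ∀ P : Place L FL, N.R1.r (γ • P) = N.R1.r P)
    (hin2 : ∀ P : Place L FL, N.R2.r (γ • P) = N.R2.r P) :
    smulJ1 γ hin1 hin2 (0 : J1 N) = 0 :=
  Subtype.ext (by
    rw [coe_smulJ1]
    exact smul_zero γ)

theorem smulJ1_eq_self (γ : SemilinearAut L FL)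
    (hin1 : ∀ P : Place L FL, N.R1.r (γ • P) = N.R1.r P)
    (hin2 : ∀ P : Place L FL, N.R2.r (γ • P) = N.R2.r P) (z : J1 N)
    (hz : γ • (z : Pic0 L FL) = (z : Pic0 L FL)) : smulJ1 γ hin1 hin2 z = z :=
  Subtype.ext hz

end Kernel

/-! ### Two branches: the coordinates -/

section Coord

variable {F1 : Type*} [Field F1] [Algebra k F1] {F2 : Type*} [Field F2] [Algebra k F2]
  {ι : Type*} [HasPrincipalDivisors L FL] [HasPrincipalDivisors k F1] [HasPrincipalDivisors k F2]
  [Fintype ι] [Nonempty ι] {N : GNodalDatum A π FL F1 F2 ι} {g1 m2 : ℕ}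

/-- the base points of the chart over the first component are fixed by an inertial automorphism
fixing the parameters -/
theorem smul_Q1 (C : NodalChart N g1 m2) (γ : SemilinearAut L FL)
    (hin1 : ∀ P : Place L FL, N.R1.r (γ • P) = N.R1.r P)
    (hT1 : ∀ i, γ • ((C.T1 i : N.R1.O) : FL) = ((C.T1 i : N.R1.O) : FL)) (i : Fin g1) :
    γ • C.Q1 i = C.Q1 i :=
  smul_place_eq_of_zero γ hin1 (C.hT1 i) (hT1 i) (C.hQ1 i) (C.hT10 i)

/-- the base points of the chart over the second component are fixed by an inertial automorphism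
fixing the parameters -/
theorem smul_Q2 (C : NodalChart N g1 m2) (γ : SemilinearAut L FL)
    (hin2 : ∀ P : Place L FL, N.R2.r (γ • P) = N.R2.r P)
    (hT2 : ∀ j, γ • ((C.T2 j : N.R2.O) : FL) = ((C.T2 j : N.R2.O) : FL)) (j : Fin m2) :
    γ • C.Q2 j = C.Q2 j :=
  smul_place_eq_of_zero γ hin2 (C.hT2 j) (hT2 j) (C.hQ2 j) (C.hT20 j)

/-- **Equivariance of the coordinates under a semilinear automorphism**, general form (two charts;
`sPk1`, `sPk2` the induced maps on the places of the two components). -/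
theorem coord_smul_map (C C' : NodalChart N g1 m2) (hdegL : ∀ P : Place L FL, P.deg = 1)
    (hπ : Function.Surjective π) (hR : RiemannGe L FL (g1 + m2))
    (γ : SemilinearAut L FL) (sPk1 : Place k F1 → Place k F1) (sPk2 : Place k F2 → Place k F2)
    (hr1 : ∀ (P : Place L FL) (Q : Place k F1), N.R1.r P = some Q →
      N.R1.r (γ • P) = some (sPk1 Q))
    (hr2 : ∀ (P : Place L FL) (Q : Place k F2), N.R2.r P = some Q →
      N.R2.r (γ • P) = some (sPk2 Q))
    (hQ1b : ∀ i, C'.Q1b i = sPk1 (C.Q1b i)) (hQ2b : ∀ j, C'.Q2b j = sPk2 (C.Q2b j))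
    (hQ1 : ∀ i, C'.Q1 i = γ • C.Q1 i) (hQ2 : ∀ j, C'.Q2 j = γ • C.Q2 j)
    (hT1 : ∀ i, ((C'.T1 i : N.R1.O) : FL) = γ • ((C.T1 i : N.R1.O) : FL))
    (hT2 : ∀ j, ((C'.T2 j : N.R2.O) : FL) = γ • ((C.T2 j : N.R2.O) : FL))
    (z z' : J1 N) (hzz' : (z' : Pic0 L FL) = γ • (z : Pic0 L FL)) :
    (∀ i, ((C'.coord1 hdegL hR z' i : A) : L) =
        SemilinearAut.baseAut γ ((C.coord1 hdegL hR z i : A) : L)) ∧
      ∀ j, ((C'.coord2 hdegL hR z' j : A) : L) =
        SemilinearAut.baseAut γ ((C.coord2 hdegL hR z j : A) : L) := by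
  obtain ⟨D, hD⟩ := Pic0.mk_surjective (z : Pic0 L FL)
  exact NodalChart.coord_map C C' hdegL hπ hR
    ((SemilinearAut.baseAut γ : L ≃+* L) : L →+* L)
    ((SemilinearAut.toRingAut γ : FL ≃+* FL) : FL →+* FL) (fun P => γ • P) sPk1 sPk2
    (fun c => SemilinearAut.commutes γ c) (fun P y => SemilinearAut.ord_smul γ P y) hr1 hr2
    (fun D hD => SemilinearAut.smul_mem_principal γ hD) hQ1b hQ2b hQ1 hQ2 hT1 hT2 z z' D
    (SemilinearAut.degZeroSMulHom γ D) hD
    (by rw [hzz', ← hD, SemilinearAut.pic0_smul_mk]) rfl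

/-- **`I`-equivariance of the coordinates**: for `γ` inertial on both branches and fixing the
parameters of the chart, `coord (γ • z) = γ (coord z)` on both families. -/
theorem coord_smul (C : NodalChart N g1 m2) (hdegL : ∀ P : Place L FL, P.deg = 1)
    (hπ : Function.Surjective π) (hR : RiemannGe L FL (g1 + m2)) (γ : SemilinearAut L FL)
    (hin1 : ∀ P : Place L FL, N.R1.r (γ • P) = N.R1.r P)
    (hin2 : ∀ P : Place L FL, N.R2.r (γ • P) = N.R2.r P)
    (hT1 : ∀ i, γ • ((C.T1 i : N.R1.O) : FL) = ((C.T1 i : N.R1.O) : FL))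
    (hT2 : ∀ j, γ • ((C.T2 j : N.R2.O) : FL) = ((C.T2 j : N.R2.O) : FL)) (z : J1 N) :
    (∀ i, ((C.coord1 hdegL hR (smulJ1 γ hin1 hin2 z) i : A) : L) =
        SemilinearAut.baseAut γ ((C.coord1 hdegL hR z i : A) : L)) ∧
      ∀ j, ((C.coord2 hdegL hR (smulJ1 γ hin1 hin2 z) j : A) : L) =
        SemilinearAut.baseAut γ ((C.coord2 hdegL hR z j : A) : L) :=
  coord_smul_map C C hdegL hπ hR γ id id
    (fun P Q hP => by rw [hin1, hP]; rfl) (fun P Q hP => by rw [hin2, hP]; rfl)
    (fun _ => rfl) (fun _ => rfl)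
    (fun i => (smul_Q1 C γ hin1 hT1 i).symm) (fun j => (smul_Q2 C γ hin2 hT2 j).symm)
    (fun i => (hT1 i).symm) (fun j => (hT2 j).symm) z _ rfl

theorem coord1_smul (C : NodalChart N g1 m2) (hdegL : ∀ P : Place L FL, P.deg = 1)
    (hπ : Function.Surjective π) (hR : RiemannGe L FL (g1 + m2)) (γ : SemilinearAut L FL)
    (hin1 : ∀ P : Place L FL, N.R1.r (γ • P) = N.R1.r P)
    (hin2 : ∀ P : Place L FL, N.R2.r (γ • P) = N.R2.r P)
    (hT1 : ∀ i, γ • ((C.T1 i : N.R1.O) : FL) = ((C.T1 i : N.R1.O) : FL))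
    (hT2 : ∀ j, γ • ((C.T2 j : N.R2.O) : FL) = ((C.T2 j : N.R2.O) : FL)) (z : J1 N)
    (i : Fin g1) :
    ((C.coord1 hdegL hR (smulJ1 γ hin1 hin2 z) i : A) : L) =
      SemilinearAut.baseAut γ ((C.coord1 hdegL hR z i : A) : L) :=
  (coord_smul C hdegL hπ hR γ hin1 hin2 hT1 hT2 z).1 i

theorem coord2_smul (C : NodalChart N g1 m2) (hdegL : ∀ P : Place L FL, P.deg = 1)
    (hπ : Function.Surjective π) (hR : RiemannGe L FL (g1 + m2)) (γ : SemilinearAut L FL)
    (hin1 : ∀ P : Place L FL, N.R1.r (γ • P) = N.R1.r P)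
    (hin2 : ∀ P : Place L FL, N.R2.r (γ • P) = N.R2.r P)
    (hT1 : ∀ i, γ • ((C.T1 i : N.R1.O) : FL) = ((C.T1 i : N.R1.O) : FL))
    (hT2 : ∀ j, γ • ((C.T2 j : N.R2.O) : FL) = ((C.T2 j : N.R2.O) : FL)) (z : J1 N)
    (j : Fin m2) :
    ((C.coord2 hdegL hR (smulJ1 γ hin1 hin2 z) j : A) : L) =
      SemilinearAut.baseAut γ ((C.coord2 hdegL hR z j : A) : L) :=
  (coord_smul C hdegL hπ hR γ hin1 hin2 hT1 hT2 z).2 j

/-- the coordinates of a class fixed by an inertial `γ` fixing the parameters are fixed by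
`baseAut γ` -/
theorem coord_baseAut_fixed (C : NodalChart N g1 m2) (hdegL : ∀ P : Place L FL, P.deg = 1)
    (hπ : Function.Surjective π) (hR : RiemannGe L FL (g1 + m2)) (γ : SemilinearAut L FL)
    (hin1 : ∀ P : Place L FL, N.R1.r (γ • P) = N.R1.r P)
    (hin2 : ∀ P : Place L FL, N.R2.r (γ • P) = N.R2.r P)
    (hT1 : ∀ i, γ • ((C.T1 i : N.R1.O) : FL) = ((C.T1 i : N.R1.O) : FL))
    (hT2 : ∀ j, γ • ((C.T2 j : N.R2.O) : FL) = ((C.T2 j : N.R2.O) : FL)) (z : J1 N)
    (hz : γ • (z : Pic0 L FL) = (z : Pic0 L FL)) :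
    (∀ i, SemilinearAut.baseAut γ ((C.coord1 hdegL hR z i : A) : L) =
        ((C.coord1 hdegL hR z i : A) : L)) ∧
      ∀ j, SemilinearAut.baseAut γ ((C.coord2 hdegL hR z j : A) : L) =
        ((C.coord2 hdegL hR z j : A) : L) := by
  have h := coord_smul C hdegL hπ hR γ hin1 hin2 hT1 hT2 z
  rw [smulJ1_eq_self γ hin1 hin2 z hz] at h
  exact ⟨fun i => (h.1 i).symm, fun j => (h.2 j).symm⟩

/-- **`I`-equivariance of the coordinates on the uniform index** `Fin (g1 + m2)` -/
theorem coordU_smul (C : NodalChart N g1 m2) (hdegL : ∀ P : Place L FL, P.deg = 1)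
    (hπ : Function.Surjective π) (hR : RiemannGe L FL (g1 + m2)) (γ : SemilinearAut L FL)
    (hin1 : ∀ P : Place L FL, N.R1.r (γ • P) = N.R1.r P)
    (hin2 : ∀ P : Place L FL, N.R2.r (γ • P) = N.R2.r P)
    (hT1 : ∀ i, γ • ((C.T1 i : N.R1.O) : FL) = ((C.T1 i : N.R1.O) : FL))
    (hT2 : ∀ j, γ • ((C.T2 j : N.R2.O) : FL) = ((C.T2 j : N.R2.O) : FL)) (z : J1 N)
    (i : Fin (g1 + m2)) :
    ((coordU C hdegL hR (smulJ1 γ hin1 hin2 z) i : A) : L) =
      SemilinearAut.baseAut γ ((coordU C hdegL hR z i : A) : L) := by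
  obtain ⟨e1, e2⟩ := coord_smul C hdegL hπ hR γ hin1 hin2 hT1 hT2 z
  refine forall_fin_add (P := fun i => ((coordU C hdegL hR (smulJ1 γ hin1 hin2 z) i : A) : L) =
      SemilinearAut.baseAut γ ((coordU C hdegL hR z i : A) : L)) (fun a => ?_) (fun b => ?_) i
  · rw [coordU_castAdd, coordU_castAdd]
    exact e1 a
  · rw [coordU_natAdd, coordU_natAdd]
    exact e2 b

/-- the coordinates on the uniform index of a class fixed by an inertial `γ` fixing the
parameters are fixed by `baseAut γ` -/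
theorem coordU_baseAut_fixed (C : NodalChart N g1 m2) (hdegL : ∀ P : Place L FL, P.deg = 1)
    (hπ : Function.Surjective π) (hR : RiemannGe L FL (g1 + m2)) (γ : SemilinearAut L FL)
    (hin1 : ∀ P : Place L FL, N.R1.r (γ • P) = N.R1.r P)
    (hin2 : ∀ P : Place L FL, N.R2.r (γ • P) = N.R2.r P)
    (hT1 : ∀ i, γ • ((C.T1 i : N.R1.O) : FL) = ((C.T1 i : N.R1.O) : FL))
    (hT2 : ∀ j, γ • ((C.T2 j : N.R2.O) : FL) = ((C.T2 j : N.R2.O) : FL)) (z : J1 N)
    (hz : γ • (z : Pic0 L FL) = (z : Pic0 L FL)) (i : Fin (g1 + m2)) :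
    SemilinearAut.baseAut γ ((coordU C hdegL hR z i : A) : L) =
      ((coordU C hdegL hR z i : A) : L) := by
  have h := coordU_smul C hdegL hπ hR γ hin1 hin2 hT1 hT2 z i
  rw [smulJ1_eq_self γ hin1 hin2 z hz] at h
  exact h.symm

end Coord

end Fermat.Agent.S33.Nodal.Symm
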