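import Fermat.Agent.S33.Nodal.Jets
import Fermat.Agent.S33.Nodal.Glued

/-!
# PROJECT N (S33), route H8, slice [N1]: jets at the chart points of the nodal fibre, uniformly in
# the branch (helper13) - the shared header of `NormBasisA` / `NormBasisB`

Frame: `N : GNodalDatum A π FL F1 F2 ι` and two families of discs with parameters
`D1 : Fin g1 → Taylor.DiscParam N.R1`, `D2 : Fin m2 → Taylor.DiscParam N.R2` (the chart points are the
centres `(D1 i).Q`, `(D2 j).Q`, their lifts the zeros `(D1 i).P0`, `(D2 j).P0` of the parameters).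
The uniform index is `Fin g1 ⊕ Fin m2`.

* `lift`, `par` : the lift and the parameter (read in `FL`) of the chart point `i`;
* `RegAt D1 D2 i y` : `y : FL` is regular on the residue disc of the chart point `i`;
* `JetAt D1 D2 i y e n c` : for `y ∈ O₁ ∩ O₂`, the function `y * T_i ^ e` has the `n`-jet `c` at the
  chart point `i`, on the branch of `i` (the twin of `HasJet R (d.T i) (d.Qb i) (y * d.T i ^ e) n c`
  of `S19/NormBasis`), with the calculus of `Jets.HasJet` lifted by cases;
* `jetMatrix`, `unitJet`, `own` : the index bookkeeping of `S19/NormBasis` over a general index.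
-/

set_option autoImplicit false
set_option linter.unusedSectionVars false
set_option linter.unusedVariables false
set_option linter.dupNamespace false

namespace Fermat.Agent.S33.Nodal.JetAt

open AlgebraicCurve Fermat.Agent.S24.Ord Fermat.Agent.S34.NodalDefs Fermat.Agent.S34.NodalDisc
open Fermat.Agent.S33.Nodal.Taylor Fermat.Agent.S33.Nodal.Jets Fermat.Agent.S33.Nodal.Glued

variable {L : Type*} [Field L] {FL : Type*} [Field FL] [Algebra L FL]
variable {k : Type*} [Field k] {F1 : Type*} [Field F1] [Algebra k F1]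
  {F2 : Type*} [Field F2] [Algebra k F2]
variable {A : ValuationSubring L} {π : A →+* k} {ι : Type*}
variable {N : GNodalDatum A π FL F1 F2 ι} {g1 m2 : ℕ}
variable (D1 : Fin g1 → DiscParam N.R1) (D2 : Fin m2 → DiscParam N.R2)

/-! ### the chart points, uniformly -/

/-- the lift of the chart point `i` (the zero of its parameter) -/
def lift : Fin g1 ⊕ Fin m2 → Place L FL :=
  Sum.elim (fun i => (D1 i).P0) (fun j => (D2 j).P0)

/-- the parameter of the chart point `i`, read in `FL` -/
def par : Fin g1 ⊕ Fin m2 → FL :=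
  Sum.elim (fun i => (((D1 i).T : N.R1.O) : FL)) (fun j => (((D2 j).T : N.R2.O) : FL))

/-- `y` is regular on the residue disc of the chart point `i` -/
def RegAt (i : Fin g1 ⊕ Fin m2) (y : FL) : Prop :=
  Sum.elim (fun i => RegOn N.R1.r y (D1 i).Q) (fun j => RegOn N.R2.r y (D2 j).Q) i

/-- `y * T_i ^ e` has the `n`-jet `c` at the chart point `i`, on the branch of `i` -/
def JetAt (i : Fin g1 ⊕ Fin m2) (y : O12 N) (e n : ℕ) (c : Fin n → A) : Prop :=
  Sum.elim (fun i => HasJet N.R1 (D1 i).T (D1 i).Q (incl1 N y * (D1 i).T ^ e) n c)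
    (fun j => HasJet N.R2 (D2 j).T (D2 j).Q (incl2 N y * (D2 j).T ^ e) n c) i

theorem lift_inl (i : Fin g1) : lift D1 D2 (Sum.inl i) = (D1 i).P0 := rfl

theorem lift_inr (j : Fin m2) : lift D1 D2 (Sum.inr j) = (D2 j).P0 := rfl

theorem par_inl (i : Fin g1) : par D1 D2 (Sum.inl i) = (((D1 i).T : N.R1.O) : FL) := rfl

theorem par_inr (j : Fin m2) : par D1 D2 (Sum.inr j) = (((D2 j).T : N.R2.O) : FL) := rfl

theorem regAt_inl (i : Fin g1) (y : FL) :
    RegAt D1 D2 (Sum.inl i) y ↔ RegOn N.R1.r y (D1 i).Q := Iff.rfl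

theorem regAt_inr (j : Fin m2) (y : FL) :
    RegAt D1 D2 (Sum.inr j) y ↔ RegOn N.R2.r y (D2 j).Q := Iff.rfl

theorem jetAt_inl (i : Fin g1) (y : O12 N) (e n : ℕ) (c : Fin n → A) :
    JetAt D1 D2 (Sum.inl i) y e n c ↔
      HasJet N.R1 (D1 i).T (D1 i).Q (incl1 N y * (D1 i).T ^ e) n c := Iff.rfl

theorem jetAt_inr (j : Fin m2) (y : O12 N) (e n : ℕ) (c : Fin n → A) :
    JetAt D1 D2 (Sum.inr j) y e n c ↔
      HasJet N.R2 (D2 j).T (D2 j).Q (incl2 N y * (D2 j).T ^ e) n c := Iff.rfl

/-! ### regularity on the discs -/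

section Reg

variable [HasPrincipalDivisors L FL] {D1 D2} {i : Fin g1 ⊕ Fin m2}

theorem RegAt.add {y z : FL} (hy : RegAt D1 D2 i y) (hz : RegAt D1 D2 i z) :
    RegAt D1 D2 i (y + z) := by
  rcases i with i | j
  · exact RegOn.add hy hz
  · exact RegOn.add hy hz

theorem RegAt.sub {y z : FL} (hy : RegAt D1 D2 i y) (hz : RegAt D1 D2 i z) :
    RegAt D1 D2 i (y - z) := by
  rcases i with i | j
  · exact RegOn.sub hy hz
  · exact RegOn.sub hy hz

theorem RegAt.mul {y z : FL} (hy : RegAt D1 D2 i y) (hz : RegAt D1 D2 i z) :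
    RegAt D1 D2 i (y * z) := by
  rcases i with i | j
  · exact RegOn.mul hy hz
  · exact RegOn.mul hy hz

theorem RegAt.neg {y : FL} (hy : RegAt D1 D2 i y) : RegAt D1 D2 i (-y) := by
  rcases i with i | j
  · exact RegOn.neg hy
  · exact RegOn.neg hy

theorem RegAt.pow {y : FL} (hy : RegAt D1 D2 i y) (n : ℕ) : RegAt D1 D2 i (y ^ n) := by
  rcases i with i | j
  · exact RegOn.pow hy n
  · exact RegOn.pow hy n

variable (D1 D2 i)

theorem regAt_const (c : L) : RegAt D1 D2 i (algebraMap L FL c) := by
  rcases i with i | j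
  · exact regOn_const _ c _
  · exact regOn_const _ c _

theorem regAt_one : RegAt D1 D2 i (1 : FL) := by
  rcases i with i | j
  · exact regOn_one _ _
  · exact regOn_one _ _

theorem regAt_zero : RegAt D1 D2 i (0 : FL) := by
  have := regAt_const D1 D2 i 0
  rwa [map_zero] at this

/-- the parameter is regular on its disc -/
theorem regAt_par : RegAt D1 D2 i (par D1 D2 i) := by
  rcases i with i | j
  · exact (D1 i).good.reg
  · exact (D2 j).good.reg

theorem par_ne_zero : par D1 D2 i ≠ 0 := by
  rcases i with i | j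
  · exact (D1 i).good.coe_ne_zero
  · exact (D2 j).good.coe_ne_zero

/-- the parameter vanishes at the lift -/
theorem par_lt_one : (lift D1 D2 i).adicValuation (par D1 D2 i) < 1 := by
  rcases i with i | j
  · exact (D1 i).zero
  · exact (D2 j).zero

theorem lift_deg : (lift D1 D2 i).deg = 1 := by
  rcases i with i | j
  · exact (D1 i).deg_one
  · exact (D2 j).deg_one

variable {D1 D2 i}

/-- a function regular on the disc is regular at the lift -/
theorem RegAt.le_one {y : FL} (hy : RegAt D1 D2 i y) : (lift D1 D2 i).adicValuation y ≤ 1 := by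
  rcases i with i | j
  · exact hy (D1 i).P0 (D1 i).hP0
  · exact hy (D2 j).P0 (D2 j).hP0

theorem regAt_sum {κ : Type*} (s : Finset κ) (y : κ → FL) (h : ∀ b ∈ s, RegAt D1 D2 i (y b)) :
    RegAt D1 D2 i (∑ b ∈ s, y b) := by
  classical
  induction s using Finset.induction_on with
  | empty => rw [Finset.sum_empty]; exact regAt_zero D1 D2 i
  | insert b s hb ih =>
    rw [Finset.sum_insert hb]
    exact (h b (Finset.mem_insert_self b s)).add (ih fun b' hb' => h b' (Finset.mem_insert_of_mem hb'))

end Reg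

/-! ### the calculus of jets at the chart points -/

section Calc

variable [HasPrincipalDivisors L FL] {D1 D2} {i : Fin g1 ⊕ Fin m2} {e n : ℕ}

theorem incl1_const12 (a : A) : incl1 N (const12 N a) = constHom N.R1.toBranch a := rfl

theorem incl2_const12 (a : A) : incl2 N (const12 N a) = constHom N.R2.toBranch a := rfl

theorem jetAt_zero : JetAt D1 D2 i (0 : O12 N) e n 0 := by
  rcases i with i | j
  · show HasJet N.R1 _ _ (incl1 N 0 * _) n 0
    rw [map_zero, zero_mul]; exact hasJet_zero
  · show HasJet N.R2 _ _ (incl2 N 0 * _) n 0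
    rw [map_zero, zero_mul]; exact hasJet_zero

theorem JetAt.add {y y' : O12 N} {c c' : Fin n → A} (h : JetAt D1 D2 i y e n c)
    (h' : JetAt D1 D2 i y' e n c') : JetAt D1 D2 i (y + y') e n (c + c') := by
  rcases i with i | j
  · show HasJet N.R1 _ _ (incl1 N (y + y') * _) n _
    rw [map_add, add_mul]; exact HasJet.add h h'
  · show HasJet N.R2 _ _ (incl2 N (y + y') * _) n _
    rw [map_add, add_mul]; exact HasJet.add h h'

theorem JetAt.neg {y : O12 N} {c : Fin n → A} (h : JetAt D1 D2 i y e n c) :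
    JetAt D1 D2 i (-y) e n (-c) := by
  rcases i with i | j
  · show HasJet N.R1 _ _ (incl1 N (-y) * _) n _
    rw [map_neg, neg_mul]; exact HasJet.neg h
  · show HasJet N.R2 _ _ (incl2 N (-y) * _) n _
    rw [map_neg, neg_mul]; exact HasJet.neg h

theorem JetAt.sub {y y' : O12 N} {c c' : Fin n → A} (h : JetAt D1 D2 i y e n c)
    (h' : JetAt D1 D2 i y' e n c') : JetAt D1 D2 i (y - y') e n (c - c') := by
  rw [sub_eq_add_neg, sub_eq_add_neg]
  exact h.add h'.neg

theorem JetAt.congr {y : O12 N} {c c' : Fin n → A} (h : JetAt D1 D2 i y e n c) (hc : c = c') :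
    JetAt D1 D2 i y e n c' := hc ▸ h

theorem JetAt.const_mul {y : O12 N} {c : Fin n → A} (a : A) (h : JetAt D1 D2 i y e n c) :
    JetAt D1 D2 i (const12 N a * y) e n (fun m => a * c m) := by
  rcases i with i | j
  · show HasJet N.R1 _ _ (incl1 N (const12 N a * y) * _) n _
    rw [map_mul, mul_assoc, incl1_const12]; exact HasJet.const_mul a h
  · show HasJet N.R2 _ _ (incl2 N (const12 N a * y) * _) n _
    rw [map_mul, mul_assoc, incl2_const12]; exact HasJet.const_mul a h

theorem JetAt.sum {κ : Type*} (s : Finset κ) (a : κ → A) (y : κ → O12 N) (c : κ → Fin n → A)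
    (h : ∀ b ∈ s, JetAt D1 D2 i (y b) e n (c b)) :
    JetAt D1 D2 i (∑ b ∈ s, const12 N (a b) * y b) e n (fun m => ∑ b ∈ s, a b * c b m) := by
  classical
  induction s using Finset.induction_on with
  | empty =>
    simp only [Finset.sum_empty]
    exact jetAt_zero
  | insert b s hb ih =>
    rw [Finset.sum_insert hb]
    refine (((h b (Finset.mem_insert_self b s)).const_mul (a b)).add
      (ih fun b' hb' => h b' (Finset.mem_insert_of_mem hb'))).congr ?_
    funext m
    rw [Pi.add_apply, Finset.sum_insert hb]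

/-- the constant `a` (times `T_i ^ e`) has the jet `a X ^ e`, if `e < n` -/
theorem jetAt_const (a : A) (e : Fin n) :
    JetAt D1 D2 i (const12 N a) (e : ℕ) n (Pi.single e a) := by
  rcases i with i | j
  · exact hasJet_monomial a e
  · exact hasJet_monomial a e

/-- `T_i ^ e` has the zero `e`-jet -/
theorem jetAt_one : JetAt D1 D2 i (1 : O12 N) e e 0 := by
  rcases i with i | j
  · refine ⟨1, ?_, ?_⟩
    · show RegOn N.R1.r (1 : FL) _
      exact regOn_one _ _
    · simp
  · refine ⟨1, ?_, ?_⟩
    · show RegOn N.R2.r (1 : FL) _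
      exact regOn_one _ _
    · simp

/-- forgetting the last coefficient -/
theorem JetAt.castSucc {y : O12 N} {c : Fin (n + 1) → A} (h : JetAt D1 D2 i y e (n + 1) c) :
    JetAt D1 D2 i y e n (fun m => c m.castSucc) := by
  rcases i with i | j
  · exact HasJet.castSucc (D1 i).good.reg h
  · exact HasJet.castSucc (D2 j).good.reg h

/-- the expansion, read in `FL` -/
theorem JetAt.coe {y : O12 N} {c : Fin n → A} (h : JetAt D1 D2 i y e n c) :
    ∃ z : FL, RegAt D1 D2 i z ∧ (y : FL) * par D1 D2 i ^ e =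
      ∑ m : Fin n, algebraMap L FL ((c m : A) : L) * par D1 D2 i ^ (m : ℕ) +
        par D1 D2 i ^ n * z := by
  rcases i with i | j
  · exact HasJet.coe h
  · exact HasJet.coe h

/-- **uniqueness of the jet** -/
theorem JetAt.unique {y : O12 N} {c c' : Fin n → A} (h : JetAt D1 D2 i y e n c)
    (h' : JetAt D1 D2 i y e n c') : c = c' := by
  rcases i with i | j
  · exact HasJet.unique (D1 i).P0 (D1 i).hP0 (D1 i).good.coe_ne_zero (D1 i).zero h h'
  · exact HasJet.unique (D2 j).P0 (D2 j).hP0 (D2 j).good.coe_ne_zero (D2 j).zero h h'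

/-- a function whose product with `T_i ^ e` has the zero `e`-jet is regular on the disc -/
theorem JetAt.regAt {y : O12 N} (h : JetAt D1 D2 i y e e 0) : RegAt D1 D2 i (y : FL) := by
  rcases i with i | j
  · exact regOn_of_hasJet_zero (D1 i).good.coe_ne_zero h
  · exact regOn_of_hasJet_zero (D2 j).good.coe_ne_zero h

/-- the product with `T_i ^ e` of a function with a jet is regular on the disc -/
theorem JetAt.regAt_mul {y : O12 N} {c : Fin n → A} (h : JetAt D1 D2 i y e n c) :
    RegAt D1 D2 i ((y : FL) * par D1 D2 i ^ e) := by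
  rcases i with i | j
  · exact HasJet.regOn (D1 i).good.reg h
  · exact HasJet.regOn (D2 j).good.reg h

variable (D1 D2 i)

/-- **existence of jets**: if `y * T_i ^ e` is regular on the disc, it has jets of every order -/
theorem exists_jetAt (y : O12 N) (e : ℕ)
    (hreg : RegAt D1 D2 i ((y : FL) * par D1 D2 i ^ e)) (n : ℕ) :
    ∃ c : Fin n → A, JetAt D1 D2 i y e n c := by
  rcases i with i | j
  · exact exists_hasJet (D1 i) (incl1 N y * (D1 i).T ^ e) hreg n
  · exact exists_hasJet (D2 j) (incl2 N y * (D2 j).T ^ e) hreg n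

end Calc

/-! ### index bookkeeping -/

section Index

variable {I : Type*} [Fintype I] [DecidableEq I]

/-- the matrix of the `2`-jets (rows `inl i` : constant terms at the point `i`, rows `inr i` : linear
terms at the point `i`) of a family of `3`-jets indexed by `I ⊕ I` -/
def jetMatrix (C : I ⊕ I → I → Fin 3 → A) : Matrix (I ⊕ I) (I ⊕ I) A :=
  Matrix.of fun row b => Sum.elim (fun i => C b i 0) (fun i => C b i 1) row

theorem jetMatrix_inl (C : I ⊕ I → I → Fin 3 → A) (i : I) (b : I ⊕ I) :
    jetMatrix C (Sum.inl i) b = C b i 0 := rfl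

theorem jetMatrix_inr (C : I ⊕ I → I → Fin 3 → A) (i : I) (b : I ⊕ I) :
    jetMatrix C (Sum.inr i) b = C b i 1 := rfl

/-- the own index of `a : I ⊕ I` -/
def own : I ⊕ I → I := Sum.elim id id

theorem own_inl (i : I) : own (Sum.inl i : I ⊕ I) = i := rfl

theorem own_inr (i : I) : own (Sum.inr i : I ⊕ I) = i := rfl

/-- the `3`-jet `(δ_{a, inl i}, δ_{a, inr i}, κ)` -/
def unitJet (a : I ⊕ I) (i : I) (κ : A) : Fin 3 → A :=
  ![if a = Sum.inl i then 1 else 0, if a = Sum.inr i then 1 else 0, κ]

theorem unitJet_zero (a : I ⊕ I) (i : I) (κ : A) :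
    unitJet a i κ 0 = if a = Sum.inl i then 1 else 0 := rfl

theorem unitJet_one (a : I ⊕ I) (i : I) (κ : A) :
    unitJet a i κ 1 = if a = Sum.inr i then 1 else 0 := rfl

theorem unitJet_two (a : I ⊕ I) (i : I) (κ : A) : unitJet a i κ 2 = κ := rfl

end Index

end Fermat.Agent.S33.Nodal.JetAt
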