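import Fermat.Agent.S19.TaylorRat
import Fermat.Agent.S33.Nodal.Taylor

/-!
# PROJECT N (S33), route H8, slice [N1]: jets of Gauss-integral functions on a residue disc of ONE
# smooth component of a nodal reduction (helper18)

The twin, in the frame of `Fermat/Agent/S34/NodalDefs.lean` (`R : SmoothRed A π FL Fk`, partial
specialisation map `R.r`, generic places `R.good`), of

* the section `Jets` of `Fermat/Agent/S19/NormBasis.lean` : `HasJet R T Q y n c`
  (`y = ∑_{m<n} c_m T^m + T^n · rem`, `rem` regular on the residue disc of `Q`) and its calculus;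
* the disc-local part of `Fermat/Agent/S19/TaylorRat.lean` : `hasJet_taylor`, `exists_hasJet`,
  `comb_jets`, and of `NormBasis` : `regOn_of_hasJet_zero`.

The frame-free lemmas `Fermat.Agent.S19.NormBasis.jet_unique`, `semilinear_jet_sub`,
`ord_nonneg_of_le_one'` and `Fermat.Agent.S19.TaylorRat.truncPoly` (+ API) are used from main as
they stand.
-/

set_option autoImplicit false
set_option linter.unusedSectionVars false
set_option linter.unusedVariables false

namespace Fermat.Agent.S33.Nodal.Jets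

open AlgebraicCurve Fermat.Agent.S24.Ord Fermat.Agent.S34.NodalDefs Fermat.Agent.S34.NodalDisc
open Fermat.Agent.S19.Taylor (ValAt)
open Fermat.Agent.S19.NormBasis (jet_unique)
open Fermat.Agent.S33.Nodal.Taylor

variable {L : Type*} [Field L] {FL : Type*} [Field FL] [Algebra L FL]
variable {k : Type*} [Field k] {Fk : Type*} [Field Fk] [Algebra k Fk]
variable {A : ValuationSubring L} {π : A →+* k}

/-! ### jets of Gauss-integral functions -/

section Jets

variable (R : SmoothRed A π FL Fk)

/-- `y = ∑_{m<n} c_m T^m + T^n · rem` with `rem` regular on the residue disc of `Q` -/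
def HasJet (T : R.O) (Q : Place k Fk) (y : R.O) (n : ℕ) (c : Fin n → A) : Prop :=
  ∃ rem : R.O, RegOn R.r ((rem : R.O) : FL) Q ∧
    y = ∑ m : Fin n, constHom R.toBranch (c m) * T ^ (m : ℕ) + T ^ n * rem

variable {R} {T : R.O} {Q : Place k Fk} {n : ℕ}

theorem hasJet_iff {y : R.O} {c : Fin n → A} :
    HasJet R T Q y n c ↔ ∃ rem : R.O, RegOn R.r ((rem : R.O) : FL) Q ∧
      y = ∑ m : Fin n, constHom R.toBranch (c m) * T ^ (m : ℕ) + T ^ n * rem := Iff.rfl

/-- constructor from an expansion read in `FL` -/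
theorem hasJet_of_coe {y : R.O} (c : Fin n → A) (rem : R.O)
    (hreg : RegOn R.r ((rem : R.O) : FL) Q)
    (h : ((y : R.O) : FL) =
      ∑ m : Fin n, algebraMap L FL ((c m : A) : L) * ((T : R.O) : FL) ^ (m : ℕ) +
        ((T : R.O) : FL) ^ n * ((rem : R.O) : FL)) : HasJet R T Q y n c := by
  refine ⟨rem, hreg, Subtype.ext ?_⟩
  rw [h]
  push_cast
  rfl

theorem hasJet_zero : HasJet R T Q 0 n 0 := by
  refine ⟨0, ?_, ?_⟩
  · show RegOn R.r (0 : FL) Q
    exact fun P _ => by rw [map_zero]; exact zero_le_one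
  · simp

theorem HasJet.add {y y' : R.O} {c c' : Fin n → A} (h : HasJet R T Q y n c)
    (h' : HasJet R T Q y' n c') : HasJet R T Q (y + y') n (c + c') := by
  obtain ⟨z, hz, hy⟩ := h
  obtain ⟨z', hz', hy'⟩ := h'
  refine ⟨z + z', ?_, ?_⟩
  · show RegOn R.r (((z : R.O) : FL) + ((z' : R.O) : FL)) Q
    exact hz.add hz'
  · rw [hy, hy']
    simp only [Pi.add_apply, map_add, add_mul, Finset.sum_add_distrib]
    ring

theorem HasJet.const_mul {y : R.O} {c : Fin n → A} (a : A) (h : HasJet R T Q y n c) :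
    HasJet R T Q (constHom R.toBranch a * y) n (fun m => a * c m) := by
  obtain ⟨z, hz, hy⟩ := h
  refine ⟨constHom R.toBranch a * z, ?_, ?_⟩
  · show RegOn R.r (algebraMap L FL (a : L) * ((z : R.O) : FL)) Q
    exact (regOn_const R.r _ Q).mul hz
  · rw [hy, mul_add, Finset.mul_sum]
    congr 1
    · refine Finset.sum_congr rfl fun m _ => ?_
      rw [map_mul]
      ring
    · ring

theorem HasJet.neg {y : R.O} {c : Fin n → A} (h : HasJet R T Q y n c) :
    HasJet R T Q (-y) n (-c) := by
  obtain ⟨z, hz, hy⟩ := h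
  refine ⟨-z, ?_, ?_⟩
  · show RegOn R.r (-((z : R.O) : FL)) Q
    exact hz.neg
  · rw [hy]
    simp only [Pi.neg_apply, map_neg, neg_mul, Finset.sum_neg_distrib]
    ring

theorem HasJet.sub {y y' : R.O} {c c' : Fin n → A} (h : HasJet R T Q y n c)
    (h' : HasJet R T Q y' n c') : HasJet R T Q (y - y') n (c - c') := by
  rw [sub_eq_add_neg, sub_eq_add_neg]
  exact h.add h'.neg

theorem HasJet.congr {y : R.O} {c c' : Fin n → A} (h : HasJet R T Q y n c) (hc : c = c') :
    HasJet R T Q y n c' := hc ▸ h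

theorem HasJet.sum {ι : Type*} (s : Finset ι) (a : ι → A) (y : ι → R.O) (c : ι → Fin n → A)
    (h : ∀ b ∈ s, HasJet R T Q (y b) n (c b)) :
    HasJet R T Q (∑ b ∈ s, constHom R.toBranch (a b) * y b) n (fun m => ∑ b ∈ s, a b * c b m) := by
  classical
  induction s using Finset.induction_on with
  | empty =>
    simp only [Finset.sum_empty]
    exact hasJet_zero
  | insert b s hb ih =>
    rw [Finset.sum_insert hb]
    refine (((h b (Finset.mem_insert_self b s)).const_mul (a b)).add
      (ih fun b' hb' => h b' (Finset.mem_insert_of_mem hb'))).congr ?_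
    funext m
    rw [Pi.add_apply, Finset.sum_insert hb]

/-- a monomial `a T^j`, `j < n` -/
theorem hasJet_monomial (a : A) (j : Fin n) :
    HasJet R T Q (constHom R.toBranch a * T ^ (j : ℕ)) n (Pi.single j a) := by
  classical
  refine ⟨0, ?_, ?_⟩
  · show RegOn R.r (0 : FL) Q
    exact fun P _ => by rw [map_zero]; exact zero_le_one
  · rw [mul_zero, add_zero, Finset.sum_eq_single j]
    · rw [Pi.single_eq_same]
    · intro m _ hm
      rw [Pi.single_eq_of_ne hm, map_zero, zero_mul]
    · intro h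
      exact absurd (Finset.mem_univ j) h

/-- forgetting the last coefficient -/
theorem HasJet.castSucc {y : R.O} {c : Fin (n + 1) → A} (hT : RegOn R.r ((T : R.O) : FL) Q)
    (h : HasJet R T Q y (n + 1) c) : HasJet R T Q y n (fun m => c m.castSucc) := by
  obtain ⟨z, hz, hy⟩ := h
  refine ⟨constHom R.toBranch (c (Fin.last n)) + T * z, ?_, ?_⟩
  · show RegOn R.r
      (algebraMap L FL ((c (Fin.last n) : A) : L) + ((T : R.O) : FL) * ((z : R.O) : FL)) Q
    exact (regOn_const R.r _ Q).add (hT.mul hz)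
  · rw [hy, Fin.sum_univ_castSucc]
    simp only [Fin.val_castSucc, Fin.val_last]
    ring

/-- the expansion, read in `FL` -/
theorem HasJet.coe {y : R.O} {c : Fin n → A} (h : HasJet R T Q y n c) :
    ∃ z : FL, RegOn R.r z Q ∧ ((y : R.O) : FL) =
      ∑ m : Fin n, algebraMap L FL ((c m : A) : L) * ((T : R.O) : FL) ^ (m : ℕ) +
        ((T : R.O) : FL) ^ n * z := by
  obtain ⟨z, hz, hy⟩ := h
  refine ⟨z, hz, ?_⟩
  rw [hy]
  push_cast
  rfl

/-- the expansion of the reduction (at a generic place `Q`) -/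
theorem HasJet.red {y : R.O} {c : Fin n → A} (h : HasJet R T Q y n c) (hQ : Q ∈ R.good)
    [HasPrincipalDivisors L FL] :
    ∃ z : Fk, Q.adicValuation z ≤ 1 ∧ R.red y =
      ∑ m : Fin n, algebraMap k Fk (π (c m)) * R.red T ^ (m : ℕ) + R.red T ^ n * z := by
  obtain ⟨z, hz, hy⟩ := h
  refine ⟨R.red z, red_regular R z Q hQ hz, ?_⟩
  rw [hy, map_add, map_sum, map_mul, map_pow]
  congr 1
  refine Finset.sum_congr rfl fun m _ => ?_
  rw [map_mul, map_pow, red_constHom]

/-- **uniqueness of the jet**, given a zero `P0` of `T` in the disc -/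
theorem HasJet.unique {y : R.O} {c c' : Fin n → A} (P0 : Place L FL) (hP0 : R.r P0 = some Q)
    (hT0 : ((T : R.O) : FL) ≠ 0) (hT : P0.adicValuation ((T : R.O) : FL) < 1)
    (h : HasJet R T Q y n c) (h' : HasJet R T Q y n c') : c = c' := by
  obtain ⟨z, hz, hy⟩ := h.coe
  obtain ⟨z', hz', hy'⟩ := h'.coe
  have key : ∑ m : Fin n, algebraMap L FL (((c m : A) : L) - ((c' m : A) : L)) *
      ((T : R.O) : FL) ^ (m : ℕ) + ((T : R.O) : FL) ^ n * (z - z') = 0 := by
    have : ∑ m : Fin n, algebraMap L FL (((c m : A) : L) - ((c' m : A) : L)) *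
        ((T : R.O) : FL) ^ (m : ℕ) + ((T : R.O) : FL) ^ n * (z - z')
        = (∑ m : Fin n, algebraMap L FL ((c m : A) : L) * ((T : R.O) : FL) ^ (m : ℕ) +
            ((T : R.O) : FL) ^ n * z)
          - (∑ m : Fin n, algebraMap L FL ((c' m : A) : L) * ((T : R.O) : FL) ^ (m : ℕ) +
            ((T : R.O) : FL) ^ n * z') := by
      simp only [map_sub, sub_mul, Finset.sum_sub_distrib]
      ring
    rw [this, ← hy, ← hy', sub_self]
  have := jet_unique P0 _ hT0 hT n (fun m => ((c m : A) : L) - ((c' m : A) : L)) (z - z')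
    ((hz.sub hz') P0 hP0) key
  funext m
  exact Subtype.ext (sub_eq_zero.mp (this m))

/-- a function whose product with `T^n` has the zero `n`-jet is regular on the disc -/
theorem regOn_of_hasJet_zero {y : R.O}
    (hT0 : ((T : R.O) : FL) ≠ 0) (h : HasJet R T Q (y * T ^ n) n 0) :
    RegOn R.r ((y : R.O) : FL) Q := by
  obtain ⟨z, hz, hy⟩ := h
  have hT0' : T ^ n ≠ 0 := by
    apply pow_ne_zero
    intro h0
    exact hT0 (by rw [h0]; rfl)
  have : y = z := by
    apply mul_right_cancel₀ hT0'
    rw [hy]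
    simp only [Pi.zero_apply, map_zero, zero_mul, Finset.sum_const_zero, zero_add]
    ring
  rw [this]
  exact hz

/-- a function with a jet of any order is regular on the disc, if the parameter is -/
theorem HasJet.regOn {y : R.O} {c : Fin n → A} (hT : RegOn R.r ((T : R.O) : FL) Q)
    (h : HasJet R T Q y n c) : RegOn R.r ((y : R.O) : FL) Q := by
  obtain ⟨z, hz, hy⟩ := h.coe
  rw [hy]
  refine RegOn.add ?_ ((hT.pow n).mul hz)
  intro P hP
  refine Valuation.map_sum_le _ fun m _ => ?_
  exact ((regOn_const R.r _ Q).mul (hT.pow _)) P hP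

end Jets

/-! ### from the Taylor slice to `HasJet` -/

section FromTaylor

variable [HasPrincipalDivisors L FL] {R : SmoothRed A π FL Fk}

/-- the Taylor expansion of the Taylor slice, as a jet -/
theorem hasJet_taylor (D : DiscParam R) (y : D.Reg) (n : ℕ) :
    HasJet R D.T D.Q y.1 n (fun m => D.coeff y m) := by
  refine hasJet_of_coe _ (D.rem y n).1 (D.rem y n).2 ?_
  rw [D.taylor_n y n, Finset.sum_range]

/-- every function regular on the disc of a `DiscParam` has jets of every order there -/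
theorem exists_hasJet (D : DiscParam R) (y : R.O) (hy : RegOn R.r ((y : R.O) : FL) D.Q) (n : ℕ) :
    ∃ c : Fin n → A, HasJet R D.T D.Q y n c :=
  ⟨_, hasJet_taylor D ⟨y, hy⟩ n⟩

/-- the same for a good parameter with a given zero of degree one -/
theorem exists_hasJet_of_isGoodParam {T : R.O} {Q : Place k Fk} (hT : IsGoodParam R T Q)
    (P0 : Place L FL) (hP0 : R.r P0 = some Q) (hP0deg : P0.deg = 1)
    (hz : P0.adicValuation ((T : R.O) : FL) < 1) (y : R.O)
    (hy : RegOn R.r ((y : R.O) : FL) Q) (n : ℕ) :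
    ∃ c : Fin n → A, HasJet R T Q y n c :=
  exists_hasJet ⟨Q, T, hT, P0, hP0, hP0deg, hz⟩ y hy n

/-- the jet of the Taylor slice is THE jet -/
theorem HasJet.eq_coeff (D : DiscParam R) (y : D.Reg) {n : ℕ} {c : Fin n → A}
    (h : HasJet R D.T D.Q y.1 n c) : c = fun m : Fin n => D.coeff y m :=
  HasJet.unique D.P0 D.hP0 D.good.coe_ne_zero D.zero h (hasJet_taylor D y n)

/-- if the `k`-combination `x` kills the `n`-jets of the `y_a`, the same combination of the
reductions is `T̄ ^ n` times a function regular at `Q` -/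
theorem comb_jets {ι : Type*} [Fintype ι] {T : R.O} {Q : Place k Fk} (hQ : Q ∈ R.good) {n : ℕ}
    (y : ι → R.O) (c : ι → Fin n → A) (hc : ∀ a, HasJet R T Q (y a) n (c a)) (x : ι → k)
    (hx : ∀ m, ∑ a, x a * π (c a m) = 0) :
    ∃ z : Fk, Q.adicValuation z ≤ 1 ∧
      ∑ a, algebraMap k Fk (x a) * R.red (y a) = R.red T ^ n * z := by
  choose z hz hred using fun a => (hc a).red hQ
  refine ⟨∑ a, algebraMap k Fk (x a) * z a, ?_, ?_⟩
  · refine Valuation.map_sum_le _ fun a _ => ?_
    rw [map_mul]
    exact mul_le_one' (Q.adicValuation_algebraMap_le_one _) (hz a)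
  · have h1 : ∀ a, algebraMap k Fk (x a) * R.red (y a) =
        ∑ m : Fin n, algebraMap k Fk (x a * π (c a m)) * R.red T ^ (m : ℕ) +
          R.red T ^ n * (algebraMap k Fk (x a) * z a) := by
      intro a
      rw [hred a, mul_add, Finset.mul_sum]
      congr 1
      · refine Finset.sum_congr rfl fun m _ => ?_
        rw [map_mul]
        ring
      · ring
    rw [Finset.sum_congr rfl fun a _ => h1 a, Finset.sum_add_distrib, Finset.sum_comm,
      ← Finset.mul_sum]
    have h2 : ∑ m : Fin n, ∑ a, algebraMap k Fk (x a * π (c a m)) * R.red T ^ (m : ℕ) = 0 := by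
      refine Finset.sum_eq_zero fun m _ => ?_
      rw [← Finset.sum_mul, ← map_sum, hx m, map_zero, zero_mul]
    rw [h2, zero_add]

end FromTaylor

end Fermat.Agent.S33.Nodal.Jets
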