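import Fermat.Agent.S33.Nodal.JetAt

/-!
# PROJECT N (S33), route H8, slice [N1]: jets at the chart points of a NODAL reduction and the
# special fibre (helper18)

On top of `Nodal/JetAt.lean` (helper13: `lift`, `par`, `RegAt`, `JetAt D1 D2 i y e n c` =
"`y * T_i ^ e` has the `n`-jet `c` at the chart point `i`", uniform index `i : Fin g1 ⊕ Fin m2`,
one `Taylor.DiscParam` per chart point), this file contains what relates the jets upstairs to the
reduced PAIRS `red12 N y : F1 × F2`, and the Taylor coefficients of every order: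

* `ordBar D1 D2 i φ` : the order, at the centre of the disc `i` on the special fibre, of the
  component of the pair `φ : F1 × F2` on the branch of `i`;
* `comb_jets_pair` : if the `k`-combination `x` kills the `n`-jets of all `y_a T_i^e` (`n ≤ e`)
  then `n - e ≤ ordBar i (∑ x_a • red12 (y_a))` (`S19/NormBasis.comb_regular` for `n = e = 2`,
  `S19/TaylorRat.comb_jets` in general);
* `jets_of_comb_const_pair` : conversely a constant combination kills the jets
  (`S19/NormBasis.jets_of_comb_const`);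
* `jetAt_of_le` : `y` regular on the disc, `n ≤ e` : `y * T_i^e` has the zero `n`-jet;
* `tcoeff`, `jetAt_tcoeff`, `eq_tcoeff_of_jetAt`, `tcoeff_fixed` : Taylor coefficients of every
  order at a chart point and their rationality (`S19/Taylor.DiscParam.coeff_fixed`);
* `valueMatrix` : the value matrix of `S19/TaylorRat` over an arbitrary index type.
-/

set_option autoImplicit false
set_option linter.unusedSectionVars false
set_option linter.unusedVariables false

namespace Fermat.Agent.S33.Nodal.JetsPair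

open AlgebraicCurve Fermat.Agent.S24.Ord Fermat.Agent.S34.NodalDefs Fermat.Agent.S34.NodalDisc
open Fermat.Agent.S19.NormBasis (jet_unique)
open Fermat.Agent.S18.CoreOrd (ord_pow)
open Fermat.Agent.S33.Nodal.Taylor Fermat.Agent.S33.Nodal.Jets Fermat.Agent.S33.Nodal.Glued
open Fermat.Agent.S33.Nodal.JetAt

/-! ### the value matrix over an arbitrary index type -/

section Index

variable {I : Type*} {S : Type*}

/-- the matrix of the values (rows `inl j` : values at the auxiliary points, rows `inr i` : values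
at the chart points) -/
def valueMatrix (cR cQ : I ⊕ I → I → S) : Matrix (I ⊕ I) (I ⊕ I) S :=
  Matrix.of fun row a => Sum.elim (fun j => cR a j) (fun i => cQ a i) row

theorem valueMatrix_inl (cR cQ : I ⊕ I → I → S) (j : I) (a : I ⊕ I) :
    valueMatrix cR cQ (Sum.inl j) a = cR a j := rfl

theorem valueMatrix_inr (cR cQ : I ⊕ I → I → S) (i : I) (a : I ⊕ I) :
    valueMatrix cR cQ (Sum.inr i) a = cQ a i := rfl

end Index

variable {L : Type*} [Field L] {FL : Type*} [Field FL] [Algebra L FL]
variable {k : Type*} [Field k]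

/-! ### one branch: the two bridges with general exponents -/

section OneBranch

variable {Fk : Type*} [Field Fk] [Algebra k Fk]
variable {A : ValuationSubring L} {π : A →+* k}
variable [HasPrincipalDivisors L FL] {R : SmoothRed A π FL Fk}

/-- if the `k`-combination `x` kills the `n`-jets of the `y_a T^e` (`n ≤ e`), the same
combination of the reductions has order at least `n - e` at the centre of the disc -/
theorem comb_jets_ord (D : DiscParam R) {n e : ℕ} (hne : n ≤ e) {ι' : Type*} [Fintype ι']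
    (y : ι' → R.O) (c : ι' → Fin n → A)
    (hc : ∀ a, HasJet R D.T D.Q (y a * D.T ^ e) n (c a)) (x : ι' → k)
    (hx : ∀ m, ∑ a, x a * π (c a m) = 0) :
    (n : ℤ) - e ≤ D.Q.ord (∑ a, algebraMap k Fk (x a) * R.red (y a)) := by
  obtain ⟨z, hz, hzeq⟩ := comb_jets D.hQ (fun a => y a * D.T ^ e) c hc x hx
  set Φ : Fk := ∑ a, algebraMap k Fk (x a) * R.red (y a) with hΦ
  have hT : R.red D.T ≠ 0 := D.good.red_ne_zero
  rcases eq_or_ne Φ 0 with h0 | h0
  · rw [h0, Place.ord_zero]
    have : (n : ℤ) ≤ e := by exact_mod_cast hne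
    omega
  have h1 : Φ * R.red D.T ^ e = R.red D.T ^ n * z := by
    rw [← hzeq, hΦ, Finset.sum_mul]
    refine Finset.sum_congr rfl fun a _ => ?_
    rw [map_mul, map_pow, mul_assoc]
  have h2 : Φ * R.red D.T ^ (e - n) = z := by
    apply mul_left_cancel₀ (pow_ne_zero n hT)
    rw [← h1]
    have : e = n + (e - n) := by omega
    conv_rhs => rw [this, pow_add]
    ring
  have hz0 : z ≠ 0 := by
    rw [← h2]
    exact mul_ne_zero h0 (pow_ne_zero _ hT)
  have h3 : 0 ≤ D.Q.ord z := (ord_nonneg_iff D.Q hz0).mpr hz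
  rw [← h2, Place.ord_mul _ h0 (pow_ne_zero _ hT), ord_pow, D.good.ord_one] at h3
  have : ((e - n : ℕ) : ℤ) = (e : ℤ) - n := by
    rw [Nat.cast_sub hne]
  rw [this, mul_one] at h3
  linarith

/-- from a constant combination of the reductions to the vanishing of the combined `n`-jets of
the `y_a T^e` (`n ≤ e`) -/
theorem jets_of_comb_const (D : DiscParam R) {n e : ℕ} (hne : n ≤ e) {ι' : Type*} [Fintype ι']
    (y : ι' → R.O) (c : ι' → Fin n → A)
    (hc : ∀ a, HasJet R D.T D.Q (y a * D.T ^ e) n (c a)) (x : ι' → k) (γ : k)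
    (hγ : ∑ a, algebraMap k Fk (x a) * R.red (y a) = algebraMap k Fk γ) :
    ∀ m, ∑ a, x a * π (c a m) = 0 := by
  choose z hz hred using fun a => (hc a).red D.hQ
  have hT : R.red D.T ≠ 0 := D.good.red_ne_zero
  have hTlt : D.Q.adicValuation (R.red D.T) < 1 :=
    (ord_pos_iff _ hT).mp (by rw [D.good.ord_one]; exact one_pos)
  have h1 : ∀ a, algebraMap k Fk (x a) * R.red (y a * D.T ^ e) =
      ∑ m : Fin n, algebraMap k Fk (x a * π (c a m)) * R.red D.T ^ (m : ℕ) +
        R.red D.T ^ n * (algebraMap k Fk (x a) * z a) := by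
    intro a
    rw [hred a, mul_add, Finset.mul_sum]
    congr 1
    · refine Finset.sum_congr rfl fun m _ => ?_
      rw [map_mul]
      ring
    · ring
  have h3 : algebraMap k Fk γ * R.red D.T ^ e =
      ∑ a, algebraMap k Fk (x a) * R.red (y a * D.T ^ e) := by
    rw [← hγ, Finset.sum_mul]
    refine Finset.sum_congr rfl fun a _ => ?_
    rw [map_mul, map_pow, mul_assoc]
  rw [Finset.sum_congr rfl fun a _ => h1 a, Finset.sum_add_distrib, Finset.sum_comm,
    ← Finset.mul_sum] at h3
  have hs : R.red D.T ^ e = R.red D.T ^ n * R.red D.T ^ (e - n) := by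
    rw [← pow_add]
    congr 1
    omega
  have h4 : ∑ m : Fin n, algebraMap k Fk (∑ a, x a * π (c a m)) * R.red D.T ^ (m : ℕ) +
      R.red D.T ^ n * (∑ a, algebraMap k Fk (x a) * z a -
        algebraMap k Fk γ * R.red D.T ^ (e - n)) = 0 := by
    have h5 : ∑ m : Fin n, algebraMap k Fk (∑ a, x a * π (c a m)) * R.red D.T ^ (m : ℕ)
        = ∑ m : Fin n, ∑ a, algebraMap k Fk (x a * π (c a m)) * R.red D.T ^ (m : ℕ) := by
      refine Finset.sum_congr rfl fun m _ => ?_
      rw [map_sum, Finset.sum_mul]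
    rw [h5, mul_sub, ← add_sub_assoc, ← h3, hs]
    ring
  refine jet_unique D.Q (R.red D.T) hT hTlt n (fun m => ∑ a, x a * π (c a m)) _ ?_ h4
  have h6 : D.Q.adicValuation (∑ a, algebraMap k Fk (x a) * z a) ≤ 1 := by
    refine Valuation.map_sum_le _ fun a _ => ?_
    rw [map_mul]
    exact mul_le_one' (D.Q.adicValuation_algebraMap_le_one _) (hz a)
  have h7 : D.Q.adicValuation (algebraMap k Fk γ * R.red D.T ^ (e - n)) ≤ 1 := by
    rw [map_mul, map_pow]
    exact mul_le_one' (D.Q.adicValuation_algebraMap_le_one _) (pow_le_one' hTlt.le _)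
  exact Valuation.map_sub_le _ h6 h7

/-- the zero `n`-jet of `y T^e` for `n ≤ e` and `y` regular on the disc -/
theorem hasJet_mul_pow_of_le (D : DiscParam R) {n e : ℕ} (hne : n ≤ e) (y : R.O)
    (hy : RegOn R.r ((y : R.O) : FL) D.Q) : HasJet R D.T D.Q (y * D.T ^ e) n 0 := by
  refine ⟨y * D.T ^ (e - n), ?_, ?_⟩
  · show RegOn R.r (((y : R.O) : FL) * ((D.T : R.O) : FL) ^ (e - n)) D.Q
    exact hy.mul (D.good.reg.pow _)
  · simp only [Pi.zero_apply, map_zero, zero_mul, Finset.sum_const_zero, zero_add]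
    have : e = n + (e - n) := by omega
    conv_lhs => rw [this, pow_add]
    ring

end OneBranch

/-! ### the uniform index -/

variable {F1 : Type*} [Field F1] [Algebra k F1] {F2 : Type*} [Field F2] [Algebra k F2]
variable {A : ValuationSubring L} {π : A →+* k} {ι : Type*}
variable {N : GNodalDatum A π FL F1 F2 ι} {g1 m2 : ℕ}
variable (D1 : Fin g1 → DiscParam N.R1) (D2 : Fin m2 → DiscParam N.R2)

/-- the order, at the centre of the disc `i` on the special fibre, of the component of the pair `φ`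
on the branch of `i` -/
noncomputable def ordBar (i : Fin g1 ⊕ Fin m2) (φ : F1 × F2) : ℤ :=
  Sum.elim (fun i => (D1 i).Q.ord φ.1) (fun j => (D2 j).Q.ord φ.2) i

theorem ordBar_inl (i : Fin g1) (φ : F1 × F2) : ordBar D1 D2 (Sum.inl i) φ = (D1 i).Q.ord φ.1 :=
  rfl

theorem ordBar_inr (j : Fin m2) (φ : F1 × F2) : ordBar D1 D2 (Sum.inr j) φ = (D2 j).Q.ord φ.2 :=
  rfl

variable {D1 D2}

section Bridge

variable [HasPrincipalDivisors L FL] {i : Fin g1 ⊕ Fin m2} {e n : ℕ}

/-- the zero `n`-jet of `y * T_i ^ e` for `n ≤ e` and `y` regular on the disc -/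
theorem jetAt_of_le (hne : n ≤ e) {y : O12 N} (hy : RegAt D1 D2 i (y : FL)) :
    JetAt D1 D2 i y e n 0 := by
  rcases i with i | j
  · exact hasJet_mul_pow_of_le (D1 i) hne (incl1 N y) hy
  · exact hasJet_mul_pow_of_le (D2 j) hne (incl2 N y) hy

theorem fst_comb_red12 {ι' : Type*} [Fintype ι'] (y : ι' → O12 N) (x : ι' → k) :
    (∑ a, x a • red12 N (y a)).1 = ∑ a, algebraMap k F1 (x a) * N.R1.red (incl1 N (y a)) := by
  rw [Prod.fst_sum]
  refine Finset.sum_congr rfl fun a _ => ?_
  rw [Prod.smul_fst, red12_fst, Algebra.smul_def]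

theorem snd_comb_red12 {ι' : Type*} [Fintype ι'] (y : ι' → O12 N) (x : ι' → k) :
    (∑ a, x a • red12 N (y a)).2 = ∑ a, algebraMap k F2 (x a) * N.R2.red (incl2 N (y a)) := by
  rw [Prod.snd_sum]
  refine Finset.sum_congr rfl fun a _ => ?_
  rw [Prod.smul_snd, red12_snd, Algebra.smul_def]

/-- **from jets to orders**: if the `k`-combination `x` kills the `n`-jets of all `y_a T_i^e` at the
point `i` (`n ≤ e`), the same combination of the reduced pairs has order at least `n - e` at the
centre of the disc `i`.  (`n = e` : regular; `n = 1`, `e = 2` : at most a simple pole.) -/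
theorem comb_jets_pair (hne : n ≤ e) {ι' : Type*} [Fintype ι'] (y : ι' → O12 N)
    (c : ι' → Fin n → A) (hc : ∀ a, JetAt D1 D2 i (y a) e n (c a)) (x : ι' → k)
    (hx : ∀ m, ∑ a, x a * π (c a m) = 0) :
    (n : ℤ) - e ≤ ordBar D1 D2 i (∑ a, x a • red12 N (y a)) := by
  rcases i with i | j
  · rw [ordBar_inl, fst_comb_red12]
    exact comb_jets_ord (D1 i) hne (fun a => incl1 N (y a)) c hc x hx
  · rw [ordBar_inr, snd_comb_red12]
    exact comb_jets_ord (D2 j) hne (fun a => incl2 N (y a)) c hc x hx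

/-- **from a constant combination to jets**: if the `k`-combination `x` of the reduced pairs is the
constant pair `γ`, then `x` kills the `n`-jets of all `y_a T_i^e` at every point `i` (`n ≤ e`). -/
theorem jets_of_comb_const_pair (hne : n ≤ e) {ι' : Type*} [Fintype ι'] (y : ι' → O12 N)
    (c : ι' → Fin n → A) (hc : ∀ a, JetAt D1 D2 i (y a) e n (c a)) (x : ι' → k) (γ : k)
    (hγ : ∑ a, x a • red12 N (y a) = (algebraMap k F1 γ, algebraMap k F2 γ)) :
    ∀ m, ∑ a, x a * π (c a m) = 0 := by
  rcases i with i | j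
  · refine jets_of_comb_const (D1 i) hne (fun a => incl1 N (y a)) c hc x γ ?_
    rw [← fst_comb_red12, hγ]
  · refine jets_of_comb_const (D2 j) hne (fun a => incl2 N (y a)) c hc x γ ?_
    rw [← snd_comb_red12, hγ]

end Bridge

/-! ### Taylor coefficients of every order, and their rationality -/

section Coeff

variable [HasPrincipalDivisors L FL]

variable (D1 D2) in
/-- the Taylor coefficients of `y * T_i ^ e` at the chart point `i` -/
noncomputable def tcoeff : ∀ (i : Fin g1 ⊕ Fin m2) (y : O12 N) (e : ℕ),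
    RegAt D1 D2 i ((y : FL) * par D1 D2 i ^ e) → ℕ → A
  | Sum.inl i, y, e, h, m => (D1 i).coeff ⟨incl1 N y * (D1 i).T ^ e, h⟩ m
  | Sum.inr j, y, e, h, m => (D2 j).coeff ⟨incl2 N y * (D2 j).T ^ e, h⟩ m

theorem jetAt_tcoeff (i : Fin g1 ⊕ Fin m2) (y : O12 N) (e : ℕ)
    (hreg : RegAt D1 D2 i ((y : FL) * par D1 D2 i ^ e)) (n : ℕ) :
    JetAt D1 D2 i y e n (fun m : Fin n => tcoeff D1 D2 i y e hreg m) := by
  rcases i with i | j
  · exact hasJet_taylor (D1 i) ⟨incl1 N y * (D1 i).T ^ e, hreg⟩ n
  · exact hasJet_taylor (D2 j) ⟨incl2 N y * (D2 j).T ^ e, hreg⟩ n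

theorem eq_tcoeff_of_jetAt {i : Fin g1 ⊕ Fin m2} {e n : ℕ} {y : O12 N} {c : Fin n → A}
    (h : JetAt D1 D2 i y e n c)
    (hreg : RegAt D1 D2 i ((y : FL) * par D1 D2 i ^ e)) :
    c = fun m : Fin n => tcoeff D1 D2 i y e hreg m :=
  h.unique (jetAt_tcoeff i y e hreg n)

/-- **Rationality of Taylor coefficients**: a pair of compatible ring endomorphisms of `L` and `FL`
fixing the lift of the chart point `i`, its parameter and the function fixes every Taylor
coefficient. -/
theorem tcoeff_fixed (i : Fin g1 ⊕ Fin m2) (y : O12 N) (e : ℕ)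
    (hreg : RegAt D1 D2 i ((y : FL) * par D1 D2 i ^ e)) (sL : L →+* L) (sF : FL →+* FL)
    (hcomp : ∀ c : L, sF (algebraMap L FL c) = algebraMap L FL (sL c))
    (hpt : ∀ z : FL, (lift D1 D2 i).adicValuation (sF z) = (lift D1 D2 i).adicValuation z)
    (hT : sF (par D1 D2 i) = par D1 D2 i) (hy : sF (y : FL) = (y : FL)) (m : ℕ) :
    sL ((tcoeff D1 D2 i y e hreg m : A) : L) = ((tcoeff D1 D2 i y e hreg m : A) : L) := by
  rcases i with i | j
  · refine (D1 i).coeff_fixed ⟨incl1 N y * (D1 i).T ^ e, hreg⟩ sL sF hcomp hpt hT ?_ m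
    show sF ((y : FL) * (((D1 i).T : N.R1.O) : FL) ^ e) = (y : FL) * (((D1 i).T : N.R1.O) : FL) ^ e
    rw [map_mul, map_pow, hy]
    congr 2
  · refine (D2 j).coeff_fixed ⟨incl2 N y * (D2 j).T ^ e, hreg⟩ sL sF hcomp hpt hT ?_ m
    show sF ((y : FL) * (((D2 j).T : N.R2.O) : FL) ^ e) = (y : FL) * (((D2 j).T : N.R2.O) : FL) ^ e
    rw [map_mul, map_pow, hy]
    congr 2

end Coeff

end Fermat.Agent.S33.Nodal.JetsPair
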