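import Mathlib
import Fermat.Agent.S33.Nodal.JetAt

/-!
# PROJECT N (S33), route H8, slice [N1]: the normalised basis, PART A (helper4)

The twin, in the nodal pair frame `N : S34.NodalDefs.GNodalDatum A π FL F1 F2 ι`, of
`Fermat/Agent/S19/NormBasis.lean` l.240-470, on top of the shared header `Nodal/JetAt`.  Everything
is RECORD-FREE: the chart is two families of discs with parameters
`D1 : Fin g1 → Taylor.DiscParam N.R1`, `D2 : Fin m2 → Taylor.DiscParam N.R2` (to be fed with the
fields `DQ1`, `DQ2` of the interpolation datum), the uniform index is `Fin g1 ⊕ Fin m2`.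

* `mem_sum_Rp_of_regular`, `const_of_regular_Q` : **generic fibre**: a section of `O(E)`,
  `E ≤ R₀` off the `Q_a`, which is regular at every `Q_a` lies in `L(R₀)`, hence is constant when
  `ℓ(R₀) = 1` (no reduction involved: any `Fintype` index);
* `exists_const_of_coe_eq` : a constant of `O₁ ∩ O₂` lies in `A`;
* `comb_regular` : **one branch, one disc**: a `k`-combination killing the `2`-jets of the
  `y_a T²` has a reduction which is regular at the centre;
* `comb_regular_at`, `const_of_jets` : **special fibre**: if `x` kills the `2`-jets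
  (`JetAt D1 D2 i (y a) 2 2`) at all the chart points, `∑ x_a red12 (y_a)` is a constant pair (the
  rank lemma (RR-a) for glued pairs is the hypothesis `hrank`, discharged by `Nodal/Interp.rank_a`);
* `isUnit_det_jetMatrix` : the `2`-jet matrix (`JetAt.jetMatrix`) of a family of `2 (g1 + m2)`
  functions of `O₁ ∩ O₂` whose reduction pairs are `k`-independent together with `(1, 1)` is
  invertible over `A`.
-/

set_option autoImplicit false
set_option linter.unusedSectionVars false
set_option linter.unusedVariables false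

namespace Fermat.Agent.S33.Nodal.NormBasisA

open AlgebraicCurve Fermat.Agent.S24.Ord Fermat.Agent.S34.NodalDefs Fermat.Agent.S34.NodalDisc
open Fermat.Agent.S33.Nodal.Taylor Fermat.Agent.S33.Nodal.Jets Fermat.Agent.S33.Nodal.Glued
open Fermat.Agent.S33.Nodal.JetAt
open Fermat.Agent.S18.NonSpecial (one_mem_riemannRochSpace)

/-! ### the generic fibre: sections of `O(E)` regular at the `Q_a` are constant -/

section Global

variable {L : Type*} [Field L] {FL : Type*} [Field FL] [Algebra L FL]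
variable {κ : Type*} [Fintype κ]

/-- a sum of points vanishes off the points -/
theorem sum_single_apply_of_forall_ne (Rp : κ → Place L FL) (v : Place L FL)
    (h : ∀ a, Rp a ≠ v) : (∑ a, Finsupp.single (Rp a) (1 : ℤ)) v = 0 := by
  classical
  rw [Finsupp.finsetSum_apply]
  exact Finset.sum_eq_zero fun a _ => Finsupp.single_eq_of_ne (h a).symm

theorem sum_single_nonneg (Rp : κ → Place L FL) : 0 ≤ ∑ a, Finsupp.single (Rp a) (1 : ℤ) := by
  classical
  refine Finset.sum_nonneg fun a _ => ?_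
  rw [Finsupp.le_def]
  intro v
  rw [Finsupp.zero_apply, Finsupp.single_apply]
  split_ifs <;> norm_num

/-- a section of `O(E)`, `E ≤ R₀` off the `Q_a`, which is regular at every `Q_a` is a section of
`O(R₀)` -/
theorem mem_sum_Rp_of_regular (Rp Q : κ → Place L FL) (hne : ∀ a b, Rp a ≠ Q b)
    (E : Divisor L FL)
    (hE : ∀ v : Place L FL, (∀ a, Q a ≠ v) → E v ≤ (∑ a, Finsupp.single (Rp a) (1 : ℤ)) v)
    {f : FL} (hf : f ∈ riemannRochSpace E) (h : ∀ a, (Q a).adicValuation f ≤ 1) :
    f ∈ riemannRochSpace (∑ a, Finsupp.single (Rp a) (1 : ℤ)) := by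
  rw [mem_riemannRochSpace_iff]
  intro v
  rcases eq_or_ne f 0 with rfl | hf0
  · exact Or.inl rfl
  right
  by_cases hv : ∃ a, Q a = v
  · obtain ⟨a, rfl⟩ := hv
    rw [sum_single_apply_of_forall_ne Rp (Q a) (fun b => hne b a), neg_zero]
    exact (ord_nonneg_iff _ hf0).mpr (h a)
  · push Not at hv
    have h1 := ((mem_riemannRochSpace_iff.mp hf) v).resolve_left hf0
    have h2 := hE v hv
    omega

/-- **generic-fibre kernel**: a section of `O(E)` which is regular at every `Q_a` is constant,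
when `ℓ(R₀) = 1` -/
theorem const_of_regular_Q (Rp Q : κ → Place L FL) (hne : ∀ a b, Rp a ≠ Q b)
    (E : Divisor L FL)
    (hE : ∀ v : Place L FL, (∀ a, Q a ≠ v) → E v ≤ (∑ a, Finsupp.single (Rp a) (1 : ℤ)) v)
    (hell : Module.finrank L (riemannRochSpace (∑ a, Finsupp.single (Rp a) (1 : ℤ))) = 1)
    {f : FL} (hf : f ∈ riemannRochSpace E) (h : ∀ a, (Q a).adicValuation f ≤ 1) :
    ∃ c : L, f = algebraMap L FL c := by
  have hmem := mem_sum_Rp_of_regular Rp Q hne E hE hf h
  have h1 : (1 : FL) ∈ riemannRochSpace (∑ a, Finsupp.single (Rp a) (1 : ℤ)) :=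
    one_mem_riemannRochSpace (sum_single_nonneg Rp)
  have hne1 : (⟨1, h1⟩ : riemannRochSpace (∑ a, Finsupp.single (Rp a) (1 : ℤ))) ≠ 0 := by
    intro h0
    exact one_ne_zero (congrArg Subtype.val h0)
  obtain ⟨c, hc⟩ := (finrank_eq_one_iff_of_nonzero' _ hne1).mp hell ⟨f, hmem⟩
  refine ⟨c, ?_⟩
  have := congrArg Subtype.val hc
  simp only [Submodule.coe_smul] at this
  rw [← this, Algebra.smul_def, mul_one]

end Global

/-! ### constants of `O₁ ∩ O₂` -/

section Const

variable {L : Type*} [Field L] {FL : Type*} [Field FL] [Algebra L FL]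
variable {k : Type*} [Field k] {F1 : Type*} [Field F1] [Algebra k F1]
  {F2 : Type*} [Field F2] [Algebra k F2]
variable {A : ValuationSubring L} {π : A →+* k} {ι : Type*}
variable (N : GNodalDatum A π FL F1 F2 ι)

/-- a constant which is integral at (one of) the Gauss valuations lies in `A` -/
theorem exists_const_of_coe_eq (f : O12 N) {c : L} (h : ((f : O12 N) : FL) = algebraMap L FL c) :
    ∃ c₀ : A, ((f : O12 N) : FL) = algebraMap L FL ((c₀ : A) : L) :=
  ⟨⟨c, N.R1.mem_of_algebraMap_mem c (h ▸ ((mem_O12 N).mp f.2).1)⟩, h⟩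

end Const

/-! ### one branch, one disc -/

section OneDisc

variable {L : Type*} [Field L] {FL : Type*} [Field FL] [Algebra L FL]
variable {k : Type*} [Field k] {Fk : Type*} [Field Fk] [Algebra k Fk]
variable {A : ValuationSubring L} {π : A →+* k}

/-- if the `k`-combination `x` kills the `2`-jets of all `y_a T²` at `Q`, then `∑ x_a red y_a` is
regular at `Q` -/
theorem comb_regular [HasPrincipalDivisors L FL] (R : SmoothRed A π FL Fk) {T : R.O}
    {Q : Place k Fk} (hT : IsGoodParam R T Q) {κ : Type*} [Fintype κ] (y : κ → R.O)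
    (c : κ → Fin 2 → A) (hc : ∀ a, HasJet R T Q (y a * T ^ 2) 2 (c a)) (x : κ → k)
    (hx : ∀ m, ∑ a, x a * π (c a m) = 0) :
    Q.adicValuation (∑ a, algebraMap k Fk (x a) * R.red (y a)) ≤ 1 := by
  obtain ⟨z, hz, hcomb⟩ := comb_jets hT.good (fun a => y a * T ^ 2) c hc x hx
  have hT0 : R.red T ≠ 0 := hT.red_ne_zero
  have h1 : (∑ a, algebraMap k Fk (x a) * R.red (y a)) * R.red T ^ 2 = R.red T ^ 2 * z := by
    rw [← hcomb, Finset.sum_mul]
    refine Finset.sum_congr rfl fun a _ => ?_
    rw [map_mul, map_pow, mul_assoc]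
  have h2 : ∑ a, algebraMap k Fk (x a) * R.red (y a) = z := by
    apply mul_right_cancel₀ (pow_ne_zero 2 hT0)
    rw [h1, mul_comm]
  rw [h2]
  exact hz

end OneDisc

/-! ### the special fibre: combinations killing the `2`-jets are constant pairs -/

section Kernel

variable {L : Type*} [Field L] {FL : Type*} [Field FL] [Algebra L FL]
variable {k : Type*} [Field k] {F1 : Type*} [Field F1] [Algebra k F1]
  {F2 : Type*} [Field F2] [Algebra k F2]
variable {A : ValuationSubring L} {π : A →+* k} {ι : Type*}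
variable {N : GNodalDatum A π FL F1 F2 ι} {g1 m2 : ℕ}
variable (D1 : Fin g1 → DiscParam N.R1) (D2 : Fin m2 → DiscParam N.R2)

theorem ord_nonneg_of_le_one {K F : Type*} [Field K] [Field F] [Algebra K F] (Q : Place K F)
    {z : F} (hz : Q.adicValuation z ≤ 1) : 0 ≤ Q.ord z := by
  rcases eq_or_ne z 0 with rfl | h0
  · rw [Place.ord_zero]
  · exact (ord_nonneg_iff Q h0).mpr hz

/-- the two components of a `k`-combination of reduction pairs -/
theorem sum_smul_red12_fst {κ : Type*} [Fintype κ] (x : κ → k) (y : κ → O12 N) :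
    (∑ a, x a • red12 N (y a)).1 = ∑ a, algebraMap k F1 (x a) * N.R1.red (incl1 N (y a)) := by
  rw [Prod.fst_sum]
  refine Finset.sum_congr rfl fun a _ => ?_
  rw [Prod.smul_fst, red12_fst, Algebra.smul_def]

theorem sum_smul_red12_snd {κ : Type*} [Fintype κ] (x : κ → k) (y : κ → O12 N) :
    (∑ a, x a • red12 N (y a)).2 = ∑ a, algebraMap k F2 (x a) * N.R2.red (incl2 N (y a)) := by
  rw [Prod.snd_sum]
  refine Finset.sum_congr rfl fun a _ => ?_
  rw [Prod.smul_snd, red12_snd, Algebra.smul_def]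

/-- the component of the pair `z` on the branch of the chart point `i` is regular at the centre of
the disc of `i` -/
def RegBar (i : Fin g1 ⊕ Fin m2) (z : F1 × F2) : Prop :=
  Sum.elim (fun i => 0 ≤ ((D1 i).Q).ord z.1) (fun j => 0 ≤ ((D2 j).Q).ord z.2) i

theorem regBar_inl (i : Fin g1) (z : F1 × F2) :
    RegBar D1 D2 (Sum.inl i) z ↔ 0 ≤ ((D1 i).Q).ord z.1 := Iff.rfl

theorem regBar_inr (j : Fin m2) (z : F1 × F2) :
    RegBar D1 D2 (Sum.inr j) z ↔ 0 ≤ ((D2 j).Q).ord z.2 := Iff.rfl

variable {D1 D2}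

/-- if `x` kills the `2`-jets of the `y_a T_i²` at the chart point `i`, the component of
`∑ x_a red12 (y_a)` on the branch of `i` is regular at the centre of the disc of `i` -/
theorem comb_regular_at [HasPrincipalDivisors L FL] {κ : Type*} [Fintype κ] (y : κ → O12 N)
    (i : Fin g1 ⊕ Fin m2) (c : κ → Fin 2 → A) (hc : ∀ a, JetAt D1 D2 i (y a) 2 2 (c a))
    (x : κ → k) (hx : ∀ m, ∑ a, x a * π (c a m) = 0) :
    RegBar D1 D2 i (∑ a, x a • red12 N (y a)) := by
  rcases i with i | j
  · rw [regBar_inl, sum_smul_red12_fst]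
    exact ord_nonneg_of_le_one _
      (comb_regular N.R1 (D1 i).good (fun a => incl1 N (y a)) c (fun a => hc a) x hx)
  · rw [regBar_inr, sum_smul_red12_snd]
    exact ord_nonneg_of_le_one _
      (comb_regular N.R2 (D2 j).good (fun a => incl2 N (y a)) c (fun a => hc a) x hx)

/-- **special-fibre kernel**: if `x` kills the `2`-jets at all the chart points, the combination
`∑ x_a red12 (y_a)` of glued sections of `O(Ē)` is a constant pair ((RR-a); the rank lemma for
glued pairs is the hypothesis `hrank` = `Nodal/Interp.rank_a`) -/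
theorem const_of_jets [HasPrincipalDivisors L FL] (Eb1 : Divisor k F1) (Eb2 : Divisor k F2)
    (hrank : ∀ z ∈ Glued N Eb1 Eb2, (∀ i, 0 ≤ ((D1 i).Q).ord z.1) →
      (∀ j, 0 ≤ ((D2 j).Q).ord z.2) → ∃ γ : k, z = (algebraMap k F1 γ, algebraMap k F2 γ))
    {κ : Type*} [Fintype κ] (y : κ → O12 N) (hyb : ∀ a, red12 N (y a) ∈ Glued N Eb1 Eb2)
    (c : κ → Fin g1 ⊕ Fin m2 → Fin 2 → A) (hc : ∀ a i, JetAt D1 D2 i (y a) 2 2 (c a i))
    (x : κ → k) (hx : ∀ i m, ∑ a, x a * π (c a i m) = 0) :
    ∃ γ : k, ∑ a, x a • red12 N (y a) = (algebraMap k F1 γ, algebraMap k F2 γ) := by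
  refine hrank _ (Submodule.sum_mem _ fun a _ => Submodule.smul_mem _ _ (hyb a))
    (fun i => ?_) (fun j => ?_)
  · exact comb_regular_at y (Sum.inl i) (fun a => c a (Sum.inl i))
      (fun a => hc a (Sum.inl i)) x (hx (Sum.inl i))
  · exact comb_regular_at y (Sum.inr j) (fun a => c a (Sum.inr j))
      (fun a => hc a (Sum.inr j)) x (hx (Sum.inr j))

end Kernel

/-! ### the `2`-jet matrix of a reduced basis is invertible over `A` -/

section Det

variable {L : Type*} [Field L] {FL : Type*} [Field FL] [Algebra L FL]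
variable {k : Type*} [Field k] {F1 : Type*} [Field F1] [Algebra k F1]
  {F2 : Type*} [Field F2] [Algebra k F2]
variable {A : ValuationSubring L} {π : A →+* k} {ι : Type*}
variable {N : GNodalDatum A π FL F1 F2 ι} {g1 m2 : ℕ}
variable {D1 : Fin g1 → DiscParam N.R1} {D2 : Fin m2 → DiscParam N.R2}

/-- **the `2`-jet matrix is invertible**: `F_b ∈ O₁ ∩ O₂` (`b : I ⊕ I`, `I = Fin g1 ⊕ Fin m2`)
with reduction pairs in `Glued(Ē)`, `k`-independent together with `(1, 1)`, and `3`-jets `C b i` of
`F_b T_i²` at the chart points -/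
theorem isUnit_det_jetMatrix [HasPrincipalDivisors L FL]
    (Eb1 : Divisor k F1) (Eb2 : Divisor k F2) (hEb1 : 0 ≤ Eb1) (hEb2 : 0 ≤ Eb2)
    (hrank : ∀ z ∈ Glued N Eb1 Eb2, (∀ i, 0 ≤ ((D1 i).Q).ord z.1) →
      (∀ j, 0 ≤ ((D2 j).Q).ord z.2) → ∃ γ : k, z = (algebraMap k F1 γ, algebraMap k F2 γ))
    (F : (Fin g1 ⊕ Fin m2) ⊕ (Fin g1 ⊕ Fin m2) → O12 N)
    (hFb : ∀ b, red12 N (F b) ∈ Glued N Eb1 Eb2)
    (hli : LinearIndependent k
      (Sum.elim (fun _ : Unit => (1 : F1 × F2)) (fun b => red12 N (F b))))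
    (C : (Fin g1 ⊕ Fin m2) ⊕ (Fin g1 ⊕ Fin m2) → Fin g1 ⊕ Fin m2 → Fin 3 → A)
    (hC : ∀ b i, JetAt D1 D2 i (F b) 2 3 (C b i)) :
    IsUnit (jetMatrix C).det := by
  classical
  by_contra hnu
  have hm : (jetMatrix C).det ∈ IsLocalRing.maximalIdeal A :=
    (IsLocalRing.mem_maximalIdeal _).mpr hnu
  have hpi : π (jetMatrix C).det = 0 := (pi_eq_zero_iff N.R1.toBranch _).mpr hm
  rw [RingHom.map_det] at hpi
  obtain ⟨v, hv0, hv⟩ := Matrix.exists_mulVec_eq_zero_iff.mpr hpi
  apply hv0
  -- the extended family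
  set y : Unit ⊕ ((Fin g1 ⊕ Fin m2) ⊕ (Fin g1 ⊕ Fin m2)) → O12 N := Sum.elim (fun _ => 1) F
    with hy
  set x : Unit ⊕ ((Fin g1 ⊕ Fin m2) ⊕ (Fin g1 ⊕ Fin m2)) → k := Sum.elim (fun _ => 0) v with hx
  set c : Unit ⊕ ((Fin g1 ⊕ Fin m2) ⊕ (Fin g1 ⊕ Fin m2)) → Fin g1 ⊕ Fin m2 → Fin 2 → A :=
    Sum.elim (fun _ _ _ => 0) (fun b i m => C b i m.castSucc) with hc
  have hyb : ∀ a, red12 N (y a) ∈ Glued N Eb1 Eb2 := by
    rintro (u | b)
    · simp only [hy, Sum.elim_inl, map_one]
      have := const_mem_glued N hEb1 hEb2 1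
      rw [map_one, map_one] at this
      exact this
    · exact hFb b
  have hjets : ∀ a i, JetAt D1 D2 i (y a) 2 2 (c a i) := by
    rintro (u | b') i
    · exact jetAt_one
    · exact (hC b' i).castSucc
  have hkill : ∀ i m, ∑ a, x a * π (c a i m) = 0 := by
    intro i m
    rw [Fintype.sum_sum_type]
    simp only [hx, hc, Sum.elim_inl, Sum.elim_inr, zero_mul, Finset.sum_const_zero, zero_add]
    fin_cases m
    · have := congrFun hv (Sum.inl i)
      simp only [Matrix.mulVec, dotProduct, RingHom.mapMatrix_apply, Matrix.map_apply, jetMatrix,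
        Matrix.of_apply, Sum.elim_inl, Pi.zero_apply] at this
      rw [← this]
      exact Finset.sum_congr rfl fun b' _ => mul_comm _ _
    · have := congrFun hv (Sum.inr i)
      simp only [Matrix.mulVec, dotProduct, RingHom.mapMatrix_apply, Matrix.map_apply, jetMatrix,
        Matrix.of_apply, Sum.elim_inr, Pi.zero_apply] at this
      rw [← this]
      exact Finset.sum_congr rfl fun b' _ => mul_comm _ _
  obtain ⟨γ, hγ⟩ := const_of_jets Eb1 Eb2 hrank y hyb c hjets x hkill
  rw [Fintype.sum_sum_type] at hγ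
  simp only [hx, hy, Sum.elim_inl, Sum.elim_inr, zero_smul, Finset.sum_const_zero,
    zero_add] at hγ
  -- linear independence
  have hrel : ∑ a, (Sum.elim (fun _ : Unit => -γ) v) a •
      (Sum.elim (fun _ : Unit => (1 : F1 × F2)) (fun b => red12 N (F b))) a = 0 := by
    rw [Fintype.sum_sum_type]
    simp only [Sum.elim_inl, Sum.elim_inr, Finset.univ_unique, Finset.sum_singleton]
    rw [hγ]
    refine Prod.ext ?_ ?_
    · simp [Algebra.smul_def]
    · simp [Algebra.smul_def]
  have h0 := Fintype.linearIndependent_iff.mp hli _ hrel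
  funext b
  exact h0 (Sum.inr b)

end Det

end Fermat.Agent.S33.Nodal.NormBasisA
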