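import Mathlib
import Fermat.Agent.S33.Nodal.NormBasisA
import Fermat.Agent.S33.Nodal.Datum

/-!
# PROJECT N (S33), route H8, slice [N1]: the normalised basis, PART A at an `NDatum` (helper4)

`Nodal/NormBasisA` is record-free; here its hypotheses are discharged for the interpolation datum
`d : Datum.NDatum N g1 m2` (helper7) from the dimension block `Nodal/Interp` (helper22):

* `liftR_ne_liftQ`, `E_le_sum_liftR`, `ell_sum_liftR` : the auxiliary points are not chart points,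
  `E = R₀` off the chart points, `ℓ(R₀) = 1`;
* `const_of_regular_Q` : a section of `O(E)` regular at every chart point is constant;
* `rank_a` : the rank lemma (RR-a) for glued pairs in the shape of the hypothesis `hrank`;
* `const_of_jets`, `isUnit_det_jetMatrix` : the special-fibre kernel and the invertibility of the
  `2`-jet matrix, for `Ē_i = Interp.Ebar (d.Rb_i) (d.Qb_i)`, with no hypothesis left but the frame
  (`OrthoPair`, finiteness).
-/

set_option autoImplicit false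
set_option linter.unusedSectionVars false
set_option linter.unusedVariables false

namespace Fermat.Agent.S33.Nodal.NormBasisAD

open AlgebraicCurve Fermat.Agent.S24.Ord Fermat.Agent.S34.NodalDefs Fermat.Agent.S34.NodalDisc
open Fermat.Agent.S33.Nodal.Taylor Fermat.Agent.S33.Nodal.Jets Fermat.Agent.S33.Nodal.Glued
open Fermat.Agent.S33.Nodal.JetAt Fermat.Agent.S33.Nodal.SemiCont Fermat.Agent.S33.Nodal.Rigid3
open Fermat.Agent.S33.Nodal.Interp Fermat.Agent.S33.Nodal.Datum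
open Fermat.Agent.S18.NonSpecial (ell)

variable {L : Type*} [Field L] {FL : Type*} [Field FL] [Algebra L FL]
variable {k : Type*} [Field k] {F1 : Type*} [Field F1] [Algebra k F1]
  {F2 : Type*} [Field F2] [Algebra k F2]
variable {A : ValuationSubring L} {π : A →+* k} {ι : Type*}
variable {N : GNodalDatum A π FL F1 F2 ι} {g1 m2 : ℕ} (d : NDatum N g1 m2)

/-! ### the generic fibre -/

/-- a sum over the uniform index is the sum over the two branches -/
theorem sum_single_lift (D1 : Fin g1 → DiscParam N.R1) (D2 : Fin m2 → DiscParam N.R2) :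
    (∑ a, Finsupp.single (lift D1 D2 a) (1 : ℤ)) =
      (∑ i, Finsupp.single ((D1 i).P0) (1 : ℤ)) + ∑ j, Finsupp.single ((D2 j).P0) (1 : ℤ) := by
  rw [Fintype.sum_sum_type]
  rfl

/-- an auxiliary point is not a chart point -/
theorem liftR_ne_liftQ (a b : Fin g1 ⊕ Fin m2) : lift d.DR1 d.DR2 a ≠ lift d.DQ1 d.DQ2 b := by
  rcases a with i | j <;> rcases b with i' | j'
  · intro h
    have h1 := d.hRp1 i
    have h2 := d.hQ1 i'
    change (d.DR1 i).P0 = (d.DQ1 i').P0 at h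
    rw [show d.Rp1 i = (d.DR1 i).P0 from rfl, h] at h1
    rw [show d.Q1 i' = (d.DQ1 i').P0 from rfl, h1] at h2
    exact d.disj1 i' i (Option.some_injective _ h2).symm
  · intro h
    have h1 := d.hRp1 i
    have h2 := d.hQ2 j'
    change (d.DR1 i).P0 = (d.DQ2 j').P0 at h
    rw [show d.Rp1 i = (d.DR1 i).P0 from rfl, h] at h1
    exact N.excl _ _ _ h1 h2
  · intro h
    have h1 := d.hRp2 j
    have h2 := d.hQ1 i'
    change (d.DR2 j).P0 = (d.DQ1 i').P0 at h
    rw [show d.Rp2 j = (d.DR2 j).P0 from rfl, h] at h1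
    exact N.excl _ _ _ h2 h1
  · intro h
    have h1 := d.hRp2 j
    have h2 := d.hQ2 j'
    change (d.DR2 j).P0 = (d.DQ2 j').P0 at h
    rw [show d.Rp2 j = (d.DR2 j).P0 from rfl, h] at h1
    rw [show d.Q2 j' = (d.DQ2 j').P0 from rfl, h1] at h2
    exact d.disj2 j' j (Option.some_injective _ h2).symm

/-- off the chart points `E` is the sum of the auxiliary points -/
theorem E_le_sum_liftR (v : Place L FL) (hv : ∀ a, lift d.DQ1 d.DQ2 a ≠ v) :
    d.E v ≤ (∑ a, Finsupp.single (lift d.DR1 d.DR2 a) (1 : ℤ)) v := by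
  have hQ1 : (∑ i, Finsupp.single (d.Q1 i) (1 : ℤ)) v = 0 :=
    NormBasisA.sum_single_apply_of_forall_ne d.Q1 v fun i => hv (Sum.inl i)
  have hQ2 : (∑ j, Finsupp.single (d.Q2 j) (1 : ℤ)) v = 0 :=
    NormBasisA.sum_single_apply_of_forall_ne d.Q2 v fun j => hv (Sum.inr j)
  rw [sum_single_lift, NDatum.E_def]
  unfold NDatum.E1 NDatum.E2
  simp only [Finsupp.add_apply, hQ1, hQ2, add_zero]
  exact le_of_eq rfl

/-- the sum of the auxiliary points is supported in good discs -/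
theorem goodSupp_sum_liftR : GoodSupp N (∑ a, Finsupp.single (lift d.DR1 d.DR2 a) (1 : ℤ)) := by
  rw [sum_single_lift]
  exact (NDatum.goodSupp_sum1 d.Rp1 d.Rb1 d.Rb1_good d.hRp1).add N
    (NDatum.goodSupp_sum2 d.Rp2 d.Rb2 d.Rb2_good d.hRp2)

theorem push1_sum_liftR :
    push1 N (∑ a, Finsupp.single (lift d.DR1 d.DR2 a) (1 : ℤ)) =
      ∑ i, Finsupp.single (d.Rb1 i) (1 : ℤ) := by
  rw [sum_single_lift, push1_add]
  have h1 := NDatum.push1_sum_single1 d.Rp1 d.Rb1 d.hRp1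
  have h2 := NDatum.push1_sum_single2 d.Rp2 d.Rb2 d.hRp2
  change push1 N (∑ i, Finsupp.single ((d.DR1 i).P0) (1 : ℤ)) = _ at h1
  change push1 N (∑ j, Finsupp.single ((d.DR2 j).P0) (1 : ℤ)) = _ at h2
  rw [h1, h2, add_zero]

theorem push2_sum_liftR :
    push2 N (∑ a, Finsupp.single (lift d.DR1 d.DR2 a) (1 : ℤ)) =
      ∑ j, Finsupp.single (d.Rb2 j) (1 : ℤ) := by
  rw [sum_single_lift, push2_add]
  have h1 := NDatum.push2_sum_single1 d.Rp1 d.Rb1 d.hRp1
  have h2 := NDatum.push2_sum_single2 d.Rp2 d.Rb2 d.hRp2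
  change push2 N (∑ i, Finsupp.single ((d.DR1 i).P0) (1 : ℤ)) = _ at h1
  change push2 N (∑ j, Finsupp.single ((d.DR2 j).P0) (1 : ℤ)) = _ at h2
  rw [h1, h2, zero_add]

/-- `ℓ(R₀) = 1` -/
theorem ell_sum_liftR [HasPrincipalDivisors L FL] (hO : OrthoPair N)
    (hfinL : ∀ D : Divisor L FL, Module.Finite L (riemannRochSpace D))
    (hfin1 : ∀ D : Divisor k F1, Module.Finite k (riemannRochSpace D))
    (hfin2 : ∀ D : Divisor k F2, Module.Finite k (riemannRochSpace D)) :
    Module.finrank L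
      (riemannRochSpace (∑ a, Finsupp.single (lift d.DR1 d.DR2 a) (1 : ℤ))) = 1 := by
  have := hfinL (∑ a, Finsupp.single (lift d.DR1 d.DR2 a) (1 : ℤ))
  exact ell_of_push_rigid hO d.rigidR' hfin1 hfin2 _ (goodSupp_sum_liftR d)
    (NormBasisA.sum_single_nonneg _) (push1_sum_liftR d) (push2_sum_liftR d)

/-- **generic-fibre kernel**: a section of `O(E)` which is regular at every chart point is
constant -/
theorem const_of_regular_Q [HasPrincipalDivisors L FL] (hO : OrthoPair N)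
    (hfinL : ∀ D : Divisor L FL, Module.Finite L (riemannRochSpace D))
    (hfin1 : ∀ D : Divisor k F1, Module.Finite k (riemannRochSpace D))
    (hfin2 : ∀ D : Divisor k F2, Module.Finite k (riemannRochSpace D))
    {f : FL} (hf : f ∈ riemannRochSpace d.E)
    (h : ∀ a, (lift d.DQ1 d.DQ2 a).adicValuation f ≤ 1) : ∃ c : L, f = algebraMap L FL c :=
  NormBasisA.const_of_regular_Q (lift d.DR1 d.DR2) (lift d.DQ1 d.DQ2) (liftR_ne_liftQ d) d.E
    (E_le_sum_liftR d) (ell_sum_liftR d hO hfinL hfin1 hfin2) hf h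

/-! ### the special fibre -/

/-- **(RR-a)** for glued pairs, in the shape of the hypothesis `hrank` of `NormBasisA` -/
theorem rank_a (z : F1 × F2) (hz : z ∈ Glued N (Ebar d.Rb1 d.Qb1) (Ebar d.Rb2 d.Qb2))
    (h1 : ∀ i, 0 ≤ ((d.DQ1 i).Q).ord z.1) (h2 : ∀ j, 0 ≤ ((d.DQ2 j).Q).ord z.2) :
    ∃ γ : k, z = (algebraMap k F1 γ, algebraMap k F2 γ) :=
  Interp.rank_a d.rigidQ' d.rigidR' d.disj1 d.disj2 hz h1 h2

/-- **special-fibre kernel** at the datum -/
theorem const_of_jets [HasPrincipalDivisors L FL] {κ : Type*} [Fintype κ] (y : κ → O12 N)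
    (hyb : ∀ a, red12 N (y a) ∈ Glued N (Ebar d.Rb1 d.Qb1) (Ebar d.Rb2 d.Qb2))
    (c : κ → Fin g1 ⊕ Fin m2 → Fin 2 → A) (hc : ∀ a i, JetAt d.DQ1 d.DQ2 i (y a) 2 2 (c a i))
    (x : κ → k) (hx : ∀ i m, ∑ a, x a * π (c a i m) = 0) :
    ∃ γ : k, ∑ a, x a • red12 N (y a) = (algebraMap k F1 γ, algebraMap k F2 γ) :=
  NormBasisA.const_of_jets _ _ (rank_a d) y hyb c hc x hx

/-- **the `2`-jet matrix is invertible** at the datum -/
theorem isUnit_det_jetMatrix [HasPrincipalDivisors L FL]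
    (F : (Fin g1 ⊕ Fin m2) ⊕ (Fin g1 ⊕ Fin m2) → O12 N)
    (hFb : ∀ b, red12 N (F b) ∈ Glued N (Ebar d.Rb1 d.Qb1) (Ebar d.Rb2 d.Qb2))
    (hli : LinearIndependent k
      (Sum.elim (fun _ : Unit => (1 : F1 × F2)) (fun b => red12 N (F b))))
    (C : (Fin g1 ⊕ Fin m2) ⊕ (Fin g1 ⊕ Fin m2) → Fin g1 ⊕ Fin m2 → Fin 3 → A)
    (hC : ∀ b i, JetAt d.DQ1 d.DQ2 i (F b) 2 3 (C b i)) :
    IsUnit (jetMatrix C).det :=
  NormBasisA.isUnit_det_jetMatrix _ _ Ebar_nonneg Ebar_nonneg (rank_a d) F hFb hli C hC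

end Fermat.Agent.S33.Nodal.NormBasisAD
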